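/-
# Orders of Dirichlet series at a prime

Plan Z, block Z4, arithmetic half.  For an arithmetic function `a` (with complex values) the
`q`-order of `a` is the least `q`-exponent of an integer in the support of `a`.  It is additive for
Dirichlet convolution (`IsOrd.mul`, a leading term argument).  Consequence
(`exists_isOrd_of_compare`): an identity between Dirichlet series

  `C D₁^{-s} ∏_{n ∈ U} (1 - n^{-s}) ∏_{n ∈ V} (1 - n^{1-s})
      = D₂^{-s} ∏_{n ∈ V} (1 - n^{-s}) ∏_{n ∈ U} (1 - n^{1-s}) P(s) P'(s)`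

in which `P` and `P'` have coefficients with the same support determines the `q`-order `μ` of `P`:
`v_q(D₁) = v_q(D₂) + 2 μ`.  If moreover all elements of the support of `P` have the same
`q`-exponent then the products of the multiples of `q` in `U` and in `V` are equal
(`prod_eq_of_compare`: compare the highest and the lowest `q`-part of both sides).
-/
import Mathlib.NumberTheory.LSeries.Injectivity
import Mathlib.NumberTheory.LSeries.Convolution

namespace Fermat.Agent.Classic.Lvl

open ArithmeticFunction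

/-- `μ` is the least `q`-exponent of a positive integer in the support of `c`. -/
def IsOrd (q : ℕ) (c : ℕ → ℂ) (μ : ℕ) : Prop :=
  (∃ n, n ≠ 0 ∧ c n ≠ 0 ∧ n.factorization q = μ) ∧
    ∀ n, n ≠ 0 → c n ≠ 0 → μ ≤ n.factorization q

theorem IsOrd.unique {q : ℕ} {c : ℕ → ℂ} {μ ν : ℕ} (h : IsOrd q c μ) (h' : IsOrd q c ν) :
    μ = ν := by
  obtain ⟨⟨n, hn, hc, hv⟩, hm⟩ := h
  obtain ⟨⟨n', hn', hc', hv'⟩, hm'⟩ := h'
  have h1 := hm n' hn' hc'
  have h2 := hm' n hn hc
  omega

theorem exists_isOrd {c : ℕ → ℂ} (hc : ∃ n, n ≠ 0 ∧ c n ≠ 0) (q : ℕ) : ∃ μ, IsOrd q c μ := by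
  classical
  have hex : ∃ k, ∃ n, n ≠ 0 ∧ c n ≠ 0 ∧ n.factorization q = k := by
    obtain ⟨n, hn, hcn⟩ := hc
    exact ⟨_, n, hn, hcn, rfl⟩
  refine ⟨Nat.find hex, Nat.find_spec hex, fun n hn hcn => ?_⟩
  exact Nat.find_min' hex ⟨n, hn, hcn, rfl⟩

/-- **The order at `q` is additive.** -/
theorem IsOrd.mul {q : ℕ} {a b : ArithmeticFunction ℂ} {μ ν : ℕ} (ha : IsOrd q a μ)
    (hb : IsOrd q b ν) : IsOrd q (⇑(a * b)) (μ + ν) := by
  classical
  obtain ⟨ha0, ha1⟩ := ha
  obtain ⟨hb0, hb1⟩ := hb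
  set m₁ := Nat.find ha0 with hm₁
  set m₂ := Nat.find hb0 with hm₂
  obtain ⟨h10, h11, h12⟩ := Nat.find_spec ha0
  obtain ⟨h20, h21, h22⟩ := Nat.find_spec hb0
  rw [← hm₁] at h10 h11 h12
  rw [← hm₂] at h20 h21 h22
  constructor
  · refine ⟨m₁ * m₂, mul_ne_zero h10 h20, ?_, ?_⟩
    · rw [ArithmeticFunction.mul_apply, Finset.sum_eq_single (m₁, m₂)]
      · exact mul_ne_zero h11 h21
      · rintro ⟨d, e⟩ hde hne
        rw [Nat.mem_divisorsAntidiagonal] at hde
        obtain ⟨hde, hne0⟩ := hde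
        simp only at hde ⊢
        by_contra hcon
        obtain ⟨had, hbe⟩ := mul_ne_zero_iff.mp hcon
        have hd0 : d ≠ 0 := by rintro rfl; simp at had
        have he0 : e ≠ 0 := by rintro rfl; simp at hbe
        have h1 := ha1 d hd0 had
        have h2 := hb1 e he0 hbe
        have h3 : d.factorization q + e.factorization q = μ + ν := by
          have := congrArg (fun n => n.factorization q) hde
          simp only [Nat.factorization_mul hd0 he0, Nat.factorization_mul h10 h20,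
            Finsupp.coe_add, Pi.add_apply] at this
          omega
        have h4 : m₁ ≤ d := Nat.find_min' ha0 ⟨hd0, had, by omega⟩
        have h5 : m₂ ≤ e := Nat.find_min' hb0 ⟨he0, hbe, by omega⟩
        have h6 : d = m₁ := by
          by_contra hne1
          have h7 : m₁ < d := lt_of_le_of_ne h4 (Ne.symm hne1)
          have h8 : m₁ * m₂ < d * e :=
            calc m₁ * m₂ < d * m₂ := Nat.mul_lt_mul_of_pos_right h7 (Nat.pos_of_ne_zero h20)
              _ ≤ d * e := Nat.mul_le_mul_left d h5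
          omega
        subst h6
        have h9 : e = m₂ := Nat.eq_of_mul_eq_mul_left (Nat.pos_of_ne_zero hd0) hde
        exact hne (by rw [h9])
      · intro h
        exact absurd (Nat.mem_divisorsAntidiagonal.mpr ⟨rfl, mul_ne_zero h10 h20⟩) h
    · rw [Nat.factorization_mul h10 h20, Finsupp.coe_add, Pi.add_apply, h12, h22]
  · intro n hn hab
    rw [ArithmeticFunction.mul_apply] at hab
    obtain ⟨⟨d, e⟩, hde, hne⟩ := Finset.exists_ne_zero_of_sum_ne_zero hab
    rw [Nat.mem_divisorsAntidiagonal] at hde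
    obtain ⟨had, hbe⟩ := mul_ne_zero_iff.mp hne
    simp only at hde had hbe
    have hd0 : d ≠ 0 := by rintro rfl; simp at had
    have he0 : e ≠ 0 := by rintro rfl; simp at hbe
    rw [← hde.1, Nat.factorization_mul hd0 he0, Finsupp.coe_add, Pi.add_apply]
    exact add_le_add (ha1 d hd0 had) (hb1 e he0 hbe)

/-! ### Singletons and the factors `1 - z n^{-s}` -/

/-- The arithmetic function with the value `C` at `D` and `0` elsewhere. -/
noncomputable def sing (D : ℕ) (C : ℂ) : ArithmeticFunction ℂ :=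
  ⟨fun n => if n = 0 then 0 else if n = D then C else 0, by simp⟩

theorem sing_apply {D : ℕ} (hD : D ≠ 0) (C : ℂ) (n : ℕ) :
    sing D C n = if n = D then C else 0 := by
  change (if n = 0 then 0 else if n = D then C else 0) = _
  split_ifs with h1 h2 <;> first | rfl | exact absurd (h2.symm.trans h1) hD

/-- The arithmetic function of the Dirichlet polynomial `1 - z n^{-s}`. -/
noncomputable def lin (n : ℕ) (z : ℂ) : ArithmeticFunction ℂ := sing 1 1 - sing n z

theorem lin_apply {n : ℕ} (hn : n ≠ 0) (z : ℂ) (m : ℕ) :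
    lin n z m = (if m = 1 then 1 else 0) - (if m = n then z else 0) := by
  rw [lin, sub_eq_add_neg, ArithmeticFunction.add_apply, ArithmeticFunction.neg_apply,
    sing_apply one_ne_zero, sing_apply hn, sub_eq_add_neg]

theorem isOrd_sing (q : ℕ) {D : ℕ} (hD : D ≠ 0) {C : ℂ} (hC : C ≠ 0) :
    IsOrd q (sing D C) (D.factorization q) := by
  refine ⟨⟨D, hD, by simpa [sing_apply hD] using hC, rfl⟩, fun n _ hn => ?_⟩
  rw [sing_apply hD] at hn
  split_ifs at hn with h
  · rw [h]
  · exact absurd rfl hn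

theorem isOrd_lin (q : ℕ) {n : ℕ} (hn : 2 ≤ n) (z : ℂ) : IsOrd q (lin n z) 0 := by
  refine ⟨⟨1, one_ne_zero, ?_, by simp⟩, fun _ _ _ => Nat.zero_le _⟩
  rw [lin_apply (by omega)]
  have : (1 : ℕ) ≠ n := by omega
  simp [this]

/-- The product of the `lin n (z n)`, `n` in a list. -/
noncomputable def linProd (U : List ℕ) (z : ℕ → ℂ) : ArithmeticFunction ℂ :=
  (U.map fun n => lin n (z n)).prod

theorem linProd_nil (z : ℕ → ℂ) : linProd [] z = 1 := rfl

theorem linProd_cons (n : ℕ) (U : List ℕ) (z : ℕ → ℂ) :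
    linProd (n :: U) z = lin n (z n) * linProd U z := by
  simp [linProd]

theorem sing_one_one : sing 1 1 = 1 := by
  ext n
  rw [sing_apply one_ne_zero, ArithmeticFunction.one_apply]

theorem isOrd_linProd (q : ℕ) {U : List ℕ} (hU : ∀ n ∈ U, 2 ≤ n) (z : ℕ → ℂ) :
    IsOrd q (linProd U z) 0 := by
  induction U with
  | nil =>
    rw [linProd_nil, ← sing_one_one]
    simpa using isOrd_sing q one_ne_zero one_ne_zero
  | cons n U ih =>
    rw [linProd_cons]
    exact (isOrd_lin q (hU n (by simp)) (z n)).mul (ih fun m hm => hU m (by simp [hm]))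

/-! ### L-series -/

theorem hasSum_sing {D : ℕ} (hD : D ≠ 0) (C s : ℂ) :
    LSeriesHasSum (sing D C) s (C * (D : ℂ) ^ (-s)) := by
  have h : LSeries.term (sing D C) s = fun n => if n = D then C * (D : ℂ) ^ (-s) else 0 := by
    funext n
    rcases eq_or_ne n 0 with rfl | hn
    · simp [Ne.symm hD]
    · rw [LSeries.term_of_ne_zero hn, sing_apply hD]
      split_ifs with h
      · subst h
        rw [Complex.cpow_neg, div_eq_mul_inv]
      · simp
  rw [LSeriesHasSum, h]
  exact hasSum_ite_eq D _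

theorem hasSum_lin {n : ℕ} (hn : n ≠ 0) (z s : ℂ) :
    LSeriesHasSum (lin n z) s (1 - z * (n : ℂ) ^ (-s)) := by
  have h1 := hasSum_sing one_ne_zero 1 s
  have h2 := hasSum_sing hn z s
  rw [Nat.cast_one, Complex.one_cpow, mul_one] at h1
  have h3 := LSeriesHasSum.sub h1 h2
  refine (LSeriesHasSum_congr s _ fun {m} _ => ?_).mp h3
  rw [lin_apply hn, Pi.sub_apply, sing_apply one_ne_zero, sing_apply hn]

theorem hasSum_linProd {U : List ℕ} (hU : ∀ n ∈ U, 2 ≤ n) (z : ℕ → ℂ) (s : ℂ) :
    LSeriesHasSum (linProd U z) s (U.map fun n : ℕ => 1 - z n * (n : ℂ) ^ (-s)).prod := by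
  induction U with
  | nil =>
    rw [linProd_nil, ← sing_one_one]
    simpa using hasSum_sing one_ne_zero 1 s
  | cons n U ih =>
    rw [linProd_cons, List.map_cons, List.prod_cons]
    have hn : n ≠ 0 := by
      have := hU n (by simp)
      omega
    exact ArithmeticFunction.LSeriesHasSum_mul (hasSum_lin hn (z n) s)
      (ih fun m hm => hU m (by simp [hm]))

/-- An arithmetic function with the given values at the non-zero integers. -/
noncomputable def toAr (c : ℕ → ℂ) : ArithmeticFunction ℂ := ⟨fun n => if n = 0 then 0 else c n,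
  by simp⟩

theorem toAr_apply (c : ℕ → ℂ) {n : ℕ} (hn : n ≠ 0) : toAr c n = c n := by
  change (if n = 0 then 0 else c n) = c n
  rw [if_neg hn]

theorem isOrd_toAr {q : ℕ} {c : ℕ → ℂ} {μ : ℕ} : IsOrd q (toAr c) μ ↔ IsOrd q c μ := by
  constructor
  · rintro ⟨⟨n, hn, hc, hv⟩, h⟩
    exact ⟨⟨n, hn, by rwa [toAr_apply c hn] at hc, hv⟩,
      fun m hm hcm => h m hm (by rwa [toAr_apply c hm])⟩
  · rintro ⟨⟨n, hn, hc, hv⟩, h⟩
    exact ⟨⟨n, hn, by rwa [toAr_apply c hn], hv⟩,
      fun m hm hcm => h m hm (by rwa [toAr_apply c hm] at hcm)⟩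

theorem hasSum_toAr {c : ℕ → ℂ} {s : ℂ} (hs : LSeriesSummable c s) :
    LSeriesHasSum (toAr c) s (LSeries c s) :=
  (LSeriesHasSum_congr s _ fun {_} hn => (toAr_apply c hn).symm).mp hs.LSeriesHasSum

section Compare

variable {c c' : ℕ → ℂ} {σ : ℝ} {U V : List ℕ} {D₁ D₂ : ℕ} {C : ℂ}

/-- The left hand side of the comparison. -/
noncomputable def lhs (U V : List ℕ) (D₁ : ℕ) (C : ℂ) : ArithmeticFunction ℂ :=
  sing D₁ C * linProd U (fun _ => 1) * linProd V (fun n => n)

/-- The right hand side of the comparison. -/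
noncomputable def rhs (c c' : ℕ → ℂ) (U V : List ℕ) (D₂ : ℕ) : ArithmeticFunction ℂ :=
  sing D₂ 1 * linProd V (fun _ => 1) * linProd U (fun n => n) * toAr c * toAr c'

/-- **Coefficients of the comparison**: the identity of Dirichlet series is an identity of
arithmetic functions. -/
theorem lhs_eq_rhs (hs : LSeriesSummable c σ) (hs' : LSeriesSummable c' σ)
    (hU : ∀ n ∈ U, 2 ≤ n) (hV : ∀ n ∈ V, 2 ≤ n) (hD₁ : D₁ ≠ 0) (hD₂ : D₂ ≠ 0)
    (h : ∀ s : ℂ, σ < s.re →
      C * (D₁ : ℂ) ^ (-s) * (U.map fun n : ℕ => 1 - (n : ℂ) ^ (-s)).prod *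
          (V.map fun n : ℕ => 1 - (n : ℂ) ^ (1 - s)).prod =
        (D₂ : ℂ) ^ (-s) * (V.map fun n : ℕ => 1 - (n : ℂ) ^ (-s)).prod *
          (U.map fun n : ℕ => 1 - (n : ℂ) ^ (1 - s)).prod * LSeries c s * LSeries c' s) :
    lhs U V D₁ C = rhs c c' U V D₂ := by
  have hcast : ∀ {W : List ℕ}, (∀ n ∈ W, 2 ≤ n) → ∀ s : ℂ,
      (W.map fun n : ℕ => 1 - (n : ℂ) ^ (1 - s)).prod =
        (W.map fun n : ℕ => 1 - (n : ℂ) * (n : ℂ) ^ (-s)).prod := by
    intro W hW s
    congr 1
    refine List.map_congr_left fun n hn => ?_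
    have hn0 : (n : ℂ) ≠ 0 := by
      have := hW n hn
      exact_mod_cast (by omega : n ≠ 0)
    rw [sub_eq_add_neg (1 : ℂ) s, Complex.cpow_add _ _ hn0, Complex.cpow_one]
  have hone : ∀ (W : List ℕ) (s : ℂ),
      (W.map fun n : ℕ => 1 - (n : ℂ) ^ (-s)).prod =
        (W.map fun n : ℕ => 1 - (1 : ℂ) * (n : ℂ) ^ (-s)).prod := by
    intro W s
    simp
  -- the two Dirichlet series
  have hL : ∀ s : ℂ, LSeriesHasSum (lhs U V D₁ C) s
      (C * (D₁ : ℂ) ^ (-s) * (U.map fun n : ℕ => 1 - (n : ℂ) ^ (-s)).prod *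
          (V.map fun n : ℕ => 1 - (n : ℂ) ^ (1 - s)).prod) := by
    intro s
    rw [hcast hV, hone U]
    exact ArithmeticFunction.LSeriesHasSum_mul (ArithmeticFunction.LSeriesHasSum_mul
      (hasSum_sing hD₁ C s) (hasSum_linProd hU (fun _ => 1) s)) (hasSum_linProd hV (fun n => n) s)
  have hR : ∀ s : ℂ, σ ≤ s.re → LSeriesHasSum (rhs c c' U V D₂) s
      ((D₂ : ℂ) ^ (-s) * (V.map fun n : ℕ => 1 - (n : ℂ) ^ (-s)).prod *
          (U.map fun n : ℕ => 1 - (n : ℂ) ^ (1 - s)).prod * LSeries c s * LSeries c' s) := by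
    intro s hss
    rw [hcast hU, hone V]
    have h1 := hasSum_sing hD₂ 1 s
    rw [one_mul] at h1
    exact ArithmeticFunction.LSeriesHasSum_mul (ArithmeticFunction.LSeriesHasSum_mul
      (ArithmeticFunction.LSeriesHasSum_mul (ArithmeticFunction.LSeriesHasSum_mul
      h1 (hasSum_linProd hV (fun _ => 1) s)) (hasSum_linProd hU (fun n => n) s))
      (hasSum_toAr (hs.of_re_le_re (by simpa using hss))))
      (hasSum_toAr (hs'.of_re_le_re (by simpa using hss)))
  have ha : LSeries.abscissaOfAbsConv (lhs U V D₁ C) < ⊤ :=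
    lt_of_le_of_lt (hL 0).LSeriesSummable.abscissaOfAbsConv_le (EReal.coe_lt_top _)
  have hb : LSeries.abscissaOfAbsConv (rhs c c' U V D₂) < ⊤ :=
    lt_of_le_of_lt (hR σ (by simp)).LSeriesSummable.abscissaOfAbsConv_le (EReal.coe_lt_top _)
  have hev : (fun x : ℝ => LSeries (lhs U V D₁ C) x) =ᶠ[Filter.atTop]
      fun x : ℝ => LSeries (rhs c c' U V D₂) x := by
    filter_upwards [Filter.eventually_gt_atTop σ] with x hx
    rw [(hL x).LSeries_eq, (hR x (by simpa using hx.le)).LSeries_eq]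
    exact h x (by simpa using hx)
  ext n
  rcases eq_or_ne n 0 with rfl | hn
  · simp
  · exact LSeries.eq_of_LSeries_eventually_eq ha hb hev hn

/-- **Comparison of the orders at `q`.** -/
theorem exists_isOrd_of_compare (hcc : ∀ n, c' n = 0 ↔ c n = 0) (hc : ∃ n, n ≠ 0 ∧ c n ≠ 0)
    (hs : LSeriesSummable c σ) (hs' : LSeriesSummable c' σ)
    (hU : ∀ n ∈ U, 2 ≤ n) (hV : ∀ n ∈ V, 2 ≤ n) (hD₁ : D₁ ≠ 0) (hD₂ : D₂ ≠ 0) (hC : C ≠ 0)
    (h : ∀ s : ℂ, σ < s.re →
      C * (D₁ : ℂ) ^ (-s) * (U.map fun n : ℕ => 1 - (n : ℂ) ^ (-s)).prod *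
          (V.map fun n : ℕ => 1 - (n : ℂ) ^ (1 - s)).prod =
        (D₂ : ℂ) ^ (-s) * (V.map fun n : ℕ => 1 - (n : ℂ) ^ (-s)).prod *
          (U.map fun n : ℕ => 1 - (n : ℂ) ^ (1 - s)).prod * LSeries c s * LSeries c' s)
    (q : ℕ) : ∃ μ, IsOrd q c μ ∧ D₁.factorization q = D₂.factorization q + 2 * μ := by
  obtain ⟨μ, hμ⟩ := exists_isOrd hc q
  have hμ' : IsOrd q c' μ := by
    obtain ⟨⟨n, hn, hcn, hv⟩, hm⟩ := hμ
    exact ⟨⟨n, hn, fun h0 => hcn ((hcc n).mp h0), hv⟩,
      fun m hm0 hcm => hm m hm0 fun h0 => hcm ((hcc m).mpr h0)⟩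
  refine ⟨μ, hμ, ?_⟩
  have hE := lhs_eq_rhs hs hs' hU hV hD₁ hD₂ h
  have h1 : IsOrd q (lhs U V D₁ C) (D₁.factorization q + 0 + 0) :=
    ((isOrd_sing q hD₁ hC).mul (isOrd_linProd q hU _)).mul (isOrd_linProd q hV _)
  have h2 : IsOrd q (rhs c c' U V D₂) (D₂.factorization q + 0 + 0 + μ + μ) :=
    ((((isOrd_sing q hD₂ one_ne_zero).mul (isOrd_linProd q hV _)).mul
      (isOrd_linProd q hU _)).mul (isOrd_toAr.mpr hμ)).mul (isOrd_toAr.mpr hμ')
  rw [hE] at h1
  have := h1.unique h2
  omega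

end Compare

/-! ### The parts of fixed exponent -/

/-- The part of `a` supported on the integers of `q`-exponent `k`. -/
noncomputable def part (q k : ℕ) (a : ArithmeticFunction ℂ) : ArithmeticFunction ℂ :=
  ⟨fun n => if n.factorization q = k then a n else 0, by simp⟩

theorem part_apply (q k : ℕ) (a : ArithmeticFunction ℂ) (n : ℕ) :
    part q k a n = if n.factorization q = k then a n else 0 := rfl

/-- Extremal parts are multiplicative: the condition says that `k, l` are the only exponents of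
the supports of `a, b` with sum `k + l` (both are minimal, or both are maximal). -/
theorem part_mul {q k l : ℕ} {a b : ArithmeticFunction ℂ}
    (h : ∀ d e : ℕ, d ≠ 0 → e ≠ 0 → a d ≠ 0 → b e ≠ 0 →
      d.factorization q + e.factorization q = k + l →
        d.factorization q = k ∧ e.factorization q = l) :
    part q (k + l) (a * b) = part q k a * part q l b := by
  ext n
  rcases eq_or_ne n 0 with rfl | hn
  · simp
  rw [part_apply, ArithmeticFunction.mul_apply, ArithmeticFunction.mul_apply]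
  by_cases hv : n.factorization q = k + l
  · rw [if_pos hv]
    refine Finset.sum_congr rfl ?_
    rintro ⟨d, e⟩ hde
    rw [Nat.mem_divisorsAntidiagonal] at hde
    have hde' : d * e = n := hde.1
    have hd0 : d ≠ 0 := by rintro rfl; simp at hde'; exact hn hde'.symm
    have he0 : e ≠ 0 := by rintro rfl; simp at hde'; exact hn hde'.symm
    have hsum : d.factorization q + e.factorization q = k + l := by
      rw [← hv, ← hde', Nat.factorization_mul hd0 he0, Finsupp.coe_add, Pi.add_apply]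
    simp only [part_apply]
    by_cases ha : a d = 0
    · simp [ha]
    by_cases hb : b e = 0
    · simp [hb]
    obtain ⟨h1, h2⟩ := h d e hd0 he0 ha hb hsum
    rw [if_pos h1, if_pos h2]
  · rw [if_neg hv]
    symm
    refine Finset.sum_eq_zero ?_
    rintro ⟨d, e⟩ hde
    rw [Nat.mem_divisorsAntidiagonal] at hde
    have hde' : d * e = n := hde.1
    have hd0 : d ≠ 0 := by rintro rfl; simp at hde'; exact hn hde'.symm
    have he0 : e ≠ 0 := by rintro rfl; simp at hde'; exact hn hde'.symm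
    have hsum : d.factorization q + e.factorization q = n.factorization q := by
      rw [← hde', Nat.factorization_mul hd0 he0, Finsupp.coe_add, Pi.add_apply]
    simp only [part_apply]
    by_cases h1 : d.factorization q = k
    · rw [if_neg (c := e.factorization q = l) (by omega), mul_zero]
    · rw [if_neg h1, zero_mul]

/-- All integers in the support have `q`-exponent at least `k`. -/
def LoB (q k : ℕ) (a : ArithmeticFunction ℂ) : Prop :=
  ∀ n, n ≠ 0 → a n ≠ 0 → k ≤ n.factorization q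

/-- All integers in the support have `q`-exponent at most `k`. -/
def UpB (q k : ℕ) (a : ArithmeticFunction ℂ) : Prop :=
  ∀ n, n ≠ 0 → a n ≠ 0 → n.factorization q ≤ k

theorem exists_of_mul_ne_zero {a b : ArithmeticFunction ℂ} {n : ℕ} (hab : (a * b) n ≠ 0) :
    ∃ d e, d ≠ 0 ∧ e ≠ 0 ∧ a d ≠ 0 ∧ b e ≠ 0 ∧ d * e = n := by
  rw [ArithmeticFunction.mul_apply] at hab
  obtain ⟨⟨d, e⟩, hde, hne⟩ := Finset.exists_ne_zero_of_sum_ne_zero hab
  rw [Nat.mem_divisorsAntidiagonal] at hde
  obtain ⟨had, hbe⟩ := mul_ne_zero_iff.mp hne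
  simp only at hde had hbe
  exact ⟨d, e, by rintro rfl; simp at had, by rintro rfl; simp at hbe, had, hbe, hde.1⟩

theorem LoB.mul {q k l : ℕ} {a b : ArithmeticFunction ℂ} (ha : LoB q k a) (hb : LoB q l b) :
    LoB q (k + l) (a * b) := by
  intro n _ hab
  obtain ⟨d, e, hd0, he0, had, hbe, rfl⟩ := exists_of_mul_ne_zero hab
  rw [Nat.factorization_mul hd0 he0, Finsupp.coe_add, Pi.add_apply]
  exact add_le_add (ha d hd0 had) (hb e he0 hbe)

theorem UpB.mul {q k l : ℕ} {a b : ArithmeticFunction ℂ} (ha : UpB q k a) (hb : UpB q l b) :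
    UpB q (k + l) (a * b) := by
  intro n _ hab
  obtain ⟨d, e, hd0, he0, had, hbe, rfl⟩ := exists_of_mul_ne_zero hab
  rw [Nat.factorization_mul hd0 he0, Finsupp.coe_add, Pi.add_apply]
  exact add_le_add (ha d hd0 had) (hb e he0 hbe)

theorem LoB.part_mul {q k l : ℕ} {a b : ArithmeticFunction ℂ} (ha : LoB q k a) (hb : LoB q l b) :
    part q (k + l) (a * b) = part q k a * part q l b := by
  refine Lvl.part_mul fun d e hd he had hbe hsum => ?_
  have h1 := ha d hd had
  have h2 := hb e he hbe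
  omega

theorem UpB.part_mul {q k l : ℕ} {a b : ArithmeticFunction ℂ} (ha : UpB q k a) (hb : UpB q l b) :
    part q (k + l) (a * b) = part q k a * part q l b := by
  refine Lvl.part_mul fun d e hd he had hbe hsum => ?_
  have h1 := ha d hd had
  have h2 := hb e he hbe
  omega

theorem loB_sing (q : ℕ) {D : ℕ} (hD : D ≠ 0) (C : ℂ) : LoB q (D.factorization q) (sing D C) := by
  intro n _ hn
  rw [sing_apply hD] at hn
  split_ifs at hn with h
  · rw [h]
  · exact absurd rfl hn

theorem upB_sing (q : ℕ) {D : ℕ} (hD : D ≠ 0) (C : ℂ) : UpB q (D.factorization q) (sing D C) := by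
  intro n _ hn
  rw [sing_apply hD] at hn
  split_ifs at hn with h
  · rw [h]
  · exact absurd rfl hn

theorem part_sing (q : ℕ) {D : ℕ} (hD : D ≠ 0) (C : ℂ) :
    part q (D.factorization q) (sing D C) = sing D C := by
  ext n
  rw [part_apply, sing_apply hD]
  split_ifs with h1 h2 h2
  · rfl
  · rfl
  · exact absurd (by rw [h2]) h1
  · rfl

theorem sing_mul_apply {D : ℕ} (hD : D ≠ 0) (C : ℂ) (a : ArithmeticFunction ℂ) {n : ℕ} :
    (sing D C * a) (D * n) = C * a n := by
  rcases eq_or_ne n 0 with rfl | hn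
  · simp
  rw [ArithmeticFunction.mul_apply, Finset.sum_eq_single (D, n)]
  · rw [sing_apply hD, if_pos rfl]
  · rintro ⟨d, e⟩ hde hne
    rw [Nat.mem_divisorsAntidiagonal] at hde
    simp only at hde ⊢
    rw [sing_apply hD]
    split_ifs with h
    · subst h
      exact absurd (by rw [Nat.eq_of_mul_eq_mul_left (Nat.pos_of_ne_zero hD) hde.1]) hne
    · rw [zero_mul]
  · intro h
    exact absurd (Nat.mem_divisorsAntidiagonal.mpr ⟨rfl, mul_ne_zero hD hn⟩) h

theorem sing_mul_sing {D E : ℕ} (hD : D ≠ 0) (hE : E ≠ 0) (C C' : ℂ) :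
    sing D C * sing E C' = sing (D * E) (C * C') := by
  ext n
  rcases eq_or_ne n 0 with rfl | hn
  · simp
  by_cases h : D ∣ n
  · obtain ⟨m, rfl⟩ := h
    rw [sing_mul_apply hD, sing_apply hE, sing_apply (mul_ne_zero hD hE)]
    by_cases hm : m = E
    · rw [if_pos hm, if_pos (by rw [hm])]
    · rw [if_neg hm, if_neg (fun h => hm (Nat.eq_of_mul_eq_mul_left (Nat.pos_of_ne_zero hD) h)),
        mul_zero]
  · have h1 : (sing D C * sing E C') n = 0 := by
      by_contra hne
      obtain ⟨d, e, _, _, hd, _, hde⟩ := exists_of_mul_ne_zero hne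
      rw [sing_apply hD] at hd
      split_ifs at hd with hdD
      · exact h ⟨e, by rw [← hde, hdD]⟩
      · exact hd rfl
    rw [h1, sing_apply (mul_ne_zero hD hE), if_neg]
    rintro rfl
    exact h (dvd_mul_right D E)

/-- The top exponent of `1 - z n^{-s}`. -/
theorem upB_lin (q : ℕ) {n : ℕ} (hn : n ≠ 0) (z : ℂ) : UpB q (n.factorization q) (lin n z) := by
  intro m _ hm
  rw [lin_apply hn] at hm
  by_cases h1 : m = 1
  · rw [h1]; simp
  · by_cases h2 : m = n
    · rw [h2]
    · simp [h1, h2] at hm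

theorem loB_zero (q : ℕ) (a : ArithmeticFunction ℂ) : LoB q 0 a := fun _ _ _ => Nat.zero_le _

theorem part_zero_lin_of_dvd {q : ℕ} (hq : q.Prime) {n : ℕ} (hn : n ≠ 0) (hqn : q ∣ n) (z : ℂ) :
    part q 0 (lin n z) = 1 := by
  have hv : n.factorization q ≠ 0 :=
    (Nat.pos_iff_ne_zero.mp (hq.factorization_pos_of_dvd hn hqn))
  ext m
  rw [part_apply, lin_apply hn, ArithmeticFunction.one_apply]
  by_cases h1 : m = 1
  · subst h1
    have : (1 : ℕ) ≠ n := by
      rintro rfl
      simp at hv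
    simp [this]
  · by_cases h2 : m = n
    · subst h2
      simp [hv, h1]
    · simp [h1, h2]

theorem part_top_lin_of_dvd {q : ℕ} (hq : q.Prime) {n : ℕ} (hn : n ≠ 0) (hqn : q ∣ n) (z : ℂ) :
    part q (n.factorization q) (lin n z) = sing n (-z) := by
  have hv : n.factorization q ≠ 0 :=
    (Nat.pos_iff_ne_zero.mp (hq.factorization_pos_of_dvd hn hqn))
  ext m
  rw [part_apply, lin_apply hn, sing_apply hn]
  by_cases h1 : m = 1
  · subst h1
    have : (1 : ℕ) ≠ n := by
      rintro rfl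
      simp at hv
    simp [this, hv.symm]
  · by_cases h2 : m = n
    · subst h2
      simp [h1]
    · simp [h1, h2]

theorem part_lin_of_not_dvd {q : ℕ} {n : ℕ} (hn : n ≠ 0) (hqn : ¬ q ∣ n) (z : ℂ) :
    part q 0 (lin n z) = lin n z := by
  have hv : n.factorization q = 0 := Nat.factorization_eq_zero_of_not_dvd hqn
  ext m
  rw [part_apply, lin_apply hn]
  by_cases h1 : m = 1
  · subst h1
    simp
  · by_cases h2 : m = n
    · subst h2
      simp [hv]
    · simp [h1, h2]

theorem part_one (q : ℕ) : part q 0 (1 : ArithmeticFunction ℂ) = 1 := by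
  rw [← sing_one_one]
  simpa using part_sing q one_ne_zero (1 : ℂ)

/-- The bottom part of a product of factors: the factors prime to `q`. -/
theorem part_zero_linProd {q : ℕ} (hq : q.Prime) {U : List ℕ} (hU : ∀ n ∈ U, 2 ≤ n) (z : ℕ → ℂ) :
    part q 0 (linProd U z) = linProd (U.filter fun n => ¬ q ∣ n) z := by
  induction U with
  | nil => exact part_one q
  | cons n U ih =>
    have hn : n ≠ 0 := by
      have := hU n (by simp)
      omega
    have ih' := ih fun m hm => hU m (by simp [hm])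
    rw [linProd_cons]
    have h1 := (loB_zero q (lin n (z n))).part_mul (loB_zero q (linProd U z))
    rw [add_zero] at h1
    rw [h1, ih']
    by_cases hqn : q ∣ n
    · rw [part_zero_lin_of_dvd hq hn hqn, one_mul, List.filter_cons_of_neg (by simpa using hqn)]
    · rw [part_lin_of_not_dvd hn hqn, List.filter_cons_of_pos (by simpa using hqn), linProd_cons]

/-- The largest exponent of a product of factors, and the part of this exponent. -/
theorem part_top_linProd {q : ℕ} (hq : q.Prime) {U : List ℕ} (hU : ∀ n ∈ U, 2 ≤ n) (z : ℕ → ℂ) :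
    ∃ M : ℕ, M ≠ 0 ∧ M = (U.filter fun n => q ∣ n).prod ∧ UpB q (M.factorization q) (linProd U z) ∧
      part q (M.factorization q) (linProd U z) =
        linProd (U.filter fun n => ¬ q ∣ n) z *
          sing M ((U.filter fun n => q ∣ n).map fun n => -z n).prod := by
  induction U with
  | nil =>
    refine ⟨1, one_ne_zero, by simp, ?_, ?_⟩
    · rw [linProd_nil, ← sing_one_one]
      exact upB_sing q one_ne_zero 1
    · simp only [Nat.factorization_one, Finsupp.coe_zero, Pi.zero_apply, List.filter_nil,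
        List.map_nil, List.prod_nil, linProd_nil, sing_one_one, mul_one]
      exact part_one q
  | cons n U ih =>
    have hn : n ≠ 0 := by
      have := hU n (by simp)
      omega
    obtain ⟨M, hM0, hM, hup, hpart⟩ := ih fun m hm => hU m (by simp [hm])
    rw [linProd_cons]
    by_cases hqn : q ∣ n
    · refine ⟨n * M, mul_ne_zero hn hM0, ?_, ?_, ?_⟩
      · rw [List.filter_cons_of_pos (by simpa using hqn), List.prod_cons, hM]
      · rw [Nat.factorization_mul hn hM0, Finsupp.coe_add, Pi.add_apply]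
        exact (upB_lin q hn (z n)).mul hup
      · rw [Nat.factorization_mul hn hM0, Finsupp.coe_add, Pi.add_apply,
          (upB_lin q hn (z n)).part_mul hup, hpart, part_top_lin_of_dvd hq hn hqn,
          List.filter_cons_of_neg (by simpa using hqn),
          List.filter_cons_of_pos (by simpa using hqn), List.map_cons, List.prod_cons,
          ← sing_mul_sing hn hM0]
        ring
    · have hv : n.factorization q = 0 := Nat.factorization_eq_zero_of_not_dvd hqn
      have hup0 : UpB q 0 (lin n (z n)) := by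
        have := upB_lin q hn (z n)
        rwa [hv] at this
      refine ⟨M, hM0, ?_, ?_, ?_⟩
      · rw [List.filter_cons_of_neg (by simpa using hqn), hM]
      · have := hup0.mul hup
        rwa [zero_add] at this
      · have h1 := hup0.part_mul hup
        rw [zero_add] at h1
        rw [h1, hpart, part_lin_of_not_dvd hn hqn,
          List.filter_cons_of_pos (by simpa using hqn),
          List.filter_cons_of_neg (by simpa using hqn), linProd_cons, mul_assoc]

theorem list_prod_neg (U : List ℕ) :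
    (U.map fun n : ℕ => -(n : ℂ)).prod = (U.map fun _ : ℕ => -(1 : ℂ)).prod * (U.prod : ℕ) := by
  induction U with
  | nil => simp
  | cons n L ih =>
    rw [List.map_cons, List.prod_cons, ih, List.map_cons, List.prod_cons, List.prod_cons,
      Nat.cast_mul]
    ring

theorem list_prod_sign_ne_zero (L : List ℕ) : (L.map fun _ : ℕ => -(1 : ℂ)).prod ≠ 0 := by
  induction L with
  | nil => simp
  | cons n L ih =>
    rw [List.map_cons, List.prod_cons]
    exact mul_ne_zero (neg_ne_zero.mpr one_ne_zero) ih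

/-- All integers in the support of `a` have the same `q`-exponent `k`. -/
def OneExp (q k : ℕ) (a : ArithmeticFunction ℂ) : Prop :=
  ∀ n, n ≠ 0 → a n ≠ 0 → n.factorization q = k

theorem OneExp.loB {q k : ℕ} {a : ArithmeticFunction ℂ} (h : OneExp q k a) : LoB q k a :=
  fun n hn ha => (h n hn ha).ge

theorem OneExp.upB {q k : ℕ} {a : ArithmeticFunction ℂ} (h : OneExp q k a) : UpB q k a :=
  fun n hn ha => (h n hn ha).le

theorem OneExp.part {q k : ℕ} {a : ArithmeticFunction ℂ} (h : OneExp q k a) : part q k a = a := by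
  ext n
  rcases eq_or_ne n 0 with rfl | hn
  · simp
  rw [part_apply]
  by_cases ha : a n = 0
  · simp [ha]
  · rw [if_pos (h n hn ha)]

theorem OneExp.mul {q k l : ℕ} {a b : ArithmeticFunction ℂ} (ha : OneExp q k a) (hb : OneExp q l b) :
    OneExp q (k + l) (a * b) := fun n hn h =>
  le_antisymm (ha.upB.mul hb.upB n hn h) (ha.loB.mul hb.loB n hn h)

theorem oneExp_sing (q : ℕ) {D : ℕ} (hD : D ≠ 0) (C : ℂ) : OneExp q (D.factorization q) (sing D C) :=
  fun n hn h => le_antisymm (upB_sing q hD C n hn h) (loB_sing q hD C n hn h)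

theorem oneExp_toAr {q μ : ℕ} {c : ℕ → ℂ} (hμ : ∀ n, n ≠ 0 → c n ≠ 0 → n.factorization q = μ) :
    OneExp q μ (toAr c) := fun n hn h => hμ n hn (by rwa [toAr_apply c hn] at h)

theorem OneExp.isOrd {q k : ℕ} {a : ArithmeticFunction ℂ} (h : OneExp q k a) (h0 : a ≠ 0) :
    IsOrd q a k := by
  have hex : ∃ n, n ≠ 0 ∧ a n ≠ 0 := by
    by_contra hcon
    push Not at hcon
    refine h0 (ArithmeticFunction.ext fun n => ?_)
    rcases eq_or_ne n 0 with rfl | hn
    · simp
    · rw [hcon n hn]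
      simp
  obtain ⟨n, hn, ha⟩ := hex
  exact ⟨⟨n, hn, ha, h n hn ha⟩, h.loB⟩

theorem isOrd_ne_zero {q k : ℕ} {a : ArithmeticFunction ℂ} (h : IsOrd q a k) : a ≠ 0 := by
  obtain ⟨⟨n, _, ha, _⟩, _⟩ := h
  rintro rfl
  exact ha (by simp)

theorem isOrd_of_ne_zero (q : ℕ) {a : ArithmeticFunction ℂ} (h0 : a ≠ 0) : ∃ k, IsOrd q a k := by
  refine exists_isOrd ?_ q
  by_contra hcon
  push Not at hcon
  refine h0 (ArithmeticFunction.ext fun n => ?_)
  rcases eq_or_ne n 0 with rfl | hn
  · simp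
  · rw [hcon n hn]
    simp

/-- The ring of arithmetic functions has no zero divisors: cancellation. -/
theorem cancel_left {a b c : ArithmeticFunction ℂ} (ha : a ≠ 0) (h : a * b = a * c) : b = c := by
  by_contra hne
  have h1 : b - c ≠ 0 := sub_ne_zero.mpr hne
  obtain ⟨k, hk⟩ := isOrd_of_ne_zero 2 ha
  obtain ⟨l, hl⟩ := isOrd_of_ne_zero 2 h1
  refine isOrd_ne_zero (hk.mul hl) ?_
  rw [mul_sub, h, sub_self]

/-- **Lowest and highest `q`-parts**: in an identity
`X ∏_{n ∈ U} (1 - n^{-s}) ∏_{n ∈ V} (1 - n^{1-s}) = Y ∏_{n ∈ V} (1 - n^{-s}) ∏_{n ∈ U} (1 - n^{1-s})`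
with `X` and `Y` of one single `q`-exponent each, the products of the multiples of `q` in `U` and
in `V` are equal. -/
theorem prod_eq_of_identity {q : ℕ} (hq : q.Prime) {U V : List ℕ} (hU : ∀ n ∈ U, 2 ≤ n)
    (hV : ∀ n ∈ V, 2 ≤ n) {X Y : ArithmeticFunction ℂ} {x y : ℕ} (hX : OneExp q x X)
    (hY : OneExp q y Y) (hX0 : X ≠ 0)
    (hE : X * linProd U (fun _ => 1) * linProd V (fun n => n) =
      Y * linProd V (fun _ => 1) * linProd U (fun n => n)) :
    (U.filter fun n => q ∣ n).prod = (V.filter fun n => q ∣ n).prod := by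
  classical
  set U' := U.filter (fun n => ¬ q ∣ n) with hU'
  set V' := V.filter (fun n => ¬ q ∣ n) with hV'
  -- the lowest parts
  have hlow : ∀ {Z : ArithmeticFunction ℂ} {z : ℕ} {U₁ V₁ : List ℕ} (_ : ∀ n ∈ U₁, 2 ≤ n)
      (_ : ∀ n ∈ V₁, 2 ≤ n), OneExp q z Z →
      part q (z + 0 + 0) (Z * linProd U₁ (fun _ => 1) * linProd V₁ (fun n => n)) =
        Z * linProd (U₁.filter fun n => ¬ q ∣ n) (fun _ => 1) *
          linProd (V₁.filter fun n => ¬ q ∣ n) (fun n => n) := by
    intro Z z U₁ V₁ hU₁ hV₁ hZ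
    rw [(LoB.mul hZ.loB (loB_zero q _)).part_mul (loB_zero q _),
      hZ.loB.part_mul (loB_zero q _), hZ.part, part_zero_linProd hq hU₁, part_zero_linProd hq hV₁]
  -- the highest parts
  obtain ⟨MU, hMU0, hMU, hUup, hUpart⟩ := part_top_linProd hq hU (fun _ => 1)
  obtain ⟨MU', hMU0', hMU', hUup', hUpart'⟩ := part_top_linProd hq hU (fun n => n)
  obtain ⟨MV, hMV0, hMV, hVup, hVpart⟩ := part_top_linProd hq hV (fun _ => 1)
  obtain ⟨MV', hMV0', hMV', hVup', hVpart'⟩ := part_top_linProd hq hV (fun n => n)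
  have hMUU : MU' = MU := hMU'.trans hMU.symm
  have hMVV : MV' = MV := hMV'.trans hMV.symm
  subst hMUU hMVV
  have hl2 : part q (x + MU'.factorization q + MV'.factorization q)
      (X * linProd U (fun _ => 1) * linProd V (fun n => n)) =
      X * (linProd U' (fun _ => 1) *
        sing MU' ((U.filter fun n => q ∣ n).map fun _ : ℕ => -(1 : ℂ)).prod) *
        (linProd V' (fun n => n) *
          sing MV' ((V.filter fun n => q ∣ n).map fun n : ℕ => -(n : ℂ)).prod) := by
    rw [(UpB.mul hX.upB hUup).part_mul hVup', hX.upB.part_mul hUup, hX.part, hUpart, hVpart']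
  have hr2 : part q (y + MV'.factorization q + MU'.factorization q)
      (Y * linProd V (fun _ => 1) * linProd U (fun n => n)) =
      Y * (linProd V' (fun _ => 1) *
        sing MV' ((V.filter fun n => q ∣ n).map fun _ : ℕ => -(1 : ℂ)).prod) *
        (linProd U' (fun n => n) *
          sing MU' ((U.filter fun n => q ∣ n).map fun n : ℕ => -(n : ℂ)).prod) := by
    rw [(UpB.mul hY.upB hVup).part_mul hUup', hY.upB.part_mul hVup, hY.part, hUpart', hVpart]
  -- the orders agree
  have hQ : IsOrd q (⇑(X * linProd U' (fun _ => 1) * linProd V' (fun n => n))) (x + 0 + 0) :=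
    ((hX.isOrd hX0).mul (isOrd_linProd q (fun n hn => hU n (List.mem_of_mem_filter hn))
      _)).mul (isOrd_linProd q (fun n hn => hV n (List.mem_of_mem_filter hn)) _)
  have hlhs : IsOrd q (⇑(X * linProd U (fun _ => 1) * linProd V (fun n => n))) (x + 0 + 0) :=
    ((hX.isOrd hX0).mul (isOrd_linProd q hU _)).mul (isOrd_linProd q hV _)
  have hY0 : Y ≠ 0 := by
    rintro rfl
    refine isOrd_ne_zero hlhs ?_
    rw [hE, zero_mul, zero_mul]
  have hrhs : IsOrd q (⇑(Y * linProd V (fun _ => 1) * linProd U (fun n => n))) (y + 0 + 0) :=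
    ((hY.isOrd hY0).mul (isOrd_linProd q hV _)).mul (isOrd_linProd q hU _)
  rw [hE] at hlhs
  have hexp := hlhs.unique hrhs
  simp only [add_zero] at hexp
  subst hexp
  -- equality of the lowest parts, equality of the highest parts
  set Q : ArithmeticFunction ℂ := X * linProd U' (fun _ => 1) * linProd V' (fun n => n) with hQdef
  have hbot : Q = Y * linProd V' (fun _ => 1) * linProd U' (fun n => n) := by
    rw [hQdef, ← hlow hU hV hX, ← hlow hV hU hY, hE]
  have htop : Q * sing (MU' * MV') (((U.filter fun n => q ∣ n).map fun _ : ℕ => -(1 : ℂ)).prod *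
        ((V.filter fun n => q ∣ n).map fun n : ℕ => -(n : ℂ)).prod) =
      Q * sing (MV' * MU') (((V.filter fun n => q ∣ n).map fun _ : ℕ => -(1 : ℂ)).prod *
        ((U.filter fun n => q ∣ n).map fun n : ℕ => -(n : ℂ)).prod) := by
    have h2 : part q (x + MU'.factorization q + MV'.factorization q)
        (X * linProd U (fun _ => 1) * linProd V (fun n => n)) =
        part q (x + MV'.factorization q + MU'.factorization q)
        (Y * linProd V (fun _ => 1) * linProd U (fun n => n)) := by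
      rw [hE, add_right_comm]
    rw [hl2, hr2] at h2
    calc _ = X * (linProd U' (fun _ => 1) *
        sing MU' ((U.filter fun n => q ∣ n).map fun _ : ℕ => -(1 : ℂ)).prod) *
        (linProd V' (fun n => n) *
          sing MV' ((V.filter fun n => q ∣ n).map fun n : ℕ => -(n : ℂ)).prod) := by
          rw [hQdef, ← sing_mul_sing hMU0' hMV0']
          ring
      _ = _ := h2
      _ = _ := by
          rw [hbot, ← sing_mul_sing hMV0' hMU0']
          ring
  obtain ⟨⟨n₀, hn₀, hQn, _⟩, _⟩ := hQ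
  have hval := congrArg (fun a : ArithmeticFunction ℂ => a (MU' * MV' * n₀)) htop
  simp only at hval
  rw [mul_comm Q, mul_comm Q, sing_mul_apply (mul_ne_zero hMU0' hMV0'), mul_comm MU' MV',
    sing_mul_apply (mul_ne_zero hMV0' hMU0')] at hval
  have hκ := mul_right_cancel₀ hQn hval
  rw [list_prod_neg, list_prod_neg] at hκ
  have h3 := list_prod_sign_ne_zero (U.filter fun n => q ∣ n)
  have h4 := list_prod_sign_ne_zero (V.filter fun n => q ∣ n)
  have h5 : (((V.filter fun n => q ∣ n).prod : ℕ) : ℂ) = ((U.filter fun n => q ∣ n).prod : ℕ) := by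
    refine mul_left_cancel₀ (mul_ne_zero h3 h4) ?_
    linear_combination hκ
  exact_mod_cast h5.symm

/-- The same in the form of the comparison: if `P` does not see `q` then the Euler factors at `q`
cancel. -/
theorem prod_eq_of_compare {c c' : ℕ → ℂ} {σ : ℝ} {U V : List ℕ} {D₁ D₂ : ℕ} {C : ℂ}
    (hcc : ∀ n, c' n = 0 ↔ c n = 0)
    (hs : LSeriesSummable c σ) (hs' : LSeriesSummable c' σ)
    (hU : ∀ n ∈ U, 2 ≤ n) (hV : ∀ n ∈ V, 2 ≤ n) (hD₁ : D₁ ≠ 0) (hD₂ : D₂ ≠ 0) (hC : C ≠ 0)
    (h : ∀ s : ℂ, σ < s.re →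
      C * (D₁ : ℂ) ^ (-s) * (U.map fun n : ℕ => 1 - (n : ℂ) ^ (-s)).prod *
          (V.map fun n : ℕ => 1 - (n : ℂ) ^ (1 - s)).prod =
        (D₂ : ℂ) ^ (-s) * (V.map fun n : ℕ => 1 - (n : ℂ) ^ (-s)).prod *
          (U.map fun n : ℕ => 1 - (n : ℂ) ^ (1 - s)).prod * LSeries c s * LSeries c' s)
    {q μ : ℕ} (hq : q.Prime) (hμ : ∀ n, n ≠ 0 → c n ≠ 0 → n.factorization q = μ) :
    (U.filter fun n => q ∣ n).prod = (V.filter fun n => q ∣ n).prod := by
  have hE := lhs_eq_rhs hs hs' hU hV hD₁ hD₂ h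
  have hμ' : ∀ n, n ≠ 0 → c' n ≠ 0 → n.factorization q = μ := fun n hn hc' =>
    hμ n hn fun h0 => hc' ((hcc n).mpr h0)
  refine prod_eq_of_identity hq hU hV (oneExp_sing q hD₁ C)
    ((oneExp_sing q hD₂ 1).mul ((oneExp_toAr hμ).mul (oneExp_toAr hμ')))
    (isOrd_ne_zero (isOrd_sing q hD₁ hC)) ?_
  rw [lhs, rhs] at hE
  rw [hE]
  ring

end Fermat.Agent.Classic.Lvl
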