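import Fermat.Agent.Classic.Rep3
import Fermat.Agent.Classic.Chi3
import Fermat.Agent.LT.End.Main

/-!
# Control of the level: the junctions of plan Z

Block W (helper43): from the theorem of Langlands and Tunnell to `LevelThree`.
-/

set_option autoImplicit false

open CongruenceSubgroup ModularFormClass EisensteinWeightOne UpperHalfPlane WeierstrassCurve
open scoped MatrixGroups ModularForm

local notation "Γℚ" => (AlgebraicClosure ℚ ≃ₐ[ℚ] AlgebraicClosure ℚ)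

noncomputable section

namespace Fermat.Agent.Classic.Level

/-- `ρ` is unramified at `p`. -/
def UnrAt (ρ : Γℚ →* GL (Fin 2) (ZMod 3)) (p : ℕ) : Prop :=
  ∀ A : ValuationSubring (AlgebraicClosure ℚ), A.LiesOverPrime p →
    ∀ σ ∈ A.inertiaSubgroupIn ℚ, ρ σ = 1

/-- The inertia groups at `q` have image of exponent dividing `n`. -/
def ExpAt (ρ : Γℚ →* GL (Fin 2) (ZMod 3)) (n q : ℕ) : Prop :=
  ∀ A : ValuationSubring (AlgebraicClosure ℚ), A.LiesOverPrime q →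
    ∀ σ ∈ A.inertiaSubgroupIn ℚ, ρ σ ^ n = 1

/-- The inertia groups at `q` have image `1` or `{1, c}` with `det c = -1`. -/
def DetAt (ρ : Γℚ →* GL (Fin 2) (ZMod 3)) (q : ℕ) : Prop :=
  ∀ A : ValuationSubring (AlgebraicClosure ℚ), A.LiesOverPrime q →
    ∀ σ ∈ A.inertiaSubgroupIn ℚ, Matrix.GeneralLinearGroup.det (ρ σ) = 1 → ρ σ = 1

/-- The form has nebentypus `χ₋₃`. -/
def HasNeb (N : ℕ) (f : CuspForm (Gamma1 N) 1) : Prop :=
  ∀ g ∈ Gamma0 N, ⇑f ∣[(1 : ℤ)] g = ((chi3 (g 1 1) : ℤ) : ℂ) • ⇑f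

/-- The starting point: a depleted form of weight one. -/
structure Start (ρ : Γℚ →* GL (Fin 2) (ZMod 3))
    (Ψ : GL (Fin 2) (ZMod 3) →* GL (Fin 2) (ℤ√(-2))) (N : ℕ)
    (ι : ℤ√(-2) →+* ℂ) (b : ℕ → ℤ√(-2)) (f : CuspForm (Gamma1 N) 1) : Prop where
  three : 3 ∣ N
  sq : ∀ q : ℕ, q.Prime → q ∣ N → q ^ 2 ∣ N
  eig : FormalHecke.IsEigensystem
    (fun ℓ => if ℓ ∣ N then 0 else ((chiNegThree ℓ : ℤ) : ℤ√(-2))) b
  dep : ∀ n : ℕ, ¬ n.Coprime N → b n = 0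
  coeff : ∀ n : ℕ, qCoeff f n = ι (b n)
  neb : HasNeb N f
  unr : ∀ p : ℕ, p.Prime → ¬ p ∣ N → UnrAt ρ p
  trace : ∀ p : ℕ, p.Prime → ¬ p ∣ N →
    ∀ A : ValuationSubring (AlgebraicClosure ℚ), A.LiesOverPrime p →
      ∀ σ : Γℚ, A.IsFrobeniusAt σ p →
        b p = ((Ψ (ρ σ) : GL (Fin 2) (ℤ√(-2))) : Matrix (Fin 2) (Fin 2) (ℤ√(-2))).trace

/-- **W1**: depletion. The conclusion of S47 gives a start, of a level divisible by a prescribed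
number. -/
def StepStart : Prop :=
  ∀ (ρ : Γℚ →* GL (Fin 2) (ZMod 3)) (Ψ : GL (Fin 2) (ZMod 3) →* GL (Fin 2) (ℤ√(-2))),
    LT.End.Concl47 ρ Ψ → ∀ D : ℕ, D ≠ 0 → (∀ p : ℕ, p.Prime → ¬ p ∣ D → UnrAt ρ p) →
      ∃ (N : ℕ) (_ : NeZero N) (ι : ℤ√(-2) →+* ℂ) (b : ℕ → ℤ√(-2))
        (f : CuspForm (Gamma1 N) 1), D ∣ N ∧ Start ρ Ψ N ι b f

/-- **Z**: the same form is of a level `N₁` with the same primes, exponent two at the (tame)
primes `q ∈ T`, and unchanged exponent at the others. The level has to be divisible by the primes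
of an auxiliary `D` (the discriminants of the fields). -/
def StepZ : Prop :=
  ∀ (ρ : Γℚ →* GL (Fin 2) (ZMod 3)), Continuous ρ → Function.Surjective ρ →
    (∀ σ : Γℚ, Matrix.GeneralLinearGroup.det (ρ σ) = modThreeCyclotomicChar σ) →
    ∀ Ψ : GL (Fin 2) (ZMod 3) →* GL (Fin 2) (ℤ√(-2)),
      (∀ g, Matrix.GeneralLinearGroup.map FLT.ExplicitLift.red (Ψ g) = g) →
    ∃ D : ℕ, D ≠ 0 ∧
    ∀ (N : ℕ) (_ : NeZero N) (ι : ℤ√(-2) →+* ℂ) (b : ℕ → ℤ√(-2)) (f : CuspForm (Gamma1 N) 1),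
      Start ρ Ψ N ι b f → (∀ p : ℕ, p.Prime → p ∣ D → p ∣ N) →
    ∀ T : Finset ℕ, (∀ q ∈ T, q.Prime ∧ q ∣ N ∧ ∃ n : ℕ, ¬ q ∣ n ∧ ExpAt ρ n q) →
      ∃ (N₁ : ℕ) (_ : NeZero N₁) (f₁ : CuspForm (Gamma1 N₁) 1), N₁ ∣ N ∧
        (∀ q ∈ T, padicValNat q N₁ = 2) ∧
        (∀ q : ℕ, q.Prime → q ∉ T → padicValNat q N₁ = padicValNat q N) ∧
        ⇑f₁ = ⇑f ∧ Start ρ Ψ N₁ ι b f₁

/-- **Z at 3**: inertia of order two at `3` and `3`-exponent two: there is a non-zero form in the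
same eigenspace (up to an automorphism of `ℤ[√-2]`), of a level exactly divisible by `3`. -/
def StepZ3 : Prop :=
  ∀ (ρ : Γℚ →* GL (Fin 2) (ZMod 3)), Continuous ρ → Function.Surjective ρ →
    (∀ σ : Γℚ, Matrix.GeneralLinearGroup.det (ρ σ) = modThreeCyclotomicChar σ) →
    ∀ Ψ : GL (Fin 2) (ZMod 3) →* GL (Fin 2) (ℤ√(-2)),
      (∀ g, Matrix.GeneralLinearGroup.map FLT.ExplicitLift.red (Ψ g) = g) →
    ∃ D : ℕ, D ≠ 0 ∧
    ∀ (N : ℕ) (_ : NeZero N) (ι : ℤ√(-2) →+* ℂ) (b : ℕ → ℤ√(-2)) (f : CuspForm (Gamma1 N) 1),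
      Start ρ Ψ N ι b f → (∀ p : ℕ, p.Prime → p ∣ D → p ∣ N) →
      padicValNat 3 N = 2 → DetAt ρ 3 →
      ∃ (M : ℕ) (_ : NeZero M) (g : CuspForm (Gamma1 M) 1) (κ : ℤ√(-2) →+* ℂ),
        N = 3 * M ∧ g ≠ 0 ∧ HasNeb M g ∧ ∀ p : ℕ, p.Prime → ¬ p ∣ N → ∀ n : ℕ,
          qCoeff g (p * n) + ((chiNegThree p : ℤ) : ℂ) * (if p ∣ n then qCoeff g (n / p) else 0) =
            κ (b p) * qCoeff g n

/-- **P4** (helper55): a non-zero form of weight one in the eigenspace, without rationality,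
gives residual modularity of the same level. -/
def StepP4 : Prop :=
  ∀ (W : WeierstrassCurve ℤ), W.Δ ≠ 0 → W.ModRepIsIrreducible 3 →
    ∀ (M : ℕ) (_ : NeZero M) (g : CuspForm (Gamma1 M) 1), 3 ∣ M → g ≠ 0 → HasNeb M g →
    ∀ (B : ℕ) (ι : ℤ√(-2) →+* ℂ) (b : ℕ → ℤ√(-2)),
      (∀ p : ℕ, p.Prime → B < p → ∀ n : ℕ,
        qCoeff g (p * n) + ((chiNegThree p : ℤ) : ℂ) * (if p ∣ n then qCoeff g (n / p) else 0) =
          ι (b p) * qCoeff g n) →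
      (∀ p : ℕ, p.Prime → B < p → FLT.ExplicitLift.red (b p) = ((W.apOfModel p : ℤ) : ZMod 3)) →
      W.IsResiduallyModularOfLevel 3 M

/-- **P3** (helper24): `3 ^ a * M → 3 * M * r` when inertia at `3` has no fixed vector. -/
def StepP3 (NoInv3 : WeierstrassCurve ℤ → Prop) : Prop :=
  ∀ (W : WeierstrassCurve ℤ), W.Δ ≠ 0 → W.IsSemistableModel → W.ModRepIsIrreducible 3 →
    NoInv3 W → ∀ a M : ℕ, M ≠ 0 → ¬ 3 ∣ M → W.IsResiduallyModularOfLevel 3 (3 ^ a * M) →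
      ∃ r : ℕ, r.Prime ∧ ¬ r ∣ 3 * M ∧ W.IsResiduallyModularOfLevel 3 (3 * (M * r))

/-- **D3** (helper17): the other case at `3`. -/
def StepD3 (NoInv3 : WeierstrassCurve ℤ → Prop) : Prop :=
  ∀ (W : WeierstrassCurve ℤ) (hΔ : W.Δ ≠ 0), W.IsSemistableModel → ¬ NoInv3 W →
    DetAt (rep3 hΔ) 3

/-- **Dq** (helper52): inertia away from `3` is unipotent. -/
def StepDq : Prop :=
  ∀ (W : WeierstrassCurve ℤ) (hΔ : W.Δ ≠ 0), W.IsSemistableModel → ∀ q : ℕ, q.Prime → q ≠ 3 →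
    ExpAt (rep3 hΔ) 3 q

end Fermat.Agent.Classic.Level
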