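import Fermat.Agent.Classic.Route
import Fermat.Agent.Classic.Level.Steps

/-!
# Control of the level: assembly of `LevelThree` (block W)
-/

set_option autoImplicit false

open CuspForm EisensteinWeightOne CongruenceSubgroup ModularFormClass FLT.ExplicitLift
open WeierstrassCurve
open scoped MatrixGroups ModularForm

local notation "Γℚ" => (AlgebraicClosure ℚ ≃ₐ[ℚ] AlgebraicClosure ℚ)

namespace Fermat.Agent.Classic.Level

/-- The eigenvalue of a start is the coefficient of `W` modulo 3. -/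
theorem Start.red_eq {W : WeierstrassCurve ℤ} (hΔ : W.Δ ≠ 0) {N : ℕ} {ι : ℤ√(-2) →+* ℂ}
    {b : ℕ → ℤ√(-2)} {f : CuspForm (Gamma1 N) 1} (h : Start (rep3 hΔ) secHom N ι b f)
    {ℓ : ℕ} (hℓ : ℓ.Prime) (hgood : W.IsGoodPrimeFor ℓ) (hℓN : ¬ ℓ ∣ N) (hℓ3 : ℓ ≠ 3) :
    red (b ℓ) = ((W.apOfModel ℓ : ℤ) : ZMod 3) := by
  obtain ⟨A, hA, σ, hσ⟩ := Frob.exists_frobenius ℓ hℓ
  rw [h.trace ℓ hℓ hℓN A hA σ hσ, red_trace map_red_secHom]
  have : Fact (Nat.Prime 3) := ⟨Nat.prime_three⟩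
  exact trace_repP_frobenius hΔ hℓ hgood hℓ3 hA hσ

/-- A start of level `N` gives residual modularity of level `N`. -/
theorem Start.isResiduallyModularOfLevel {W : WeierstrassCurve ℤ} (hΔ : W.Δ ≠ 0) {N : ℕ}
    [NeZero N] {ι : ℤ√(-2) →+* ℂ} {b : ℕ → ℤ√(-2)} {f : CuspForm (Gamma1 N) 1}
    (h : Start (rep3 hΔ) secHom N ι b f) : W.IsResiduallyModularOfLevel 3 N := by
  obtain ⟨a, ha, hal, hab⟩ := weightTwo N b h.eig ⟨ι, f, h.coeff⟩
  obtain ⟨g, hg, 𝔪, h𝔪, h3, hc⟩ :=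
    Fermat.Agent.S49.result (Fermat.Agent.Ext.E46.hasIntegralBasis N) ha hal
  refine ⟨g, 𝔪, hg, h𝔪, h3, ?_⟩
  intro ℓ hℓ hgood hℓN hℓ3
  obtain ⟨c, hc1, hc2⟩ := hc ℓ hℓ hℓN
  refine ⟨c, hc1, ?_⟩
  have h1 : ((a ℓ : ℤ) : ZMod 3) = ((W.apOfModel ℓ : ℤ) : ZMod 3) := by
    rw [hab, h.red_eq hΔ hℓ hgood hℓN hℓ3]
  have h2 : (3 : ℤ) ∣ (a ℓ - W.apOfModel ℓ) := by
    have := (ZMod.intCast_eq_intCast_iff_dvd_sub _ _ 3).mp h1.symm
    exact_mod_cast this
  obtain ⟨k, hk⟩ := h2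
  have h4 : c - ((W.apOfModel ℓ : ℤ) : integralClosure ℤ ℂ) =
      (c - (a ℓ : integralClosure ℤ ℂ)) +
        ((3 : ℕ) : integralClosure ℤ ℂ) * (k : integralClosure ℤ ℂ) := by
    have : ((a ℓ - W.apOfModel ℓ : ℤ) : integralClosure ℤ ℂ) =
        ((3 * k : ℤ) : integralClosure ℤ ℂ) := by rw [hk]
    push_cast at this ⊢
    linear_combination this
  rw [h4]
  exact 𝔪.add_mem hc2 (𝔪.mul_mem_right _ h3)

theorem DetAt.expAt {ρ : Γℚ →* GL (Fin 2) (ZMod 3)} {q : ℕ} (h : DetAt ρ q) : ExpAt ρ 2 q := by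
  intro A hA σ hσ
  have h1 : ∀ u : (ZMod 3)ˣ, u ^ 2 = 1 := by decide
  have h2 := h A hA (σ ^ 2) (pow_mem hσ 2) (by rw [map_pow, map_pow]; exact h1 _)
  rwa [map_pow] at h2

theorem not_cube_dvd {q M : ℕ} (hq : q.Prime) (hM : M ≠ 0) (h : padicValNat q M ≤ 2) :
    ¬ q ^ 3 ∣ M := by
  haveI := Fact.mk hq
  rw [padicValNat_dvd_iff_le hM]
  omega

/-- **`LevelThree` from the blocks.** -/
theorem levelThree_of {NoInv3 : WeierstrassCurve ℤ → Prop} (hS : StepStart) (hZ : StepZ)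
    (hZ3 : StepZ3) (hP4 : StepP4) (hP3 : StepP3 NoInv3) (hD3 : StepD3 NoInv3) (hDq : StepDq) :
    LevelThree := by
  intro W hΔ hW hirr _
  have hsurj := Semi.rep3_surjective hΔ hW hirr
  have hconc := concl47_of_surjective hΔ hsurj
  have hcont := continuous_repP 3 hΔ
  have hDne : 3 * W.Δ.natAbs ≠ 0 := mul_ne_zero (by norm_num) (Int.natAbs_ne_zero.mpr hΔ)
  obtain ⟨D, hD0, hZ⟩ := hZ (rep3 hΔ) hcont hsurj (det_rep3 hΔ) secHom map_red_secHom
  obtain ⟨D', hD'0, hZ3⟩ := hZ3 (rep3 hΔ) hcont hsurj (det_rep3 hΔ) secHom map_red_secHom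
  have hgood : ∀ p : ℕ, p.Prime → ¬ p ∣ 3 * W.Δ.natAbs → W.IsGoodPrimeFor p ∧ p ≠ 3 := by
    intro p hp hpD
    rw [hp.dvd_mul, not_or] at hpD
    refine ⟨fun h => hpD.2 ?_, fun h => hpD.1 (h ▸ dvd_rfl)⟩
    exact Int.natCast_dvd.mp h
  obtain ⟨N, hN0, ι, b, f, hDN, hst⟩ := hS (rep3 hΔ) secHom hconc
    (3 * W.Δ.natAbs * (D * D')) (mul_ne_zero hDne (mul_ne_zero hD0 hD'0))
    (fun p hp hpD A hA σ hσ => by
      haveI : Fact (Nat.Prime 3) := ⟨Nat.prime_three⟩
      have hpD' : ¬ p ∣ 3 * W.Δ.natAbs := fun h => hpD (h.mul_right _)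
      exact repP_inertia hΔ hp (hgood p hp hpD').1 (hgood p hp hpD').2 hA hσ)
  have hDN' : ∀ p : ℕ, p.Prime → p ∣ D → p ∣ N := fun p _ hpD =>
    (hpD.trans ((dvd_mul_right D D').trans (dvd_mul_left _ _))).trans hDN
  by_cases hNI : NoInv3 W
  · -- no inertia invariants at `3`
    obtain ⟨N₁, hN₁, f₁, hdvd, hT, hnT, -, hst₁⟩ := hZ N hN0 ι b f hst hDN'
      (N.primeFactors.erase 3) (by
        intro q hq
        rw [Finset.mem_erase, Nat.mem_primeFactors] at hq
        refine ⟨hq.2.1, hq.2.2.1, 3, fun h => hq.1 ?_, hDq W hΔ hW q hq.2.1 hq.1⟩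
        exact (Nat.prime_dvd_prime_iff_eq hq.2.1 Nat.prime_three).mp h)
    have hres := hst₁.isResiduallyModularOfLevel hΔ
    obtain ⟨M, hM3, hM⟩ : ∃ M, ¬ 3 ∣ M ∧ N₁ = 3 ^ (N₁.factorization 3) * M :=
      ⟨_, Nat.not_dvd_ordCompl Nat.prime_three hN₁.out, (Nat.ordProj_mul_ordCompl_eq_self N₁ 3).symm⟩
    have hM0 : M ≠ 0 := fun h => hM3 (h ▸ dvd_zero 3)
    obtain ⟨r, hr, hrM, hres'⟩ := hP3 W hΔ hW hirr hNI (N₁.factorization 3) M hM0 hM3
      (by rw [← hM]; exact hres)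
    have hr3 : r ≠ 3 := fun h => hrM (h ▸ dvd_mul_right _ _)
    have hrM' : ¬ r ∣ M := fun h => hrM (h.mul_left _)
    have hMr : 3 * (M * r) ≠ 0 := mul_ne_zero (by norm_num) (mul_ne_zero hM0 hr.ne_zero)
    refine ⟨3 * (M * r), Nat.pos_of_ne_zero hMr, hres', ?_, ?_⟩
    · intro h9
      have h3' : 3 ∣ M * r := by
        have : 3 * 3 ∣ 3 * (M * r) := by simpa [pow_two] using h9
        exact Nat.dvd_of_mul_dvd_mul_left (by norm_num) this
      rcases (Nat.Prime.dvd_mul Nat.prime_three).mp h3' with h | h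
      · exact hM3 h
      · exact hr3 ((Nat.prime_dvd_prime_iff_eq Nat.prime_three hr).mp h).symm
    · intro q hq hq3
      refine not_cube_dvd hq hMr ?_
      haveI := Fact.mk hq
      have h3q : padicValNat q 3 = 0 := padicValNat.eq_zero_of_not_dvd fun h =>
        hq3 ((Nat.prime_dvd_prime_iff_eq hq Nat.prime_three).mp h)
      rw [padicValNat.mul (by norm_num) (mul_ne_zero hM0 hr.ne_zero),
        padicValNat.mul hM0 hr.ne_zero, h3q]
      have hvM : padicValNat q M ≤ 2 := by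
        have h1 : padicValNat q M ≤ padicValNat q N₁ := by
          conv_rhs => rw [hM]
          rw [padicValNat.mul (pow_ne_zero _ (by norm_num)) hM0]
          omega
        refine h1.trans ?_
        by_cases hqN : q ∈ N.primeFactors.erase 3
        · exact (hT q hqN).le
        · rw [hnT q hq hqN, padicValNat.eq_zero_of_not_dvd]
          · omega
          · intro h
            exact hqN (Finset.mem_erase.mpr ⟨hq3, Nat.mem_primeFactors.mpr ⟨hq, h, hN0.out⟩⟩)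
      by_cases hqr : q = r
      · subst hqr
        rw [padicValNat.eq_zero_of_not_dvd hrM', padicValNat_self]
        omega
      · have : padicValNat q r = 0 := padicValNat.eq_zero_of_not_dvd fun h =>
          hqr ((Nat.prime_dvd_prime_iff_eq hq hr).mp h)
        omega
  · -- inertia of order two at `3`
    have h2 := hD3 W hΔ hW hNI
    obtain ⟨N₁, hN₁, f₁, hdvd, hT, hnT, -, hst₁⟩ := hZ N hN0 ι b f hst hDN' N.primeFactors (by
        intro q hq
        rw [Nat.mem_primeFactors] at hq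
        by_cases hq3 : q = 3
        · subst hq3
          exact ⟨hq.1, hq.2.1, 2, by norm_num, h2.expAt⟩
        · refine ⟨hq.1, hq.2.1, 3, fun h => hq3 ?_, hDq W hΔ hW q hq.1 hq3⟩
          exact (Nat.prime_dvd_prime_iff_eq hq.1 Nat.prime_three).mp h)
    have hv : ∀ q : ℕ, q.Prime → padicValNat q N₁ ≤ 2 := by
      intro q hq
      by_cases hqN : q ∈ N.primeFactors
      · exact (hT q hqN).le
      · rw [hnT q hq hqN, padicValNat.eq_zero_of_not_dvd]
        · omega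
        · intro h
          exact hqN (Nat.mem_primeFactors.mpr ⟨hq, h, hN0.out⟩)
    have hv3 : padicValNat 3 N₁ = 2 :=
      hT 3 (Nat.mem_primeFactors.mpr ⟨Nat.prime_three, hst.three, hN0.out⟩)
    obtain ⟨M, hM0, g, κ, hNM, hg, hgneb, hgT⟩ := hZ3 N₁ hN₁ ι b f₁ hst₁ (by
      intro p hp hpD
      have hpN : p ∣ N :=
        (hpD.trans ((dvd_mul_left D' D).trans (dvd_mul_left _ _))).trans hDN
      haveI := Fact.mk hp
      rw [dvd_iff_padicValNat_ne_zero hN₁.out,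
        hT p (Nat.mem_primeFactors.mpr ⟨hp, hpN, hN0.out⟩)]
      norm_num) hv3 h2
    have hvM : ∀ q : ℕ, q.Prime → padicValNat q N₁ = padicValNat q 3 + padicValNat q M := by
      intro q hq
      haveI := Fact.mk hq
      rw [hNM, padicValNat.mul (by norm_num) hM0.out]
    have hM3 : padicValNat 3 M = 1 := by
      haveI := Fact.mk Nat.prime_three
      have h5 := hvM 3 Nat.prime_three
      rw [hv3, padicValNat_self] at h5
      omega
    have h3M : 3 ∣ M := by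
      haveI := Fact.mk Nat.prime_three
      exact (dvd_iff_padicValNat_ne_zero hM0.out).mpr (by omega)
    refine ⟨M, Nat.pos_of_ne_zero hM0.out, ?_, ?_, ?_⟩
    · refine hP4 W hΔ hirr M hM0 g h3M hg hgneb (N₁ + 3 * W.Δ.natAbs) κ b ?_ ?_
      · intro p hp hpB n
        refine hgT p hp (fun h => ?_) n
        have := Nat.le_of_dvd (Nat.pos_of_ne_zero hN₁.out) h
        omega
      · intro p hp hpB
        have hpN : ¬ p ∣ N₁ := fun h => by
          have := Nat.le_of_dvd (Nat.pos_of_ne_zero hN₁.out) h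
          omega
        have hpD : ¬ p ∣ 3 * W.Δ.natAbs := fun h => by
          have := Nat.le_of_dvd (Nat.pos_of_ne_zero hDne) h
          omega
        exact hst₁.red_eq hΔ hp (hgood p hp hpD).1 hpN (hgood p hp hpD).2
    · intro h9
      haveI := Fact.mk Nat.prime_three
      rw [padicValNat_dvd_iff_le hM0.out] at h9
      omega
    · intro q hq hq3
      refine not_cube_dvd hq hM0.out ?_
      have h1 := hvM q hq
      have h2 := hv q hq
      omega

end Fermat.Agent.Classic.Level
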