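import Fermat.Agent.LT.Tower.Exists

/-!
# Fixed fields of the preimages of the subgroups of a finite group

`ρ : Gal(ℚ̄/ℚ) → G` continuous and surjective, `G` finite, `H` a subgroup of `G`. The fixed field of
`ρ⁻¹(H)` is a number field `F` with an embedding `i : F → ℚ̄`; its embeddings in `ℚ̄` correspond to
`G ⧸ H`.
-/

set_option autoImplicit false

namespace Fermat.Agent.Classic.Level

open NumberField Fermat.Agent.Frob Fermat.Agent.LT.Tower

local notation "Qbar" => AlgebraicClosure ℚ
local notation "G3" => Matrix.GeneralLinearGroup (Fin 2) (ZMod 3)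

variable {G : Type*} [Group G]

/-- A number field in `ℚ̄` with fixing group `ρ⁻¹(H)`. -/
structure FixField (ρ : GQ →* G) (H : Subgroup G) where
  /-- the field -/
  F : Type
  [fF : Field F]
  [nF : NumberField F]
  /-- the embedding -/
  i : F →+* Qbar
  fix : ∀ g : GQ, (∀ x : F, g (i x) = i x) ↔ ρ g ∈ H

attribute [instance] FixField.fF FixField.nF

theorem exists_fixField [TopologicalSpace G] [DiscreteTopology G] {ρ : GQ →* G} (hρ : Continuous ρ) (H : Subgroup G) :
    Nonempty (FixField ρ H) := by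
  let U : ClosedSubgroup GQ := ⟨H.comap ρ, (isClosed_discrete (H : Set G)).preimage hρ⟩
  let E : IntermediateField ℚ Qbar := IntermediateField.fixedField U.1
  have h1 : E.fixingSubgroup = H.comap ρ := InfiniteGalois.fixingSubgroup_fixedField U
  have h2 : IsOpen (E.fixingSubgroup : Set GQ) := by
    rw [h1]
    exact (isOpen_discrete (H : Set G)).preimage hρ
  have h3 : FiniteDimensional ℚ E := (InfiniteGalois.isOpen_iff_finite E).mp h2
  have h4 : NumberField E := ⟨⟩
  refine ⟨{ F := E, i := algebraMap E Qbar, fix := fun g => ?_ }⟩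
  have h5 : g ∈ E.fixingSubgroup ↔ ρ g ∈ H := by rw [h1, Subgroup.mem_comap]
  rw [← h5, IntermediateField.mem_fixingSubgroup_iff]
  exact ⟨fun h x hx => h ⟨x, hx⟩, fun h x => h x x.2⟩

/-- the permutation character of `G ⧸ H` -/
noncomputable def pH (H : Subgroup G) (a : G) : ℕ := Nat.card {x : G ⧸ H // a • x = x}

namespace FixField

variable {ρ : GQ →* G} {H : Subgroup G} (T : FixField ρ H)

/-- the embedding `g ∘ i` -/
noncomputable def conjI (g : GQ) : T.F →+* Qbar := (g : Qbar →+* Qbar).comp T.i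

@[simp] lemma conjI_apply (g : GQ) (x : T.F) : T.conjI g x = g (T.i x) := rfl

lemma conjI_eq_iff {g h : GQ} : T.conjI g = T.conjI h ↔ (ρ g)⁻¹ * ρ h ∈ H := by
  have h1 : (ρ g)⁻¹ * ρ h = ρ (g⁻¹ * h) := by rw [map_mul, map_inv]
  rw [h1, ← T.fix]
  constructor
  · intro h2 x
    have h3 : g (T.i x) = h (T.i x) := DFunLike.congr_fun h2 x
    change g⁻¹ (h (T.i x)) = T.i x
    rw [← h3]
    exact g.symm_apply_apply _
  · intro h2
    ext x
    have h3 : g ((g⁻¹ * h) (T.i x)) = h (T.i x) := g.apply_symm_apply _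
    rw [h2 x] at h3
    exact h3

lemma exists_conjI (j : T.F →+* Qbar) : ∃ g : GQ, T.conjI g = j := by
  obtain ⟨g, hg⟩ := exists_extend T.i j
  exact ⟨g, RingHom.ext hg⟩

variable (hs : Function.Surjective ρ)

/-- the embeddings of `F` in `ℚ̄` -/
noncomputable def emb : G ⧸ H ≃ (T.F →+* Qbar) :=
  Equiv.ofBijective
    (Quotient.lift (fun a : G => T.conjI (Function.surjInv hs a)) (fun a b hab => by
      rw [conjI_eq_iff, Function.surjInv_eq hs, Function.surjInv_eq hs]
      exact QuotientGroup.leftRel_apply.mp hab))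
    (by
      constructor
      · rintro ⟨a⟩ ⟨b⟩ h
        have h1 : T.conjI (Function.surjInv hs a) = T.conjI (Function.surjInv hs b) := h
        rw [conjI_eq_iff, Function.surjInv_eq hs, Function.surjInv_eq hs] at h1
        exact QuotientGroup.eq.mpr h1
      · intro j
        obtain ⟨g, rfl⟩ := T.exists_conjI j
        refine ⟨((ρ g : G) : G ⧸ H), ?_⟩
        change T.conjI (Function.surjInv hs (ρ g)) = _
        rw [conjI_eq_iff, Function.surjInv_eq hs, inv_mul_cancel]
        exact one_mem H)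

lemma emb_mk (g : GQ) : T.emb hs ((ρ g : G) : G ⧸ H) = T.conjI g := by
  change T.conjI (Function.surjInv hs (ρ g)) = _
  rw [conjI_eq_iff, Function.surjInv_eq hs, inv_mul_cancel]
  exact one_mem H

lemma emb_one : T.emb hs ((1 : G) : G ⧸ H) = T.i := by
  rw [← map_one ρ, emb_mk]
  rfl

lemma emb_smul (s : GQ) (x : G ⧸ H) :
    T.emb hs (ρ s • x) = (s : Qbar →+* Qbar).comp (T.emb hs x) := by
  obtain ⟨a, rfl⟩ := QuotientGroup.mk_surjective x
  obtain ⟨g, rfl⟩ := hs a
  have h1 : ρ s • ((ρ g : G) : G ⧸ H) = ((ρ (s * g) : G) : G ⧸ H) := by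
    rw [map_mul]
    rfl
  rw [h1, emb_mk, emb_mk]
  rfl

include hs in
theorem finrank : Module.finrank ℚ T.F = H.index := by
  rw [← NumberField.Embeddings.card T.F Qbar, ← Nat.card_eq_fintype_card,
    ← Nat.card_congr (T.emb hs)]
  rfl

include hs in
/-- the number of embeddings fixed by an automorphism -/
theorem card_fixed (s : GQ) :
    Nat.card {j : T.F →+* Qbar // ∀ x, s (j x) = j x} = pH H (ρ s) := by
  refine Nat.card_congr ((T.emb hs).subtypeEquiv fun x => ?_).symm
  rw [← (T.emb hs).injective.eq_iff, emb_smul]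
  exact ⟨fun h y => DFunLike.congr_fun h y, fun h => RingHom.ext h⟩

/-- bigger groups have smaller fields -/
theorem exists_map {H' : Subgroup G} (h : H ≤ H') (T' : FixField ρ H') :
    ∃ f : T'.F →+* T.F, ∀ x, T.i (f x) = T'.i x := by
  have h1 : ∀ x : T'.F, ∃ y : T.F, T.i y = T'.i x := fun x =>
    mem_range_of_fixed T.i fun g hg => (T'.fix g).mpr (h ((T.fix g).mp hg)) x
  choose f hf using h1
  exact ⟨{
    toFun := f
    map_one' := T.i.injective (by rw [hf, map_one, map_one])
    map_mul' := fun x y => T.i.injective (by rw [hf, map_mul, map_mul, hf, hf])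
    map_zero' := T.i.injective (by rw [hf, map_zero, map_zero])
    map_add' := fun x y => T.i.injective (by rw [hf, map_add, map_add, hf, hf]) }, hf⟩

end FixField

section Det

variable {ρ : GQ →* G3} {H : Subgroup G3} (T : FixField ρ H)

/-- subgroups of `SL₂(𝔽₃)` give fields which contain the cube roots of unity -/
theorem FixField.exists_zeta (hdet : ∀ σ : GQ, Matrix.GeneralLinearGroup.det (ρ σ) =
      WeierstrassCurve.modThreeCyclotomicChar σ) (hH : ∀ h ∈ H, h.1.det = 1) :
    ∃ ζ : T.F, IsPrimitiveRoot ζ 3 := by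
  obtain ⟨ω, hω⟩ : ∃ ω : Qbar, IsPrimitiveRoot ω 3 := by
    have : NeZero ((3 : ℕ) : Qbar) := ⟨by norm_num⟩
    exact HasEnoughRootsOfUnity.exists_primitiveRoot Qbar 3
  obtain ⟨ζ, rfl⟩ := mem_range_of_fixed T.i (x := ω) fun g hg =>
    (fix_omega_iff hdet hω g).mpr (hH _ ((T.fix g).mp hg))
  exact ⟨ζ, IsPrimitiveRoot.of_map_of_injective hω T.i.injective⟩

theorem FixField.isTotallyComplex (hdet : ∀ σ : GQ, Matrix.GeneralLinearGroup.det (ρ σ) =
      WeierstrassCurve.modThreeCyclotomicChar σ) (hH : ∀ h ∈ H, h.1.det = 1) :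
    IsTotallyComplex T.F := by
  obtain ⟨ζ, hζ⟩ := T.exists_zeta hdet hH
  exact isTotallyComplex_of_cubeRoot hζ

end Det

end Fermat.Agent.Classic.Level
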