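import Fermat.Agent.Classic.Level.Steps
import Fermat.Agent.Classic.Level.Z3.Main
import Fermat.Agent.Classic.Level.Disc.Sum

/-!
# Control of the level: from the blocks Z1 - Z5 to `StepZ`

* `Start.exists_pack`: a start has a Fricke partner with all its properties (`Z3.Pack`);
* `ExpAt.tameAt`: the two forms of tameness;
* `OrdStmt`: the output of the comparison of the functional equations;
* `stepZ_of`: the bookkeeping of the levels.
-/

set_option autoImplicit false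

open CongruenceSubgroup ModularFormClass EisensteinWeightOne UpperHalfPlane WeierstrassCurve
open scoped MatrixGroups ModularForm ComplexConjugate

local notation "Γℚ" => (AlgebraicClosure ℚ ≃ₐ[ℚ] AlgebraicClosure ℚ)

noncomputable section

namespace Fermat.Agent.Classic.Level

/-! ### Dictionary -/

theorem hasNeb_iff {N : ℕ} {f : CuspForm (Gamma1 N) 1} : HasNeb N f ↔ Z3.HasNeb N f := Iff.rfl

theorem ExpAt.tameAt {ρ : Γℚ →* GL (Fin 2) (ZMod 3)} {n q : ℕ} (h : ExpAt ρ n q) (hn : ¬ q ∣ n) :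
    Disc.TameAt ρ q := ⟨n, hn, h⟩

theorem tameAt_of_exists {ρ : Γℚ →* GL (Fin 2) (ZMod 3)} {q : ℕ}
    (h : ∃ n : ℕ, ¬ q ∣ n ∧ ExpAt ρ n q) : Disc.TameAt ρ q := h

/-! ### The Fricke partner of a start -/

section Pack

variable {ρ : Γℚ →* GL (Fin 2) (ZMod 3)} {Ψ : GL (Fin 2) (ZMod 3) →* GL (Fin 2) (ℤ√(-2))}
  {N : ℕ} {ι : ℤ√(-2) →+* ℂ} {b : ℕ → ℤ√(-2)} {f : CuspForm (Gamma1 N) 1}

theorem Start.b_one (h : Start ρ Ψ N ι b f) : b 1 = 1 := h.eig.1

theorem Start.qCoeff_one (h : Start ρ Ψ N ι b f) : qCoeff f 1 = 1 := by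
  rw [h.coeff, h.b_one, map_one]

/-- The relations of a start, on the coefficients of the form. -/
theorem Start.rel (h : Start ρ Ψ N ι b f) {p : ℕ} (hp : p.Prime) (hpN : ¬ p ∣ N) (n : ℕ) :
    qCoeff f (p * n) + ((chiNegThree p : ℤ) : ℂ) * (if p ∣ n then qCoeff f (n / p) else 0) =
      ι (b p) * qCoeff f n := by
  have h2 := congrArg ι (h.eig.2 p hp n)
  simp only [if_neg hpN] at h2
  rw [map_add, map_mul, map_mul, map_intCast] at h2
  rw [h.coeff (p * n), h.coeff n, ← h2]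
  congr 2
  split_ifs with h3
  · rw [h.coeff]
  · rw [map_zero]

theorem Start.exists_pack [NeZero N] (hFr : Z3.FrickeStmt) (hFE : Z3.FrickeFEStmt)
    (hConj : Z3.ConjStmt) (hρ : Continuous ρ)
    (hdet : ∀ σ, Matrix.GeneralLinearGroup.det (ρ σ) = modThreeCyclotomicChar σ)
    (hΨ : ∀ g, Matrix.GeneralLinearGroup.map FLT.ExplicitLift.red (Ψ g) = g)
    (hst : Start ρ Ψ N ι b f) : ∃ h : CuspForm (Gamma1 N) 1, Z3.Pack ρ Ψ N ι b f h :=
  Z3.pack_of hFr hFE hConj hρ hdet hΨ hst.sq hst.eig hst.dep hst.coeff hst.trace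

/-- A start at `N` is a start at every `N₁` with the same primes, at which the form lives. -/
theorem Start.of_dvd {N₁ : ℕ} (h : Start ρ Ψ N ι b f) (hd : N₁ ∣ N)
    (hp : ∀ q : ℕ, q.Prime → q ∣ N → q ^ 2 ∣ N₁) {f₁ : CuspForm (Gamma1 N₁) 1}
    (hf : ∀ n, qCoeff f₁ n = qCoeff f n) (hneb : HasNeb N₁ f₁) : Start ρ Ψ N₁ ι b f₁ := by
  have hiff : ∀ q : ℕ, q.Prime → (q ∣ N₁ ↔ q ∣ N) := fun q hq =>
    ⟨fun h1 => h1.trans hd, fun h1 => (dvd_pow_self q two_ne_zero).trans (hp q hq h1)⟩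
  have hcop : ∀ n : ℕ, n.Coprime N₁ ↔ n.Coprime N := by
    intro n
    constructor
    · intro h1
      refine Nat.coprime_of_dvd fun q hq hqn hqN => ?_
      exact Nat.not_coprime_of_dvd_of_dvd hq.one_lt hqn ((hiff q hq).mpr hqN) h1
    · intro h1
      exact h1.coprime_dvd_right hd
  refine ⟨(hiff 3 Nat.prime_three).mpr h.three, fun q hq hqN => hp q hq (hqN.trans hd), ?_,
    fun n hn => h.dep n fun h1 => hn ((hcop n).mpr h1), fun n => (hf n).trans (h.coeff n), hneb,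
    fun p hp hpN => h.unr p hp fun h1 => hpN ((hiff p hp).mpr h1),
    fun p hp hpN => h.trace p hp fun h1 => hpN ((hiff p hp).mpr h1)⟩
  refine ⟨h.eig.1, fun ℓ hℓ n => ?_⟩
  have h1 := h.eig.2 ℓ hℓ n
  simp only [hiff ℓ hℓ]
  exact h1

end Pack

/-! ### The junction with the comparison -/

/-- **The output of the comparison of the functional equations**: the coefficients of the Fricke
partner are supported on the multiples of `q ^ (v_q(N) - 2)`, for every prime `q ∣ N` at which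
`ρ` is tame (`N` divisible by the primes of some `D` which depends on `ρ` only). -/
def OrdStmt : Prop :=
  ∀ (ρ : Γℚ →* GL (Fin 2) (ZMod 3)), Continuous ρ → Function.Surjective ρ →
    (∀ σ : Γℚ, Matrix.GeneralLinearGroup.det (ρ σ) = modThreeCyclotomicChar σ) →
    ∀ Ψ : GL (Fin 2) (ZMod 3) →* GL (Fin 2) (ℤ√(-2)),
      (∀ g, Matrix.GeneralLinearGroup.map FLT.ExplicitLift.red (Ψ g) = g) →
    ∃ D : ℕ, D ≠ 0 ∧
    ∀ (N : ℕ) [NeZero N] (ι : ℤ√(-2) →+* ℂ) (b : ℕ → ℤ√(-2)) (f : CuspForm (Gamma1 N) 1),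
      Start ρ Ψ N ι b f → (∀ p : ℕ, p.Prime → p ∣ D → p ∣ N) →
    ∀ h : CuspForm (Gamma1 N) 1, ⇑h = ⇑f ∣[(1 : ℤ)] Z3.W N →
    ∀ q : ℕ, q.Prime → q ∣ N → Disc.TameAt ρ q →
    ∀ m : ℕ, m ≠ 0 → qCoeff h m ≠ 0 → q ^ (padicValNat q N - 2) ∣ m

/-! ### The bookkeeping of the levels -/

theorem factorization_prod_pow {T : Finset ℕ} (hT : ∀ q ∈ T, q.Prime) (e : ℕ → ℕ) (p : ℕ) :
    (∏ q ∈ T, q ^ e q).factorization p = if p ∈ T then e p else 0 := by
  rw [Nat.factorization_prod_apply fun q hq => pow_ne_zero _ (hT q hq).ne_zero]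
  rw [Finset.sum_congr rfl fun q hq => by
    rw [Nat.Prime.factorization_pow (hT q hq), Finsupp.single_apply]]
  rw [Finset.sum_ite_eq']

theorem prod_pow_dvd {T : Finset ℕ} (hT : ∀ q ∈ T, q.Prime) (e : ℕ → ℕ) {m : ℕ}
    (h : ∀ q ∈ T, q ^ e q ∣ m) : ∏ q ∈ T, q ^ e q ∣ m := by
  rcases eq_or_ne m 0 with rfl | hm
  · exact dvd_zero _
  · rw [← Nat.factorization_le_iff_dvd
      (Finset.prod_ne_zero_iff.mpr fun q hq => pow_ne_zero _ (hT q hq).ne_zero) hm]
    intro p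
    rw [factorization_prod_pow hT]
    split_ifs with hp
    · exact ((hT p hp).pow_dvd_iff_le_factorization hm).mp (h p hp)
    · exact Nat.zero_le _

/-- **`StepZ` from the comparison.** -/
theorem stepZ_of (hFr : Z3.FrickeStmt) (hLow : Z3.LowerStmt) (hord : OrdStmt) : StepZ := by
  intro ρ hρ hsurj hdet Ψ hΨ
  obtain ⟨D₀, hD₀, hord⟩ := hord ρ hρ hsurj hdet Ψ hΨ
  refine ⟨D₀, hD₀, fun N hN ι b f hst hDp T hT => ?_⟩
  obtain ⟨h, hh, hneb, hinv, -⟩ := hFr N f hst.neb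
  have hTp : ∀ q ∈ T, q.Prime := fun q hq => (hT q hq).1
  set e : ℕ → ℕ := fun q => padicValNat q N - 2 with he
  set D : ℕ := ∏ q ∈ T, q ^ e q with hD
  have hD0 : D ≠ 0 := Finset.prod_ne_zero_iff.mpr fun q hq => pow_ne_zero _ (hTp q hq).ne_zero
  have hN0 : N ≠ 0 := NeZero.ne N
  have h2 : ∀ q : ℕ, q.Prime → q ∣ N → 2 ≤ N.factorization q := fun q hq hqN =>
    (hq.pow_dvd_iff_le_factorization hN0).mp (hst.sq q hq hqN)
  have hDN : D ∣ N := by
    refine prod_pow_dvd hTp e fun q hq => ?_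
    rw [(hTp q hq).pow_dvd_iff_le_factorization hN0, he]
    simp only
    rw [← Nat.factorization_def N (hTp q hq)]
    omega
  obtain ⟨N₁, hN₁⟩ := hDN
  have hN₁0 : N₁ ≠ 0 := by
    rintro rfl
    exact hN0 (by rw [hN₁, mul_zero])
  haveI : NeZero N₁ := ⟨hN₁0⟩
  have hfac : ∀ q : ℕ, q.Prime → N.factorization q = (if q ∈ T then e q else 0) +
      N₁.factorization q := by
    intro q hq
    rw [hN₁, Nat.factorization_mul hD0 hN₁0, Finsupp.add_apply, hD, factorization_prod_pow hTp]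
  have hvT : ∀ q ∈ T, N₁.factorization q = 2 := by
    intro q hq
    have h3 := hfac q (hTp q hq)
    rw [if_pos hq, he] at h3
    simp only [← Nat.factorization_def N (hTp q hq)] at h3
    have h4 := h2 q (hTp q hq) (hT q hq).2.1
    omega
  have hvnT : ∀ q : ℕ, q.Prime → q ∉ T → N₁.factorization q = N.factorization q := by
    intro q hq hqT
    rw [hfac q hq, if_neg hqT, zero_add]
  have hsq : ∀ q : ℕ, q.Prime → q ∣ N → q ^ 2 ∣ N₁ := by
    intro q hq hqN
    rw [hq.pow_dvd_iff_le_factorization hN₁0]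
    by_cases hqT : q ∈ T
    · exact (hvT q hqT).ge
    · rw [hvnT q hq hqT]
      exact h2 q hq hqN
  have hdvd : ∀ n, qCoeff ⇑h n ≠ 0 → D ∣ n := by
    intro n hn
    rcases eq_or_ne n 0 with rfl | hn0
    · exact dvd_zero _
    · exact prod_pow_dvd hTp e fun q hq =>
        hord N ι b f hst hDp h hh q (hTp q hq) (hT q hq).2.1
          (tameAt_of_exists (hT q hq).2.2) n hn0 hn
  obtain ⟨f₁, -, hf₁, hneb₁, -, -⟩ := hLow N N₁ D hN₁
    ((dvd_pow_self 3 two_ne_zero).trans (hsq 3 Nat.prime_three hst.three))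
    (fun q hq hqD => (dvd_pow_self q two_ne_zero).trans (hsq q hq (hqD.trans ⟨N₁, hN₁⟩)))
    f h hneb hinv hdvd
  refine ⟨N₁, inferInstance, f₁, ⟨D, by rw [hN₁, mul_comm]⟩, ?_, ?_, hf₁, ?_⟩
  · intro q hq
    rw [← Nat.factorization_def N₁ (hTp q hq)]
    exact hvT q hq
  · intro q hq hqT
    rw [← Nat.factorization_def N₁ hq, ← Nat.factorization_def N hq]
    exact hvnT q hq hqT
  · refine hst.of_dvd ⟨D, by rw [hN₁, mul_comm]⟩ hsq (fun n => ?_) hneb₁
    rw [hf₁]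

end Fermat.Agent.Classic.Level

end
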