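import Fermat.Agent.Classic.Level.P3

/-!
# Stripping the level at 3, up to the twist by `ω`
-/

set_option autoImplicit false

noncomputable section

open CongruenceSubgroup
open scoped MatrixGroups

namespace Fermat.Agent.Classic.Level

open Fermat.Agent.HeckePar Fermat.Agent.S41aux

/-- the output of the descent `3^(a+1) M' → 3 M'` for homomorphisms to `𝔽₃` -/
def DescStmt : Prop :=
  ∀ (a M' : ℕ), M' ≠ 0 → ∀ (G : ℕ → Prop) (μ : ℕ → ZMod 3)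
    (φ : Additive (Gamma0 (3 ^ (a + 1) * M')) →+ ZMod 3), φ ≠ 0 →
    φ (Additive.ofMul (lowN (3 ^ (a + 1) * M'))) = 0 →
    (∀ (ℓ : ℕ) [Fact ℓ.Prime], G ℓ → ¬ ℓ ∣ 3 ^ (a + 1) * M' → ∀ g,
      (heckeSys (3 ^ (a + 1) * M') ℓ).addTransfer φ g = μ ℓ * φ g) →
    ∃ (i : ℕ) (ψ : Additive (Gamma0 (3 * M')) →+ ZMod 3), ψ ≠ 0 ∧
      ∀ (ℓ : ℕ) [Fact ℓ.Prime], G ℓ → ¬ ℓ ∣ 3 * M' → ∀ g,
        (heckeSys (3 * M') ℓ).addTransfer ψ g = (ℓ : ZMod 3) ^ i * μ ℓ * ψ g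

theorem dvd_iff_three {a M' ℓ : ℕ} (hℓ : ℓ.Prime) :
    ℓ ∣ 3 ^ (a + 1) * M' ↔ ℓ ∣ 3 * M' := by
  rw [hℓ.dvd_mul, hℓ.dvd_mul]
  constructor
  · rintro (h | h)
    · exact Or.inl (hℓ.dvd_of_dvd_pow h)
    · exact Or.inr h
  · rintro (h | h)
    · exact Or.inl (dvd_pow h (Nat.succ_ne_zero a))
    · exact Or.inr h

theorem cast_sq_eq_one {ℓ : ℕ} (hℓ : ℓ.Prime) (h3 : ℓ ≠ 3) : (ℓ : ZMod 3) ^ 2 = 1 := by
  have h1 : (ℓ : ZMod 3) ≠ 0 := by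
    intro h
    rw [ZMod.natCast_eq_zero_iff] at h
    exact h3 ((Nat.prime_dvd_prime_iff_eq Nat.prime_three hℓ).mp h).symm
  generalize (ℓ : ZMod 3) = x at h1
  revert x
  decide

theorem threeStrip_of (hd : DescStmt) {W : WeierstrassCurve ℤ} (hΔ : W.Δ ≠ 0)
    (hirr : W.ModRepIsIrreducible 3) {a M' : ℕ} (hM' : M' ≠ 0)
    (hr : ∃ r : ℕ, r.Prime ∧ r ∣ M' ∧ r % 3 = 2)
    (h : W.IsResiduallyModularOfLevel 3 (3 ^ (a + 1) * M')) :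
    W.IsResiduallyModularOfLevel 3 (3 * M') ∨ TwRes W (3 * M') := by
  have hN0 : NeZero (3 ^ (a + 1) * M') := ⟨mul_ne_zero (pow_ne_zero _ (by norm_num)) hM'⟩
  have hN1 : NeZero (3 * M') := ⟨mul_ne_zero (by norm_num) hM'⟩
  obtain ⟨φ, hφ0, hφk, hφT⟩ := exists_hom hΔ hirr h
  obtain ⟨i, ψ, hψ0, hψT⟩ := hd a M' hM' (Gd W (3 * M'))
    (fun ℓ => ((W.apOfModel ℓ : ℤ) : ZMod 3)) φ hφ0 (killsPar_low hφk)
    (fun ℓ hℓ hG _ g => hφT ℓ ⟨hG.1, hG.2.1, fun hd => hG.2.2.1 ((dvd_iff_three hℓ.out).mp hd),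
      hG.2.2.2⟩ g)
  have hr' : ∃ r : ℕ, r.Prime ∧ r ∣ 3 * M' ∧ r % 3 = 2 := by
    obtain ⟨r, h1, h2, h3⟩ := hr
    exact ⟨r, h1, h2.mul_left 3, h3⟩
  obtain ⟨𝔪, h𝔪, h3𝔪⟩ := exists_maximal_three
  have hne : ∀ (j : ℕ) (m : ℕ), 0 < m → ∃ ℓ : ℕ, ℓ.Prime ∧ Gd W (3 * M') ℓ ∧ (m : ℤ) ∣ ℓ - 1 ∧
      ¬ (3 : ℤ) ∣ (ℓ : ℤ) ^ j * W.apOfModel ℓ - (ℓ + 1) := by
    intro j m hm
    obtain ⟨ℓ, hℓ, hgood, hℓ3, hdvd, hn⟩ := exists_nonEis hΔ hirr (m * (3 * M'))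
      (Nat.mul_pos hm (Nat.pos_of_ne_zero hN1.out))
    have h1 : ((3 * M' : ℕ) : ℤ) ∣ ℓ - 1 :=
      (Int.natCast_dvd_natCast.mpr (dvd_mul_left (3 * M') m)).trans hdvd
    have h2 : (m : ℤ) ∣ ℓ - 1 :=
      (Int.natCast_dvd_natCast.mpr (dvd_mul_right m (3 * M'))).trans hdvd
    have h3 : ((3 : ℕ) : ℤ) ∣ ℓ - 1 :=
      (Int.natCast_dvd_natCast.mpr (dvd_mul_right 3 M')).trans h1
    refine ⟨ℓ, hℓ, ⟨hℓ, hgood, ?_, hℓ3⟩, h2, ?_⟩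
    · intro h
      have h4 : (ℓ : ℤ) ∣ ℓ - 1 := (Int.natCast_dvd_natCast.mpr h).trans h1
      have h5 : (ℓ : ℤ) ∣ 1 := by
        have := dvd_sub (dvd_refl (ℓ : ℤ)) h4
        simpa using this
      exact (Nat.prime_iff_prime_int.mp hℓ).not_dvd_one h5
    · intro h
      apply hn
      have h6 : (ℓ : ZMod 3) = 1 := by
        have h7 : (((ℓ : ℤ) - 1 : ℤ) : ZMod 3) = 0 :=
          (ZMod.intCast_zmod_eq_zero_iff_dvd _ 3).mpr h3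
        push_cast at h7
        exact sub_eq_zero.mp h7
      have h8 := (ZMod.intCast_zmod_eq_zero_iff_dvd _ 3).mpr (by exact_mod_cast h)
      have h9 : (((W.apOfModel ℓ - (ℓ + 1) : ℤ)) : ZMod 3) = 0 := by
        push_cast at h8 ⊢
        rw [h6, one_pow, one_mul] at h8
        rw [h6]
        exact h8
      exact_mod_cast (ZMod.intCast_zmod_eq_zero_iff_dvd _ 3).mp h9
  have key : ∀ j : ℕ, (∀ ℓ : ℕ, ℓ.Prime → ℓ ≠ 3 → (ℓ : ZMod 3) ^ i = (ℓ : ZMod 3) ^ j) →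
      ∃ g : CuspForm (Gamma0 (3 * M')) 2, g.IsNormalizedEigenform ∧
      ∀ ℓ : ℕ, ℓ.Prime → Gd W (3 * M') ℓ → ∃ b : integralClosure ℤ ℂ,
        (b : ℂ) = ModularFormClass.qCoeff g ℓ ∧
        b - (((ℓ : ℤ) ^ j * W.apOfModel ℓ : ℤ) : integralClosure ℤ ℂ) ∈ 𝔪 := by
    intro j hj
    refine form_of_hom hr' (Gd W (3 * M')) (fun ℓ h => h.2.2.1)
      (fun ℓ => (ℓ : ℤ) ^ j * W.apOfModel ℓ) (hne j) hψ0 ?_ 𝔪 h𝔪 h3𝔪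
    intro ℓ hℓ hG g
    rw [hψT ℓ hG hG.2.2.1 g, hj ℓ hG.1 hG.2.2.2]
    push_cast
    ring
  rcases Nat.even_or_odd i with ⟨k, hk⟩ | ⟨k, hk⟩
  · left
    obtain ⟨g, hg, hgc⟩ := key 0 (fun ℓ hℓ h3 => by
      rw [hk, ← two_mul, pow_mul, cast_sq_eq_one hℓ h3, one_pow, pow_zero])
    refine ⟨g, 𝔪, hg, h𝔪, by exact_mod_cast h3𝔪, fun ℓ hℓ hgood hℓM hℓ3 => ?_⟩
    obtain ⟨b, hb, hb'⟩ := hgc ℓ hℓ ⟨hℓ, hgood, hℓM, hℓ3⟩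
    exact ⟨b, hb, by simpa using hb'⟩
  · right
    obtain ⟨g, hg, hgc⟩ := key 1 (fun ℓ hℓ h3 => by
      rw [hk, pow_add, pow_mul, cast_sq_eq_one hℓ h3, one_pow, one_mul])
    refine ⟨g, 𝔪, hg, h𝔪, h3𝔪, fun ℓ hℓ hgood hℓM hℓ3 => ?_⟩
    obtain ⟨b, hb, hb'⟩ := hgc ℓ hℓ ⟨hℓ, hgood, hℓM, hℓ3⟩
    exact ⟨b, hb, by simpa using hb'⟩

/-- an auxiliary prime -/
theorem exists_aux (m : ℕ) (hm : m ≠ 0) : ∃ r : ℕ, r.Prime ∧ ¬ r ∣ m ∧ r % 3 = 2 := by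
  have hu : IsUnit (2 : ZMod 3) := by decide
  obtain ⟨r, h1, h2, h3⟩ := Nat.forall_exists_prime_gt_and_eq_mod hu m
  refine ⟨r, h2, fun hd => absurd (Nat.le_of_dvd (Nat.pos_of_ne_zero hm) hd) (by omega), ?_⟩
  have h4 : (r : ZMod 3) = ((2 : ℕ) : ZMod 3) := by exact_mod_cast h3
  exact (ZMod.natCast_eq_natCast_iff' r 2 3).mp h4

/-- **The level at 3.** If the twist by `ω` is excluded in all levels `3 M'`, then residual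
modularity of level `3 ^ a * M'` gives residual modularity of level `3 * (M' * r)`, `r` prime. -/
theorem strip_main_of (hd : DescStmt) {W : WeierstrassCurve ℤ} (hΔ : W.Δ ≠ 0)
    (hirr : W.ModRepIsIrreducible 3)
    (hno : ∀ m : ℕ, m ≠ 0 → ¬ 3 ∣ m → ¬ TwRes W (3 * m))
    {a M' : ℕ} (h3 : ¬ 3 ∣ M') (hM' : M' ≠ 0) (h : W.IsResiduallyModularOfLevel 3 (3 ^ a * M')) :
    ∃ r : ℕ, r.Prime ∧ ¬ r ∣ 3 * M' ∧ W.IsResiduallyModularOfLevel 3 (3 * (M' * r)) := by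
  obtain ⟨r, hr, hrM, hr3⟩ := exists_aux (3 * M') (mul_ne_zero (by norm_num) hM')
  refine ⟨r, hr, hrM, ?_⟩
  have h3r : ¬ 3 ∣ M' * r := by
    intro hdv
    rcases (Nat.prime_three.dvd_mul).mp hdv with h1 | h1
    · exact h3 h1
    · rw [Nat.prime_dvd_prime_iff_eq Nat.prime_three hr] at h1
      omega
  have h0 : M' * r ≠ 0 := mul_ne_zero hM' hr.ne_zero
  have h1 : W.IsResiduallyModularOfLevel 3 (3 ^ (a + 1) * (M' * r)) :=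
    resMod_raise (Nat.pos_of_ne_zero (mul_ne_zero (pow_ne_zero _ (by norm_num)) h0))
      (mul_dvd_mul (pow_dvd_pow 3 (Nat.le_succ a)) (dvd_mul_right M' r)) h
  rcases threeStrip_of hd hΔ hirr h0 ⟨r, hr, dvd_mul_left r M', hr3⟩ h1 with h2 | h2
  · exact h2
  · exact absurd h2 (hno _ h0 h3r)

end Fermat.Agent.Classic.Level
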