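import Fermat.Agent.Classic.Level.Step3
import Fermat.Agent.Classic.Level.P3Main

/-!
# The descent of the level at 3: `DescStmt`
-/

set_option autoImplicit false

noncomputable section

open CongruenceSubgroup
open scoped MatrixGroups

namespace Fermat.Agent.Classic.Level

open Fermat.Agent.HeckePar

theorem sgn3_eq_cast {p : ℕ} (h : (p : ZMod 3) ≠ 0) : Step3.sgn3 (ZMod 3) p = (p : ZMod 3) := by
  unfold Step3.sgn3
  revert h
  generalize (p : ZMod 3) = x
  revert x
  decide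

/-- **The descent of the level at 3.** -/
theorem descStmt : DescStmt := by
  intro a M' hM' G μ φ hφ h0 hT
  have hp' : ∀ p : ℕ, p.Prime → ¬ p ∣ 3 * M' → ¬ p ∣ 3 ^ (a + 1) * M' := fun p hp h1 h2 =>
    h1 ((dvd_iff_three hp).mp h2)
  obtain ⟨i, -, ψ, hψ0, -, hψT⟩ := Step3.descent (F := ZMod 3) hM' G a _ rfl μ φ hφ h0
    (fun p hpr hG hp => by
      refine AddMonoidHom.ext fun g => ?_
      rw [hT p hG (hp' p hpr.out hp) g]
      rfl)
  refine ⟨i, ψ, hψ0, fun p hpr hG hp g => ?_⟩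
  have h3 : (p : ZMod 3) ≠ 0 := by
    rw [Ne, ZMod.natCast_eq_zero_iff]
    intro h
    exact hp (Dvd.dvd.mul_right
      (((Nat.prime_dvd_prime_iff_eq Nat.prime_three hpr.out).mp h) ▸ dvd_refl 3) _)
  rw [hψT p hG hp, ← sgn3_eq_cast h3]
  rfl

end Fermat.Agent.Classic.Level
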