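import Mathlib
import Fermat.Agent.Classic.Level.Disc.Defs
import Fermat.Agent.Classic.Level.FixField
import Fermat.Agent.Classic.Zeta.FE
import Fermat.Agent.Frob.DensityAnalytic
import Fermat.Prelude.Def_FormalHecke_Eigensystem

/-!
# Arithmetic functions and their local power series (plan Z, block Z5)

`Sp p f` is the power series `∑ f (p ^ k) X ^ k`.  A multiplicative arithmetic function is determined by its
local power series, and `Sp p` is multiplicative for the Dirichlet convolution.  `zcA F` are the coefficients of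
the Dedekind zeta function of `F`, `badE F N` those of the product of the factors `1 - Nv ^ (-s)` over the places
`v` dividing `N`.
-/

set_option autoImplicit false

noncomputable section

open NumberField IsDedekindDomain Fermat.Agent.FrobDensity Fermat.Agent.Classic.Disc
open PowerSeries (X)
open scoped LSeries.notation

namespace Fermat.Agent.Classic.Zeta

/-! ### Local power series -/

/-- The local power series of an arithmetic function. -/
def Sp (p : ℕ) (f : ArithmeticFunction ℂ) : PowerSeries ℂ := PowerSeries.mk fun k => f (p ^ k)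

theorem coeff_Sp (p : ℕ) (f : ArithmeticFunction ℂ) (k : ℕ) :
    PowerSeries.coeff k (Sp p f) = f (p ^ k) := by
  rw [Sp, PowerSeries.coeff_mk]

theorem Sp_mul {p : ℕ} (hp : p.Prime) (f g : ArithmeticFunction ℂ) :
    Sp p (f * g) = Sp p f * Sp p g := by
  ext k
  rw [coeff_Sp, PowerSeries.coeff_mul, ArithmeticFunction.mul_apply,
    Nat.sum_divisorsAntidiagonal (fun i j => f i * g j), Nat.sum_divisors_prime_pow hp,
    Finset.Nat.sum_antidiagonal_eq_sum_range_succ_mk]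
  refine Finset.sum_congr rfl fun i hi => ?_
  rw [coeff_Sp, coeff_Sp, Nat.pow_div (Finset.mem_range_succ_iff.mp hi) hp.pos]

theorem pow_eq_one_iff' {p k : ℕ} (hp : p.Prime) : p ^ k = 1 ↔ k = 0 := by
  constructor
  · intro h
    by_contra hk
    exact (Nat.one_lt_pow hk hp.one_lt).ne' h
  · rintro rfl
    exact pow_zero p

theorem Sp_one {p : ℕ} (hp : p.Prime) : Sp p 1 = 1 := by
  ext k
  rw [coeff_Sp, PowerSeries.coeff_one, ArithmeticFunction.one_apply]
  simp only [pow_eq_one_iff' hp]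

theorem Sp_prod {p : ℕ} (hp : p.Prime) {ι : Type*} (s : Finset ι) (f : ι → ArithmeticFunction ℂ) :
    Sp p (∏ i ∈ s, f i) = ∏ i ∈ s, Sp p (f i) := by
  classical
  induction s using Finset.induction_on with
  | empty => rw [Finset.prod_empty, Finset.prod_empty, Sp_one hp]
  | insert i s hi ih => rw [Finset.prod_insert hi, Finset.prod_insert hi, Sp_mul hp, ih]

theorem ext_Sp {f g : ArithmeticFunction ℂ} (hf : f.IsMultiplicative) (hg : g.IsMultiplicative)
    (h : ∀ p : ℕ, p.Prime → Sp p f = Sp p g) : f = g := by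
  rw [ArithmeticFunction.IsMultiplicative.eq_iff_eq_on_prime_powers f hf g hg]
  intro p k hp
  rw [← coeff_Sp, h p hp, coeff_Sp]

/-! ### The factors `1 - ν ^ (-s)` -/

/-- `ef` as an arithmetic function -/
def efA (ν : ℕ) : ArithmeticFunction ℂ := toArithmeticFunction (ef ν)

theorem efA_apply {ν n : ℕ} (hn : n ≠ 0) : efA ν n = ef ν n := by
  change (if n = 0 then 0 else ef ν n) = _
  rw [if_neg hn]

theorem Sp_efA {p ℓ f : ℕ} (hp : p.Prime) (hℓ : ℓ.Prime) (hf : 0 < f) :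
    Sp p (efA (ℓ ^ f)) = if ℓ = p then 1 - X ^ f else 1 := by
  ext k
  rw [coeff_Sp, efA_apply (pow_ne_zero _ hp.ne_zero), ef]
  have h1 : p ^ k = 1 ↔ k = 0 := pow_eq_one_iff' hp
  simp only [h1]
  split_ifs with h2 h3 h4 h5 h6
  · rw [map_sub, PowerSeries.coeff_one, PowerSeries.coeff_X_pow, if_pos h2, if_neg (by omega), sub_zero]
  · rw [PowerSeries.coeff_one, if_pos h2]
  · subst h5
    have h7 : k = f := Nat.pow_right_injective hℓ.two_le h4
    rw [map_sub, PowerSeries.coeff_one, PowerSeries.coeff_X_pow, if_neg h2, if_pos h7, zero_sub]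
  · exfalso
    have h7 : ℓ ∣ p ^ k := by
      rw [h4]
      exact dvd_pow_self _ hf.ne'
    exact h5 ((Nat.prime_dvd_prime_iff_eq hℓ hp).mp (hℓ.dvd_of_dvd_pow h7))
  · subst h6
    have h7 : k ≠ f := fun h => h4 (by rw [h])
    rw [map_sub, PowerSeries.coeff_one, PowerSeries.coeff_X_pow, if_neg h2, if_neg h7, sub_zero]
  · rw [PowerSeries.coeff_one, if_neg h2]

theorem isMultiplicative_efA {ℓ f : ℕ} (hℓ : ℓ.Prime) (hf : 0 < f) :
    (efA (ℓ ^ f)).IsMultiplicative := by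
  have hν : ℓ ^ f ≠ 1 := (Nat.one_lt_pow hf.ne' hℓ.one_lt).ne'
  rw [ArithmeticFunction.IsMultiplicative.iff_ne_zero]
  refine ⟨by rw [efA_apply one_ne_zero, ef, if_pos rfl], ?_⟩
  intro m n hm hn hmn
  rw [efA_apply hm, efA_apply hn, efA_apply (mul_ne_zero hm hn)]
  by_cases h1 : m = 1
  · subst h1
    rw [one_mul]
    simp [ef]
  by_cases h2 : n = 1
  · subst h2
    rw [mul_one]
    simp [ef]
  have h3 : m * n ≠ 1 := by
    intro h
    exact h1 (Nat.eq_one_of_mul_eq_one_right h)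
  have h4 : m * n ≠ ℓ ^ f := by
    intro h
    have hm' : m ∣ ℓ ^ f := ⟨n, h.symm⟩
    have hn' : n ∣ ℓ ^ f := ⟨m, by rw [← h, mul_comm]⟩
    obtain ⟨i, -, rfl⟩ := (Nat.dvd_prime_pow hℓ).mp hm'
    obtain ⟨j, -, rfl⟩ := (Nat.dvd_prime_pow hℓ).mp hn'
    have hi : i ≠ 0 := by rintro rfl; exact h1 (pow_zero _)
    have hj : j ≠ 0 := by rintro rfl; exact h2 (pow_zero _)
    have h5 : ℓ ∣ Nat.gcd (ℓ ^ i) (ℓ ^ j) := Nat.dvd_gcd (dvd_pow_self _ hi) (dvd_pow_self _ hj)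
    rw [hmn] at h5
    exact hℓ.one_lt.ne' (Nat.dvd_one.mp h5)
  have h6 : ¬ (m = ℓ ^ f ∧ n = ℓ ^ f) := by
    rintro ⟨h, h'⟩
    rw [h, h', Nat.coprime_self] at hmn
    exact hν hmn
  simp only [ef, if_neg h1, if_neg h2, if_neg h3, if_neg h4]
  by_cases h7 : m = ℓ ^ f
  · rw [if_neg (fun h => h6 ⟨h7, h⟩), mul_zero]
  · rw [if_neg h7, zero_mul]

/-! ### The coefficients of the zeta functions -/

section Field

variable (F : Type*) [Field F] [NumberField F]

/-- the coefficients of the Dedekind zeta function of `F` -/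
def zcA : ArithmeticFunction ℂ :=
  toArithmeticFunction fun n => (Nat.card {I : Ideal (𝓞 F) // Ideal.absNorm I = n} : ℂ)

/-- the coefficients of the product of the factors `1 - Nv ^ (-s)` over the places dividing `N` -/
def badE (N : ℕ) : ArithmeticFunction ℂ := ∏ v ∈ above F N, efA (Ideal.absNorm v.asIdeal)

variable {F}

theorem zcA_apply {n : ℕ} (hn : n ≠ 0) : zcA F n = (idealCount F n : ℂ) := by
  change (if n = 0 then 0 else _) = _
  rw [if_neg hn]
  rfl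

theorem isMultiplicative_zcA : (zcA F).IsMultiplicative := by
  rw [ArithmeticFunction.IsMultiplicative.iff_ne_zero]
  refine ⟨by rw [zcA_apply one_ne_zero, idealCount_one, Nat.cast_one], ?_⟩
  intro m n hm hn hmn
  rw [zcA_apply hm, zcA_apply hn, zcA_apply (mul_ne_zero hm hn), idealCount_mul F hmn, Nat.cast_mul]

/-- every place has a residue characteristic -/
theorem exists_char (v : HeightOneSpectrum (𝓞 F)) {N : ℕ} (hN : N ≠ 0)
    (h : (N : 𝓞 F) ∈ v.asIdeal) : ∃ ℓ : ℕ, ℓ.Prime ∧ ℓ ∣ N ∧ v ∈ above F ℓ := by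
  induction N using Nat.recOnMul with
  | zero => exact absurd rfl hN
  | one =>
    exfalso
    apply v.isPrime.ne_top
    rw [Ideal.eq_top_iff_one]
    simpa using h
  | prime p hp => exact ⟨p, hp, dvd_rfl, (mem_above hp.ne_zero).mpr h⟩
  | mul a b iha ihb =>
    rw [Nat.cast_mul] at h
    rcases v.isPrime.mem_or_mem h with h | h
    · obtain ⟨ℓ, h1, h2, h3⟩ := iha (left_ne_zero_of_mul hN) h
      exact ⟨ℓ, h1, h2.mul_right b, h3⟩
    · obtain ⟨ℓ, h1, h2, h3⟩ := ihb (right_ne_zero_of_mul hN) h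
      exact ⟨ℓ, h1, h2.mul_left a, h3⟩

theorem prime_unique' {v : HeightOneSpectrum (𝓞 F)} {p q : ℕ} (hp : p.Prime) (hq : q.Prime)
    (h : (p : 𝓞 F) ∈ v.asIdeal) (h' : (q : 𝓞 F) ∈ v.asIdeal) : p = q := by
  by_contra hne
  have h1 : IsCoprime (p : ℤ) (q : ℤ) :=
    Nat.isCoprime_iff_coprime.mpr ((Nat.coprime_primes hp hq).mpr hne)
  obtain ⟨a, b, hab⟩ := h1
  apply v.isPrime.ne_top
  rw [Ideal.eq_top_iff_one]
  have h2 : (1 : 𝓞 F) = (a : 𝓞 F) * (p : 𝓞 F) + (b : 𝓞 F) * (q : 𝓞 F) := by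
    exact_mod_cast congrArg (fun z : ℤ => (z : 𝓞 F)) hab.symm
  rw [h2]
  exact v.asIdeal.add_mem (v.asIdeal.mul_mem_left _ h) (v.asIdeal.mul_mem_left _ h')

theorem char_unique {v : HeightOneSpectrum (𝓞 F)} {p q : ℕ} (hp : p.Prime) (hq : q.Prime)
    (h : v ∈ above F p) (h' : v ∈ above F q) : p = q :=
  prime_unique' hp hq ((mem_above hp.ne_zero).mp h) ((mem_above hq.ne_zero).mp h')

theorem above_mono {p N : ℕ} (hN : N ≠ 0) (h : p ∣ N) : above F p ⊆ above F N := by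
  intro v hv
  have hp : p ≠ 0 := ne_zero_of_dvd_ne_zero hN h
  rw [mem_above hp] at hv
  rw [mem_above hN]
  obtain ⟨c, rfl⟩ := h
  rw [Nat.cast_mul]
  exact Ideal.mul_mem_right _ _ hv

theorem isMultiplicative_badE {N : ℕ} (hN : N ≠ 0) : (badE F N).IsMultiplicative := by
  unfold badE
  refine ArithmeticFunction.isMultiplicative_finsetProd _ _ fun v hv => ?_
  obtain ⟨ℓ, hℓ, -, h⟩ := exists_char v hN ((mem_above hN).mp hv)
  rw [absNorm_eq hℓ ((mem_above hℓ.ne_zero).mp h)]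
  exact isMultiplicative_efA hℓ (fdeg_pos v)

theorem Sp_badE {p N : ℕ} (hp : p.Prime) (hN : N ≠ 0) :
    Sp p (badE F N) = if p ∣ N then ∏ v ∈ above F p, (1 - X ^ fdeg v) else 1 := by
  classical
  have key : ∀ v ∈ above F N, Sp p (efA (Ideal.absNorm v.asIdeal)) =
      if v ∈ above F p then 1 - X ^ fdeg v else 1 := by
    intro v hv
    obtain ⟨ℓ, hℓ, -, h⟩ := exists_char v hN ((mem_above hN).mp hv)
    rw [absNorm_eq hℓ ((mem_above hℓ.ne_zero).mp h), Sp_efA hp hℓ (fdeg_pos v)]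
    have h1 : ℓ = p ↔ v ∈ above F p :=
      ⟨fun h2 => h2 ▸ h, fun h2 => char_unique hℓ hp h h2⟩
    simp only [h1]
  rw [badE, Sp_prod hp, Finset.prod_congr rfl key, Finset.prod_ite, Finset.prod_const_one, mul_one]
  split_ifs with hpN
  · refine Finset.prod_congr ?_ fun _ _ => rfl
    ext v
    rw [Finset.mem_filter]
    exact ⟨fun h => h.2, fun h => ⟨above_mono hN hpN h, h⟩⟩
  · refine Finset.prod_eq_one fun v hv => ?_
    exfalso
    rw [Finset.mem_filter] at hv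
    obtain ⟨ℓ, hℓ, hℓN, h⟩ := exists_char v hN ((mem_above hN).mp hv.1)
    exact hpN (char_unique hℓ hp h hv.2 ▸ hℓN)

end Field

/-! ### The comparison -/

/-- The local factor of the Dedekind zeta function (block EulerK). -/
def LocalStmt (F : Type*) [Field F] [NumberField F] : Prop :=
  ∀ p : ℕ, p.Prime → Sp p (zcA F) * ∏ v ∈ above F p, (1 - X ^ fdeg v) = 1

theorem Sp_zcA_mul_badE {F : Type*} [Field F] [NumberField F] (h : LocalStmt F) {p N : ℕ}
    (hp : p.Prime) (hN : N ≠ 0) :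
    Sp p (zcA F * badE F N) = if p ∣ N then 1 else Sp p (zcA F) := by
  rw [Sp_mul hp, Sp_badE hp hN]
  split_ifs
  · exact h p hp
  · rw [mul_one]

/-- the comparison, for abstract multiplicative functions -/
theorem eq_of_Sp {A₁ A₂ A₃ A₄ b b' : ArithmeticFunction ℂ} (m₁ : A₁.IsMultiplicative)
    (m₂ : A₂.IsMultiplicative) (m₃ : A₃.IsMultiplicative) (m₄ : A₄.IsMultiplicative)
    (hb : b.IsMultiplicative) (hb' : b'.IsMultiplicative)
    (h : ∀ p : ℕ, p.Prime → Sp p A₁ * Sp p A₄ * Sp p A₄ =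
      Sp p A₂ * Sp p A₃ * Sp p A₃ * (Sp p b * Sp p b')) :
    A₁ * A₄ * A₄ = A₂ * A₃ * A₃ * (b * b') := by
  refine ext_Sp ((m₁.mul m₄).mul m₄) (((m₂.mul m₃).mul m₃).mul (hb.mul hb')) fun p hp => ?_
  rw [Sp_mul hp (A₁ * A₄) A₄, Sp_mul hp A₁ A₄, Sp_mul hp (A₂ * A₃ * A₃) (b * b'),
    Sp_mul hp (A₂ * A₃) A₃, Sp_mul hp A₂ A₃, Sp_mul hp b b']
  exact h p hp

/-- **The comparison of the arithmetic functions**, from the comparison at the good primes. -/
theorem main_of {K₁ K₂ K₃ K₄ : Type*} [Field K₁] [NumberField K₁] [Field K₂] [NumberField K₂]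
    [Field K₃] [NumberField K₃] [Field K₄] [NumberField K₄]
    (h₁ : LocalStmt K₁) (h₂ : LocalStmt K₂) (h₃ : LocalStmt K₃) (h₄ : LocalStmt K₄)
    {N : ℕ} (hN : N ≠ 0) {b b' : ArithmeticFunction ℂ} (hb : b.IsMultiplicative)
    (hb' : b'.IsMultiplicative) (hbad : ∀ p : ℕ, p.Prime → p ∣ N → Sp p b = 1 ∧ Sp p b' = 1)
    (hgood : ∀ p : ℕ, p.Prime → ¬ p ∣ N →
      Sp p (zcA K₁) * Sp p (zcA K₄) * Sp p (zcA K₄) =
        Sp p (zcA K₂) * Sp p (zcA K₃) * Sp p (zcA K₃) * (Sp p b * Sp p b')) :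
    zcA K₁ * badE K₁ N * (zcA K₄ * badE K₄ N) * (zcA K₄ * badE K₄ N) =
      zcA K₂ * badE K₂ N * (zcA K₃ * badE K₃ N) * (zcA K₃ * badE K₃ N) * (b * b') := by
  refine eq_of_Sp (isMultiplicative_zcA.mul (isMultiplicative_badE hN))
    (isMultiplicative_zcA.mul (isMultiplicative_badE hN))
    (isMultiplicative_zcA.mul (isMultiplicative_badE hN))
    (isMultiplicative_zcA.mul (isMultiplicative_badE hN)) hb hb' fun p hp => ?_
  rw [Sp_zcA_mul_badE h₁ hp hN, Sp_zcA_mul_badE h₂ hp hN,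
    Sp_zcA_mul_badE h₃ hp hN, Sp_zcA_mul_badE h₄ hp hN]
  split_ifs with hpN
  · rw [(hbad p hp hpN).1, (hbad p hp hpN).2]
    simp only [mul_one]
  · exact hgood p hp hpN

/-- The comparison at a good prime, from the polynomial identity. -/
theorem good_of {K₁ K₂ K₃ K₄ : Type*} [Field K₁] [NumberField K₁] [Field K₂] [NumberField K₂]
    [Field K₃] [NumberField K₃] [Field K₄] [NumberField K₄]
    (h₁ : LocalStmt K₁) (h₂ : LocalStmt K₂) (h₃ : LocalStmt K₃) (h₄ : LocalStmt K₄)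
    {p : ℕ} (hp : p.Prime) {B B' Q Q' : PowerSeries ℂ} (hB : B * Q = 1) (hB' : B' * Q' = 1)
    (h : (∏ v ∈ above K₁ p, (1 - X ^ fdeg v)) * (∏ v ∈ above K₄ p, (1 - X ^ fdeg v)) ^ 2 =
      (∏ v ∈ above K₂ p, (1 - X ^ fdeg v)) * (∏ v ∈ above K₃ p, (1 - X ^ fdeg v)) ^ 2 * Q * Q') :
    Sp p (zcA K₁) * Sp p (zcA K₄) * Sp p (zcA K₄) =
      Sp p (zcA K₂) * Sp p (zcA K₃) * Sp p (zcA K₃) * (B * B') := by
  have e₁ := h₁ p hp
  have e₂ := h₂ p hp
  have e₃ := h₃ p hp
  have e₄ := h₄ p hp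
  generalize Sp p (zcA K₁) = S₁ at *
  generalize Sp p (zcA K₂) = S₂ at *
  generalize Sp p (zcA K₃) = S₃ at *
  generalize Sp p (zcA K₄) = S₄ at *
  generalize (∏ v ∈ above K₁ p, (1 - X ^ fdeg v) : PowerSeries ℂ) = P₁ at *
  generalize (∏ v ∈ above K₂ p, (1 - X ^ fdeg v) : PowerSeries ℂ) = P₂ at *
  generalize (∏ v ∈ above K₃ p, (1 - X ^ fdeg v) : PowerSeries ℂ) = P₃ at *
  generalize (∏ v ∈ above K₄ p, (1 - X ^ fdeg v) : PowerSeries ℂ) = P₄ at *
  calc S₁ * S₄ * S₄ = S₁ * S₄ * S₄ * ((S₂ * P₂) * (S₃ * P₃) ^ 2 * (B * Q) * (B' * Q')) := by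
        rw [e₂, e₃, hB, hB']; ring
    _ = S₁ * S₄ * S₄ * (P₂ * P₃ ^ 2 * Q * Q') * (S₂ * S₃ * S₃ * (B * B')) := by ring
    _ = S₁ * S₄ * S₄ * (P₁ * P₄ ^ 2) * (S₂ * S₃ * S₃ * (B * B')) := by rw [h]
    _ = (S₁ * P₁) * (S₄ * P₄) ^ 2 * (S₂ * S₃ * S₃ * (B * B')) := by ring
    _ = S₂ * S₃ * S₃ * (B * B') := by rw [e₁, e₄]; ring

end Fermat.Agent.Classic.Zeta

end
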