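import Mathlib
import Fermat.Agent.Classic.Level.Z5Main
import Fermat.Agent.LT.End.Galois
import Fermat.Prelude.Def_ModularForm_EisensteinChiNegThree
import Fermat.Prelude.Def_LanglandsTunnell_ExplicitLift

/-!
# Eigensystems as multiplicative functions, and the determinant of the section (plan Z, block Z5)
-/

set_option autoImplicit false

noncomputable section

open NumberField IsDedekindDomain Fermat.Agent.FrobDensity Fermat.Agent.Classic.Disc
open EisensteinWeightOne FLT.ExplicitLift
open PowerSeries (X)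
open scoped LSeries.notation

namespace Fermat.Agent.Classic.Zeta

/-! ### Eigensystems -/

/-- An eigensystem is multiplicative. -/
theorem eigensystem_mul {R : Type*} [CommRing R] {e b : ℕ → R} (h : FormalHecke.IsEigensystem e b)
    (m : ℕ) : m ≠ 0 → ∀ n : ℕ, m.Coprime n → b (m * n) = b m * b n := by
  induction m using Nat.strong_induction_on with
  | _ m ih =>
    intro hm n hmn
    rcases eq_or_ne m 1 with rfl | h1
    · rw [one_mul, h.1, one_mul]
    · obtain ⟨ℓ, hℓ, m', rfl⟩ := Nat.exists_prime_and_dvd h1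
      have hm' : m' ≠ 0 := right_ne_zero_of_mul hm
      have hlt : m' < ℓ * m' := by
        have := hℓ.two_le
        nlinarith [Nat.pos_of_ne_zero hm']
      have hℓn : ¬ ℓ ∣ n := by
        intro h2
        have h3 : ℓ ∣ Nat.gcd (ℓ * m') n := Nat.dvd_gcd (dvd_mul_right _ _) h2
        rw [hmn] at h3
        exact hℓ.one_lt.ne' (Nat.dvd_one.mp h3)
      have hco : m'.Coprime n := Nat.Coprime.coprime_dvd_left (dvd_mul_left _ _) hmn
      have e1 := h.2 ℓ hℓ (m' * n)
      have e2 := h.2 ℓ hℓ m'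
      rw [ih m' hlt hm' n hco] at e1
      have e3 : (if ℓ ∣ m' * n then b (m' * n / ℓ) else 0) =
          (if ℓ ∣ m' then b (m' / ℓ) else 0) * b n := by
        by_cases hd : ℓ ∣ m'
        · obtain ⟨c, rfl⟩ := hd
          rw [if_pos ((dvd_mul_right ℓ c).mul_right n), if_pos (dvd_mul_right ℓ c), mul_assoc,
            Nat.mul_div_cancel_left _ hℓ.pos, Nat.mul_div_cancel_left _ hℓ.pos]
          have hc : c ≠ 0 := right_ne_zero_of_mul hm'
          refine ih c ?_ hc n (Nat.Coprime.coprime_dvd_left (dvd_mul_left _ _) hco)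
          have := hℓ.two_le
          nlinarith [Nat.pos_of_ne_zero hc]
        · rw [if_neg hd, if_neg, zero_mul]
          intro h2
          rcases hℓ.dvd_mul.mp h2 with h3 | h3
          · exact hd h3
          · exact hℓn h3
      rw [e3] at e1
      rw [mul_assoc]
      linear_combination e1 - b n * e2

/-- the arithmetic function of a sequence -/
def bA (b : ℕ → ℂ) : ArithmeticFunction ℂ := toArithmeticFunction b

theorem bA_apply {b : ℕ → ℂ} {n : ℕ} (hn : n ≠ 0) : bA b n = b n := by
  change (if n = 0 then 0 else b n) = _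
  rw [if_neg hn]

theorem isMultiplicative_bA {R : Type*} [CommRing R] {e b : ℕ → R}
    (h : FormalHecke.IsEigensystem e b) (φ : R →+* ℂ) :
    (bA fun n => φ (b n)).IsMultiplicative := by
  rw [ArithmeticFunction.IsMultiplicative.iff_ne_zero]
  refine ⟨by rw [bA_apply one_ne_zero, h.1, map_one], ?_⟩
  intro m n hm hn hmn
  rw [bA_apply hm, bA_apply hn, bA_apply (mul_ne_zero hm hn), eigensystem_mul h m hm n hmn, map_mul]

theorem eigensystem_pow {R : Type*} [CommRing R] {e b : ℕ → R} (h : FormalHecke.IsEigensystem e b)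
    {p : ℕ} (hp : p.Prime) (k : ℕ) :
    b (p ^ (k + 2)) = b p * b (p ^ (k + 1)) - e p * b (p ^ k) := by
  have h1 := h.2 p hp (p ^ (k + 1))
  rw [if_pos (dvd_pow_self p (Nat.succ_ne_zero k)), pow_succ p k, Nat.mul_div_cancel _ hp.pos,
    ← pow_succ] at h1
  rw [show p ^ (k + 2) = p * p ^ (k + 1) by ring]
  linear_combination h1

/-- The local power series of an eigensystem. -/
theorem Sp_bA {R : Type*} [CommRing R] {e b : ℕ → R} (h : FormalHecke.IsEigensystem e b)
    (φ : R →+* ℂ) {p : ℕ} (hp : p.Prime) :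
    Sp p (bA fun n => φ (b n)) *
      (1 - PowerSeries.C (φ (b p)) * X + PowerSeries.C (φ (e p)) * X ^ 2) = 1 := by
  have hc : ∀ k, PowerSeries.coeff k (Sp p (bA fun n => φ (b n))) = φ (b (p ^ k)) := by
    intro k
    rw [coeff_Sp, bA_apply (pow_ne_zero _ hp.ne_zero)]
  ext k
  rw [mul_add, mul_sub, mul_one, ← mul_assoc, ← mul_assoc, mul_comm _ (PowerSeries.C (φ (b p))),
    mul_comm _ (PowerSeries.C (φ (e p))), mul_assoc, mul_assoc, map_add, map_sub,
    PowerSeries.coeff_C_mul, PowerSeries.coeff_C_mul]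
  match k with
  | 0 =>
    rw [hc, pow_zero, h.1, map_one, PowerSeries.coeff_zero_mul_X, PowerSeries.coeff_mul_X_pow',
      if_neg (by omega)]
    simp
  | 1 =>
    rw [hc, pow_one, show (1 : ℕ) = 0 + 1 from rfl, PowerSeries.coeff_succ_mul_X, hc, pow_zero, h.1,
      PowerSeries.coeff_mul_X_pow', if_neg (by omega), PowerSeries.coeff_one]
    simp
  | k + 2 =>
    rw [hc, show k + 2 = (k + 1) + 1 from rfl, PowerSeries.coeff_succ_mul_X, hc,
      PowerSeries.coeff_mul_X_pow', if_pos (by omega), show k + 1 + 1 - 2 = k by omega, hc,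
      PowerSeries.coeff_one, if_neg (by omega), show k + 1 + 1 = k + 2 from rfl,
      eigensystem_pow h hp k, map_sub, map_mul, map_mul]
    ring

/-- The local power series at a prime where the eigensystem vanishes. -/
theorem Sp_bA_eq_one {R : Type*} [CommRing R] {e b : ℕ → R} (h : FormalHecke.IsEigensystem e b)
    (φ : R →+* ℂ) {p : ℕ} (hp : p.Prime) (h0 : b p = 0) (he : e p = 0) :
    Sp p (bA fun n => φ (b n)) = 1 := by
  have h1 := Sp_bA h φ hp
  rwa [h0, he, map_zero, map_zero, zero_mul, zero_mul, sub_zero, add_zero, mul_one] at h1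

/-! ### The determinant of the section -/

section Section

variable {Ψ : GL (Fin 2) (ZMod 3) →* GL (Fin 2) (ℤ√(-2))}

theorem det_map_red (hΨ : ∀ g, Matrix.GeneralLinearGroup.map red (Ψ g) = g)
    (g : GL (Fin 2) (ZMod 3)) :
    red ((Ψ g : GL (Fin 2) (ℤ√(-2))) : Matrix (Fin 2) (Fin 2) (ℤ√(-2))).det =
      (g : Matrix (Fin 2) (Fin 2) (ZMod 3)).det := by
  conv_rhs => rw [← hΨ g]
  rw [Matrix.det_fin_two, Matrix.det_fin_two, map_sub, map_mul, map_mul]
  rfl

theorem unit_zsqrtd (z : ℤ√(-2)) (h : IsUnit z) : z = 1 ∨ z = -1 := by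
  have h1 : z.norm = 1 := (Zsqrtd.norm_eq_one_iff' (by norm_num) z).mpr h
  rw [Zsqrtd.norm_def] at h1
  have h2 : z.im = 0 := by
    by_contra hne
    have : 1 ≤ z.im * z.im := by
      have : 0 < z.im * z.im := mul_self_pos.mpr hne
      omega
    nlinarith [mul_self_nonneg z.re]
  have h3 : z.re * z.re = 1 := by rw [h2] at h1; linarith
  rcases mul_self_eq_one_iff.mp h3 with h4 | h4
  · left; ext <;> simp [h2, h4]
  · right; ext <;> simp [h2, h4]

/-- **The determinant of the section.** -/
theorem det_section (hΨ : ∀ g, Matrix.GeneralLinearGroup.map red (Ψ g) = g) {p : ℕ}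
    (g : GL (Fin 2) (ZMod 3)) (hg : (g : Matrix (Fin 2) (Fin 2) (ZMod 3)).det = (p : ZMod 3)) :
    ((Ψ g : GL (Fin 2) (ℤ√(-2))) : Matrix (Fin 2) (Fin 2) (ℤ√(-2))).det =
      ((chiNegThree p : ℤ) : ℤ√(-2)) := by
  have h1 := det_map_red hΨ g
  have hu : IsUnit ((Ψ g : GL (Fin 2) (ℤ√(-2))) : Matrix (Fin 2) (Fin 2) (ℤ√(-2))).det :=
    (Matrix.isUnit_iff_isUnit_det _).mp (Ψ g).isUnit
  have hcast : (p : ZMod 3) = ((p % 3 : ℕ) : ZMod 3) := (ZMod.natCast_mod p 3).symm
  have hlt : p % 3 < 3 := Nat.mod_lt _ (by norm_num)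
  rcases unit_zsqrtd _ hu with h | h
  · rw [h, map_one, hg, hcast] at h1
    have h2 : p % 3 = 1 := by
      interval_cases hp : p % 3
      · exact absurd h1 (by decide)
      · rfl
      · exact absurd h1 (by decide)
    rw [h, chiNegThree, if_pos h2, Int.cast_one]
  · rw [h, map_neg, map_one, hg, hcast] at h1
    have h2 : p % 3 = 2 := by
      interval_cases hp : p % 3
      · exact absurd h1 (by decide)
      · exact absurd h1 (by decide)
      · rfl
    rw [h, chiNegThree, if_neg (by omega), if_pos h2, Int.cast_neg, Int.cast_one]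

end Section

end Fermat.Agent.Classic.Zeta

end
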