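import Fermat.Agent.Classic.Level.EmbPlaces
import Fermat.Agent.Classic.Level.Disc.Defs

/-!
# Embeddings in `ℚ̄` and places above a good prime, with `above` and `fdeg`
-/

set_option autoImplicit false

namespace Fermat.Agent.Classic.Emb

open NumberField IsDedekindDomain Fermat.Agent.Frob Fermat.Agent.FrobDensity
open Fermat.Agent.LT.Tower.Fr Fermat.Agent.Classic.Disc

variable {F : Type*} [Field F] [NumberField F] {A : ValuationSubring (AlgebraicClosure ℚ)}
  {p : ℕ} {σ : GQ}

/-- **Places and embeddings**: `∑_{v | p, f_v | k} f_v` is the number of embeddings of `F` fixed by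
the `k`-th power of Frobenius. -/
theorem sum_fdeg (hp : p.Prime) (hG : Good F p) (hA : A.LiesOverPrime p)
    (hσ : A.IsFrobeniusAt σ p) (k : ℕ) :
    ∑ v ∈ above F p with fdeg v ∣ k, fdeg v =
      Nat.card {j : F →+* AlgebraicClosure ℚ // ∀ x, (σ ^ k) (j x) = j x} :=
  sum_deg hp hG hA hσ (fun _ => mem_above hp.ne_zero)
    (fun _ hv => absNorm_eq hp ((mem_above hp.ne_zero).mp hv)) k

/-- The same for all primes not dividing a non-zero integer. -/
theorem exists_sum_fdeg (F : Type*) [Field F] [NumberField F] :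
    ∃ D : ℕ, D ≠ 0 ∧ ∀ p : ℕ, p.Prime → ¬ p ∣ D →
      ∀ A : ValuationSubring (AlgebraicClosure ℚ), A.LiesOverPrime p →
      ∀ σ : GQ, A.IsFrobeniusAt σ p → ∀ k : ℕ,
        ∑ v ∈ above F p with fdeg v ∣ k, fdeg v =
          Nat.card {j : F →+* AlgebraicClosure ℚ // ∀ x, (σ ^ k) (j x) = j x} := by
  obtain ⟨D, hD, h⟩ := exists_good F
  exact ⟨D, hD, fun p hp hpD _ hA _ hσ k => sum_fdeg hp (h p hp hpD) hA hσ k⟩

end Fermat.Agent.Classic.Emb
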