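import Fermat.Agent.LT.Tower.Frob

/-!
# Embeddings in `ℚ̄` and places above a good prime

`F` a number field, `p` a prime such that distinct embeddings of `F` have distinct reductions
(`Good F p`: all but finitely many `p`), `A` a place of `ℚ̄` above `p`, `σ` a Frobenius at `A`.

* `natCard_over` : the place `v` of degree `f` lies under `f` embeddings;
* `sum_deg` : `∑_{v | p, f_v | k} f_v` is the number of embeddings fixed by `σ ^ k`.
-/

set_option autoImplicit false

namespace Fermat.Agent.Classic.Emb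

open NumberField IsDedekindDomain Fermat.Agent.Frob Fermat.Agent.FrobDensity
open Fermat.Agent.LT.Tower.Fr

variable {F : Type*} [Field F] [NumberField F] {A : ValuationSubring (AlgebraicClosure ℚ)}
  {v : HeightOneSpectrum (𝓞 F)} {p : ℕ} {σ : GQ}

lemma pos_of_absNorm {f : ℕ} (hf : Ideal.absNorm v.asIdeal = p ^ f) : 0 < f := by
  rcases Nat.eq_zero_or_pos f with rfl | h
  · rw [pow_zero, Ideal.absNorm_eq_one_iff] at hf
    exact absurd hf v.isPrime.ne_top
  · exact h

/-- Frobenius powers of an embedding over `v` are over `v`. -/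
lemma Over.frob_pow {i : F →+* AlgebraicClosure ℚ} (h : Over i A v)
    (hσ : A.IsFrobeniusAt σ p) (k : ℕ) : Over ((gh (σ ^ k)).comp i) A v := by
  have hr : ∀ x : 𝓞 F, redτ A ((gh (σ ^ k)).comp i) x = redτ A i x ^ p ^ k :=
    redτ_frob_pow hσ i k
  unfold Over at h ⊢
  rw [← h]
  ext x
  rw [RingHom.mem_ker, RingHom.mem_ker, hr]
  rcases eq_or_ne (p ^ k) 0 with h0 | h0
  · exfalso
    have h1 := hr 1
    have h2 := hr 0
    rw [h0, pow_zero, map_zero] at h2
    exact zero_ne_one h2
  · rw [pow_eq_zero_iff h0]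

omit [NumberField F] in
lemma comp_pow_add (i : F →+* AlgebraicClosure ℚ) (a b : ℕ) :
    (gh (σ ^ (a + b))).comp i = (gh (σ ^ a)).comp ((gh (σ ^ b)).comp i) := by
  ext x
  rw [pow_add]
  rfl

/-- **The number of embeddings over `v` is the degree of `v`.** -/
theorem natCard_over (hp : p.Prime) (hG : Good F p) (hA : A.LiesOverPrime p)
    (hσ : A.IsFrobeniusAt σ p) (hv : (p : 𝓞 F) ∈ v.asIdeal) {f : ℕ}
    (hf : Ideal.absNorm v.asIdeal = p ^ f) :
    Nat.card {τ : F →+* AlgebraicClosure ℚ // Over τ A v} = f := by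
  have hf0 := pos_of_absNorm hf
  obtain ⟨i, hi⟩ := exists_redτ hp hA hv
  have hi' : Over i A v := hi
  have hfi : (gh (σ ^ f)).comp i = i := (hi'.frob_pow_comp_iff hp hG hA hσ hf f).mpr dvd_rfl
  have hb : Function.Bijective (fun j : Fin f =>
      (⟨(gh (σ ^ (j : ℕ))).comp i, Over.frob_pow hi' hσ j⟩ :
        {τ : F →+* AlgebraicClosure ℚ // Over τ A v})) := by
    constructor
    · have key : ∀ a b : ℕ, a ≤ b → b < f → (gh (σ ^ a)).comp i = (gh (σ ^ b)).comp i →
          a = b := by
        intro a b hab hb h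
        obtain ⟨c, rfl⟩ := Nat.exists_eq_add_of_le hab
        rw [comp_pow_add] at h
        have h1 : i = (gh (σ ^ c)).comp i := by
          ext x
          exact (σ ^ a).injective (RingHom.congr_fun h x)
        have h2 := (hi'.frob_pow_comp_iff hp hG hA hσ hf c).mp h1.symm
        have h3 : c = 0 := Nat.eq_zero_of_dvd_of_lt h2 (by omega)
        omega
      intro a b h
      have h1 := congrArg Subtype.val h
      rcases le_total (a : ℕ) b with hab | hab
      · exact Fin.ext (key a b hab b.2 h1)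
      · exact Fin.ext (key b a hab a.2 h1.symm).symm
    · rintro ⟨τ, hτ⟩
      have : Fact p.Prime := ⟨hp⟩
      have hch := charP_residue hp hA
      let _ := fieldQuot v
      let φ : 𝓞 F ⧸ v.asIdeal →+* IsLocalRing.ResidueField A :=
        Ideal.Quotient.lift v.asIdeal (redτ A i) (fun a ha => (hi'.mem_iff a).mp ha)
      let φ' : 𝓞 F ⧸ v.asIdeal →+* IsLocalRing.ResidueField A :=
        Ideal.Quotient.lift v.asIdeal (redτ A τ) (fun a ha => (hτ.mem_iff a).mp ha)
      obtain ⟨n, hn⟩ := exists_pow_of_finite p φ φ'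
      have h2 : τ = (gh (σ ^ n)).comp i := by
        apply hG A hA
        ext x
        rw [redτ_frob_pow hσ]
        exact hn (Ideal.Quotient.mk v.asIdeal x)
      have h3 : ∀ m : ℕ, (gh (σ ^ (f * m))).comp i = i := fun m =>
        (hi'.frob_pow_comp_iff hp hG hA hσ hf _).mpr (Dvd.intro _ rfl)
      refine ⟨⟨n % f, Nat.mod_lt _ hf0⟩, Subtype.ext ?_⟩
      change (gh (σ ^ (n % f))).comp i = τ
      rw [h2]
      conv_rhs => rw [← Nat.mod_add_div n f, comp_pow_add, h3]
  rw [← Nat.card_congr (Equiv.ofBijective _ hb), Nat.card_eq_fintype_card, Fintype.card_fin]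

/-- **Places and embeddings**: `∑_{v | p, f_v | k} f_v` is the number of embeddings of `F` fixed by
the `k`-th power of Frobenius. -/
theorem sum_deg (hp : p.Prime) (hG : Good F p) (hA : A.LiesOverPrime p)
    (hσ : A.IsFrobeniusAt σ p) {S : Finset (HeightOneSpectrum (𝓞 F))}
    (hS : ∀ v, v ∈ S ↔ (p : 𝓞 F) ∈ v.asIdeal) {f : HeightOneSpectrum (𝓞 F) → ℕ}
    (hf : ∀ v ∈ S, Ideal.absNorm v.asIdeal = p ^ f v) (k : ℕ) :
    ∑ v ∈ S with f v ∣ k, f v =
      Nat.card {τ : F →+* AlgebraicClosure ℚ // ∀ x, (σ ^ k) (τ x) = τ x} := by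
  classical
  have : Finite (F →+* AlgebraicClosure ℚ) := finite_embeddings
  let _ : Fintype (F →+* AlgebraicClosure ℚ) := Fintype.ofFinite _
  choose V hV using fun τ : F →+* AlgebraicClosure ℚ => exists_over_of_liesOver τ hp hA
  have hVS : ∀ τ, V τ ∈ S := fun τ => (hS _).mpr ((hV τ).natCast_mem_iff.mpr hA)
  have hVu : ∀ τ v, V τ = v ↔ Over τ A v := fun τ v =>
    ⟨fun h => h ▸ hV τ, fun h => (hV τ).unique h⟩
  rw [Nat.card_eq_fintype_card, Fintype.card_subtype,
    Finset.card_eq_sum_card_fiberwise (f := V) (t := S) (fun τ _ => hVS τ), Finset.sum_filter]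
  refine Finset.sum_congr rfl fun v hv => ?_
  have hfix : ∀ τ, V τ = v → ((∀ x, (σ ^ k) (τ x) = τ x) ↔ f v ∣ k) := by
    intro τ hτ
    rw [← ((hVu τ v).mp hτ).frob_pow_comp_iff hp hG hA hσ (hf v hv) k]
    exact ⟨fun h => RingHom.ext h, fun h x => RingHom.congr_fun h x⟩
  split_ifs with hk
  · rw [← natCard_over hp hG hA hσ ((hS v).mp hv) (hf v hv), Nat.card_eq_fintype_card,
      Fintype.card_subtype]
    congr 1
    ext τ
    simp only [Finset.mem_filter, Finset.mem_univ, true_and]
    rw [hVu]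
    exact ⟨fun h => ⟨(hfix τ ((hVu τ v).mpr h)).mpr hk, h⟩, fun h => h.2⟩
  · symm
    rw [Finset.card_eq_zero, Finset.filter_eq_empty_iff]
    intro τ hτ h
    rw [Finset.mem_filter] at hτ
    exact hk ((hfix τ h).mp hτ.2)

end Fermat.Agent.Classic.Emb
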