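import Fermat.Agent.Classic.Level.Disc.Defs
import Fermat.Agent.Frob.DensityAnalytic

/-!
# The formal Euler factor of the Dedekind zeta function

`(∑_e #{I : N I = p ^ e} X ^ e) * ∏_{v | p} (1 - X ^ f_v) = 1`.
-/

set_option autoImplicit false

open NumberField IsDedekindDomain Ideal

namespace Fermat.Agent.Classic.Zeta

variable {F : Type*} [Field F] [NumberField F]

namespace EulerL

/-- the ideals of norm `n` prime to the places in `T` -/
def idl (T : Finset (HeightOneSpectrum (𝓞 F))) (n : ℕ) : Set (Ideal (𝓞 F)) :=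
  {I | absNorm I = n ∧ ∀ v ∈ T, ¬ v.asIdeal ∣ I}

lemma idl_finite (T : Finset (HeightOneSpectrum (𝓞 F))) (n : ℕ) : (idl T n).Finite :=
  (Ideal.finite_setOfPred_absNorm_eq (S := 𝓞 F) n).subset fun _ h => h.1

lemma mul_mem_idl {T : Finset (HeightOneSpectrum (𝓞 F))} {w : HeightOneSpectrum (𝓞 F)}
    (hw : w ∉ T) {J : Ideal (𝓞 F)} {n : ℕ} (hJ : J ∈ idl T n) :
    w.asIdeal * J ∈ idl T (absNorm w.asIdeal * n) := by
  refine ⟨by rw [map_mul, hJ.1], fun v hv hd => ?_⟩
  rcases v.prime.dvd_mul.mp hd with h | h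
  · have h1 : v.asIdeal = w.asIdeal := by
      have := v.isPrime
      have hm := w.isMaximal
      exact (hm.eq_of_le v.isPrime.ne_top (Ideal.dvd_iff_le.mp h)).symm
    exact hw (HeightOneSpectrum.ext h1 ▸ hv)
  · exact hJ.2 v hv h

lemma idl_eq (T : Finset (HeightOneSpectrum (𝓞 F))) [DecidableEq (HeightOneSpectrum (𝓞 F))]
    {w : HeightOneSpectrum (𝓞 F)} (hw : w ∉ T) (n : ℕ) :
    idl T n = idl (insert w T) n ∪
      {I | ∃ m, absNorm w.asIdeal * m = n ∧ ∃ J ∈ idl T m, w.asIdeal * J = I} := by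
  ext I
  constructor
  · intro hI
    by_cases h : w.asIdeal ∣ I
    · right
      obtain ⟨J, rfl⟩ := h
      refine ⟨absNorm J, by rw [← hI.1, map_mul], J, ⟨rfl, fun v hv hd => ?_⟩, rfl⟩
      exact hI.2 v hv (dvd_mul_of_dvd_right hd _)
    · left
      refine ⟨hI.1, fun v hv => ?_⟩
      rcases Finset.mem_insert.mp hv with rfl | hv
      · exact h
      · exact hI.2 v hv
  · rintro (h | ⟨m, hm, J, hJ, rfl⟩)
    · exact ⟨h.1, fun v hv => h.2 v (Finset.mem_insert_of_mem hv)⟩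
    · rw [← hm]
      exact mul_mem_idl hw hJ

lemma ncard_idl (T : Finset (HeightOneSpectrum (𝓞 F))) [DecidableEq (HeightOneSpectrum (𝓞 F))]
    {w : HeightOneSpectrum (𝓞 F)} (hw : w ∉ T) {p f : ℕ} (hp : p.Prime)
    (hf : absNorm w.asIdeal = p ^ f) (e : ℕ) :
    (idl T (p ^ e)).ncard = (idl (insert w T) (p ^ e)).ncard +
      if f ≤ e then (idl T (p ^ (e - f))).ncard else 0 := by
  have hfin : {I | ∃ m, absNorm w.asIdeal * m = p ^ e ∧ ∃ J ∈ idl T m, w.asIdeal * J = I}.Finite := by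
    refine (idl_finite T (p ^ e)).subset ?_
    rw [idl_eq T hw]
    exact Set.subset_union_right
  have hdis : Disjoint (idl (insert w T) (p ^ e))
      {I | ∃ m, absNorm w.asIdeal * m = p ^ e ∧ ∃ J ∈ idl T m, w.asIdeal * J = I} := by
    rw [Set.disjoint_left]
    rintro I h ⟨m, hm, J, hJ, rfl⟩
    exact h.2 w (Finset.mem_insert_self w T) (Dvd.intro _ rfl)
  rw [idl_eq T hw (p ^ e), Set.ncard_union_eq hdis (idl_finite _ _) hfin]
  congr 1
  split_ifs with hfe
  · have h1 : {I | ∃ m, absNorm w.asIdeal * m = p ^ e ∧ ∃ J ∈ idl T m, w.asIdeal * J = I} =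
        (fun J => w.asIdeal * J) '' idl T (p ^ (e - f)) := by
      ext I
      constructor
      · rintro ⟨m, hm, J, hJ, rfl⟩
        refine ⟨J, ?_, rfl⟩
        have h2 : m = p ^ (e - f) := by
          have h3 : p ^ f * m = p ^ f * p ^ (e - f) := by
            rw [← pow_add, Nat.add_sub_cancel' hfe, ← hf, hm]
          exact Nat.eq_of_mul_eq_mul_left (pow_pos hp.pos f) h3
        rwa [← h2]
      · rintro ⟨J, hJ, rfl⟩
        exact ⟨_, by rw [hf, ← pow_add, Nat.add_sub_cancel' hfe], J, hJ, rfl⟩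
    rw [h1]
    exact Set.ncard_image_of_injective _ (mul_right_injective₀ w.ne_bot)
  · rw [Set.ncard_eq_zero hfin, Set.eq_empty_iff_forall_notMem]
    rintro I ⟨m, hm, -⟩
    apply hfe
    rw [hf] at hm
    exact (Nat.pow_dvd_pow_iff_le_right hp.one_lt).mp (Dvd.intro _ hm)

/-- the generating series of the ideals of `p`-power norm prime to `T` -/
noncomputable def gs (T : Finset (HeightOneSpectrum (𝓞 F))) (p : ℕ) : PowerSeries ℂ :=
  PowerSeries.mk fun e => ((idl T (p ^ e)).ncard : ℂ)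

lemma gs_mul (T : Finset (HeightOneSpectrum (𝓞 F))) [DecidableEq (HeightOneSpectrum (𝓞 F))]
    {w : HeightOneSpectrum (𝓞 F)} (hw : w ∉ T) {p f : ℕ} (hp : p.Prime)
    (hf : absNorm w.asIdeal = p ^ f) :
    gs T p * (1 - PowerSeries.X ^ f) = gs (insert w T) p := by
  ext e
  rw [mul_sub, mul_one, map_sub, PowerSeries.coeff_mul_X_pow', gs, gs, PowerSeries.coeff_mk,
    PowerSeries.coeff_mk, PowerSeries.coeff_mk, ncard_idl T hw hp hf e]
  split_ifs <;> push_cast <;> ring

lemma gs_prod {p : ℕ} (hp : p.Prime) (T : Finset (HeightOneSpectrum (𝓞 F)))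
    (f : HeightOneSpectrum (𝓞 F) → ℕ) (hf : ∀ v ∈ T, absNorm v.asIdeal = p ^ f v) :
    gs (F := F) ∅ p * ∏ v ∈ T, (1 - (PowerSeries.X : PowerSeries ℂ) ^ f v) = gs T p := by
  classical
  induction T using Finset.induction_on with
  | empty => rw [Finset.prod_empty, mul_one]
  | insert w T hw ih =>
    rw [Finset.prod_insert hw, mul_comm (1 - _), ← mul_assoc,
      ih fun v hv => hf v (Finset.mem_insert_of_mem hv),
      gs_mul T hw hp (hf w (Finset.mem_insert_self w T))]

lemma gs_above {p : ℕ} (hp : p.Prime) (T : Finset (HeightOneSpectrum (𝓞 F)))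
    (hT : ∀ v : HeightOneSpectrum (𝓞 F), (p : 𝓞 F) ∈ v.asIdeal → v ∈ T) :
    gs T p = 1 := by
  ext e
  rw [gs, PowerSeries.coeff_mk, PowerSeries.coeff_one]
  split_ifs with he
  · subst he
    have h1 : idl T (p ^ 0) = {⊤} := by
      ext I
      rw [Set.mem_singleton_iff, pow_zero]
      constructor
      · intro h
        exact absNorm_eq_one_iff.mp h.1
      · rintro rfl
        refine ⟨absNorm_top, fun v _ hd => ?_⟩
        rw [Ideal.dvd_iff_le, top_le_iff] at hd
        exact v.isPrime.ne_top hd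
    rw [h1, Set.ncard_singleton, Nat.cast_one]
  · have h1 : idl T (p ^ e) = ∅ := by
      rw [Set.eq_empty_iff_forall_notMem]
      rintro I ⟨hI, hI'⟩
      have hne : I ≠ ⊤ := by
        rintro rfl
        rw [absNorm_top] at hI
        exact he (Nat.pow_right_injective hp.two_le (by simpa using hI.symm))
      obtain ⟨M, hM, hIM⟩ := Ideal.exists_le_maximal I hne
      have hmem : ((p ^ e : ℕ) : 𝓞 F) ∈ I := hI ▸ absNorm_mem I
      have hp' : (p : 𝓞 F) ∈ M := by
        have h2 := hIM hmem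
        rw [Nat.cast_pow] at h2
        exact hM.isPrime.mem_of_pow_mem _ h2
      have hM0 : M ≠ ⊥ := by
        rintro rfl
        rw [Ideal.mem_bot, Nat.cast_eq_zero] at hp'
        exact hp.ne_zero hp'
      exact hI' ⟨M, hM.isPrime, hM0⟩ (hT _ hp') (Ideal.dvd_iff_le.mpr hIM)
    rw [h1, Set.ncard_empty, Nat.cast_zero]

lemma gs_empty (p : ℕ) : gs (F := F) ∅ p =
    PowerSeries.mk fun e => ((FrobDensity.idealCount F (p ^ e) : ℕ) : ℂ) := by
  ext e
  rw [gs, PowerSeries.coeff_mk, PowerSeries.coeff_mk, FrobDensity.idealCount,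
    ← Nat.card_coe_set_eq]
  have h : idl (F := F) ∅ (p ^ e) = {I | absNorm I = p ^ e} := by
    ext I
    simp [idl]
  rw [h]
  rfl

end EulerL

open EulerL in
/-- **The formal Euler factor.** -/
theorem euler_factor {p : ℕ} (hp : p.Prime) (T : Finset (HeightOneSpectrum (𝓞 F)))
    (hT : ∀ v : HeightOneSpectrum (𝓞 F), v ∈ T ↔ (p : 𝓞 F) ∈ v.asIdeal)
    (f : HeightOneSpectrum (𝓞 F) → ℕ) (hf : ∀ v ∈ T, absNorm v.asIdeal = p ^ f v) :
    (PowerSeries.mk fun e => ((FrobDensity.idealCount F (p ^ e) : ℕ) : ℂ)) *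
      ∏ v ∈ T, (1 - (PowerSeries.X : PowerSeries ℂ) ^ f v) = 1 := by
  rw [← gs_empty, gs_prod hp T f hf, gs_above hp T fun v hv => (hT v).mpr hv]

variable (F) in
/-- **The formal Euler factor**, in terms of `above` and `fdeg`. -/
theorem euler_factor_above {p : ℕ} (hp : p.Prime) :
    (PowerSeries.mk fun e => ((FrobDensity.idealCount F (p ^ e) : ℕ) : ℂ)) *
      ∏ v ∈ Disc.above F p, (1 - (PowerSeries.X : PowerSeries ℂ) ^ Disc.fdeg v) = 1 :=
  euler_factor hp (Disc.above F p) (fun _ => Disc.mem_above hp.ne_zero) Disc.fdeg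
    fun _ hv => Disc.absNorm_eq hp ((Disc.mem_above hp.ne_zero).mp hv)

end Fermat.Agent.Classic.Zeta
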