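import Fermat.Agent.HeckeEigen.Forms
import Fermat.Agent.LT.End.Eigen

/-!
# The lifting lemma of Deligne and Serre for the Hecke operators `T_ℓ`, `ℓ > B`
-/

set_option autoImplicit false

open CongruenceSubgroup ModularFormClass FermatAgent.HeckeEigen
open scoped MatrixGroups ModularForm

namespace Fermat.Agent.Classic.Level.P4

variable {N : ℕ} [NeZero N]

/-- An integer divisible by three is in an ideal containing three. -/
theorem three_dvd_mem {𝔪 : Ideal (integralClosure ℤ ℂ)}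
    (h3 : ((3 : ℕ) : integralClosure ℤ ℂ) ∈ 𝔪) {z : ℤ} (hz : ((z : ℤ) : ZMod 3) = 0) :
    ((z : ℤ) : integralClosure ℤ ℂ) ∈ 𝔪 := by
  rw [ZMod.intCast_zmod_eq_zero_iff_dvd] at hz
  obtain ⟨w, rfl⟩ := hz
  have : ((3 : ℕ) : integralClosure ℤ ℂ) * (w : integralClosure ℤ ℂ) ∈ 𝔪 :=
    𝔪.mul_mem_right _ h3
  simpa using this

/-- The forms with all coefficients in the ideal. -/
def idealForms (N : ℕ) [NeZero N] (𝔪 : Ideal (integralClosure ℤ ℂ)) :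
    AddSubgroup (CuspForm (Gamma0 N) 2) where
  carrier := {g | ∀ n, ∃ c ∈ 𝔪, (c : ℂ) = qCoeff ⇑g n}
  add_mem' := by
    intro g g' hg hg' n
    obtain ⟨c, hc, hc'⟩ := hg n
    obtain ⟨d, hd, hd'⟩ := hg' n
    exact ⟨c + d, 𝔪.add_mem hc hd, by rw [qCoeff_add, ← hc', ← hd']; push_cast; rfl⟩
  zero_mem' := fun n => ⟨0, 𝔪.zero_mem, by rw [qCoeff_zero]; simp⟩
  neg_mem' := by
    intro g hg n
    obtain ⟨c, hc, hc'⟩ := hg n
    exact ⟨-c, 𝔪.neg_mem hc, by rw [qCoeff_neg, ← hc']; push_cast; rfl⟩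

theorem mem_idealForms {𝔪 : Ideal (integralClosure ℤ ℂ)} {g : CuspForm (Gamma0 N) 2} :
    g ∈ idealForms N 𝔪 ↔ ∀ n, ∃ c ∈ 𝔪, (c : ℂ) = qCoeff ⇑g n := Iff.rfl

/-- **Lifting.** A form with integral coefficients, not all divisible by three, which is an
eigenform modulo three of the `T_ℓ` for the primes `ℓ` not in `S` and prime to the level. -/
theorem exists_lift (hstr : CuspForm.HasIntegralStructure N 2) (S : Set ℕ)
    {𝔪 : Ideal (integralClosure ℤ ℂ)} (h𝔪 : 𝔪.IsMaximal)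
    (h3m : ((3 : ℕ) : integralClosure ℤ ℂ) ∈ 𝔪) {G : CuspForm (Gamma0 N) 2} {C : ℕ → ℤ}
    (hC : ∀ n, qCoeff G n = (C n : ℂ)) (h0 : ∃ n, ((C n : ℤ) : ZMod 3) ≠ 0) (a : ℕ → ℤ)
    (h : ∀ ℓ : ℕ, ℓ.Prime → ℓ ∉ S → ¬ ℓ ∣ N → ∀ n : ℕ, ((C (ℓ * n) : ℤ) : ZMod 3) +
        (ℓ : ZMod 3) * (if ℓ ∣ n then ((C (n / ℓ) : ℤ) : ZMod 3) else 0) =
          (a ℓ : ZMod 3) * ((C n : ℤ) : ZMod 3)) :
    ∃ f : CuspForm (Gamma0 N) 2, f.IsNormalizedEigenform ∧
      ∀ ℓ : ℕ, ℓ.Prime → ℓ ∉ S → ¬ ℓ ∣ N → ∃ b : integralClosure ℤ ℂ, (b : ℂ) = qCoeff f ℓ ∧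
        b - ((a ℓ : ℤ) : integralClosure ℤ ℂ) ∈ 𝔪 := by
  classical
  have h3z : ∀ z : ℤ, ((z : ℤ) : ZMod 3) = 0 → ((z : ℤ) : integralClosure ℤ ℂ) ∈ 𝔪 :=
    fun z hz => three_dvd_mem h3m hz
  obtain ⟨n₁, hn₁⟩ := h0
  let J : Type := {p : Nat.Primes // (p : ℕ) ∉ S ∧ ¬ (p : ℕ) ∣ N}
  obtain ⟨χ, v, hv0, hv, hcong⟩ := exists_joint_eigenvector_congr (K := ℂ)
    (V := CuspForm (Gamma0 N) 2) (O := integralClosure ℤ ℂ) 𝔪 h𝔪.isPrime
    (fun j : J => heckeOp N 2 j.1) (fun p q => heckeOp_comm p.1 q.1) (idealForms N 𝔪)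
    (by
      intro p g hg
      rw [mem_idealForms] at hg ⊢
      intro n
      obtain ⟨c, hc, hc'⟩ := hg ((p.1 : ℕ) * n)
      obtain ⟨d, hd, hd'⟩ := hg (n / (p.1 : ℕ))
      refine ⟨c + (if (p.1 : ℕ) ∣ N then 0 else ((((p.1 : Nat.Primes) : ℕ) :
        integralClosure ℤ ℂ))) * (if (p.1 : ℕ) ∣ n then d else 0), 𝔪.add_mem hc ?_, ?_⟩
      · apply 𝔪.mul_mem_left
        split_ifs
        · exact hd
        · exact 𝔪.zero_mem
      · rw [qCoeff_heckeOp_two, ← hc', ← hd']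
        split_ifs <;> simp)
    (by
      intro c g hg
      rw [mem_idealForms] at hg ⊢
      intro n
      obtain ⟨d, hd, hd'⟩ := hg n
      exact ⟨c * d, 𝔪.mul_mem_left _ hd, by
        rw [qCoeff_smul, ← hd']; push_cast; rfl⟩)
    G (fun p => (a p.1 : integralClosure ℤ ℂ))
    (by
      intro p
      rw [mem_idealForms]
      intro n
      refine ⟨((C ((p.1 : ℕ) * n) + (((p.1 : Nat.Primes) : ℕ) : ℤ) *
        (if (p.1 : ℕ) ∣ n then C (n / (p.1 : ℕ)) else 0) - a p.1 * C n : ℤ) :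
          integralClosure ℤ ℂ), h3z _ ?_, ?_⟩
      · have h1 := h p.1 p.1.2 p.2.1 p.2.2 n
        push_cast
        rw [← h1]
        split_ifs <;> simp
      · rw [qCoeff_sub, qCoeff_smul, qCoeff_heckeOp_two, if_neg p.2.2]
        have hmap : algebraMap (integralClosure ℤ ℂ) ℂ ((a p.1 : ℤ) : integralClosure ℤ ℂ) =
            (a p.1 : ℂ) := by simp
        rw [hmap, hC, hC, hC]
        split_ifs <;> simp)
    (by
      intro u hu
      rw [mem_idealForms] at hu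
      obtain ⟨c, hc, hc'⟩ := hu n₁
      rw [qCoeff_smul, hC] at hc'
      have hc2 : u * (C n₁ : integralClosure ℤ ℂ) ∈ 𝔪 := by
        have : c = u * (C n₁ : integralClosure ℤ ℂ) := by
          apply Subtype.ext
          rw [hc']
          push_cast
          rfl
        rw [← this]
        exact hc
      rcases h𝔪.isPrime.mem_or_mem hc2 with h4 | h4
      · exact h4
      · exfalso
        have h5 : ∀ x : ZMod 3, x ≠ 0 → x * x - 1 = 0 := by decide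
        have h6 : ((C n₁ * C n₁ - 1 : ℤ) : integralClosure ℤ ℂ) ∈ 𝔪 := by
          refine h3z _ ?_
          push_cast
          exact h5 _ hn₁
        have h7 : (1 : integralClosure ℤ ℂ) = (C n₁ : integralClosure ℤ ℂ) * C n₁ -
            ((C n₁ * C n₁ - 1 : ℤ) : integralClosure ℤ ℂ) := by
          push_cast
          ring
        refine h𝔪.ne_top ((Ideal.eq_top_iff_one 𝔪).mpr ?_)
        rw [h7]
        exact 𝔪.sub_mem (𝔪.mul_mem_left _ h4) h6)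
    (by
      intro χ v hv0 hv p
      have := isIntegral_of_heckeOp_eigen (by norm_num) hstr (heckeOp_mem_heckeAlgebra p.1) hv0
        (hv p)
      exact ⟨⟨χ p, this⟩, rfl⟩)
  let E : Submodule ℂ (CuspForm (Gamma0 N) 2) :=
    { carrier := {w | ∀ j : J, heckeOp N 2 j.1 w = ((χ j : integralClosure ℤ ℂ) : ℂ) • w}
      add_mem' := by
        intro x y hx hy j
        rw [map_add, hx j, hy j, smul_add]
      zero_mem' := fun j => by rw [map_zero, smul_zero]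
      smul_mem' := by
        intro c x hx j
        rw [map_smul, hx j, smul_comm] }
  have hvE : v ∈ E := hv
  have hE : E ≠ ⊥ := fun hE => hv0 ((Submodule.eq_bot_iff E).mp hE v hvE)
  obtain ⟨w, hwE, hw0, hw⟩ := Fermat.Agent.LT.End.exists_common_eigenvector (heckeOp N 2)
    (fun p q => heckeOp_comm p q) _ E rfl hE (by
      intro p x hx j
      have h1 : heckeOp N 2 j.1 (heckeOp N 2 p x) = heckeOp N 2 p (heckeOp N 2 j.1 x) :=
        LinearMap.congr_fun (heckeOp_comm j.1 p) x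
      rw [h1, hx j, map_smul])
  choose μ hμ using hw
  obtain ⟨f, hf, -, hfp⟩ := exists_isNormalizedEigenform_of_eigen hμ hw0
  refine ⟨f, hf, fun ℓ hℓ hℓS hℓN => ⟨χ ⟨⟨ℓ, hℓ⟩, hℓS, hℓN⟩, ?_, hcong ⟨⟨ℓ, hℓ⟩, hℓS, hℓN⟩⟩⟩
  have h6 := hwE ⟨⟨ℓ, hℓ⟩, hℓS, hℓN⟩
  have h7 := hμ ⟨ℓ, hℓ⟩
  have h8 : ((χ ⟨⟨ℓ, hℓ⟩, hℓS, hℓN⟩ : integralClosure ℤ ℂ) : ℂ) = μ ⟨ℓ, hℓ⟩ :=
    smul_left_injective ℂ hw0 (h6.symm.trans h7)
  exact h8.trans (hfp ⟨ℓ, hℓ⟩).symm

end Fermat.Agent.Classic.Level.P4
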