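import Fermat.Agent.Classic.Level.P4Prim
import Fermat.Agent.Classic.Level.P4Lift
import Fermat.Agent.Classic.Level.Steps
import Fermat.Agent.Ext.E46.Eigensystem
import Fermat.Agent.Ribet.Forms

/-!
# Residual modularity from a form of weight one (P4)

A non-zero cusp form `g` of weight one on `Γ₁(N)`, `3 ∣ N`, which is an eigenform of the `T_ℓ`
(`ℓ` large, nebentypus `χ₋₃`) with eigenvalues in `ℤ[√-2]` reducing to the coefficients of a curve
`W` modulo `1 + √-2`, shows that `W` is residually modular of level `N` at three.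
-/

set_option autoImplicit false

open CongruenceSubgroup UpperHalfPlane EisensteinWeightOne ModularFormClass FLT.ExplicitLift
open scoped MatrixGroups ModularForm

namespace Fermat.Agent.Classic.Level

theorem P4.hasIntegralStructure (N : ℕ) [NeZero N] : CuspForm.HasIntegralStructure N 2 := by
  unfold CuspForm.HasIntegralStructure
  rw [eq_top_iff, ← (Fermat.Agent.Ext.E46.hasIntegralBasis N : CuspForm.HasIntegralBasis N)]
  apply Submodule.span_mono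
  intro f hf
  apply Submodule.subset_span
  intro n
  obtain ⟨m, hm⟩ := Subring.mem_bot.mp (hf n)
  exact ⟨m, hm.symm⟩

/-- **P4**, the form for all large primes. -/
theorem resMod_of_wtOne_large {W : WeierstrassCurve ℤ} (hΔ : W.Δ ≠ 0) {N : ℕ} [NeZero N]
    (h3 : 3 ∣ N) {g : CuspForm (Gamma1 N) 1} (hg : g ≠ 0) {B : ℕ} {ι : ℤ√(-2) →+* ℂ}
    {β : ℕ → ℤ√(-2)}
    (hT : ∀ ℓ : ℕ, ℓ.Prime → B < ℓ → ∀ n : ℕ,
      qCoeff g (ℓ * n) + ((chiNegThree ℓ : ℤ) : ℂ) * (if ℓ ∣ n then qCoeff g (n / ℓ) else 0) =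
        ι (β ℓ) * qCoeff g n)
    (hW : ∀ ℓ : ℕ, ℓ.Prime → B < ℓ → red (β ℓ) = ((W.apOfModel ℓ : ℤ) : ZMod 3)) :
    W.IsResiduallyModularOfLevel 3 N := by
  have : Fact (Nat.Prime 3) := ⟨Nat.prime_three⟩
  obtain ⟨G, C, hC, h0, h⟩ := P4.exists_int_two ι h3 hg (le_max_right B N)
    (fun ℓ hℓ hℓB n => hT ℓ hℓ ((le_max_left B N).trans_lt hℓB) n)
  obtain ⟨𝔪, h𝔪, h3m⟩ := FLTPrelim.exists_maximalIdeal_natCast_prime_mem Nat.prime_three
  obtain ⟨f, hf, hfc⟩ := P4.exists_lift (P4.hasIntegralStructure N) (Set.Iic (max B N)) h𝔪 h3m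
    hC h0 W.apOfModel (fun ℓ hℓ hℓS _ n => by
      have hℓB : max B N < ℓ := by simpa using hℓS
      rw [h ℓ hℓ hℓB n, hW ℓ hℓ ((le_max_left B N).trans_lt hℓB)])
  refine Ribet.isResiduallyModularOfLevel_of_cong (NeZero.ne N) hf hΔ 𝔪 h𝔪 h3m
    (Set.finite_Iic (max B N)) fun ℓ hℓ hℓS => hfc ℓ hℓ hℓS ?_
  have hℓB : max B N < ℓ := by simpa using hℓS
  exact P4.not_dvd_of_lt (le_max_right B N) hℓB

/-- **P4.** -/
theorem stepP4 : StepP4 := by
  intro W hΔ _ M hM g h3 hg _ B ι b hT hW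
  exact resMod_of_wtOne_large hΔ h3 hg hT hW

/-- **P4**, the form without the discriminant: the relations at all primes not dividing the level. -/
theorem resMod_of_wtOne {W : WeierstrassCurve ℤ} {N : ℕ} [NeZero N] (h3 : 3 ∣ N)
    {g : CuspForm (Gamma1 N) 1} (hg : g ≠ 0) {ι : ℤ√(-2) →+* ℂ} {β : ℕ → ℤ√(-2)}
    (hT : ∀ ℓ : ℕ, ℓ.Prime → ¬ ℓ ∣ N → ∀ n : ℕ,
      qCoeff g (ℓ * n) + ((chiNegThree ℓ : ℤ) : ℂ) * (if ℓ ∣ n then qCoeff g (n / ℓ) else 0) =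
        ι (β ℓ) * qCoeff g n)
    (hW : ∀ ℓ : ℕ, ℓ.Prime → W.IsGoodPrimeFor ℓ → ¬ ℓ ∣ N → ℓ ≠ 3 →
      ((W.apOfModel ℓ : ℤ) : ZMod 3) = red (β ℓ)) (hΔ : W.Δ ≠ 0) :
    W.IsResiduallyModularOfLevel 3 N := by
  refine resMod_of_wtOne_large hΔ h3 hg (B := N + 3 * W.Δ.natAbs) (ι := ι) (β := β)
    (fun ℓ hℓ hℓB n => hT ℓ hℓ (fun h => ?_) n) fun ℓ hℓ hℓB => (hW ℓ hℓ ?_ ?_ ?_).symm
  · have := Nat.le_of_dvd (Nat.pos_of_ne_zero (NeZero.ne N)) h
    omega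
  · intro h
    have := Nat.le_of_dvd (Int.natAbs_pos.mpr hΔ) (Int.natCast_dvd.mp h)
    omega
  · intro h
    have := Nat.le_of_dvd (Nat.pos_of_ne_zero (NeZero.ne N)) h
    omega
  · have := Int.natAbs_pos.mpr hΔ
    omega

end Fermat.Agent.Classic.Level
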