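import Mathlib
import Fermat.Prelude.Def_FLTPrelim_ModularRep
import Fermat.Prelude.Def_FLTPrelim_Ramification

/-!
# Definitions for the 3-adic side of the level

* `NoInv3 W`: no non-zero `3`-torsion point of `W` is fixed by an inertia group above `3`;
* `TwRes W M`: the system `ℓ a_ℓ(W)` modulo `3` (that of `W[3] ⊗ χ₋₃`) comes from an eigenform of
  weight two and level `M`.
-/

set_option autoImplicit false

open WeierstrassCurve WeierstrassCurve.Affine WeierstrassCurve.Affine.Point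
open scoped WeierstrassCurve.Affine

namespace Fermat.Agent.Classic

/-- No non-zero `3`-torsion point is fixed by an inertia group above `3`. -/
def NoInv3 (W : WeierstrassCurve ℤ) : Prop :=
  ∀ A : ValuationSubring (AlgebraicClosure ℚ), A.LiesOverPrime 3 →
    ∀ x : Submodule.torsionBy ℤ
        ((W.map (Int.castRingHom ℚ))⁄(AlgebraicClosure ℚ)).Point (3 : ℕ),
      (∀ σ ∈ A.inertiaSubgroupIn ℚ, σ • x = x) → x = 0

/-- The twist of the mod `3` system of `W` by `χ₋₃` comes from level `M`. -/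
def TwRes (W : WeierstrassCurve ℤ) (M : ℕ) : Prop :=
  ∃ (f : CuspForm (CongruenceSubgroup.Gamma0 M) 2) (𝔪 : Ideal (integralClosure ℤ ℂ)),
    f.IsNormalizedEigenform ∧ 𝔪.IsMaximal ∧ (3 : integralClosure ℤ ℂ) ∈ 𝔪 ∧
    ∀ ℓ : ℕ, ℓ.Prime → W.IsGoodPrimeFor ℓ → ¬ ℓ ∣ M → ℓ ≠ 3 →
      ∃ a : integralClosure ℤ ℂ, (a : ℂ) = ModularFormClass.qCoeff f ℓ ∧
        a - ((ℓ * W.apOfModel ℓ : ℤ) : integralClosure ℤ ℂ) ∈ 𝔪

end Fermat.Agent.Classic
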