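import Fermat.Agent.Classic.Level.Inert3Mat
import Fermat.Agent.Classic.Level.NoInvDef
import Fermat.Agent.Classic.Level.Steps
import Fermat.Agent.EC.MultOrdA
import Fermat.Agent.EC.FlatTors
import Fermat.Agent.FlatP.EllGood
import Fermat.Agent.Mazur.Radical
import Fermat.Agent.Frob.Exists

/-!
# Inertia at `3` on `E[3]`: a fixed vector forces order two

* `lineOrFlat` : a semistable model gives `V0 ≠ ⊤` or flatness at every place above `3`.
* `stepD3` : if an inertia group above `3` fixes a non-zero point of `E[3]`, then every inertia group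
  above `3` acts on `E[3]` through the cyclotomic character (the determinant).
-/

set_option autoImplicit false

open WeierstrassCurve WeierstrassCurve.Affine WeierstrassCurve.Affine.Point
open scoped WeierstrassCurve.Affine Pointwise

noncomputable section

namespace Fermat.Agent.Classic.Inert3

open Fermat.Agent.FlatP Fermat.Agent.FlatGS Fermat.Agent.MazurMult FermatAgent.ECVal
  Fermat.Agent.ECRed Matrix
open Fermat.Agent.S53norm (M2)

variable {W : WeierstrassCurve ℤ}

/-- The matrix representation on `E[3]`. -/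
def mat3 (hΔ : W.Δ ≠ 0) : GQ →* M2 (ZMod 3) :=
  (Units.coeHom (Matrix (Fin 2) (Fin 2) (ZMod 3))).comp (repP 3 hΔ)

theorem mat3_apply (hΔ : W.Δ ≠ 0) (σ : GQ) :
    mat3 hΔ σ = ((rep3 hΔ σ : GL (Fin 2) (ZMod 3)) : Matrix (Fin 2) (Fin 2) (ZMod 3)) := rfl

theorem cycDet_mat3 (hΔ : W.Δ ≠ 0) : TW.CycDet 3 (mat3 hΔ) := by
  obtain ⟨ζ, hζ⟩ := Fermat.Agent.ECFrob.exists_primitiveRoot 3
  intro σ a ha
  rw [mat3_apply, det_repP 3 hΔ σ]
  exact ECFrob.cycMod_unique hζ (ha ζ hζ.pow_eq_one)

/-- **The shape of `E[3]` at a place above `3`** of a semistable model. -/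
theorem lineOrFlat (hΔ : W.Δ ≠ 0) (hss : W.IsSemistableModel) {A : ValuationSubring Om}
    (hA : A.LiesOverPrime 3) : LineOrFlat (mat3 hΔ) A := by
  classical
  obtain ⟨e, he⟩ := exists_equiv 3 hΔ
  by_cases h3 : ((3 : ℕ) : ℤ) ∣ W.Δ
  · left
    have hW : IsMultAt W 3 := ⟨Nat.prime_three, h3, hss 3 Nat.prime_three h3, hΔ⟩
    intro htop
    obtain ⟨P, hP, hPE⟩ := exists_torsion_notMem_E0 hW (by decide) hA
    have hPt : P ∈ Submodule.torsionBy ℤ (EQ W).Point ((3 : ℕ) : ℤ) := by
      rw [Submodule.mem_torsionBy_iff, natCast_zsmul]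
      exact hP
    have h1 : e ⟨P, hPt⟩ ∈ V0 (mat3 hΔ) A := by
      rw [htop]
      exact Submodule.mem_top
    rw [mem_V0_iff] at h1
    have key : ∀ y ∈ AddSubgroup.closure
        {y | ∃ σ ∈ A.inertiaSubgroupIn ℚ, ∃ x, mat3 hΔ σ *ᵥ x - x = y},
        ((e.symm y : Submodule.torsionBy ℤ (EQ W).Point ((3 : ℕ) : ℤ)) : (EQ W).Point) ∈
          E0 (redEk W A) (isPlace_valuationSubring A) := by
      intro y hy
      induction hy using AddSubgroup.closure_induction with
      | mem y hy =>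
        obtain ⟨σ, hσ, x, rfl⟩ := hy
        have h2 := he σ (e.symm x)
        rw [LinearEquiv.apply_symm_apply] at h2
        have h3 : e.symm (mat3 hΔ σ *ᵥ x - x) = σ • e.symm x - e.symm x := by
          rw [map_sub, mat3_apply, ← h2, LinearEquiv.symm_apply_apply]
        rw [h3]
        exact inertia_smul_sub_mem_E0 hW (by decide) hA hσ _
      | zero =>
        rw [_root_.map_zero]
        exact AddSubgroup.zero_mem _
      | add a b _ _ ha hb =>
        rw [map_add]
        exact AddSubgroup.add_mem _ ha hb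
      | neg a _ ha =>
        rw [map_neg]
        exact AddSubgroup.neg_mem _ ha
    have h2 := key _ h1
    rw [LinearEquiv.symm_apply_apply] at h2
    exact hPE h2
  · right
    have hgood : W.IsGoodPrimeFor 3 := h3
    have h1 := Fermat.Agent.ECFlat.isFlatModule_torsion Nat.prime_three hgood 1
      (a := ((3 : ℕ) : ℤ)) (by simp)
    refine h1.of_equiv e.symm.toAddEquiv fun σ v => ?_
    have h2 := he σ (e.symm v)
    rw [LinearEquiv.apply_symm_apply] at h2
    change e.symm (mat3 hΔ σ *ᵥ v) = _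
    rw [mat3_apply, ← h2, LinearEquiv.symm_apply_apply]
    rfl

end Fermat.Agent.Classic.Inert3

namespace Fermat.Agent.Classic.Level

open Fermat.Agent.Classic.Inert3 Matrix

/-- If one inertia group above `3` fixes a non-zero point of `E[3]`, so does every one. -/
theorem exists_fixed_all {W : WeierstrassCurve ℤ} (h : ¬ NoInv3 W)
    {A : ValuationSubring (AlgebraicClosure ℚ)} (hA : A.LiesOverPrime 3) :
    ∃ x : Submodule.torsionBy ℤ
        ((W.map (Int.castRingHom ℚ))⁄(AlgebraicClosure ℚ)).Point (3 : ℕ),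
      x ≠ 0 ∧ ∀ σ ∈ A.inertiaSubgroupIn ℚ, σ • x = x := by
  unfold NoInv3 at h
  push Not at h
  obtain ⟨A₀, hA₀, x₀, hfix, hx₀⟩ := h
  obtain ⟨g, rfl⟩ := Fermat.Agent.Frob.exists_smul_eq Nat.prime_three hA₀ hA
  refine ⟨g • x₀, fun h0 => hx₀ ?_, fun σ hσ => ?_⟩
  · have h1 : g⁻¹ • g • x₀ = g⁻¹ • (0 : Submodule.torsionBy ℤ
        ((W.map (Int.castRingHom ℚ))⁄(AlgebraicClosure ℚ)).Point (3 : ℕ)) := by rw [h0]
    rw [smul_smul, inv_mul_cancel, one_smul] at h1
    rw [h1]
    exact smul_zero _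
  · have h1 := hfix _ (Fermat.Agent.Mazur.mem_inertia_smul hσ)
    have h2 := congrArg (fun y => g • y) h1
    simp only [smul_smul] at h2 ⊢
    rwa [← mul_assoc, ← mul_assoc, mul_inv_cancel, one_mul] at h2

/-- **D3**: if inertia at `3` fixes a non-zero point of `E[3]` then it acts through its
determinant. -/
theorem stepD3 : StepD3 NoInv3 := by
  intro W hΔ hss hno A hA σ hσ hdet
  obtain ⟨e, he⟩ := exists_equiv 3 hΔ
  obtain ⟨x, hx0, hx⟩ := exists_fixed_all hno hA
  have hfix : ∀ τ ∈ A.inertiaSubgroupIn ℚ, mat3 hΔ τ *ᵥ e x = e x := by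
    intro τ hτ
    rw [mat3_apply, ← he, hx τ hτ]
  have hy : e x ≠ 0 := fun h0 => hx0 ((LinearEquiv.map_eq_zero_iff _).mp h0)
  have h1 : ECFrob.cycMod 3 σ = 1 := by
    rw [← det_repP 3 hΔ σ]
    exact congrArg Units.val hdet
  exact Units.ext (eq_one_of_fixed hA (cycDet_mat3 hΔ) (lineOrFlat hΔ hss hA) hy hfix hσ h1)

end Fermat.Agent.Classic.Level
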