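import Fermat.Agent.S44w.BLR

/-!
# Twist exclusion: linear algebra

`V` a two-dimensional absolutely irreducible representation of `G` over `k`, `X ≠ 0` a
representation on which every `g` satisfies its characteristic polynomial on `V`.
* `exists_embed`: `V` embeds equivariantly into `X`;
* `mem_of_top`: if `V` is spanned by the `τ v - v`, `τ ∈ I`, then `X` is contained in every
  subgroup which contains all `τ x - x`, `τ ∈ I`.
-/

set_option autoImplicit false

namespace Fermat.Agent.Classic.TwistExcl

open LinearMap Module Fermat.Agent.S44w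

variable {k G V X : Type*} [Field k] [Group G] [AddCommGroup V] [Module k V]
  [AddCommGroup X] [Module k X]

variable (ρ : G →* Module.End k V) (r : G →* Module.End k X)

lemma lift_of' (g : G) : MonoidAlgebra.lift k _ _ ρ (MonoidAlgebra.of k G g) = ρ g := by simp

/-- equivariance for the group algebra. -/
lemma map_lift (φ : V →ₗ[k] X) (hφ : ∀ g v, φ (ρ g v) = r g (φ v)) (y : MonoidAlgebra k G)
    (v : V) : φ (MonoidAlgebra.lift k _ _ ρ y v) = MonoidAlgebra.lift k _ _ r y (φ v) := by
  induction y using MonoidAlgebra.induction_on with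
  | of g => rw [lift_of', lift_of', hφ]
  | add x y hx hy => rw [map_add, map_add, LinearMap.add_apply, LinearMap.add_apply, map_add, hx, hy]
  | smul c x hx => rw [map_smul, map_smul, LinearMap.smul_apply, LinearMap.smul_apply, map_smul, hx]

/-- **`V` embeds into `X`.** -/
theorem exists_embed [Nontrivial X] (h2 : (2 : k) ≠ 0) (b : Module.Basis (Fin 2) k V)
    (hspan : Submodule.span k (Set.range ρ) = ⊤)
    (hX : ∀ g : G, r g * r g = LinearMap.trace k V (ρ g) • r g -
      algebraMap k (Module.End k X) (LinearMap.det (ρ g))) :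
    ∃ φ : V →ₗ[k] X, Function.Injective φ ∧ ∀ g v, φ (ρ g v) = r g (φ v) := by
  classical
  have hsurj := lift_surjective ρ hspan
  choose e he using fun i : Fin 2 => hsurj ((b.coord 0).smulRight (b i))
  obtain ⟨x₀, hx₀⟩ : ∃ x₀ : X, MonoidAlgebra.lift k _ _ r (e 0) x₀ ≠ 0 := by
    by_contra hcon
    push Not at hcon
    have h1 := blr_converse ρ r h2 b hspan hX (e 0) (LinearMap.ext hcon)
    rw [he] at h1
    have h3 := LinearMap.congr_fun h1 (b 0)
    rw [LinearMap.smulRight_apply, Module.Basis.coord_apply, Module.Basis.repr_self,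
      Finsupp.single_eq_same, one_smul, LinearMap.zero_apply] at h3
    exact b.ne_zero 0 h3
  let φ : V →ₗ[k] X := b.constr k fun i => MonoidAlgebra.lift k _ _ r (e i) x₀
  have hφb : ∀ i, φ (b i) = MonoidAlgebra.lift k _ _ r (e i) x₀ := fun i =>
    b.constr_basis k _ i
  have hφ : ∀ g v, φ (ρ g v) = r g (φ v) := by
    intro g v
    have key : φ ∘ₗ ρ g = r g ∘ₗ φ := by
      refine b.ext fun i => ?_
      rw [LinearMap.comp_apply, LinearMap.comp_apply, hφb]
      have h1 : MonoidAlgebra.lift k _ _ ρ (MonoidAlgebra.of k G g * e i -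
          ∑ j, b.repr (ρ g (b i)) j • e j) = 0 := by
        rw [map_sub, map_mul, lift_of', he, map_sum]
        refine LinearMap.ext fun v => ?_
        rw [LinearMap.sub_apply, Module.End.mul_apply, LinearMap.smulRight_apply, map_smul,
          LinearMap.sum_apply, LinearMap.zero_apply, sub_eq_zero]
        have h3 : ∀ j, MonoidAlgebra.lift k _ _ ρ (b.repr (ρ g (b i)) j • e j) v =
            (b.coord 0) v • (b.repr (ρ g (b i)) j • b j) := by
          intro j
          rw [map_smul, LinearMap.smul_apply, he, LinearMap.smulRight_apply, smul_comm]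
        rw [Finset.sum_congr rfl fun j _ => h3 j, ← Finset.smul_sum, b.sum_repr]
      have h4 := blr ρ r h2 b hspan hX _ h1
      rw [map_sub, sub_eq_zero, map_mul, lift_of', map_sum] at h4
      have h5 := LinearMap.congr_fun h4 x₀
      rw [Module.End.mul_apply, LinearMap.sum_apply] at h5
      rw [h5]
      conv_lhs => rw [← b.sum_repr (ρ g (b i))]
      rw [map_sum]
      refine Finset.sum_congr rfl fun j _ => ?_
      rw [map_smul, hφb, map_smul, LinearMap.smul_apply]
    exact LinearMap.congr_fun key v
  refine ⟨φ, ?_, hφ⟩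
  rw [injective_iff_map_eq_zero]
  intro v hv
  by_contra hv0
  obtain ⟨f, hf⟩ := Module.Projective.exists_dual_eq_one k hv0
  obtain ⟨y, hy⟩ := hsurj (f.smulRight (b 0))
  have h1 := map_lift ρ r φ hφ y v
  rw [hv, map_zero, hy, LinearMap.smulRight_apply, hf, one_smul, hφb] at h1
  exact hx₀ h1

/-- **`X` is generated by the `τ x - x`** if `V` is. -/
theorem mem_of_top (h2 : (2 : k) ≠ 0) (b : Module.Basis (Fin 2) k V)
    (hspan : Submodule.span k (Set.range ρ) = ⊤)
    (hX : ∀ g : G, r g * r g = LinearMap.trace k V (ρ g) • r g -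
      algebraMap k (Module.End k X) (LinearMap.det (ρ g)))
    (I : Set G) (htop : Submodule.span k {w : V | ∃ τ ∈ I, ∃ v, ρ τ v - v = w} = ⊤)
    (Y : AddSubgroup X) (hY : ∀ τ ∈ I, ∀ x, r τ x - x ∈ Y) (x : X) : x ∈ Y := by
  classical
  have hsurj := lift_surjective ρ hspan
  -- the endomorphisms which are represented by elements mapping `X` into `Y`
  let S : Submodule k (Module.End k V) :=
    { carrier := {f | ∃ y : MonoidAlgebra k G, MonoidAlgebra.lift k _ _ ρ y = f ∧
        ∀ x, MonoidAlgebra.lift k _ _ r y x ∈ Y}
      add_mem' := by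
        rintro f g ⟨y, hy, hy'⟩ ⟨z, hz, hz'⟩
        refine ⟨y + z, by rw [map_add, hy, hz], fun x => ?_⟩
        rw [map_add, LinearMap.add_apply]
        exact Y.add_mem (hy' x) (hz' x)
      zero_mem' := ⟨0, map_zero _, fun x => by
        rw [map_zero, LinearMap.zero_apply]
        exact Y.zero_mem⟩
      smul_mem' := by
        rintro c f ⟨y, hy, hy'⟩
        refine ⟨c • y, by rw [map_smul, hy], fun x => ?_⟩
        rw [map_smul, LinearMap.smul_apply, ← map_smul]
        exact hy' _ }
  have hw : ∀ i : Fin 2, ∀ w : V, (b.coord i).smulRight w ∈ S := by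
    intro i w
    have hwt : w ∈ Submodule.span k {w : V | ∃ τ ∈ I, ∃ v, ρ τ v - v = w} := by
      rw [htop]; trivial
    induction hwt using Submodule.span_induction with
    | mem w hw =>
      obtain ⟨τ, hτ, v, rfl⟩ := hw
      obtain ⟨y, hy⟩ := hsurj ((b.coord i).smulRight v)
      refine ⟨(MonoidAlgebra.of k G τ - 1) * y, ?_, fun x => ?_⟩
      · rw [map_mul, map_sub, map_one, lift_of', hy]
        refine LinearMap.ext fun u => ?_
        rw [Module.End.mul_apply, LinearMap.sub_apply, Module.End.one_apply,
          LinearMap.smulRight_apply, LinearMap.smulRight_apply, map_smul, smul_sub]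
      · rw [map_mul, map_sub, map_one, lift_of', Module.End.mul_apply, LinearMap.sub_apply,
          Module.End.one_apply]
        exact hY τ hτ _
    | zero =>
      have : (b.coord i).smulRight (0 : V) = 0 := LinearMap.ext fun u => by
        rw [LinearMap.smulRight_apply, smul_zero, LinearMap.zero_apply]
      rw [this]
      exact S.zero_mem
    | add u v _ _ hu hv =>
      have : (b.coord i).smulRight (u + v) =
          (b.coord i).smulRight u + (b.coord i).smulRight v := LinearMap.ext fun z => by
        rw [LinearMap.add_apply, LinearMap.smulRight_apply, LinearMap.smulRight_apply,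
          LinearMap.smulRight_apply, smul_add]
      rw [this]
      exact S.add_mem hu hv
    | smul c u _ hu =>
      have : (b.coord i).smulRight (c • u) = c • (b.coord i).smulRight u :=
        LinearMap.ext fun z => by
          rw [LinearMap.smul_apply, LinearMap.smulRight_apply, LinearMap.smulRight_apply, smul_comm]
      rw [this]
      exact S.smul_mem c hu
  have h1 : (1 : Module.End k V) ∈ S := by
    have h3 : (1 : Module.End k V) = ∑ i : Fin 2, (b.coord i).smulRight (b i) := by
      refine LinearMap.ext fun u => ?_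
      rw [LinearMap.sum_apply, Module.End.one_apply]
      simp only [LinearMap.smulRight_apply, Module.Basis.coord_apply]
      exact (b.sum_repr u).symm
    rw [h3]
    exact S.sum_mem fun i _ => hw i _
  obtain ⟨y, hy, hy'⟩ := h1
  have h3 : MonoidAlgebra.lift k _ _ r (y - 1) = 0 :=
    blr ρ r h2 b hspan hX _ (by rw [map_sub, map_one, hy, sub_self])
  rw [map_sub, map_one, sub_eq_zero] at h3
  have h4 := hy' x
  rw [h3, Module.End.one_apply] at h4
  exact h4

end Fermat.Agent.Classic.TwistExcl
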