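import Fermat.Agent.S44w.Final
import Fermat.Agent.S33.Formal
import Fermat.Agent.Classic.Level.TwistAbs

/-!
# Twist exclusion: the Galois action on the eigenspace of the twisted system

* `eigenRep_relation'`: the relation on the eigenspace, for a representation given by its
  Frobenius data;
* `twRho`: the representation `E[3] ⊗ det`.
-/

set_option autoImplicit false
set_option linter.style.haveILetI false

noncomputable section

open CuspForm ModularCurve Fermat.Agent.GalRep Fermat.Agent.ECFrob WeierstrassCurve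
  WeierstrassCurve.Affine WeierstrassCurve.Affine.Point Fermat.Agent.Torsion Fermat.Agent.ECRed
  Fermat.Agent.S44w

namespace Fermat.Agent.Classic.TwistExcl

section Relation

variable {S : Finset ℕ} {p : ℕ} [hp : Fact p.Prime] {N : ℕ} [NeZero N] {J : Type*} [AddCommGroup J]
  [Module HeckeAlg J] [DistribMulAction GQ J] [SMulCommClass GQ HeckeAlg J]
  {V : Type*} [AddCommGroup V] [Module (ZMod p) V] [Module.Finite (ZMod p) V]

lemma trace_pow' (hV : Module.finrank (ZMod p) V = 2) (ρ' : GQ →* Module.End (ZMod p) V) (g : GQ)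
    (k : ℕ) : LinearMap.trace (ZMod p) V (ρ' (g ^ k)) =
      tk (LinearMap.trace (ZMod p) V (ρ' g)) (LinearMap.det (ρ' g)) k := by
  rw [map_pow]
  refine trace_pow_of_charpoly hV _ _ _ ?_ k
  let b := Module.finBasisOfFinrankEq (ZMod p) V hV
  rw [← LinearMap.charpoly_toMatrix _ b, Matrix.charpoly_fin_two,
    ← LinearMap.trace_eq_matrix_trace _ b, LinearMap.det_toMatrix]

/-- **The relation on the eigenspace**, for a representation with given Frobenius data. -/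
theorem eigenRep_relation' (hV : Module.finrank (ZMod p) V = 2)
    (ρ' : GQ →* Module.End (ZMod p) V)
    (L₁ : IntermediateField ℚ (AlgebraicClosure ℚ)) [FiniteDimensional ℚ L₁]
    (h₁ : ∀ σ : GQ, (∀ x ∈ L₁, σ x = x) → ρ' σ = 1)
    {a : ℕ → ℤ} (hJ : ESInput N p (↑S : Set ℕ) J)
    (S' : Finset ℕ) (hSS' : S ⊆ S') (hpS : p ∈ S')
    (hNS : ∀ q : ℕ, q.Prime → q ∣ N → q ∈ S')
    (hF : ∀ ℓ : ℕ, ℓ.Prime → ℓ ∉ S' → ∀ A : ValuationSubring (AlgebraicClosure ℚ),
      A.LiesOverPrime ℓ → ∀ φ : GQ, A.IsFrobeniusAt φ ℓ →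
      LinearMap.trace (ZMod p) V (ρ' φ) = ((a ℓ : ℤ) : ZMod p) ∧
      LinearMap.det (ρ' φ) = (ℓ : ZMod p))
    (g : GQ) :
    eigenRep S p a J g * eigenRep S p a J g =
      LinearMap.trace (ZMod p) V (ρ' g) • eigenRep S p a J g -
        algebraMap (ZMod p) _ (LinearMap.det (ρ' g)) := by
  set r := eigenRep S p a J with hr
  obtain ⟨L₂, hL₂, h₂⟩ := hJ.finiteLevel 1
  haveI := hL₂
  haveI : FiniteDimensional ℚ (L₁ ⊔ L₂ : IntermediateField ℚ _) :=
    IntermediateField.finiteDimensional_sup _ _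
  have hρL : ∀ σ τ : GQ, (∀ x ∈ (L₁ ⊔ L₂ : IntermediateField ℚ _), σ x = τ x) →
      ρ' σ = ρ' τ := by
    intro σ τ h
    have h2 : ρ' (τ⁻¹ * σ) = 1 := by
      apply h₁
      intro x hx
      show τ.symm (σ x) = x
      rw [h x (le_sup_left (a := L₁) hx), τ.symm_apply_apply]
    rw [_root_.map_mul] at h2
    have h4 : ρ' τ * ρ' τ⁻¹ = 1 := by
      rw [← _root_.map_mul, mul_inv_cancel, _root_.map_one]
    calc ρ' σ = (ρ' τ * ρ' τ⁻¹) * ρ' σ := by rw [h4, one_mul]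
      _ = ρ' τ := by rw [mul_assoc, h2, mul_one]
  have hrL : ∀ σ τ : GQ, (∀ x ∈ (L₁ ⊔ L₂ : IntermediateField ℚ _), σ x = τ x) → r σ = r τ := by
    intro σ τ h
    refine LinearMap.ext fun x => Subtype.ext ?_
    rw [hr, coe_eigenRep_apply, coe_eigenRep_apply]
    have h3 : (τ⁻¹ * σ) • (x : J) = x := by
      refine h₂ _ (fun y hy => ?_) _ (by rw [pow_one]; exact x.2.1)
      show τ.symm (σ y) = y
      rw [h y (le_sup_right (a := L₁) hy), τ.symm_apply_apply]
    rw [mul_smul, inv_smul_eq_iff] at h3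
    exact h3
  refine FrobDensity.eq_of_frobenius (fun g => r g * r g)
    (fun g => LinearMap.trace (ZMod p) V (ρ' g) • r g -
        algebraMap (ZMod p) _ (LinearMap.det (ρ' g))) (L₁ ⊔ L₂) ?_ ?_ ?_ (↑S' : Set ℕ)
        (Finset.finite_toSet S') ?_ g
  · intro σ τ h
    simp only [hrL σ τ h]
  · intro σ τ h
    simp only [hrL σ τ h, hρL σ τ h]
  · intro φ k h
    rw [trace_pow' hV, map_pow r, map_pow ρ', map_pow LinearMap.det]
    exact pow_quadratic _ _ _ h k
  · intro ℓ hℓ hℓS A hA φ hφ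
    have hℓS'' : ℓ ∉ S' := by simpa using hℓS
    have hℓS' : ℓ ∉ S := fun h => hℓS'' (hSS' h)
    have hℓN : ¬ ℓ ∣ N := fun h => hℓS'' (hNS ℓ hℓ h)
    have hℓp : ℓ ≠ p := fun h => hℓS'' (h ▸ hpS)
    refine LinearMap.ext fun x => Subtype.ext ?_
    have h1 := hJ.frobenius ℓ hℓ (fun h => by
      rcases (Nat.Prime.dvd_mul hℓ).mp h with h | h
      · exact hℓN h
      · exact hℓp ((Nat.prime_dvd_prime_iff_eq hℓ hp.out).mp h)) A hA φ hφ x ⟨1, by
        rw [pow_one]; exact x.2.1⟩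
    rw [(gsmul_mem_eigenPart φ x.2).2 ⟨ℓ, hℓ⟩ hℓS'] at h1
    show φ • φ • (x : J) = _
    rw [(hF ℓ hℓ hℓS'' A hA φ hφ).1, (hF ℓ hℓ hℓS'' A hA φ hφ).2]
    have h3 : ((((a ℓ : ℤ) : ZMod p) • r φ - algebraMap (ZMod p) _ ((ℓ : ℕ) : ZMod p)) x :
        eigenPart S p a J) = a ℓ • r φ x - ℓ • x := by
      rw [LinearMap.sub_apply, LinearMap.smul_apply, Int.cast_smul_eq_zsmul, map_natCast,
        Module.End.natCast_apply]
    rw [h3]
    show _ = a ℓ • (φ • (x : J)) - ℓ • (x : J)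
    have h4 : φ • φ • (x : J) = (φ • φ • (x : J) - a ℓ • φ • (x : J) + ℓ • (x : J)) +
      (a ℓ • φ • (x : J) - ℓ • (x : J)) := by abel
    rw [h4, h1, zero_add]

end Relation

section Twist

instance fact3 : Fact (Nat.Prime 3) := ⟨Nat.prime_three⟩

/-- The `3`-torsion points. -/
abbrev T3 (W : WeierstrassCurve ℤ) : Type :=
  Submodule.torsionBy ℤ ((W.map (Int.castRingHom ℚ))⁄(AlgebraicClosure ℚ)).Point (3 : ℕ)

/-- The representation `W[3] ⊗ det`. -/
def twRho (W : WeierstrassCurve ℤ) : GQ →* Module.End (ZMod 3) (T3 W) where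
  toFun g := LinearMap.det (rho W 3 g) • rho W 3 g
  map_one' := by rw [_root_.map_one, map_one LinearMap.det, one_smul]
  map_mul' g h := by
    rw [_root_.map_mul, _root_.map_mul (LinearMap.det), smul_mul_smul_comm]

lemma twRho_apply (W : WeierstrassCurve ℤ) (g : GQ) :
    twRho W g = LinearMap.det (rho W 3 g) • rho W 3 g := rfl

lemma sq_one_of_ne {x : ZMod 3} (h : x ≠ 0) : x * x = 1 := by
  revert h; revert x; decide

variable {W : WeierstrassCurve ℤ}

lemma det_mul_self (W : WeierstrassCurve ℤ) (g : GQ) :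
    LinearMap.det (rho W 3 g) * LinearMap.det (rho W 3 g) = 1 := by
  refine sq_one_of_ne fun h => ?_
  have h1 : rho W 3 g * rho W 3 g⁻¹ = 1 := by
    rw [← _root_.map_mul, mul_inv_cancel, _root_.map_one]
  have h2 := congrArg LinearMap.det h1
  rw [_root_.map_mul, h, zero_mul, map_one LinearMap.det] at h2
  exact zero_ne_one h2

lemma trace_twRho (g : GQ) : LinearMap.trace (ZMod 3) _ (twRho W g) =
    LinearMap.det (rho W 3 g) * LinearMap.trace (ZMod 3) _ (rho W 3 g) := by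
  rw [twRho_apply, map_smul, smul_eq_mul]

lemma det_twRho (hΔ : W.Δ ≠ 0) (g : GQ) :
    LinearMap.det (twRho W g) = LinearMap.det (rho W 3 g) := by
  rw [twRho_apply, LinearMap.det_smul, finrank_rat hΔ, sq, det_mul_self, one_mul]

lemma det_twRho_cyc (hΔ : W.Δ ≠ 0) (g : GQ) :
    LinearMap.det (twRho W g) = cycMod 3 g := by
  rw [det_twRho hΔ, det_rho hΔ]

/-- The twist spans the endomorphism ring. -/
theorem span_range_twRho (hΔ : W.Δ ≠ 0) (hirr : W.ModRepIsIrreducible 3) :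
    Submodule.span (ZMod 3) (Set.range (twRho W)) = ⊤ := by
  rw [eq_top_iff, ← span_range_rho hΔ (by norm_num) hirr, Submodule.span_le]
  rintro _ ⟨g, rfl⟩
  have h1 : rho W 3 g = LinearMap.det (rho W 3 g) • twRho W g := by
    rw [twRho_apply, smul_smul, det_mul_self, one_smul]
  rw [h1]
  exact Submodule.smul_mem _ _ (Submodule.subset_span ⟨g, rfl⟩)

/-- Frobenius data of the twist. -/
lemma frob_twRho {ℓ : ℕ} (hℓ : ℓ.Prime) (hW : W.IsGoodPrimeFor ℓ) (hℓ3 : ℓ ≠ 3)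
    {A : ValuationSubring (AlgebraicClosure ℚ)} (hA : A.LiesOverPrime ℓ) {φ : GQ}
    (hφ : A.IsFrobeniusAt φ ℓ) :
    LinearMap.trace (ZMod 3) _ (twRho W φ) = ((ℓ * W.apOfModel ℓ : ℤ) : ZMod 3) ∧
      LinearMap.det (twRho W φ) = (ℓ : ZMod 3) := by
  haveI : Fact ℓ.Prime := ⟨hℓ⟩
  have hΔ : W.Δ ≠ 0 := fun h => hW (by rw [h]; exact dvd_zero _)
  rw [trace_twRho, det_twRho hΔ, det_rho_frobenius hW hA hφ hℓ3, trace_rho_frobenius hW hA hφ hℓ3]
  exact ⟨by push_cast; ring, rfl⟩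

/-- **The relation on the eigenspace of the twisted system.** -/
theorem tw_relation (hΔ : W.Δ ≠ 0) {S : Finset ℕ} {N : ℕ} [NeZero N] {J : Type*}
    [AddCommGroup J] [Module HeckeAlg J] [DistribMulAction GQ J] [SMulCommClass GQ HeckeAlg J]
    (hJ : ESInput N 3 (↑S : Set ℕ) J) (h3S : 3 ∈ S)
    (hNS : ∀ q : ℕ, q.Prime → q ∣ N → q ∈ S)
    (hΔS : ∀ q : ℕ, q.Prime → ¬ W.IsGoodPrimeFor q → q ∈ S) (g : GQ) :
    eigenRep S 3 (fun ℓ => ℓ * W.apOfModel ℓ) J g * eigenRep S 3 (fun ℓ => ℓ * W.apOfModel ℓ) J g =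
      LinearMap.trace (ZMod 3) _ (twRho W g) • eigenRep S 3 (fun ℓ => ℓ * W.apOfModel ℓ) J g -
        algebraMap (ZMod 3) _ (LinearMap.det (twRho W g)) := by
  haveI := finite_rat hΔ (n := 3) (by norm_num)
  haveI : Module.Finite (ZMod 3)
      (Submodule.torsionBy ℤ ((W.map (Int.castRingHom ℚ))⁄(AlgebraicClosure ℚ)).Point (3 : ℕ)) :=
    Module.Finite.of_finite
  obtain ⟨L₁, hL₁, h₁⟩ := galoisRep_factors (map_Δ_ne_zero hΔ) (n := 3) (by norm_num)
  haveI := hL₁
  refine eigenRep_relation' (finrank_rat hΔ) (twRho W) L₁ (fun σ hσ => ?_) hJ S subset_rfl h3S hNS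
    (fun ℓ hℓ hℓS A hA φ hφ => ?_) g
  · rw [twRho_apply, show rho W 3 σ = 1 from h₁ σ hσ, map_one LinearMap.det, one_smul]
  · exact frob_twRho hℓ (by_contra fun h => hℓS (hΔS ℓ hℓ h)) (fun h => hℓS (h ▸ h3S)) hA hφ

section Generic

variable {S : Finset ℕ} {a : ℕ → ℤ} {J : Type*} [AddCommGroup J] [Module HeckeAlg J]
  [DistribMulAction GQ J] [SMulCommClass GQ HeckeAlg J]

/-- **Generation of the eigenspace** by the `τ x - x`. -/
theorem eigen_mem_of_top (b : Module.Basis (Fin 2) (ZMod 3) (T3 W))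
    (hspan : Submodule.span (ZMod 3) (Set.range (twRho W)) = ⊤)
    (hX : ∀ g : GQ, eigenRep S 3 a J g * eigenRep S 3 a J g =
      LinearMap.trace (ZMod 3) _ (twRho W g) • eigenRep S 3 a J g -
        algebraMap (ZMod 3) _ (LinearMap.det (twRho W g)))
    (I : Subgroup GQ) (htop : Submodule.span (ZMod 3) {w : T3 W | ∃ τ ∈ I,
      ∃ v, twRho W τ v - v = w} = ⊤) (Y : AddSubgroup J)
    (hY : ∀ τ ∈ I, ∀ x ∈ eigenPart S 3 a J, τ • x - x ∈ Y) {x : J} (hx : x ∈ eigenPart S 3 a J) :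
    x ∈ Y :=
  mem_of_top (twRho W) (eigenRep S 3 a J) (two_ne_zero_zmod (by norm_num)) b hspan hX
    (I : Set GQ) htop (Y.comap (eigenPart S 3 a J).subtype) (fun τ hτ y => hY τ hτ y y.2) ⟨x, hx⟩

/-- No `σ` with `cycMod 3 σ = -1` acts on the eigenspace by `2 = -1`. -/
theorem false_of_smul_two (hΔ : W.Δ ≠ 0) (b : Module.Basis (Fin 2) (ZMod 3) (T3 W))
    (hspan : Submodule.span (ZMod 3) (Set.range (twRho W)) = ⊤)
    (hX : ∀ g : GQ, eigenRep S 3 a J g * eigenRep S 3 a J g =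
      LinearMap.trace (ZMod 3) _ (twRho W g) • eigenRep S 3 a J g -
        algebraMap (ZMod 3) _ (LinearMap.det (twRho W g)))
    (hne : ∃ x ∈ eigenPart S 3 a J, x ≠ 0) {σ : GQ} (hcyc : cycMod 3 σ = -1)
    (hact : ∀ x ∈ eigenPart S 3 a J, σ • x = 2 • x) : False := by
  haveI : Nontrivial (eigenPart S 3 a J) := by
    obtain ⟨x, hx, hx0⟩ := hne
    exact ⟨⟨x, hx⟩, 0, fun h => hx0 (congrArg Subtype.val h)⟩
  have h2z := two_ne_zero_zmod (p := 3) (by norm_num)
  have h3 := blr_converse (twRho W) (eigenRep S 3 a J) h2z b hspan hX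
    (MonoidAlgebra.of (ZMod 3) GQ σ + 1) (by
      rw [map_add, _root_.map_one]
      refine LinearMap.ext fun x => Subtype.ext ?_
      have h5 : (((MonoidAlgebra.lift (ZMod 3) _ _ (eigenRep S 3 a J)
          (MonoidAlgebra.of (ZMod 3) GQ σ) + 1) x : eigenPart S 3 a J) : J) =
          σ • (x : J) + (x : J) := by simp
      rw [h5, hact x x.2, LinearMap.zero_apply, AddSubgroup.coe_zero]
      nth_rewrite 2 [← one_smul ℕ (x : J)]
      rw [← add_smul]
      exact x.2.1)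
  rw [map_add, _root_.map_one] at h3
  have h4 : twRho W σ = -1 := by
    have : twRho W σ + 1 = 0 := by
      rw [← h3]; simp
    exact eq_neg_of_add_eq_zero_left this
  have h5 := det_twRho_cyc hΔ σ
  rw [h4, hcyc, ← neg_one_smul (ZMod 3) (1 : Module.End (ZMod 3) _), LinearMap.det_smul,
    finrank_rat hΔ, _root_.map_one] at h5
  apply h2z
  linear_combination h5

/-- an inertia element acting as `-1` on the third roots of unity. -/
theorem exists_cyc_two {A : ValuationSubring (AlgebraicClosure ℚ)} (hA : A.LiesOverPrime 3) :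
    ∃ σ ∈ A.inertiaSubgroupIn ℚ, cycMod 3 σ = -1 ∧ S33aux.IsCycExp 3 σ 2 := by
  obtain ⟨ζ, hζ⟩ := exists_primitiveRoot 3
  obtain ⟨σ, hσ, hσζ⟩ := S33aux.exists_inertia_inv Nat.prime_three hA hζ
  have hσ2 : σ ζ = ζ ^ 2 := by
    rw [hσζ]
    refine inv_eq_of_mul_eq_one_right ?_
    rw [← pow_succ', hζ.pow_eq_one]
  refine ⟨σ, hσ, ?_, ?_⟩
  · rw [cycMod_unique hζ hσ2]
    decide
  · intro μ hμ
    obtain ⟨i, -, rfl⟩ := hζ.eq_pow_of_pow_eq_one hμ
    rw [map_pow, hσ2, ← pow_mul, ← pow_mul, mul_comm]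

end Generic

end Twist

end Fermat.Agent.Classic.TwistExcl

end
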