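import Fermat.Agent.FlatP.EllGood
import Fermat.Agent.GalW.NoLine
import Fermat.Agent.EC.ResRep
import Fermat.Agent.EC.MultOrdA

/-!
# Twist exclusion: traces of inertia at `p`

For a flat representation `r` over `𝔽_p` with cyclotomic determinant: either the inertia group
satisfies `tr = 1 + det`, or the trace is `t + t ^ p` with `t` the tame symbol of `p ^ (1/(p² - 1))`.
The same for `E[p]` of a semistable curve.
-/

set_option autoImplicit false

namespace Fermat.Agent.Classic.TwistExcl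

open Fermat.Agent.FlatGS Fermat.Agent.MazurMult FermatAgent.ECVal IsLocalRing Matrix
open Fermat.Agent.S53norm (M2)
open Fermat.Agent.FlatP
open WeierstrassCurve WeierstrassCurve.Affine WeierstrassCurve.Affine.Point
open Fermat.Agent.ECRed
open scoped WeierstrassCurve.Affine

section Mat

variable {k : Type} [Field k] {r : GQ →* M2 k} {A : ValuationSubring Om}

lemma trace_of_det_sub {X : M2 k} (h : (X - 1).det = 0) : X.trace = 1 + X.det := by
  rw [Matrix.det_fin_two] at h
  rw [Matrix.trace_fin_two, Matrix.det_fin_two]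
  simp only [Matrix.sub_apply, Matrix.one_apply_eq, Matrix.one_apply, Fin.isValue, zero_ne_one,
    one_ne_zero, if_false, sub_zero] at h
  linear_combination -h

/-- if the connected part is not everything then `tr = 1 + det` on inertia. -/
lemma trace_of_not_top (h : V0 r A ≠ ⊤) {σ : GQ} (hσ : σ ∈ A.inertiaSubgroupIn ℚ) :
    (r σ).trace = 1 + (r σ).det := by
  apply trace_of_det_sub
  by_contra hdet
  apply h
  rw [eq_top_iff]
  intro w _
  have hu : IsUnit (r σ - 1).det := isUnit_iff_ne_zero.mpr hdet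
  have h1 : w = r σ *ᵥ ((r σ - 1)⁻¹ *ᵥ w) - (r σ - 1)⁻¹ *ᵥ w := by
    have h2 : (r σ - 1) *ᵥ ((r σ - 1)⁻¹ *ᵥ w) = w := by
      rw [Matrix.mulVec_mulVec, Matrix.mul_nonsing_inv _ hu, Matrix.one_mulVec]
    rw [Matrix.sub_mulVec, Matrix.one_mulVec] at h2
    exact h2.symm
  rw [h1]
  exact sub_mem_V0 hσ _

end Mat

section Flat

variable {p : ℕ} [hpF : Fact p.Prime] {A : ValuationSubring Om} {r : GQ →* M2 (ZMod p)}

/-- **the supersingular case**: the trace and the determinant in terms of the tame symbol. -/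
theorem trace_eq_ts (hp2 : p ≠ 2) (hA : A.LiesOverPrime p)
    (hflat : IsFlatModule p (fun σ (v : Fin 2 → ZMod p) => r σ *ᵥ v)) (hdet : TW.CycDet p r)
    (htop : V0 r A = ⊤) {π : Om} (hπ : π ^ (p ^ 2 - 1) = (p : Om))
    (c : ZMod p →+* ResidueField A) {σ : GQ} (hσ : σ ∈ A.inertiaSubgroupIn ℚ) :
    c (r σ).trace = ts A σ π + ts A σ π ^ p ∧ c (r σ).det = ts A σ π * ts A σ π ^ p := by
  classical
  have hp := hpF.out
  obtain ⟨k, i1, i2, hfd, hsp⟩ := exists_split_field p
  have hfin : Finite k := Module.finite_of_finite (ZMod p)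
  have hchar : CharP k p := charP_of_injective_algebraMap (algebraMap (ZMod p) k).injective p
  obtain ⟨-, B, hB⟩ := (isFlatModule_extRep (k := k) hflat).exists_model
  have hdetk : TW.CycDet p (extRep k r) := by
    intro σ a ha
    have h1 := hdet σ a ha
    have h2 : (extRep k r σ).det = algebraMap (ZMod p) k (r σ).det :=
      ((algebraMap (ZMod p) k).map_det (r σ)).symm
    rw [h2, h1, map_natCast]
  have hlev : TW.IsFiniteLevel (extRep k r) := by
    obtain ⟨L, hL, hLσ⟩ := hB.exists_level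
    refine ⟨L, hL, fun σ hσ => ?_⟩
    apply Matrix.ext_of_mulVec_single
    intro i
    rw [one_mulVec]
    exact hLσ σ hσ _
  have hsplit : ∀ σ, ∃ α β : k, (extRep k r σ).charpoly =
      (Polynomial.X - Polynomial.C α) * (Polynomial.X - Polynomial.C β) := by
    intro σ
    have h1 : (extRep k r σ).charpoly = (r σ).charpoly.map (algebraMap (ZMod p) k) :=
      Matrix.charpoly_map _ _
    refine exists_eq_of_splits _ ?_
    rw [h1]
    exact hsp _
  have htopk : ∀ x, x ∈ V0 (extRep k r) A := by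
    intro x
    have h0 := incl_mem_V0 (k := k) (w := ![1, 0]) (A := A) (r := r)
      (by rw [htop]; exact Submodule.mem_top)
    have h1 := incl_mem_V0 (k := k) (w := ![0, 1]) (A := A) (r := r)
      (by rw [htop]; exact Submodule.mem_top)
    have h2 : x = x 0 • (fun i => algebraMap (ZMod p) k ((![1, 0] : Fin 2 → ZMod p) i)) +
        x 1 • (fun i => algebraMap (ZMod p) k ((![0, 1] : Fin 2 → ZMod p) i)) := by
      funext i
      fin_cases i <;> simp
    rw [h2]
    exact Submodule.add_mem _ (Submodule.smul_mem _ _ h0) (Submodule.smul_mem _ _ h1)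
  obtain ⟨ι, ψ, v₁, v₂, hli, hg⟩ := connected_case hB hp hp2 hA hdetk hlev
    (fun x => (mem_conn_iff_mem_V0 hB hp hp2 hA nsmul_eq_zero_of_char x).mpr (htopk x)) hπ hsplit
  obtain ⟨h1, h2, h3⟩ := hg σ hσ
  have hc : c = ι.comp (algebraMap (ZMod p) k) := RingHom.ext_zmod _ _
  have htr : algebraMap (ZMod p) k (r σ).trace = ψ σ + ψ σ ^ p := by
    rw [← GalW.trace_of_eigen hli h2 h3, Matrix.trace_fin_two, Matrix.trace_fin_two, map_add]
    rfl
  have hde : algebraMap (ZMod p) k (r σ).det = ψ σ * ψ σ ^ p := by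
    have h4 : (extRep k r σ).det = algebraMap (ZMod p) k (r σ).det :=
      ((algebraMap (ZMod p) k).map_det (r σ)).symm
    rw [← h4]
    exact det_of_triangular hli h2 (a := 0) (by rw [zero_smul, zero_add, h3])
  constructor
  · rw [hc, RingHom.comp_apply, htr, map_add, map_pow, ← h1]
  · rw [hc, RingHom.comp_apply, hde, map_mul, map_pow, ← h1]

end Flat

section Curve

variable {p : ℕ} [hpF : Fact p.Prime] {W : WeierstrassCurve ℤ}

/-- a matrix representation on `E[p]` for a given basis: determinants. -/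
lemma det_matRep (hΔ : W.Δ ≠ 0) (b : Module.Basis (Fin 2) (ZMod p)
      (Submodule.torsionBy ℤ ((W.map (Int.castRingHom ℚ))⁄(AlgebraicClosure ℚ)).Point p))
    (σ : GQ) : (matRep b σ).det = ECFrob.cycMod p σ := by
  rw [← ECFrob.det_rho hΔ σ]
  exact LinearMap.det_toMatrix b _

lemma cycDet_matRep (hΔ : W.Δ ≠ 0) (b : Module.Basis (Fin 2) (ZMod p)
      (Submodule.torsionBy ℤ ((W.map (Int.castRingHom ℚ))⁄(AlgebraicClosure ℚ)).Point p)) :
    TW.CycDet p (matRep b) := by
  obtain ⟨ζ, hζ⟩ := ECFrob.exists_primitiveRoot p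
  intro σ a ha
  rw [det_matRep hΔ]
  exact ECFrob.cycMod_unique hζ (ha ζ hζ.pow_eq_one)

lemma isFlatModule_matRep (hgood : W.IsGoodPrimeFor p) (b : Module.Basis (Fin 2) (ZMod p)
      (Submodule.torsionBy ℤ ((W.map (Int.castRingHom ℚ))⁄(AlgebraicClosure ℚ)).Point p)) :
    IsFlatModule p (fun σ (v : Fin 2 → ZMod p) => matRep b σ *ᵥ v) := by
  have hmv := matRep_mulVec b
  have h1 := Fermat.Agent.ECFlat.isFlatModule_torsion hpF.out hgood 1 (a := (p : ℤ)) (by simp)
  refine h1.of_equiv b.equivFun.symm.toAddEquiv fun σ v => ?_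
  have h2 := hmv σ (b.equivFun.symm v)
  rw [LinearEquiv.apply_symm_apply] at h2
  change b.equivFun.symm (matRep b σ *ᵥ v) = _
  rw [h2, LinearEquiv.symm_apply_apply]
  rfl

/-- multiplicative reduction at the odd prime `p`: `tr = 1 + det` on inertia. -/
theorem trace_of_mult (hW : ECRed.IsMultAt W p) (hp2 : p ≠ 2) (b : Module.Basis (Fin 2) (ZMod p)
      (Submodule.torsionBy ℤ ((W.map (Int.castRingHom ℚ))⁄(AlgebraicClosure ℚ)).Point p))
    {A : ValuationSubring Om} (hA : A.LiesOverPrime p) {σ : GQ}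
    (hσ : σ ∈ A.inertiaSubgroupIn ℚ) : (matRep b σ).trace = 1 + (matRep b σ).det := by
  classical
  apply trace_of_det_sub
  by_contra hdet
  obtain ⟨P, hP, hP0⟩ := ECRed.exists_torsion_notMem_E0 hW hp2 hA
  apply hP0
  have hPt : P ∈ Submodule.torsionBy ℤ
      ((W.map (Int.castRingHom ℚ))⁄(AlgebraicClosure ℚ)).Point p := by
    rw [Submodule.mem_torsionBy_iff, natCast_zsmul]
    exact hP
  have hu : IsUnit (matRep b σ - 1).det := isUnit_iff_ne_zero.mpr hdet
  set w := b.equivFun ⟨P, hPt⟩ with hw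
  set x := b.equivFun.symm ((matRep b σ - 1)⁻¹ *ᵥ w) with hx
  have h1 : σ • x - x = ⟨P, hPt⟩ := by
    apply b.equivFun.injective
    rw [map_sub, ← matRep_mulVec, hx, LinearEquiv.apply_symm_apply, ← hw]
    have h2 : (matRep b σ - 1) *ᵥ ((matRep b σ - 1)⁻¹ *ᵥ w) = w := by
      rw [Matrix.mulVec_mulVec, Matrix.mul_nonsing_inv _ hu, Matrix.one_mulVec]
    rw [Matrix.sub_mulVec, Matrix.one_mulVec] at h2
    exact h2
  have h3 := ECRed.inertia_smul_sub_mem_E0 hW hp2 hA hσ (x : _)
  have h4 : σ • (x : ((W.map (Int.castRingHom ℚ))⁄(AlgebraicClosure ℚ)).Point) - x = P :=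
    congrArg Subtype.val h1
  rw [← h4]
  exact h3

/-- **Traces of inertia on `E[p]`**, semistable at `p`. -/
theorem trace_curve (hp2 : p ≠ 2) (hΔ : W.Δ ≠ 0) (hW : W.IsSemistableModel)
    (b : Module.Basis (Fin 2) (ZMod p)
      (Submodule.torsionBy ℤ ((W.map (Int.castRingHom ℚ))⁄(AlgebraicClosure ℚ)).Point p))
    {A : ValuationSubring Om} (hA : A.LiesOverPrime p) :
    (∀ σ ∈ A.inertiaSubgroupIn ℚ, (matRep b σ).trace = 1 + (matRep b σ).det) ∨
    (∀ π : Om, π ^ (p ^ 2 - 1) = (p : Om) → ∀ (c : ZMod p →+* ResidueField A),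
      ∀ σ ∈ A.inertiaSubgroupIn ℚ, c (matRep b σ).trace = ts A σ π + ts A σ π ^ p ∧
        c (matRep b σ).det = ts A σ π * ts A σ π ^ p) := by
  by_cases hgood : W.IsGoodPrimeFor p
  · by_cases htop : V0 (matRep b) A = ⊤
    · right
      intro π hπ c σ hσ
      exact trace_eq_ts hp2 hA (isFlatModule_matRep hgood b) (cycDet_matRep hΔ b) htop hπ c hσ
    · left
      intro σ hσ
      exact trace_of_not_top htop hσ
  · left
    intro σ hσ
    exact trace_of_mult (Tate.isMultAt_of_semistable hW hΔ hpF.out (not_not.mp hgood)) hp2 b hA hσ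

end Curve

end Fermat.Agent.Classic.TwistExcl
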