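import Fermat.Agent.S33.Assembly
import Fermat.Agent.S44w.Old

/-!
# Twist exclusion: the eigenspaces in `J₀(m p)` and `J₀(m)`

* `smul_eq_of_gen`: if `X` is generated by the `τ x - x` and `U_p` is injective on `X`, inertia acts
  on `X` through the cyclotomic character;
* `UJ_mem_eigenPart`, `mem_eigenPart_of_pullN`: compatibility of the eigenspaces.
-/

set_option autoImplicit false
set_option linter.unusedSectionVars false
set_option linter.style.haveILetI false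

noncomputable section

open ModularCurve AlgebraicCurve CuspForm
open Fermat.Agent.GaussVal Fermat.Agent.GalRep Fermat.Agent.FF
open Fermat.Agent.TwoGauss (mkData)
open Fermat.Agent.QX4 (wJ wJ_wJ)
open Fermat.Agent.S34aux (pullN pushN)
open Fermat.Agent.S33aux (UJ UJ_apply)
open Fermat.Agent.S44w

namespace Fermat.Agent.Classic.TwistExcl

/-- If `X` is generated by the `τ x - x` and `U_p` is injective on `X`, inertia acts on `X`
through the cyclotomic character. -/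
theorem smul_eq_of_gen {p m : ℕ} [NeZero m] [NeZero p] [Fact p.Prime]
    {A : ValuationSubring (AlgebraicClosure ℚ)} (hp : p.Prime) (hm : ¬ p ∣ m)
    (hA : A.LiesOverPrime p) {X : AddSubgroup (JZero (m * p))} (hXp : ∀ x ∈ X, p • x = 0)
    (hXw : ∀ x ∈ X, wJ hp hm x ∈ X) (hXU : ∀ x ∈ X, UJ hp hm x ∈ X)
    (hgen : ∀ Y : AddSubgroup (JZero (m * p)),
      (∀ τ ∈ A.inertiaSubgroupIn ℚ, ∀ x ∈ X, τ • x - x ∈ Y) → ∀ x ∈ X, x ∈ Y)
    (hU : ∀ x ∈ X, UJ hp hm x = 0 → x = 0)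
    {τ : GQ} (hτ : τ ∈ A.inertiaSubgroupIn ℚ) {a : ℕ} (ha : S33aux.IsCycExp p τ a)
    {x : JZero (m * p)} (hx : x ∈ X) : τ • x = a • x := by
  haveI : CharP (IsLocalRing.ResidueField A) p := TwoGauss.charP_res hp hA
  have H3 := GoodRed.degThm_res hp hA (NeZero.ne m) hm
  have H2 := GoodRed.genus_le_all hp hA m hm
  have hXW := hgen (mkData hp hm hA H3 H2).WSub fun τ hτ x hx =>
    S33aux.inertia_sub_mem_W hp hm hA H3 H2 hτ (j := 1) (by rw [pow_one]; exact hXp x hx)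
  refine S33aux.smul_eq_of_contract hp hm hA H3 H2 (X := (X : Set (JZero (m * p))))
    ((Cofaith.finite_torsion_set (m * p) hp.ne_zero).subset fun x hx => hXp x hx) hXp hXw hXU
    (fun x hx y hy hxy => ?_) hXW hτ ha hx
  rw [← sub_eq_zero]
  exact hU _ (X.sub_mem hx hy) (by rw [map_sub, sub_eq_zero]; exact hxy)

/-- `U_p` respects the eigenspaces. -/
theorem UJ_mem_eigenPart {m q : ℕ} [NeZero m] [NeZero q] (hq : q.Prime) (hm : ¬ q ∣ m)
    {S : Finset ℕ} {p : ℕ} {a : ℕ → ℤ} (hS : ∀ ℓ : ℕ, ℓ.Prime → ℓ ∣ m * q → ℓ ∈ S)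
    {x : JZero (m * q)}
    (hx : letI := heckeModuleBar (m * q); x ∈ eigenPart S p a (JZero (m * q))) :
    letI := heckeModuleBar (m * q); UJ hq hm x ∈ eigenPart S p a (JZero (m * q)) := by
  letI := heckeModuleBar (m * q)
  refine ⟨?_, fun ℓ hℓ => ?_⟩
  · have hpx : p • x = 0 := hx.1
    change p • UJ hq hm x = 0
    rw [← map_nsmul, hpx, _root_.map_zero]
  · have h1 := S33aux.UJ_inclS (↑S : Set ℕ) hq hm hS
      (MvPolynomial.X ⟨ℓ, by simpa using hℓ⟩) x
    rw [inclS, MvPolynomial.rename_X] at h1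
    change UJ hq hm (heckeGen ℓ • x) = heckeGen ℓ • UJ hq hm x at h1
    have h2 : heckeGen ℓ • x = a (ℓ : ℕ) • x := hx.2 ℓ hℓ
    change heckeGen ℓ • UJ hq hm x = a (ℓ : ℕ) • UJ hq hm x
    rw [← h1, h2, map_zsmul]

/-- Descent of the eigenspace along the pull-back. -/
theorem mem_eigenPart_of_pullN {m q : ℕ} [NeZero m] [NeZero q] [Fact q.Prime] (hq : q.Prime)
    (hm : ¬ q ∣ m) {S : Finset ℕ} {a : ℕ → ℤ} (hS : ∀ ℓ : ℕ, ℓ.Prime → ℓ ∣ m * q → ℓ ∈ S)
    {y : JZero m} (hy : q • y = 0)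
    (hx : letI := heckeModuleBar (m * q); pullN m q y ∈ eigenPart S q a (JZero (m * q))) :
    letI := heckeModuleBar m; y ∈ eigenPart S q a (JZero m) := by
  letI i1 := heckeModuleBar (m * q)
  letI i2 := heckeModuleBar m
  refine ⟨hy, fun ℓ hℓ => ?_⟩
  have h1 := S33aux.pullN_inclS (↑S : Set ℕ) hS (MvPolynomial.X ⟨ℓ, by simpa using hℓ⟩) y
  rw [inclS, MvPolynomial.rename_X] at h1
  change pullN m q (heckeGen ℓ • y) = heckeGen ℓ • pullN m q y at h1
  have h2 : heckeGen ℓ • pullN m q y = a (ℓ : ℕ) • pullN m q y := hx.2 ℓ hℓ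
  rw [← sub_eq_zero]
  refine S33aux.eq_zero_of_pullN hq hm ?_ ?_
  · have h3 : q • (heckeGen ℓ • y) = heckeGen ℓ • (q • y) := smul_comm _ _ _
    rw [nsmul_sub, h3, hy, smul_zero, smul_comm, hy, smul_zero, sub_zero]
  · rw [map_sub, h1, h2, map_zsmul, sub_self]

/-- If `U_p` has a kernel on the eigenspace at level `m p` then the eigenspace at level `m` is not
zero. -/
theorem exists_level_m {m q : ℕ} [NeZero m] [NeZero q] [Fact q.Prime] (hq : q.Prime)
    (hm : ¬ q ∣ m) {S : Finset ℕ} {a : ℕ → ℤ} (hS : ∀ ℓ : ℕ, ℓ.Prime → ℓ ∣ m * q → ℓ ∈ S)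
    {x₀ : JZero (m * q)}
    (hx : letI := heckeModuleBar (m * q); x₀ ∈ eigenPart S q a (JZero (m * q)))
    (hU : UJ hq hm x₀ = 0) (h0 : x₀ ≠ 0) :
    letI := heckeModuleBar m; ∃ y ∈ eigenPart S q a (JZero m), y ≠ 0 := by
  letI i1 := heckeModuleBar (m * q)
  letI i2 := heckeModuleBar m
  have h1 : pullN m q (pushN m q (wJ hq hm x₀)) = wJ hq hm x₀ := by
    rw [UJ_apply, sub_eq_zero] at hU
    exact hU
  have h3x : q • x₀ = 0 := hx.1
  refine ⟨pushN m q (wJ hq hm x₀), mem_eigenPart_of_pullN hq hm hS ?_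
    (by rw [h1]; exact wJ_mem_eigenPart hq hm hS hx), ?_⟩
  · rw [← map_nsmul, ← map_nsmul, h3x, _root_.map_zero, _root_.map_zero]
  · intro h2
    rw [h2, _root_.map_zero] at h1
    apply h0
    rw [← wJ_wJ hq hm x₀, ← h1, _root_.map_zero]

end Fermat.Agent.Classic.TwistExcl

end
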