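import Fermat.Agent.Classic.Level.NoInvDef
import Fermat.Agent.Classic.Level.TwistAbs
import Fermat.Agent.Classic.Level.TwistLocal
import Fermat.Agent.Classic.Level.TwistGal
import Fermat.Agent.Classic.Level.TwistW
import Fermat.Agent.HopfFrame.FlatJZero

/-!
# Twist exclusion at `3`

`W` semistable, `W[3]` irreducible, no inertia-invariants above `3`: the twisted system
`ℓ a_ℓ(W)` modulo `3` does not come from a level `M` with `9 ∤ M`.
-/

set_option autoImplicit false
set_option linter.unusedSectionVars false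
set_option linter.style.haveILetI false

noncomputable section

open WeierstrassCurve WeierstrassCurve.Affine WeierstrassCurve.Affine.Point
open ModularCurve AlgebraicCurve CuspForm
open Fermat.Agent.FlatGS Fermat.Agent.MazurMult FermatAgent.ECVal IsLocalRing Matrix
open Fermat.Agent.S53norm (M2)
open Fermat.Agent.FlatP Fermat.Agent.ECRed Fermat.Agent.S44w
open Fermat.Agent.GalRep hiding GQ
open Fermat.Agent.TwoGauss (mkData)
open Fermat.Agent.QX4 (wJ wJ_wJ)
open Fermat.Agent.S34aux (pullN pushN)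
open Fermat.Agent.S33aux (UJ UJ_apply)
open scoped WeierstrassCurve.Affine

namespace Fermat.Agent.Classic.TwistExcl

variable {W : WeierstrassCurve ℤ}

section Mat

/-- matrices of the twist. -/
def twMat (b : Module.Basis (Fin 2) (ZMod 3) (T3 W)) : GQ →* M2 (ZMod 3) where
  toFun σ := LinearMap.toMatrix b b (twRho W σ)
  map_one' := by rw [_root_.map_one, LinearMap.toMatrix_one]
  map_mul' σ τ := by rw [_root_.map_mul, LinearMap.toMatrix_mul]

lemma twMat_mulVec (b : Module.Basis (Fin 2) (ZMod 3) (T3 W)) (σ : GQ) (x : T3 W) :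
    twMat b σ *ᵥ b.equivFun x = b.equivFun (twRho W σ x) :=
  LinearMap.toMatrix_mulVec_repr b b (twRho W σ) x

lemma twMat_eq (b : Module.Basis (Fin 2) (ZMod 3) (T3 W)) (σ : GQ) :
    twMat b σ = (matRep b σ).det • matRep b σ := by
  have h1 : (matRep b σ).det = LinearMap.det (ECFrob.rho W 3 σ) := LinearMap.det_toMatrix b _
  rw [h1]
  change LinearMap.toMatrix b b (LinearMap.det (ECFrob.rho W 3 σ) • ECFrob.rho W 3 σ) = _
  rw [map_smul]
  rfl

lemma det_twMat (hΔ : W.Δ ≠ 0) (b : Module.Basis (Fin 2) (ZMod 3) (T3 W)) (σ : GQ) :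
    (twMat b σ).det = (matRep b σ).det := by
  have h1 : (matRep b σ).det = LinearMap.det (ECFrob.rho W 3 σ) := LinearMap.det_toMatrix b _
  have h2 : (twMat b σ).det = LinearMap.det (twRho W σ) := LinearMap.det_toMatrix b _
  rw [h1, h2, det_twRho hΔ]

lemma cycDet_twMat (hΔ : W.Δ ≠ 0) (b : Module.Basis (Fin 2) (ZMod 3) (T3 W)) :
    TW.CycDet 3 (twMat b) := by
  intro σ a ha
  rw [det_twMat hΔ]
  exact cycDet_matRep hΔ b σ a ha

/-- **No inertia-invariants in `W[3]`: the twist is generated by the `τ v - v`.** -/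
theorem V0_twMat (hΔ : W.Δ ≠ 0) (hI : NoInv3 W) (b : Module.Basis (Fin 2) (ZMod 3) (T3 W))
    {A : ValuationSubring (AlgebraicClosure ℚ)} (hA : A.LiesOverPrime 3) :
    V0 (twMat b) A = ⊤ := by
  classical
  by_contra htop
  have hbot : V0 (twMat b) A ≠ ⊥ := by
    intro hbot
    obtain ⟨σ, hσ, hσd⟩ := exists_det_neg_one Nat.prime_three hA (cycDet_twMat hΔ b)
    have h1 : twMat b σ = 1 := by
      apply Matrix.ext_of_mulVec_single
      intro i
      have h2 := sub_mem_V0 (r := twMat b) hσ (Pi.single i 1)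
      rw [hbot, Submodule.mem_bot, sub_eq_zero] at h2
      rw [h2, one_mulVec]
    rw [h1, det_one] at hσd
    exact neg_one_ne_one (p := 3) (by norm_num) hσd.symm
  obtain ⟨v, hv, hv0⟩ := (Submodule.ne_bot_iff _).mp hbot
  have hline : V0 (twMat b) A = Submodule.span (ZMod 3) {v} := by
    refine le_antisymm ?_ ?_
    · intro w hw
      by_contra hcon
      apply htop
      have hli : LinearIndependent (ZMod 3) ![v, w] := by
        rw [LinearIndependent.pair_iff' hv0]
        intro a ha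
        exact hcon (Submodule.mem_span_singleton.mpr ⟨a, ha⟩)
      rw [eq_top_iff]
      intro u _
      obtain ⟨x, y, hxy⟩ := exists_coord hli u
      rw [hxy]
      exact Submodule.add_mem _ (Submodule.smul_mem _ _ hv) (Submodule.smul_mem _ _ hw)
    · rw [Submodule.span_singleton_le_iff_mem]
      exact hv
  have hfix : ∀ σ ∈ A.inertiaSubgroupIn ℚ, σ • b.equivFun.symm v = b.equivFun.symm v := by
    intro σ hσ
    apply b.equivFun.injective
    rw [← matRep_mulVec, LinearEquiv.apply_symm_apply]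
    have h1 := mulVec_line hv0 hline hσ hv
    rw [det_twMat hΔ, twMat_eq, Matrix.smul_mulVec] at h1
    have h2 : (matRep b σ).det * (matRep b σ).det = 1 := by
      have h3 : (matRep b σ).det = LinearMap.det (ECFrob.rho W 3 σ) := LinearMap.det_toMatrix b _
      rw [h3, det_mul_self]
    have h4 := congrArg (fun z => (matRep b σ).det • z) h1
    simp only [smul_smul, h2, one_smul] at h4
    exact h4
  have h5 := hI A hA (b.equivFun.symm v) hfix
  rw [LinearEquiv.map_eq_zero_iff] at h5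
  exact hv0 h5

/-- The same in the module of `3`-torsion points. -/
theorem span_top (hΔ : W.Δ ≠ 0) (hI : NoInv3 W) (b : Module.Basis (Fin 2) (ZMod 3) (T3 W))
    {A : ValuationSubring (AlgebraicClosure ℚ)} (hA : A.LiesOverPrime 3) :
    Submodule.span (ZMod 3) {w : T3 W | ∃ τ ∈ A.inertiaSubgroupIn ℚ,
      ∃ v, twRho W τ v - v = w} = ⊤ := by
  set L := Submodule.span (ZMod 3) {w : T3 W | ∃ τ ∈ A.inertiaSubgroupIn ℚ,
      ∃ v, twRho W τ v - v = w} with hL
  have h1 : V0 (twMat b) A ≤ L.comap b.equivFun.symm.toLinearMap := by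
    refine V0_le _ fun σ hσ x => ?_
    change b.equivFun.symm (twMat b σ *ᵥ x - x) ∈ L
    refine Submodule.subset_span ⟨σ, hσ, b.equivFun.symm x, ?_⟩
    apply b.equivFun.injective
    rw [map_sub, ← twMat_mulVec, LinearEquiv.apply_symm_apply, LinearEquiv.apply_symm_apply]
  rw [V0_twMat hΔ hI b hA, top_le_iff] at h1
  rw [eq_top_iff]
  intro x _
  have h2 : b.equivFun x ∈ L.comap b.equivFun.symm.toLinearMap := by rw [h1]; trivial
  have h3 : b.equivFun.symm (b.equivFun x) ∈ L := h2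
  rwa [LinearEquiv.symm_apply_apply] at h3

/-- **The twist is not flat at `3`.** -/
theorem false_of_flat (hΔ : W.Δ ≠ 0) (hW : W.IsSemistableModel) (hI : NoInv3 W)
    (b : Module.Basis (Fin 2) (ZMod 3) (T3 W))
    (hflat : IsFlatModule 3 (fun σ (v : Fin 2 → ZMod 3) => twMat b σ *ᵥ v)) : False := by
  obtain ⟨A, hA⟩ := Frob.exists_liesOverPrime 3 Nat.prime_three
  have htop := V0_twMat hΔ hI b hA
  have hchar : CharP (ResidueField A) 3 := charP_residueField_of_liesOver Nat.prime_three hA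
  obtain ⟨σ, hσ, hσd⟩ := exists_det_neg_one Nat.prime_three hA (cycDet_twMat hΔ b)
  obtain ⟨π, hπ⟩ := IsAlgClosed.exists_pow_nat_eq ((3 : ℕ) : Om) (n := 3 ^ 2 - 1) (by norm_num)
  let c : ZMod 3 →+* ResidueField A := ZMod.castHom (dvd_refl 3) (ResidueField A)
  obtain ⟨h1, h2⟩ := trace_eq_ts (by norm_num) hA hflat (cycDet_twMat hΔ b) htop hπ c hσ
  have hd : (matRep b σ).det = -1 := by rw [← det_twMat hΔ, hσd]
  have htr : (twMat b σ).trace = -(matRep b σ).trace := by
    rw [twMat_eq, hd, Matrix.trace_smul, neg_one_smul]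
  set t := ts A σ π with ht
  rw [hσd, map_neg, map_one] at h2
  have h2ne : (2 : ResidueField A) ≠ 0 := by
    intro h
    have h3 : ((2 : ℕ) : ResidueField A) = 0 := by exact_mod_cast h
    rw [CharP.cast_eq_zero_iff (ResidueField A) 3] at h3
    exact absurd (Nat.le_of_dvd two_pos h3) (by norm_num)
  have key : t + t ^ 3 = 0 := by
    rcases trace_curve (p := 3) (by norm_num) hΔ hW b hA with h | h
    · rw [htr, h σ hσ, hd] at h1
      rw [← h1]
      simp
    · have h3 := (h π hπ c σ hσ).1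
      rw [htr, map_neg, h3, ← ht] at h1
      have h4 : (2 : ResidueField A) * (t + t ^ 3) = 0 := by linear_combination -h1
      exact (mul_eq_zero.mp h4).resolve_left h2ne
  have ht0 : t ≠ 0 := by
    intro h
    rw [h, zero_mul] at h2
    exact one_ne_zero (neg_eq_zero.mp h2)
  have h5 : 1 + t ^ 2 = 0 := by
    have h6 : t * (1 + t ^ 2) = 0 := by linear_combination key
    exact (mul_eq_zero.mp h6).resolve_left ht0
  apply h2ne
  linear_combination (1 - t ^ 2) * h5 - h2

end Mat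

section Level

/-- the twisted system. -/
abbrev aTw (W : WeierstrassCurve ℤ) : ℕ → ℤ := fun ℓ => ℓ * W.apOfModel ℓ

theorem tw_rel (hΔ : W.Δ ≠ 0) {S : Finset ℕ} (N : ℕ) [NeZero N] (h3S : 3 ∈ S)
    (hNS : ∀ q : ℕ, q.Prime → q ∣ N → q ∈ S)
    (hΔS : ∀ q : ℕ, q.Prime → ¬ W.IsGoodPrimeFor q → q ∈ S) (g : GQ) :
    letI := heckeModuleBar N
    haveI := Cofaith.smulCommClass_JZero N
    eigenRep S 3 (aTw W) (JZero N) g * eigenRep S 3 (aTw W) (JZero N) g =
      LinearMap.trace (ZMod 3) _ (twRho W g) • eigenRep S 3 (aTw W) (JZero N) g -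
        algebraMap (ZMod 3) _ (LinearMap.det (twRho W g)) := by
  letI := heckeModuleBar N
  haveI := Cofaith.smulCommClass_JZero N
  exact tw_relation hΔ (S33aux.esInput_bar N Nat.prime_three (↑S : Set ℕ)
    (fun ℓ hℓ h => hNS ℓ hℓ h)) h3S hNS hΔS g

/-- **Level prime to `3`**: the eigenspace is zero. -/
theorem false_of_level (hΔ : W.Δ ≠ 0) (hW : W.IsSemistableModel) (hirr : W.ModRepIsIrreducible 3)
    (hI : NoInv3 W) {m : ℕ} [NeZero m] (hm : ¬ 3 ∣ m) {S : Finset ℕ} (h3S : 3 ∈ S)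
    (hmS : ∀ q : ℕ, q.Prime → q ∣ m → q ∈ S)
    (hΔS : ∀ q : ℕ, q.Prime → ¬ W.IsGoodPrimeFor q → q ∈ S)
    (hne : letI := heckeModuleBar m; ∃ x ∈ eigenPart S 3 (aTw W) (JZero m), x ≠ 0) : False := by
  letI := heckeModuleBar m
  haveI := Cofaith.smulCommClass_JZero m
  haveI := ECFrob.finite_rat hΔ (n := 3) (by norm_num)
  haveI : Module.Finite (ZMod 3) (T3 W) := Module.Finite.of_finite
  let b : Module.Basis (Fin 2) (ZMod 3) (T3 W) :=
    Module.finBasisOfFinrankEq _ _ (ECFrob.finrank_rat hΔ (p := 3))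
  haveI : Nontrivial (eigenPart S 3 (aTw W) (JZero m)) := by
    obtain ⟨x, hx, hx0⟩ := hne
    exact ⟨⟨x, hx⟩, 0, fun h => hx0 (congrArg Subtype.val h)⟩
  obtain ⟨φ, hφ, hφe⟩ := exists_embed (twRho W) (eigenRep S 3 (aTw W) (JZero m))
    (two_ne_zero_zmod (by norm_num)) b (span_range_twRho hΔ hirr) (tw_rel hΔ m h3S hmS hΔS)
  have hflatJ := HopfFrame.isFlatModule_actT Nat.prime_three hm 1
  have hmem : ∀ x : T3 W, ((φ x : eigenPart S 3 (aTw W) (JZero m)) : JZero m) ∈
      Submodule.torsionBy ℤ (JZero m) (((3 : ℕ) : ℤ) ^ 1) := by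
    intro x
    rw [Submodule.mem_torsionBy_iff, pow_one, natCast_zsmul]
    exact (φ x).2.1
  let i : (Fin 2 → ZMod 3) →+ ↥(Submodule.torsionBy ℤ (JZero m) (((3 : ℕ) : ℤ) ^ 1)) :=
    { toFun := fun v => ⟨(φ (b.equivFun.symm v) : eigenPart S 3 (aTw W) (JZero m)), hmem _⟩
      map_zero' := Subtype.ext (by
        change ((φ (b.equivFun.symm 0) : eigenPart S 3 (aTw W) (JZero m)) : JZero m) = 0
        rw [_root_.map_zero, _root_.map_zero]
        rfl)
      map_add' := fun v w => Subtype.ext (by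
        change ((φ (b.equivFun.symm (v + w)) : eigenPart S 3 (aTw W) (JZero m)) : JZero m) =
          ((φ (b.equivFun.symm v) : eigenPart S 3 (aTw W) (JZero m)) : JZero m) +
          ((φ (b.equivFun.symm w) : eigenPart S 3 (aTw W) (JZero m)) : JZero m)
        rw [map_add, map_add]
        rfl) }
  refine false_of_flat hΔ hW hI b (hflatJ.of_injective i ?_ ?_)
  · intro v w h
    have h1 := congrArg Subtype.val h
    exact b.equivFun.symm.injective (hφ (Subtype.ext h1))
  · intro σ v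
    apply Subtype.ext
    have h1 : b.equivFun.symm (twMat b σ *ᵥ v) = twRho W σ (b.equivFun.symm v) := by
      apply b.equivFun.injective
      rw [← twMat_mulVec, LinearEquiv.apply_symm_apply, LinearEquiv.apply_symm_apply]
    change ((φ (b.equivFun.symm (twMat b σ *ᵥ v)) : eigenPart S 3 (aTw W) (JZero m)) : JZero m) =
      σ • ((φ (b.equivFun.symm v) : eigenPart S 3 (aTw W) (JZero m)) : JZero m)
    rw [h1, hφe]
    rfl

/-- **Level `3 m`**: the eigenspace is zero. -/
theorem false_of_level_three (hΔ : W.Δ ≠ 0) (hW : W.IsSemistableModel)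
    (hirr : W.ModRepIsIrreducible 3) (hI : NoInv3 W) {m : ℕ} [NeZero m] (hm : ¬ 3 ∣ m)
    {S : Finset ℕ} (hS : ∀ ℓ : ℕ, ℓ.Prime → ℓ ∣ m * 3 → ℓ ∈ S)
    (hΔS : ∀ q : ℕ, q.Prime → ¬ W.IsGoodPrimeFor q → q ∈ S)
    (hne : letI := heckeModuleBar (m * 3); ∃ x ∈ eigenPart S 3 (aTw W) (JZero (m * 3)), x ≠ 0) :
    False := by
  letI i1 := heckeModuleBar (m * 3)
  haveI i2 := Cofaith.smulCommClass_JZero (m * 3)
  have h3S : 3 ∈ S := hS 3 Nat.prime_three (Dvd.intro_left m rfl)
  haveI := ECFrob.finite_rat hΔ (n := 3) (by norm_num)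
  haveI : Module.Finite (ZMod 3) (T3 W) := Module.Finite.of_finite
  let b : Module.Basis (Fin 2) (ZMod 3) (T3 W) :=
    Module.finBasisOfFinrankEq _ _ (ECFrob.finrank_rat hΔ (p := 3))
  have hspan := span_range_twRho hΔ hirr
  have hX := tw_rel hΔ (m * 3) h3S hS hΔS
  obtain ⟨A, hA⟩ := Frob.exists_liesOverPrime 3 Nat.prime_three
  by_cases hU : ∀ x ∈ eigenPart S 3 (aTw W) (JZero (m * 3)), UJ Nat.prime_three hm x = 0 → x = 0
  · obtain ⟨σ, hσ, hcyc, hexp⟩ := exists_cyc_two hA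
    refine false_of_smul_two hΔ b hspan hX hne hcyc fun x hx => ?_
    have hgen : ∀ Y : AddSubgroup (JZero (m * 3)),
        (∀ τ ∈ A.inertiaSubgroupIn ℚ, ∀ x ∈ eigenPart S 3 (aTw W) (JZero (m * 3)),
          τ • x - x ∈ Y) → ∀ x ∈ eigenPart S 3 (aTw W) (JZero (m * 3)), x ∈ Y := by
      intro Y hY x hx
      exact eigen_mem_of_top b hspan hX (A.inertiaSubgroupIn ℚ) (span_top hΔ hI b hA) Y hY hx
    exact smul_eq_of_gen Nat.prime_three hm hA (X := eigenPart S 3 (aTw W) (JZero (m * 3)))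
      (fun x hx => hx.1)
      (fun x hx => wJ_mem_eigenPart Nat.prime_three hm hS hx)
      (fun x hx => UJ_mem_eigenPart Nat.prime_three hm hS hx) hgen hU hσ hexp hx
  · push Not at hU
    obtain ⟨x₀, hx₀, hUx₀, hx₀0⟩ := hU
    exact false_of_level hΔ hW hirr hI hm h3S (fun q hq hd => hS q hq (hd.mul_right 3)) hΔS
      (exists_level_m Nat.prime_three hm hS hx₀ hUx₀ hx₀0)

end Level

end Fermat.Agent.Classic.TwistExcl

namespace Fermat.Agent.Classic

open TwistExcl

/-- **Twist exclusion**: the twisted system does not come from a level `M` with `9 ∤ M`. -/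
theorem not_twRes {W : WeierstrassCurve ℤ} (hΔ : W.Δ ≠ 0) (hW : W.IsSemistableModel)
    (hirr : W.ModRepIsIrreducible 3) (hI : NoInv3 W) {M : ℕ} (hM : M ≠ 0) (h9 : ¬ 3 ^ 2 ∣ M) :
    ¬ TwRes W M := by
  rintro ⟨f, 𝔪, hf, h𝔪, hp𝔪, hcong⟩
  haveI : NeZero M := ⟨hM⟩
  set S : Finset ℕ := (3 * M).primeFactors ∪ W.Δ.natAbs.primeFactors with hSdef
  have h3M : 3 * M ≠ 0 := mul_ne_zero (by norm_num) hM
  have h3S : 3 ∈ S := Finset.mem_union_left _
    (Nat.mem_primeFactors.2 ⟨Nat.prime_three, dvd_mul_right 3 M, h3M⟩)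
  have hMS : ∀ q : ℕ, q.Prime → q ∣ M → q ∈ S := fun q hq hd =>
    Finset.mem_union_left _ (Nat.mem_primeFactors.2 ⟨hq, hd.mul_left 3, h3M⟩)
  have hΔS : ∀ q : ℕ, q.Prime → ¬ W.IsGoodPrimeFor q → q ∈ S := fun q hq hd =>
    Finset.mem_union_right _ (Nat.mem_primeFactors.2 ⟨hq, Int.natCast_dvd.1 (not_not.mp hd),
      Int.natAbs_ne_zero.2 hΔ⟩)
  have hne : letI := heckeModuleBar M; ∃ x ∈ eigenPart S 3 (aTw W) (JZero M), x ≠ 0 := by
    letI := heckeModuleBar M
    haveI := Cofaith.smulCommClass_JZero M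
    refine exists_mem_eigenPart_ne_zero (a := aTw W)
      (S33aux.esInput_bar M Nat.prime_three (↑S : Set ℕ) (fun ℓ hℓ h => hMS ℓ hℓ h))
      (fun k => Cofaith.finite_torsion_set _ (pow_ne_zero k (by norm_num))) hf h𝔪
      (by exact_mod_cast hp𝔪) fun ℓ hℓ hℓS => ?_
    exact hcong ℓ hℓ (by_contra fun h => hℓS (hΔS ℓ hℓ h)) (fun h => hℓS (hMS ℓ hℓ h))
      (fun h => hℓS (h ▸ h3S))
  by_cases hd : 3 ∣ M
  · obtain ⟨m, hm⟩ := hd
    obtain rfl : M = m * 3 := by rw [hm, mul_comm]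
    haveI : NeZero m := ⟨fun h => hM (by rw [h, zero_mul])⟩
    have hm3 : ¬ 3 ∣ m := by
      rintro ⟨k, rfl⟩
      exact h9 ⟨k, by ring⟩
    exact false_of_level_three hΔ hW hirr hI hm3 hMS hΔS hne
  · exact false_of_level hΔ hW hirr hI hd h3S hMS hΔS hne

end Fermat.Agent.Classic

end
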