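import Fermat.Agent.Classic.Level.Descent
import Fermat.Agent.Classic.Level.TwistExcl
import Fermat.Agent.Classic.Level.Steps

/-!
# `StepP3`
-/

set_option autoImplicit false

namespace Fermat.Agent.Classic.Level

/-- **P3**: stripping the level at `3` when inertia at `3` has no fixed vector. -/
theorem stepP3 : StepP3 NoInv3 := fun _ hΔ hW hirr hI _ _ hM h3 h =>
  strip_main_of descStmt hΔ hirr (fun _ hm h3m => not_twRes hΔ hW hirr hI
    (mul_ne_zero (by norm_num) hm) fun h9 => h3m (Nat.dvd_of_mul_dvd_mul_left (k := 3)
      (by norm_num) (by simpa [pow_two] using h9))) h3 hM h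

end Fermat.Agent.Classic.Level
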