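import Fermat.Agent.Classic.Level.Steps
import Fermat.Agent.Classic.Level.Z3.Deplete

/-!
# Control of the level, step W1: the start

The conclusion of S47, depleted at a level divisible by a prescribed number (helper73).
-/

set_option autoImplicit false

open CongruenceSubgroup ModularFormClass EisensteinWeightOne UpperHalfPlane WeierstrassCurve
open scoped MatrixGroups ModularForm

local notation "Γℚ" => (AlgebraicClosure ℚ ≃ₐ[ℚ] AlgebraicClosure ℚ)

noncomputable section

namespace Fermat.Agent.Classic.Level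

theorem stepStart : StepStart := by
  intro ρ Ψ hC D hD hunr
  obtain ⟨N₀, hN₀, b₀, hb₀, hr₀, ht₀⟩ := hC
  obtain ⟨N, hN, hN₀N, hDN, -, hsq, hb, ι, f, hf⟩ := Z3.depleteStmt N₀ D hD b₀ hb₀ hr₀
  set b : ℕ → ℤ√(-2) := fun n => if n.Coprime N then b₀ n else 0 with hbdef
  obtain ⟨h3, hneb⟩ := Classic.neb f ι b hf hb
  refine ⟨N, hN, ι, b, f, hDN, ⟨h3, hsq, hb, fun n hn => if_neg hn, hf, hneb,
    fun p hp hpN => hunr p hp fun h => hpN (h.trans hDN), ?_⟩⟩
  intro p hp hpN A hA σ hσ
  have h1 : p.Coprime N := (Nat.Prime.coprime_iff_not_dvd hp).mpr hpN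
  rw [hbdef]
  simp only [if_pos h1]
  refine ht₀ p hp (fun h => ?_) A hA σ hσ
  rcases hp.dvd_mul.mp h with h | h
  · exact hpN (h.trans h3)
  · exact hpN (h.trans hN₀N)

end Fermat.Agent.Classic.Level

end
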