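import Fermat.Agent.Classic.Level.Steps
import Fermat.Agent.Classic.Zeta.FEmul

/-!
# The four fields: common input of the comparison of levels

`Four ρ N β` collects everything which the comparison of the functional equations needs about the
fields `F₂₄, F₁₂, F₈, F₄` of the subgroups of order `2, 4, 6, 12` of `GL₂(𝔽₃)`:
the functional equations of their Dedekind zeta functions, the lists of the norms of the places
dividing `N`, the identity
`ζ₂₄ E₂₄ (ζ₄ E₄)² = ζ₁₂ E₁₂ (ζ₈ E₈)² L(β) L(conj β)`,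
the exponents of the tame primes, and the exact count at `3` if inertia at `3` is of order two.
-/

set_option autoImplicit false

open scoped LSeries.notation ComplexConjugate MatrixGroups
open CongruenceSubgroup WeierstrassCurve

local notation "Γℚ" => (AlgebraicClosure ℚ ≃ₐ[ℚ] AlgebraicClosure ℚ)

noncomputable section

namespace Fermat.Agent.Classic.Level

open Zeta

/-- The data of the four fields at the level `N`, for the system `β`. -/
structure Four (ρ : Γℚ →* GL (Fin 2) (ZMod 3)) (N : ℕ) (β : ℕ → ℂ) where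
  /-- coefficients of the zeta functions -/
  (z24 z12 z8 z4 : ℕ → ℂ)
  /-- absolute values of the discriminants -/
  (d24 d12 d8 d4 : ℕ)
  /-- numbers of real places -/
  (r24 r12 r8 r4 : ℕ)
  /-- numbers of complex places -/
  (t24 t12 t8 t4 : ℕ)
  /-- norms of the places dividing `N` -/
  (l24 l12 l8 l4 : List ℕ)
  z24_one : z24 1 = 1
  z12_one : z12 1 = 1
  z8_one : z8 1 = 1
  z4_one : z4 1 = 1
  d24_ne : d24 ≠ 0
  d12_ne : d12 ≠ 0
  d8_ne : d8 ≠ 0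
  d4_ne : d4 ≠ 0
  two_le24 : ∀ ν ∈ l24, 2 ≤ ν
  two_le12 : ∀ ν ∈ l12, 2 ≤ ν
  two_le8 : ∀ ν ∈ l8, 2 ≤ ν
  two_le4 : ∀ ν ∈ l4, 2 ≤ ν
  fe24 : FE z24 z24 d24 r24 t24
  fe12 : FE z12 z12 d12 r12 t12
  fe8 : FE z8 z8 d8 r8 t8
  fe4 : FE z4 z4 d4 r4 t4
  hr : r24 + 2 * r4 = r12 + 2 * r8
  ht : t24 + 2 * t4 = t12 + 2 * t8 + 2
  hid : ∀ n : ℕ, n ≠ 0 → ((z24 ⍟ efl l24) ⍟ ((z4 ⍟ efl l4) ⍟ (z4 ⍟ efl l4))) n =
    (((z12 ⍟ efl l12) ⍟ ((z8 ⍟ efl l8) ⍟ (z8 ⍟ efl l8))) ⍟ (β ⍟ fun m => conj (β m))) n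
  /-- the tame primes -/
  tame : ∀ q : ℕ, q.Prime → q ∣ N → (∃ n : ℕ, ¬ q ∣ n ∧ ExpAt ρ n q) →
    (d24 * l24.prod).factorization q = 24 ∧ (d12 * l12.prod).factorization q = 12 ∧
      (d8 * l8.prod).factorization q = 8 ∧ (d4 * l4.prod).factorization q = 4
  /-- the count at `3` -/
  three : DetAt ρ 3 → 3 ∣ N →
    l24.prod.factorization 3 + 2 * l4.prod.factorization 3 =
      l12.prod.factorization 3 + 2 * l8.prod.factorization 3 + 2

/-- The field side of the comparison. -/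
def FourStmt : Prop :=
  ∀ (ρ : Γℚ →* GL (Fin 2) (ZMod 3)), Continuous ρ → Function.Surjective ρ →
    (∀ σ : Γℚ, Matrix.GeneralLinearGroup.det (ρ σ) = modThreeCyclotomicChar σ) →
    ∀ Ψ : GL (Fin 2) (ZMod 3) →* GL (Fin 2) (ℤ√(-2)),
      (∀ g, Matrix.GeneralLinearGroup.map FLT.ExplicitLift.red (Ψ g) = g) →
    ∃ D : ℕ, D ≠ 0 ∧
    ∀ (N : ℕ) (_ : NeZero N) (ι : ℤ√(-2) →+* ℂ) (b : ℕ → ℤ√(-2)) (f : CuspForm (Gamma1 N) 1),
      Start ρ Ψ N ι b f → (∀ p : ℕ, p.Prime → p ∣ D → p ∣ N) →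
      Nonempty (Four ρ N fun n => ι (b n))

end Fermat.Agent.Classic.Level

end
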