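import Fermat.Agent.Classic.Level.EmbAbove
import Fermat.Agent.Minkowski.Trivial

/-!
# Unramified primes are good

`Good F p` (distinct embeddings of `F` have distinct reductions at `p`) holds if the sum of the
residue degrees above `p` is `[F : ℚ]`, in particular if `F` embeds into a Galois extension of `ℚ`
on which the inertia groups above `p` act trivially.
-/

set_option autoImplicit false

namespace Fermat.Agent.Classic.Emb

open NumberField IsDedekindDomain Fermat.Agent.Frob Fermat.Agent.FrobDensity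
open Fermat.Agent.LT.Tower.Fr Fermat.Agent.Classic.Disc Fermat.Agent.Minkowski
open scoped Pointwise

variable {F : Type*} [Field F] [NumberField F] {p : ℕ}

lemma dvd_of_pow_eq {v : HeightOneSpectrum (𝓞 F)} (hp : p.Prime) {f : ℕ}
    (hf : Ideal.absNorm v.asIdeal = p ^ f) {k : ℕ}
    (hx : ∀ x : 𝓞 F, x ^ p ^ k - x ∈ v.asIdeal) : f ∣ k := by
  let _ := fieldQuot v
  have hx' : ∀ x : 𝓞 F ⧸ v.asIdeal, x ^ p ^ k = x := by
    intro x
    obtain ⟨x, rfl⟩ := Ideal.Quotient.mk_surjective x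
    rw [← map_pow, Ideal.Quotient.eq]
    exact hx x
  obtain ⟨g, hg⟩ := IsCyclic.exists_ofOrder_eq_natCard (α := (𝓞 F ⧸ v.asIdeal)ˣ)
  have h1 : orderOf g = p ^ f - 1 := by
    rw [hg, Nat.card_units, natCard_quot, hf]
  have h2 : g ^ (p ^ k - 1) = 1 := by
    have h3 : g ^ p ^ k = g := Units.ext (by rw [Units.val_pow_eq_pow_val]; exact hx' g)
    have h4 : g ^ (p ^ k - 1) * g = g := by
      rw [← pow_succ, Nat.sub_add_cancel (Nat.one_le_pow _ _ hp.pos), h3]
    exact mul_eq_right.mp h4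
  have h5 : p ^ f - 1 ∣ p ^ k - 1 := by rw [← h1]; exact orderOf_dvd_of_pow_eq_one h2
  have h6 := Nat.pow_sub_one_gcd_pow_sub_one p f k
  rw [Nat.gcd_eq_left h5] at h6
  have h7 : p ^ f = p ^ Nat.gcd f k := by
    have h8 := Nat.one_le_pow f p hp.pos
    have h9 := Nat.one_le_pow (Nat.gcd f k) p hp.pos
    omega
  have h10 : f = Nat.gcd f k := Nat.pow_right_injective hp.two_le h7
  rw [h10]
  exact Nat.gcd_dvd_right f k

lemma card_embeddings [Fintype (F →+* AlgebraicClosure ℚ)] :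
    Fintype.card (F →+* AlgebraicClosure ℚ) = Module.finrank ℚ F := by
  rw [← Nat.card_eq_fintype_card,
    Nat.card_congr (RingHom.equivRatAlgHom (R := F) (S := AlgebraicClosure ℚ)),
    Nat.card_eq_fintype_card, AlgHom.card]

/-- **If `∑ f_v = [F : ℚ]` over the places above `p`, distinct embeddings of `F` have distinct
reductions at `p`.** -/
theorem good_of_fSum (hp : p.Prime) (h : fSum F p = Module.finrank ℚ F) : Good F p := by
  classical
  intro A hA τ τ' hττ
  have : Finite (F →+* AlgebraicClosure ℚ) := finite_embeddings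
  let _ : Fintype (F →+* AlgebraicClosure ℚ) := Fintype.ofFinite _
  have : Fact p.Prime := ⟨hp⟩
  have hch := charP_residue hp hA
  obtain ⟨σ, hσ⟩ := exists_isFrobeniusAt hp hA
  have hex : ∀ v : {v // v ∈ above F p}, ∃ t : F →+* AlgebraicClosure ℚ, Over t A v.1 := fun v =>
    exists_redτ hp hA ((mem_above hp.ne_zero).mp v.2)
  choose t ht using hex
  let g : (Σ v : {v // v ∈ above F p}, Fin (fdeg v.1)) → (F →+* AlgebraicClosure ℚ) :=
    fun x => (gh (σ ^ (x.2 : ℕ))).comp (t x.1)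
  have hRg : ∀ x y, redτ A (g x) = redτ A (g y) → x = y := by
    rintro ⟨v, j⟩ ⟨w, l⟩ hxy
    have hv : Over (g ⟨v, j⟩) A v.1 := Over.frob_pow (ht v) hσ _
    have hw : Over (g ⟨w, l⟩) A w.1 := Over.frob_pow (ht w) hσ _
    have hvw : v = w := by
      apply Subtype.ext
      apply HeightOneSpectrum.ext
      unfold Over at hv hw
      rw [← hv, ← hw, hxy]
    subst hvw
    have hf := absNorm_eq hp ((mem_above hp.ne_zero).mp v.2)
    have key : ∀ a b : ℕ, a ≤ b → b < fdeg v.1 →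
        redτ A ((gh (σ ^ a)).comp (t v)) = redτ A ((gh (σ ^ b)).comp (t v)) → a = b := by
      intro a b hab hb hr
      obtain ⟨c, rfl⟩ := Nat.exists_eq_add_of_le hab
      have h1 : fdeg v.1 ∣ c := by
        apply dvd_of_pow_eq hp hf
        intro x
        rw [(ht v).mem_iff, map_sub, map_pow]
        have h2 := RingHom.congr_fun hr x
        rw [redτ_frob_pow hσ, redτ_frob_pow hσ, Nat.add_comm, pow_add, pow_mul] at h2
        have h3 : (redτ A (t v) x ^ p ^ c - redτ A (t v) x) ^ p ^ a = 0 := by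
          rw [sub_pow_char_pow, h2, sub_self]
        exact (pow_eq_zero_iff (pow_ne_zero _ hp.ne_zero)).mp h3
      have h4 : c = 0 := Nat.eq_zero_of_dvd_of_lt h1 (by omega)
      omega
    have hjl : (j : ℕ) = l := by
      rcases le_total (j : ℕ) l with hh | hh
      · exact key _ _ hh l.2 hxy
      · exact (key _ _ hh j.2 hxy.symm).symm
    rw [Fin.ext hjl]
  have hgi : Function.Injective g := fun x y hxy => hRg x y (by rw [hxy])
  have hcard : Fintype.card (Σ v : {v // v ∈ above F p}, Fin (fdeg v.1)) =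
      Fintype.card (F →+* AlgebraicClosure ℚ) := by
    rw [card_embeddings, ← h, Fintype.card_sigma, fSum]
    simp only [Fintype.card_fin]
    exact Finset.sum_coe_sort (above F p) (fun v => fdeg v)
  have hgs : Function.Surjective g :=
    ((Fintype.bijective_iff_injective_and_card g).mpr ⟨hgi, hcard⟩).2
  obtain ⟨x, rfl⟩ := hgs τ
  obtain ⟨y, rfl⟩ := hgs τ'
  rw [hRg x y hττ]

lemma fSum_eq_of_ram (hp : p.Prime) (h : ∀ v ∈ above F p, ram v = 1) :
    fSum F p = Module.finrank ℚ F := by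
  rw [← sum_ram_fdeg hp, fSum]
  exact Finset.sum_congr rfl fun v hv => by rw [h v hv, one_mul]

/-! ### Trivial inertia -/

private theorem under_eq {K : Type*} [Field K] {q : ℕ} (hq : q.Prime) (P : Ideal (𝓞 K))
    [P.IsPrime] (hqP : (q : 𝓞 K) ∈ P) : P.under ℤ = Ideal.span {(q : ℤ)} := by
  have hmax : (Ideal.span {(q : ℤ)}).IsMaximal :=
    (Ideal.span_singleton_prime (by exact_mod_cast hq.ne_zero)).mpr
      (Nat.prime_iff_prime_int.mp hq) |>.isMaximal
        (by simpa using hq.ne_zero)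
  refine (hmax.eq_of_le (Ideal.IsPrime.ne_top inferInstance) ?_).symm
  rw [Ideal.span_singleton_le_iff_mem]
  change algebraMap ℤ (𝓞 K) (q : ℤ) ∈ P
  simpa using hqP

/-- In the Galois case: trivial inertia implies ramification index one. -/
theorem ramificationIdx_eq_one_of_isGalois (K : IntermediateField ℚ (AlgebraicClosure ℚ))
    [FiniteDimensional ℚ K] [IsGalois ℚ K] {q : ℕ} (hq : q.Prime)
    (h : ∀ A : ValuationSubring (AlgebraicClosure ℚ), A.LiesOverPrime q →
      ∀ σ ∈ A.inertiaSubgroupIn ℚ, ∀ x ∈ K, σ x = x)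
    (Q : Ideal (𝓞 K)) [hQ : Q.IsPrime] (hqQ : (q : 𝓞 K) ∈ Q) : Q.ramificationIdx ℤ = 1 := by
  have : NumberField K := ⟨⟩
  obtain ⟨A, hA⟩ := exists_liesOverPrime q hq
  let P : Ideal (𝓞 K) := (centre A).comap (incl K)
  have hP : P.IsPrime := Ideal.comap_isPrime _ _
  have hPq : (q : 𝓞 K) ∈ P := by
    change incl K (q : 𝓞 K) ∈ centre A
    rw [map_natCast]
    exact natCast_mem_centre hA
  have hPu := under_eq hq P hPq
  have hQu := under_eq hq Q hqQ
  have hp'p : (Ideal.span {(q : ℤ)}).IsPrime := by rw [← hPu]; infer_instance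
  have hlP : P.LiesOver (Ideal.span {(q : ℤ)}) := ⟨hPu.symm⟩
  have hlQ : Q.LiesOver (Ideal.span {(q : ℤ)}) := ⟨hQu.symm⟩
  have hp0 : Ideal.span {(q : ℤ)} ≠ ⊥ := by
    simpa using hq.ne_zero
  have hfin : Finite (ℤ ⧸ Ideal.span {(q : ℤ)}) := Ring.HasFiniteQuotients.finiteQuotient hp0
  have hp'm : (Ideal.span {(q : ℤ)}).IsMaximal := hp'p.isMaximal hp0
  have hfin2 : Finite (Ideal.span {(q : ℤ)}).ResidueField := inferInstance
  have hcard := Ideal.card_inertia_eq_ramificationIdxIn (G := K ≃ₐ[ℚ] K) (Ideal.span {(q : ℤ)}) P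
  rw [Ideal.ramificationIdxIn_eq_ramificationIdx (Ideal.span {(q : ℤ)}) Q (K ≃ₐ[ℚ] K)] at hcard
  rw [← hcard, Nat.card_eq_one_iff_unique]
  refine ⟨⟨fun a b => ?_⟩, ⟨1⟩⟩
  have key : ∀ τ : P.inertia (K ≃ₐ[ℚ] K), τ = 1 := by
    rintro ⟨τ, hτ⟩
    obtain ⟨σ, hσ, hσF⟩ := exists_lift_inertia K hq hA τ
      (fun x => ⟨τ • x - x, rfl, hτ x⟩)
    apply Subtype.ext
    change τ = 1
    ext x
    rw [← hσF]
    exact h A hA σ hσ x x.2
  rw [key a, key b]

/-- **Places of subfields of a Galois extension with trivial inertia are unramified.** -/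
theorem ram_eq_one {K : IntermediateField ℚ (AlgebraicClosure ℚ)}
    [FiniteDimensional ℚ K] [IsGalois ℚ K] (hp : p.Prime)
    (h : ∀ A : ValuationSubring (AlgebraicClosure ℚ), A.LiesOverPrime p →
      ∀ σ ∈ A.inertiaSubgroupIn ℚ, ∀ x ∈ K, σ x = x)
    (i : F →+* AlgebraicClosure ℚ) (hi : ∀ x, i x ∈ K) {v : HeightOneSpectrum (𝓞 F)}
    (hv : v ∈ above F p) : ram v = 1 := by
  have hNK : NumberField K := ⟨⟩
  let algFK : Algebra F K := (i.codRestrict K hi).toAlgebra
  have hst : IsScalarTower ℚ F K := IsScalarTower.of_algebraMap_eq' (Subsingleton.elim _ _)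
  have hvp := v.isPrime
  obtain ⟨⟨Q, hQp, hQl⟩⟩ := Ideal.nonempty_primesOver (S := 𝓞 K) v.asIdeal
  have hqP : (p : 𝓞 F) ∈ v.asIdeal := (mem_above hp.ne_zero).mp hv
  have hqQ : (p : 𝓞 K) ∈ Q := by
    have h1 : algebraMap (𝓞 F) (𝓞 K) (p : 𝓞 F) ∈ Q := by
      have h2 : (p : 𝓞 F) ∈ Q.under (𝓞 F) := by
        rw [← hQl.over]
        exact hqP
      exact h2
    simpa using h1
  have h3 := ramificationIdx_eq_one_of_isGalois K hp h Q hqQ
  have h4 : v.asIdeal.ramificationIdx ℤ ∣ Q.ramificationIdx ℤ :=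
    Ideal.ramificationIdx_below_dvd v.asIdeal Q
  rw [h3] at h4
  exact Nat.dvd_one.mp h4

/-- **Unramified primes are good.** -/
theorem good_of_unr (hp : p.Prime) (N : Subgroup GQ) [N.Normal] (hN : IsOpen (N : Set GQ))
    (h : ∀ A : ValuationSubring (AlgebraicClosure ℚ), A.LiesOverPrime p →
      ∀ σ ∈ A.inertiaSubgroupIn ℚ, σ ∈ N)
    (i : F →+* AlgebraicClosure ℚ) (hi : ∀ σ ∈ N, ∀ x : F, σ (i x) = i x) : Good F p := by
  have hHc : IsClosed (N : Set GQ) := N.isClosed_of_isOpen hN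
  let K : IntermediateField ℚ (AlgebraicClosure ℚ) := IntermediateField.fixedField N
  have hfix : K.fixingSubgroup = N := InfiniteGalois.fixingSubgroup_fixedField ⟨N, hHc⟩
  have hfd : FiniteDimensional ℚ K := by
    rw [← InfiniteGalois.isOpen_iff_finite]
    rw [hfix]
    exact hN
  have hgal : IsGalois ℚ K := by
    have h1 := (InfiniteGalois.normal_iff_isGalois K).mp (by rw [hfix]; infer_instance)
    convert h1
    exact Subsingleton.elim _ _
  have hiK : ∀ x, i x ∈ K := fun x =>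
    (IntermediateField.mem_fixedField_iff _ _).mpr fun g hg => hi g hg x
  refine good_of_fSum hp (fSum_eq_of_ram hp fun v hv => ?_)
  exact ram_eq_one (K := K) hp (fun A hA σ hσ x hx =>
    (IntermediateField.mem_fixedField_iff _ _).mp hx _ (h A hA σ hσ)) i hiK hv

/-- **If `ρ` is unramified at `p`, then `p` is good for the number fields cut out by `ρ`.** -/
theorem good_of_unrAt {G : Type*} [Group G] [TopologicalSpace G] [DiscreteTopology G]
    {ρ : GQ →* G} (hρ : Continuous ρ) (hp : p.Prime)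
    (h : ∀ A : ValuationSubring (AlgebraicClosure ℚ), A.LiesOverPrime p →
      ∀ σ ∈ A.inertiaSubgroupIn ℚ, ρ σ = 1)
    (i : F →+* AlgebraicClosure ℚ) (hi : ∀ σ : GQ, ρ σ = 1 → ∀ x : F, σ (i x) = i x) :
    Good F p := by
  refine good_of_unr hp ρ.ker ?_ (fun A hA σ hσ => MonoidHom.mem_ker.mpr (h A hA σ hσ)) i
    (fun σ hσ => hi σ (MonoidHom.mem_ker.mp hσ))
  have h1 : (ρ.ker : Set GQ) = ρ ⁻¹' {1} := by
    ext σ
    simp [MonoidHom.mem_ker]
  rw [h1]
  exact (isOpen_discrete _).preimage hρ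

end Fermat.Agent.Classic.Emb
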