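import Mathlib

/-!
# Local identities from fixed point counts

A polynomial with constant term one is determined by the power sums of its inverse roots
(logarithmic derivative).
-/

set_option autoImplicit false

open PowerSeries

namespace Fermat.Agent.Classic.Zeta

namespace LocalId

/-- `- X P' / P = g` -/
def LD (P g : ℂ⟦X⟧) : Prop :=
  constantCoeff P = 1 ∧ X * derivative ℂ P = -(P * g)

lemma LD.mul {P Q g h : ℂ⟦X⟧} (hP : LD P g) (hQ : LD Q h) : LD (P * Q) (g + h) := by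
  refine ⟨by rw [map_mul, hP.1, hQ.1, one_mul], ?_⟩
  rw [Derivation.leibniz, smul_eq_mul, smul_eq_mul]
  linear_combination P * hQ.2 + Q * hP.2

lemma LD.one : LD 1 0 := by
  refine ⟨map_one _, ?_⟩
  rw [Derivation.map_one_eq_zero, mul_zero, mul_zero, neg_zero]

theorem LD.unique {P Q g : ℂ⟦X⟧} (hP : LD P g) (hQ : LD Q g) : P = Q := by
  have h1 : derivative ℂ P * Q = P * derivative ℂ Q := by
    have hX : (X : ℂ⟦X⟧) ≠ 0 := X_ne_zero
    apply mul_left_cancel₀ hX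
    linear_combination Q * hP.2 - P * hQ.2
  have hQ0 : constantCoeff Q ≠ 0 := by rw [hQ.1]; exact one_ne_zero
  have h2 : P * Q⁻¹ = 1 := by
    apply derivative.ext
    · rw [Derivation.map_one_eq_zero, Derivation.leibniz, smul_eq_mul, smul_eq_mul,
        PowerSeries.derivative_inv']
      have h3 : Q * Q⁻¹ = 1 := PowerSeries.mul_inv_cancel Q hQ0
      linear_combination (Q⁻¹) ^ 2 * h1 - Q⁻¹ * derivative ℂ P * h3
    · rw [map_mul, PowerSeries.constantCoeff_inv, hP.1, hQ.1, inv_one, one_mul, map_one]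
  calc P = P * Q⁻¹ * Q := by
        rw [mul_assoc, PowerSeries.inv_mul_cancel Q hQ0, mul_one]
    _ = Q := by rw [h2, one_mul]

/-- power sums of the roots of unity of order `f` -/
def gf (f : ℕ) : ℂ⟦X⟧ := PowerSeries.mk fun k => if k ≠ 0 ∧ f ∣ k then (f : ℂ) else 0

lemma LD.one_sub_pow {f : ℕ} (hf : 0 < f) : LD (1 - X ^ f) (gf f) := by
  refine ⟨?_, ?_⟩
  · simp [hf.ne']
  · have h1 : (1 - X ^ f) * gf f = (f : ℂ⟦X⟧) * X ^ f := by
      ext n
      rw [sub_mul, one_mul, map_sub, mul_comm (X ^ f) (gf f), coeff_mul_X_pow', gf, coeff_mk,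
        coeff_mk, mul_comm, coeff_X_pow_mul']
      rw [show ((f : ℂ⟦X⟧)) = C (f : ℂ) by simp, coeff_C]
      by_cases hn : f ≤ n
      · rw [if_pos hn, if_pos hn]
        obtain ⟨m, rfl⟩ := Nat.exists_eq_add_of_le hn
        rw [Nat.add_sub_cancel_left]
        have h0 : f + m ≠ 0 := by omega
        rcases Nat.eq_zero_or_pos m with rfl | hm
        · simp [hf.ne']
        · have hm' : m ≠ 0 := hm.ne'
          simp [hm']
      · rw [if_neg hn, if_neg hn, if_neg, sub_zero]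
        rintro ⟨h0, hd⟩
        exact hn (Nat.le_of_dvd (Nat.pos_of_ne_zero h0) hd)
    rw [h1, map_sub, Derivation.map_one_eq_zero, zero_sub, mul_neg]
    congr 1
    rw [Derivation.leibniz_pow, PowerSeries.derivative_X]
    obtain ⟨m, rfl⟩ := Nat.exists_eq_succ_of_ne_zero hf.ne'
    simp only [Nat.succ_eq_add_one, Nat.add_sub_cancel, nsmul_eq_mul, smul_eq_mul, mul_one]
    rw [pow_succ]
    ring

/-- power sums given by a sequence -/
noncomputable def gu (u : ℕ → ℂ) : ℂ⟦X⟧ := PowerSeries.mk fun k => if k = 0 then 0 else u k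

lemma LD.quadratic {u : ℕ → ℂ} {t d : ℂ} (h0 : u 0 = 2) (h1 : u 1 = t)
    (h2 : ∀ k, u (k + 2) = t * u (k + 1) - d * u k) : LD (1 - C t * X + C d * X ^ 2) (gu u) := by
  refine ⟨by simp, ?_⟩
  have h3 : (1 - C t * X + C d * X ^ 2) * gu u = C t * X - 2 * C d * X ^ 2 := by
    have h4 : (1 - C t * X + C d * X ^ 2) * gu u =
        gu u - C t * (X * gu u) + C d * (X * (X * gu u)) := by ring
    have h5 : (C t * X - 2 * C d * X ^ 2 : ℂ⟦X⟧) = C t * X - C (2 * d) * X ^ 2 := by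
      rw [map_mul, map_ofNat]
    rw [h4, h5]
    obtain ⟨e, he⟩ : ∃ e, e = 2 * d := ⟨_, rfl⟩
    rw [← he]
    ext n
    rcases n with _ | _ | _ | n
    · simp [gu]
    · simp [gu, coeff_succ_X_mul, coeff_zero_X_mul, h1, coeff_X_pow,
        -coeff_zero_eq_constantCoeff]
    · simp [gu, coeff_succ_X_mul, h1, coeff_X_pow, h2 0, h0, -coeff_zero_eq_constantCoeff]
      rw [he]
      ring
    · simp [gu, coeff_succ_X_mul, coeff_X_pow, h2 (n + 1)]
  rw [h3]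
  simp only [map_add, map_sub, Derivation.map_one_eq_zero, Derivation.leibniz, derivative_C,
    derivative_X, Derivation.leibniz_pow, smul_eq_mul, nsmul_eq_mul]
  push_cast
  ring

lemma gf_add_apply (k : ℕ) (f : ℕ) : coeff k (gf f) = if k ≠ 0 ∧ f ∣ k then (f : ℂ) else 0 := by
  rw [gf, coeff_mk]

lemma LD.prod {ι : Type*} (s : Finset ι) (f : ι → ℕ) (hf : ∀ i ∈ s, 0 < f i) :
    LD (∏ i ∈ s, (1 - X ^ f i)) (∑ i ∈ s, gf (f i)) := by
  classical
  induction s using Finset.induction_on with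
  | empty => simpa using LD.one
  | insert a s ha ih =>
    rw [Finset.prod_insert ha, Finset.sum_insert ha]
    exact (LD.one_sub_pow (hf a (Finset.mem_insert_self a s))).mul
      (ih fun i hi => hf i (Finset.mem_insert_of_mem hi))

lemma coeff_sum_gf {ι : Type*} (s : Finset ι) (f : ι → ℕ) {k : ℕ} (hk : k ≠ 0) :
    coeff k (∑ i ∈ s, gf (f i)) = ((∑ i ∈ s with f i ∣ k, f i : ℕ) : ℂ) := by
  rw [map_sum, Finset.sum_filter, Nat.cast_sum]
  refine Finset.sum_congr rfl fun i _ => ?_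
  rw [gf_add_apply]
  simp [hk]

lemma coeff_zero_sum_gf {ι : Type*} (s : Finset ι) (f : ι → ℕ) :
    coeff 0 (∑ i ∈ s, gf (f i)) = 0 := by
  rw [map_sum]
  refine Finset.sum_eq_zero fun i _ => ?_
  rw [gf_add_apply, if_neg]
  simp

/-- traces of the powers of a two by two matrix -/
lemma trace_pow_succ_succ (M : Matrix (Fin 2) (Fin 2) ℂ) (k : ℕ) :
    (M ^ (k + 2)).trace = M.trace * (M ^ (k + 1)).trace - M.det * (M ^ k).trace := by
  have h : M ^ 2 = M.trace • M - M.det • 1 := by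
    have h1 := Matrix.aeval_self_charpoly M
    rw [Matrix.charpoly_fin_two] at h1
    simp only [map_add, map_sub, map_mul, Polynomial.aeval_X, Polynomial.aeval_C, map_pow] at h1
    rw [Algebra.algebraMap_eq_smul_one, Algebra.algebraMap_eq_smul_one, smul_one_mul] at h1
    rw [← sub_eq_zero, ← h1]
    abel
  have h2 : M ^ (k + 2) = M.trace • M ^ (k + 1) - M.det • M ^ k := by
    rw [pow_add, h, mul_sub, Matrix.mul_smul, Matrix.mul_smul, mul_one, ← pow_succ]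
  rw [h2, Matrix.trace_sub, Matrix.trace_smul, Matrix.trace_smul, smul_eq_mul, smul_eq_mul]

lemma LD.matrix (M : Matrix (Fin 2) (Fin 2) ℂ) :
    LD (1 - C M.trace * X + C M.det * X ^ 2) (gu fun k => (M ^ k).trace) :=
  LD.quadratic (by simp) (by simp) (trace_pow_succ_succ M)

end LocalId

open LocalId in
/-- **The formal local identity**: equality of the fixed point counts for all `k ≥ 1` implies the
equality of the Euler factors. -/
theorem formal_identity {ι₁ ι₂ ι₃ ι₄ : Type*} (s₁ : Finset ι₁) (s₂ : Finset ι₂) (s₃ : Finset ι₃)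
    (s₄ : Finset ι₄) (f₁ : ι₁ → ℕ) (f₂ : ι₂ → ℕ) (f₃ : ι₃ → ℕ) (f₄ : ι₄ → ℕ)
    (h₁ : ∀ i ∈ s₁, 0 < f₁ i) (h₂ : ∀ i ∈ s₂, 0 < f₂ i) (h₃ : ∀ i ∈ s₃, 0 < f₃ i)
    (h₄ : ∀ i ∈ s₄, 0 < f₄ i) (M M' : Matrix (Fin 2) (Fin 2) ℂ)
    (h : ∀ k : ℕ, 1 ≤ k → ((∑ i ∈ s₁ with f₁ i ∣ k, f₁ i : ℕ) : ℂ) +
      2 * ((∑ i ∈ s₂ with f₂ i ∣ k, f₂ i : ℕ) : ℂ) =
      ((∑ i ∈ s₃ with f₃ i ∣ k, f₃ i : ℕ) : ℂ) + 2 * ((∑ i ∈ s₄ with f₄ i ∣ k, f₄ i : ℕ) : ℂ) +
      ((M ^ k).trace + (M' ^ k).trace)) :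
    (∏ i ∈ s₁, (1 - (X : ℂ⟦X⟧) ^ f₁ i)) * (∏ i ∈ s₂, (1 - (X : ℂ⟦X⟧) ^ f₂ i)) ^ 2 =
      (∏ i ∈ s₃, (1 - (X : ℂ⟦X⟧) ^ f₃ i)) * (∏ i ∈ s₄, (1 - (X : ℂ⟦X⟧) ^ f₄ i)) ^ 2 *
        ((1 - C M.trace * X + C M.det * X ^ 2) * (1 - C M'.trace * X + C M'.det * X ^ 2)) := by
  have e1 := LD.prod s₁ f₁ h₁
  have e2 := LD.prod s₂ f₂ h₂
  have e3 := LD.prod s₃ f₃ h₃
  have e4 := LD.prod s₄ f₄ h₄
  have l := e1.mul (e2.mul e2)
  have r := (e3.mul (e4.mul e4)).mul ((LD.matrix M).mul (LD.matrix M'))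
  have hg : (∑ i ∈ s₁, gf (f₁ i)) + (∑ i ∈ s₂, gf (f₂ i) + ∑ i ∈ s₂, gf (f₂ i)) =
      (∑ i ∈ s₃, gf (f₃ i)) + (∑ i ∈ s₄, gf (f₄ i) + ∑ i ∈ s₄, gf (f₄ i)) +
        ((gu fun k => (M ^ k).trace) + gu fun k => (M' ^ k).trace) := by
    ext k
    simp only [map_add]
    rcases Nat.eq_zero_or_pos k with rfl | hk
    · rw [coeff_zero_sum_gf, coeff_zero_sum_gf, coeff_zero_sum_gf, coeff_zero_sum_gf]
      simp [gu]
    · rw [coeff_sum_gf _ _ hk.ne', coeff_sum_gf _ _ hk.ne', coeff_sum_gf _ _ hk.ne',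
        coeff_sum_gf _ _ hk.ne', gu, gu, coeff_mk, coeff_mk, if_neg hk.ne', if_neg hk.ne']
      linear_combination h k hk
  rw [hg] at l
  have := l.unique r
  rw [sq, sq]
  exact this

end Fermat.Agent.Classic.Zeta
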