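import Fermat.Agent.Classic.Level.FixField
import Fermat.Agent.LT.End.GLTwoThree

/-!
# Permutation characters of `GL₂(𝔽₃)`

`C2 = ⟨diag(1,-1)⟩`, `V4` = diagonal matrices, `S3 = {(1 *; 0 *)}`, `B3` = upper triangular
matrices: `π_{C2} - π_{V4} - 2 π_{S3} + 2 π_{B3} = tr S + conj (tr S)` for the two dimensional
representations `S` with `S (-1) = -1`.
-/

set_option autoImplicit false

namespace Fermat.Agent.Classic.Level

open Fermat.Agent.LT.Tower.Grp

local notation "G3" => Matrix.GeneralLinearGroup (Fin 2) (ZMod 3)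

section Count

variable {G : Type*} [Group G]

theorem pH_mul_card (H : Subgroup G) (g : G) :
    pH H g * Nat.card H = Nat.card {x : G // x⁻¹ * g * x ∈ H} := by
  have h1 := QuotientGroup.card_preimage_mk H {y : G ⧸ H | g • y = y}
  rw [mul_comm] at h1
  rw [pH]
  refine Eq.trans h1.symm ?_
  refine Nat.card_congr (Equiv.subtypeEquivRight fun x => ?_)
  change g • ((x : G) : G ⧸ H) = x ↔ _
  have h2 : g • ((x : G) : G ⧸ H) = ((g * x : G) : G ⧸ H) := rfl
  rw [h2, QuotientGroup.eq, mul_inv_rev]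
  rw [← inv_mem_iff]
  simp [mul_assoc]

end Count

section Sub

/-- `⟨diag(1,-1)⟩` -/
def C2 : Subgroup G3 := mkSub (fun a b c _ => a = 1 && b = 0 && c = 0) (by decide) (by decide)

/-- diagonal matrices -/
def V4 : Subgroup G3 := mkSub (fun _ b c _ => b = 0 && c = 0) (by decide) (by decide)

/-- `{(1 *; 0 *)}` -/
def S3 : Subgroup G3 := mkSub (fun a _ c _ => a = 1 && c = 0) (by decide) (by decide)

/-- upper triangular matrices -/
def B3 : Subgroup G3 := mkSub (fun _ _ c _ => c = 0) (by decide)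
  (fun _ _ _ _ h _ _ _ _ h' => by
    rw [decide_eq_true_eq] at h h' ⊢
    rw [h, h', zero_mul, mul_zero, add_zero])

lemma mem_C2 {g : G3} : g ∈ C2 ↔ g.1 0 0 = 1 ∧ g.1 0 1 = 0 ∧ g.1 1 0 = 0 := by
  rw [C2, mem_mkSub]
  simp [and_assoc]

lemma mem_V4 {g : G3} : g ∈ V4 ↔ g.1 0 1 = 0 ∧ g.1 1 0 = 0 := by
  rw [V4, mem_mkSub]
  simp

lemma mem_S3 {g : G3} : g ∈ S3 ↔ g.1 0 0 = 1 ∧ g.1 1 0 = 0 := by
  rw [S3, mem_mkSub]
  simp

lemma mem_B3 {g : G3} : g ∈ B3 ↔ g.1 1 0 = 0 := by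
  rw [B3, mem_mkSub]
  simp

lemma C2_le_V4 : C2 ≤ V4 := fun g h => by
  rw [mem_C2] at h
  rw [mem_V4]
  exact h.2

lemma C2_le_S3 : C2 ≤ S3 := fun g h => by
  rw [mem_C2] at h
  rw [mem_S3]
  exact ⟨h.1, h.2.2⟩

lemma S3_le_B3 : S3 ≤ B3 := fun g h => by
  rw [mem_S3] at h
  rw [mem_B3]
  exact h.2

lemma V4_le_B3 : V4 ≤ B3 := fun g h => by
  rw [mem_V4] at h
  rw [mem_B3]
  exact h.2

end Sub

section Enum

/-- quadruples of entries -/
abbrev Q4 := ZMod 3 × ZMod 3 × ZMod 3 × ZMod 3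

/-- the determinant of a quadruple -/
def dq (x : Q4) : ZMod 3 := x.1 * x.2.2.2 - x.2.1 * x.2.2.1

/-- the entries of a matrix -/
def ent (x : G3) : Q4 := (x.1 0 0, x.1 0 1, x.1 1 0, x.1 1 1)

lemma dq_ent (x : G3) : dq (ent x) = x.1.det := (Matrix.det_fin_two _).symm

/-- `GL₂(𝔽₃)` as a set of quadruples -/
noncomputable def entEquiv : G3 ≃ {x : Q4 // dq x ≠ 0} where
  toFun x := ⟨ent x, by rw [dq_ent]; exact Fermat.Agent.LT.End.det_ne_zero x⟩
  invFun x := Matrix.GeneralLinearGroup.mkOfDetNeZero !![x.1.1, x.1.2.1; x.1.2.2.1, x.1.2.2.2] (by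
    rw [Matrix.det_fin_two_of]
    exact x.2)
  left_inv x := by
    apply Units.ext
    ext i j
    fin_cases i <;> fin_cases j <;> rfl
  right_inv x := rfl

lemma card_eq (P : Q4 → Prop) [DecidablePred P] :
    Nat.card {x : G3 // P (ent x)} = (Finset.univ.filter fun x : Q4 => dq x ≠ 0 ∧ P x).card := by
  rw [← Fintype.card_subtype, ← Nat.card_eq_fintype_card]
  refine Nat.card_congr ?_
  refine (Equiv.trans (entEquiv.subtypeEquiv (q := fun y => P y.1) fun x => Iff.rfl) ?_)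
  exact (Equiv.subtypeSubtypeEquivSubtypeInter (fun x => dq x ≠ 0) P)

/-- `g` multiplies the first column of `x` by `t` -/
def Col1 (g x : Q4) (t : ZMod 3) : Prop :=
  g.1 * x.1 + g.2.1 * x.2.2.1 = t * x.1 ∧ g.2.2.1 * x.1 + g.2.2.2 * x.2.2.1 = t * x.2.2.1

/-- `g` multiplies the second column of `x` by `t` -/
def Col2 (g x : Q4) (t : ZMod 3) : Prop :=
  g.1 * x.2.1 + g.2.1 * x.2.2.2 = t * x.2.1 ∧ g.2.2.1 * x.2.1 + g.2.2.2 * x.2.2.2 = t * x.2.2.2

instance (g x : Q4) (t : ZMod 3) : Decidable (Col1 g x t) := by unfold Col1; infer_instance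
instance (g x : Q4) (t : ZMod 3) : Decidable (Col2 g x t) := by unfold Col2; infer_instance

lemma cols (g x : G3) :
    (∀ t, Col1 (ent g) (ent x) t ↔ (x⁻¹ * g * x).1 0 0 = t ∧ (x⁻¹ * g * x).1 1 0 = 0) ∧
    (∀ t, Col2 (ent g) (ent x) t ↔ (x⁻¹ * g * x).1 1 1 = t ∧ (x⁻¹ * g * x).1 0 1 = 0) := by
  set h := x⁻¹ * g * x with hh
  have h1 : x * h = g * x := by rw [hh]; group
  have e00 := congrArg (fun y : G3 => y.1 0 0) h1
  have e01 := congrArg (fun y : G3 => y.1 0 1) h1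
  have e10 := congrArg (fun y : G3 => y.1 1 0) h1
  have e11 := congrArg (fun y : G3 => y.1 1 1) h1
  simp only [mul_00, mul_01, mul_10, mul_11] at e00 e01 e10 e11
  have hd := Fermat.Agent.LT.End.det_ne_zero x
  rw [Fermat.Agent.LT.End.det_eq] at hd
  refine ⟨fun t => ⟨fun ⟨h2, h3⟩ => ?_, fun ⟨h2, h3⟩ => ?_⟩,
    fun t => ⟨fun ⟨h2, h3⟩ => ?_, fun ⟨h2, h3⟩ => ?_⟩⟩
  · simp only [ent] at h2 h3
    constructor
    · apply mul_left_cancel₀ hd
      linear_combination x.1 1 1 * (e00 + h2) - x.1 0 1 * (e10 + h3)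
    · apply mul_left_cancel₀ hd
      linear_combination -x.1 1 0 * (e00 + h2) + x.1 0 0 * (e10 + h3)
  · simp only [Col1, ent]
    constructor
    · linear_combination -e00 + x.1 0 0 * h2 + x.1 0 1 * h3
    · linear_combination -e10 + x.1 1 0 * h2 + x.1 1 1 * h3
  · simp only [ent] at h2 h3
    constructor
    · apply mul_left_cancel₀ hd
      linear_combination -x.1 1 0 * (e01 + h2) + x.1 0 0 * (e11 + h3)
    · apply mul_left_cancel₀ hd
      linear_combination x.1 1 1 * (e01 + h2) - x.1 0 1 * (e11 + h3)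
  · simp only [Col2, ent]
    constructor
    · linear_combination -e01 + x.1 0 1 * h2 + x.1 0 0 * h3
    · linear_combination -e11 + x.1 1 1 * h2 + x.1 1 0 * h3

/-- the counts -/
def nC2 (g : Q4) : ℕ :=
  (Finset.univ.filter fun x : Q4 => dq x ≠ 0 ∧ (Col1 g x 1 ∧ (Col2 g x 1 ∨ Col2 g x (-1)))).card

/-- the counts -/
def nV4 (g : Q4) : ℕ :=
  (Finset.univ.filter fun x : Q4 => dq x ≠ 0 ∧
    ((Col1 g x 1 ∨ Col1 g x (-1)) ∧ (Col2 g x 1 ∨ Col2 g x (-1)))).card

/-- the counts -/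
def nS3 (g : Q4) : ℕ := (Finset.univ.filter fun x : Q4 => dq x ≠ 0 ∧ Col1 g x 1).card

/-- the counts -/
def nB3 (g : Q4) : ℕ :=
  (Finset.univ.filter fun x : Q4 => dq x ≠ 0 ∧ (Col1 g x 1 ∨ Col1 g x (-1))).card

/-- the trace -/
def tqz (g : Q4) : ℤ :=
  if dq g = 1 then
    if g.1 + g.2.2.2 = 0 then 0
    else if g.1 + g.2.2.2 = 1 then (if g.2.1 = 0 ∧ g.2.2.1 = 0 then -4 else 2)
    else (if g.2.1 = 0 ∧ g.2.2.1 = 0 then 4 else -2)
  else 0

theorem count_all : ∀ a b c d : ZMod 3, dq (a, b, c, d) ≠ 0 →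
    6 * (nC2 (a, b, c, d) : ℤ) - 3 * nV4 (a, b, c, d) - 4 * nS3 (a, b, c, d) +
      2 * nB3 (a, b, c, d) = 12 * tqz (a, b, c, d) := by
  decide +kernel

end Enum

section Chars

lemma add_conj_of_sq {z : ℂ} (h : z ^ 2 = -2) : z + (starRingEnd ℂ) z = ((0 : ℤ) : ℂ) := by
  have hre : z.re * z.re - z.im * z.im = -2 := by
    have := congrArg Complex.re h
    simpa [pow_two] using this
  have him : z.re * z.im + z.im * z.re = 0 := by
    have := congrArg Complex.im h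
    simpa [pow_two] using this
  have h1 : z.re = 0 := by
    have h2 : z.re * z.im = 0 := by linarith
    rcases mul_eq_zero.mp h2 with h3 | h3
    · exact h3
    · rw [h3] at hre
      nlinarith [mul_self_nonneg z.re]
  rw [Complex.add_conj, h1]
  simp

lemma zmod3_unit {t : ZMod 3} (h : t ≠ 0) : t = 1 ∨ t = -1 := by
  revert t
  decide

lemma card_C2 : Nat.card C2 = 2 := by
  have h : Nat.card C2 = Nat.card {x : G3 // (ent x).1 = 1 ∧ (ent x).2.1 = 0 ∧
    (ent x).2.2.1 = 0} := Nat.card_congr (Equiv.subtypeEquivRight fun x => mem_C2)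
  rw [h, card_eq (fun x => x.1 = 1 ∧ x.2.1 = 0 ∧ x.2.2.1 = 0)]
  decide +kernel

lemma card_V4 : Nat.card V4 = 4 := by
  have h : Nat.card V4 = Nat.card {x : G3 // (ent x).2.1 = 0 ∧ (ent x).2.2.1 = 0} :=
    Nat.card_congr (Equiv.subtypeEquivRight fun x => mem_V4)
  rw [h, card_eq (fun x => x.2.1 = 0 ∧ x.2.2.1 = 0)]
  decide +kernel

lemma card_S3 : Nat.card S3 = 6 := by
  have h : Nat.card S3 = Nat.card {x : G3 // (ent x).1 = 1 ∧ (ent x).2.2.1 = 0} :=
    Nat.card_congr (Equiv.subtypeEquivRight fun x => mem_S3)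
  rw [h, card_eq (fun x => x.1 = 1 ∧ x.2.2.1 = 0)]
  decide +kernel

lemma card_B3 : Nat.card B3 = 12 := by
  have h : Nat.card B3 = Nat.card {x : G3 // (ent x).2.2.1 = 0} :=
    Nat.card_congr (Equiv.subtypeEquivRight fun x => mem_B3)
  rw [h, card_eq (fun x => x.2.2.1 = 0)]
  decide +kernel

lemma card_G3 : Nat.card G3 = 48 := by
  have h : Nat.card G3 = Nat.card {x : G3 // True} :=
    Nat.card_congr (Equiv.subtypeUnivEquiv fun _ => trivial).symm
  rw [h]
  have h2 := card_eq (fun _ => True)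
  rw [h2]
  decide +kernel

variable (g : G3)

theorem pH_C2 : pH C2 g * 2 = nC2 (ent g) := by
  have h0 := pH_mul_card C2 g
  rw [card_C2] at h0
  rw [h0, nC2, ← card_eq]
  refine Nat.card_congr (Equiv.subtypeEquivRight fun x => ?_)
  rw [mem_C2, (cols g x).1, (cols g x).2, (cols g x).2]
  constructor
  · rintro ⟨h1, h2, h3⟩
    refine ⟨⟨h1, h3⟩, ?_⟩
    have hd := Fermat.Agent.LT.End.det_ne_zero (x⁻¹ * g * x)
    rw [Fermat.Agent.LT.End.det_eq, h1, h2, one_mul, zero_mul, sub_zero] at hd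
    rcases zmod3_unit hd with h4 | h4
    · exact Or.inl ⟨h4, h2⟩
    · exact Or.inr ⟨h4, h2⟩
  · rintro ⟨⟨h1, h2⟩, ⟨-, h3⟩ | ⟨-, h3⟩⟩ <;> exact ⟨h1, h3, h2⟩

theorem pH_V4 : pH V4 g * 4 = nV4 (ent g) := by
  rw [← card_V4, pH_mul_card, nV4, ← card_eq]
  refine Nat.card_congr (Equiv.subtypeEquivRight fun x => ?_)
  rw [mem_V4, (cols g x).1, (cols g x).1, (cols g x).2, (cols g x).2]
  constructor
  · rintro ⟨h1, h2⟩
    have hd := Fermat.Agent.LT.End.det_ne_zero (x⁻¹ * g * x)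
    rw [Fermat.Agent.LT.End.det_eq, h1, zero_mul, sub_zero] at hd
    refine ⟨?_, ?_⟩
    · rcases zmod3_unit (left_ne_zero_of_mul hd) with h4 | h4
      · exact Or.inl ⟨h4, h2⟩
      · exact Or.inr ⟨h4, h2⟩
    · rcases zmod3_unit (right_ne_zero_of_mul hd) with h4 | h4
      · exact Or.inl ⟨h4, h1⟩
      · exact Or.inr ⟨h4, h1⟩
  · rintro ⟨⟨-, h1⟩ | ⟨-, h1⟩, ⟨-, h2⟩ | ⟨-, h2⟩⟩ <;> exact ⟨h2, h1⟩

theorem pH_S3 : pH S3 g * 6 = nS3 (ent g) := by
  rw [← card_S3, pH_mul_card, nS3, ← card_eq]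
  refine Nat.card_congr (Equiv.subtypeEquivRight fun x => ?_)
  rw [mem_S3, (cols g x).1]

theorem pH_B3 : pH B3 g * 12 = nB3 (ent g) := by
  rw [← card_B3, pH_mul_card, nB3, ← card_eq]
  refine Nat.card_congr (Equiv.subtypeEquivRight fun x => ?_)
  rw [mem_B3, (cols g x).1, (cols g x).1]
  constructor
  · intro h2
    have hd := Fermat.Agent.LT.End.det_ne_zero (x⁻¹ * g * x)
    rw [Fermat.Agent.LT.End.det_eq, h2, mul_zero, sub_zero] at hd
    rcases zmod3_unit (left_ne_zero_of_mul hd) with h4 | h4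
    · exact Or.inl ⟨h4, h2⟩
    · exact Or.inr ⟨h4, h2⟩
  · rintro (⟨-, h1⟩ | ⟨-, h1⟩) <;> exact h1

/-- `tr S + conj (tr S)` -/
def tq2 (g : G3) : ℤ := tqz (ent g)

/-- **The identity of characters.** -/
theorem pH_identity : (pH C2 g : ℤ) - pH V4 g - 2 * pH S3 g + 2 * pH B3 g = tq2 g := by
  have h0 : dq ((ent g).1, (ent g).2.1, (ent g).2.2.1, (ent g).2.2.2) ≠ 0 := by
    change dq (ent g) ≠ 0
    rw [dq_ent]
    exact Fermat.Agent.LT.End.det_ne_zero g
  have h := count_all _ _ _ _ h0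
  change 6 * (nC2 (ent g) : ℤ) - 3 * nV4 (ent g) - 4 * nS3 (ent g) + 2 * nB3 (ent g) =
    12 * tqz (ent g) at h
  rw [← pH_C2, ← pH_V4, ← pH_S3, ← pH_B3] at h
  push_cast at h
  rw [tq2]
  linarith

/-! ### indices -/

lemma index_C2 : C2.index = 24 := by
  have h := C2.card_mul_index
  rw [card_C2, card_G3] at h
  omega

lemma index_V4 : V4.index = 12 := by
  have h := V4.card_mul_index
  rw [card_V4, card_G3] at h
  omega

lemma index_S3 : S3.index = 8 := by
  have h := S3.card_mul_index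
  rw [card_S3, card_G3] at h
  omega

lemma index_B3 : B3.index = 4 := by
  have h := B3.card_mul_index
  rw [card_B3, card_G3] at h
  omega

/-! ### reflections -/

theorem count_refl : ∀ a b c d : ZMod 3, dq (a, b, c, d) = -1 → a + d = 0 →
    nC2 (a, b, c, d) = 4 ∧ nV4 (a, b, c, d) = 8 ∧ nS3 (a, b, c, d) = 12 ∧
      nB3 (a, b, c, d) = 24 := by
  decide +kernel

theorem pH_refl {g : G3} (hd : g.1.det = -1) (ht : g.1.trace = 0) :
    pH C2 g = 2 ∧ pH V4 g = 2 ∧ pH S3 g = 2 ∧ pH B3 g = 2 := by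
  rw [Matrix.trace_fin_two] at ht
  have h0 : dq ((ent g).1, (ent g).2.1, (ent g).2.2.1, (ent g).2.2.2) = -1 := by
    change dq (ent g) = -1
    rw [dq_ent, hd]
  obtain ⟨h1, h2, h3, h4⟩ := count_refl _ _ _ _ h0 ht
  change nC2 (ent g) = 4 at h1
  change nV4 (ent g) = 8 at h2
  change nS3 (ent g) = 12 at h3
  change nB3 (ent g) = 24 at h4
  rw [← pH_C2] at h1
  rw [← pH_V4] at h2
  rw [← pH_S3] at h3
  rw [← pH_B3] at h4
  omega

lemma trace_of_sq {g : G3} (hd : g.1.det = -1) (hg : g * g = 1) : g.1.trace = 0 := by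
  have h1 := Fermat.Agent.LT.End.sq_eq g.1
  rw [hd, neg_one_smul, sub_neg_eq_add, ← Units.val_mul, hg, Units.val_one] at h1
  have h2 : g.1.trace • g.1 = 0 := by
    have h3 : g.1.trace • g.1 + 1 = 0 + (1 : Matrix (Fin 2) (Fin 2) (ZMod 3)) := by
      rw [← h1, zero_add]
    exact add_right_cancel h3
  rcases smul_eq_zero.mp h2 with h | h
  · exact h
  · exfalso
    have h3 := g.isUnit
    rw [h] at h3
    exact not_isUnit_zero h3

/-! ### the trace -/

open Fermat.Agent.LT.End in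
/-- `tq2` is twice the real part of the character of `S`. -/
theorem tq2_eq {S : G3 →* Matrix.GeneralLinearGroup (Fin 2) ℂ} (hS : S (-1) = -1) (g : G3) :
    (tq2 g : ℂ) = tr S g + (starRingEnd ℂ) (tr S g) := by
  have hent : ∀ g : G3, tq2 g = if g.1.det = 1 then
      if g.1.trace = 0 then 0
      else if g.1.trace = 1 then (if g.1 0 1 = 0 ∧ g.1 1 0 = 0 then -4 else 2)
      else (if g.1 0 1 = 0 ∧ g.1 1 0 = 0 then 4 else -2)
    else 0 := by
    intro g
    rw [tq2, tqz, dq_ent, Matrix.trace_fin_two]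
    rfl
  have h3 : ∀ g : G3, g.1.trace = -1 → g.1.det = 1 →
      (g.1 0 1 = 0 ∧ g.1 1 0 = 0 ↔ g = 1) := by
    intro g ht hd
    rw [eq_one_iff]
    rw [trace_eq] at ht
    rw [Fermat.Agent.LT.End.det_eq] at hd
    have key : ∀ a d : ZMod 3, a + d = -1 → a * d = 1 → a = 1 ∧ d = 1 := by decide
    constructor
    · rintro ⟨hb, hc⟩
      rw [hb, zero_mul, sub_zero] at hd
      obtain ⟨h1, h2⟩ := key _ _ ht hd
      exact ⟨h1, hb, hc, h2⟩
    · rintro ⟨-, hb, hc, -⟩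
      exact ⟨hb, hc⟩
  rcases fin5 g.1.trace with ht | ht | ht
  · rw [tr_of_trace_zero hS g ht, map_zero, add_zero, hent, ht]
    simp
  · rcases fin6 _ (det_ne_zero g) with hd | hd
    · have ht' : (-g : G3).1.trace = -1 := by rw [val_neg, Matrix.trace_neg, ht]
      have hd' : (-g : G3).1.det = 1 := by
        rw [val_neg, Matrix.det_neg, Fintype.card_fin, hd]; norm_num
      have h4 := h3 (-g) ht' hd'
      have h5 : (g.1 0 1 = 0 ∧ g.1 1 0 = 0) ↔ -g = 1 := by
        rw [← h4, val_neg, Matrix.neg_apply, Matrix.neg_apply, neg_eq_zero, neg_eq_zero]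
      rw [hent, if_pos hd, if_neg (by rw [ht]; decide), if_pos ht]
      by_cases h1 : -g = 1
      · have h2 : g = -1 := by rw [← neg_neg g, h1]
        rw [if_pos (h5.mpr h1), h2, tr_neg hS, tr_one, _root_.map_neg, Complex.conj_ofNat]
        norm_num
      · have h6 := (tr_dt_of_order_three hS (-g) ht' hd' h1).1
        rw [tr_neg hS] at h6
        have h7 : tr S g = 1 := by linear_combination -h6
        rw [if_neg (fun h => h1 (h5.mp h)), h7]
        simp
        norm_num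
    · have h6 := tr_sq hS g (by rw [ht]; decide) hd
      rw [hent, if_neg (by rw [hd]; decide)]
      exact (add_conj_of_sq h6).symm
  · rcases fin6 _ (det_ne_zero g) with hd | hd
    · rw [hent, if_pos hd, if_neg (by rw [ht]; decide), if_neg (by rw [ht]; decide)]
      by_cases h1 : g = 1
      · rw [if_pos ((h3 g ht hd).mpr h1), h1, tr_one, Complex.conj_ofNat]
        norm_num
      · rw [if_neg (fun h => h1 ((h3 g ht hd).mp h)), (tr_dt_of_order_three hS g ht hd h1).1]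
        simp
        norm_num
    · have h6 := tr_sq hS g (by rw [ht]; decide) hd
      rw [hent, if_neg (by rw [hd]; decide)]
      exact (add_conj_of_sq h6).symm

end Chars

end Fermat.Agent.Classic.Level
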