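import Fermat.Agent.Classic.Level.EigB
import Fermat.Agent.Classic.Level.EulerL
import Fermat.Agent.Classic.Level.LocalId
import Fermat.Agent.Classic.Level.EmbAbove
import Fermat.Agent.Classic.Level.Perm
import Fermat.Agent.Classic.Level.Steps
import Fermat.Agent.Classic.Zeta.FEmul

/-!
# The zeta quotient of the four fields (plan Z, block Z5)

For a surjective `ρ : Gal(ℚ̄/ℚ) → GL₂(𝔽₃)` with cyclotomic determinant, the coefficients of the Dedekind zeta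
functions of the fixed fields of `C2`, `V4`, `S3`, `B3`, without the Euler factors at `N`, satisfy

`z₂₄ z₄ z₄ = z₁₂ z₈ z₈ b b̄`

(Dirichlet convolutions), where `b` is the depleted eigensystem of the representation `Ψ ∘ ρ`.
-/

set_option autoImplicit false

noncomputable section

open NumberField IsDedekindDomain Fermat.Agent.FrobDensity Fermat.Agent.Classic.Disc
open EisensteinWeightOne FLT.ExplicitLift Fermat.Agent.Classic.Level WeierstrassCurve
open PowerSeries (X)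
open Fermat.Agent.LT.End (rep tr tr_rep rep_neg_one modThree_frobenius)
open scoped LSeries.notation

namespace Fermat.Agent.Classic.Zeta

local notation "Γℚ" => (AlgebraicClosure ℚ ≃ₐ[ℚ] AlgebraicClosure ℚ)

theorem localStmt (F : Type*) [Field F] [NumberField F] : LocalStmt F := by
  intro p hp
  have h := euler_factor_above F hp
  have h1 : Sp p (zcA F) = PowerSeries.mk fun e => ((idealCount F (p ^ e) : ℕ) : ℂ) := by
    ext e
    rw [coeff_Sp, zcA_apply (pow_ne_zero _ hp.ne_zero), PowerSeries.coeff_mk]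
  rw [h1]
  exact h

section

variable {ρ : Γℚ →* GL (Fin 2) (ZMod 3)} (hs : Function.Surjective ρ)
  (hdet : ∀ σ : Γℚ, Matrix.GeneralLinearGroup.det (ρ σ) = modThreeCyclotomicChar σ)
  {Ψ : GL (Fin 2) (ZMod 3) →* GL (Fin 2) (ℤ√(-2))}
  (hΨ : ∀ g, Matrix.GeneralLinearGroup.map red (Ψ g) = g)

include hs in
/-- the sum of the residue degrees dividing `k` is a number of fixed points -/
theorem sum_fdeg_eq_pH {H : Subgroup (GL (Fin 2) (ZMod 3))} (T : FixField ρ H) {p : ℕ} (hp : p.Prime)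
    (hG : LT.Tower.Fr.Good T.F p) {A : ValuationSubring (AlgebraicClosure ℚ)}
    (hA : A.LiesOverPrime p) {σ : Γℚ} (hσ : A.IsFrobeniusAt σ p) (k : ℕ) :
    ∑ v ∈ above T.F p with fdeg v ∣ k, fdeg v = pH H (ρ σ ^ k) := by
  rw [Emb.sum_fdeg hp hG hA hσ k, ← map_pow, ← T.card_fixed hs]

/-- the matrix of Frobenius -/
def frobM (ι : ℤ√(-2) →+* ℂ) (Ψ : GL (Fin 2) (ZMod 3) →* GL (Fin 2) (ℤ√(-2)))
    (g : GL (Fin 2) (ZMod 3)) : Matrix (Fin 2) (Fin 2) ℂ := (rep Ψ ι g).1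

theorem frobM_pow_trace (ι : ℤ√(-2) →+* ℂ) (g : GL (Fin 2) (ZMod 3)) (k : ℕ) :
    (frobM ι Ψ g ^ k).trace = tr (rep Ψ ι) (g ^ k) := by
  rw [tr, map_pow, Units.val_pow_eq_pow_val]
  rfl

theorem conj_pow_trace (M : Matrix (Fin 2) (Fin 2) ℂ) (k : ℕ) :
    ((M.map (starRingEnd ℂ)) ^ k).trace = (starRingEnd ℂ) (M ^ k).trace := by
  have h1 : (M.map (starRingEnd ℂ)) ^ k = (M ^ k).map (starRingEnd ℂ) := by
    have := map_pow (RingHom.mapMatrix (m := Fin 2) (starRingEnd ℂ)) M k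
    exact this.symm
  rw [h1, Matrix.trace_fin_two, Matrix.trace_fin_two, map_add]
  rfl

theorem frobM_trace (ι : ℤ√(-2) →+* ℂ) (g : GL (Fin 2) (ZMod 3)) :
    (frobM ι Ψ g).trace =
      ι ((Ψ g : GL (Fin 2) (ℤ√(-2))) : Matrix (Fin 2) (Fin 2) (ℤ√(-2))).trace := by
  have h := tr_rep (Ψ := Ψ) ι g
  exact h

include hΨ in
theorem frobM_det (ι : ℤ√(-2) →+* ℂ) {g : GL (Fin 2) (ZMod 3)} {p : ℕ}
    (hg : (g : Matrix (Fin 2) (Fin 2) (ZMod 3)).det = (p : ZMod 3)) :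
    (frobM ι Ψ g).det = ((chiNegThree p : ℤ) : ℂ) := by
  have h1 : (frobM ι Ψ g).det =
      ι ((Ψ g : GL (Fin 2) (ℤ√(-2))) : Matrix (Fin 2) (Fin 2) (ℤ√(-2))).det := by
    rw [RingHom.map_det]
    rfl
  rw [h1, det_section hΨ g hg, map_intCast]

include hs hdet hΨ in
/-- **The identity at a good prime.** -/
theorem good_identity (T₁ : FixField ρ C2) (T₂ : FixField ρ V4) (T₃ : FixField ρ S3)
    (T₄ : FixField ρ B3) {p : ℕ} (hp : p.Prime) (hp3 : p ≠ 3) (g₁ : LT.Tower.Fr.Good T₁.F p)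
    (g₂ : LT.Tower.Fr.Good T₂.F p) (g₃ : LT.Tower.Fr.Good T₃.F p) (g₄ : LT.Tower.Fr.Good T₄.F p)
    {A : ValuationSubring (AlgebraicClosure ℚ)} (hA : A.LiesOverPrime p) {σ : Γℚ}
    (hσ : A.IsFrobeniusAt σ p) (ι : ℤ√(-2) →+* ℂ) {t : ℤ√(-2)}
    (ht : t = ((Ψ (ρ σ) : GL (Fin 2) (ℤ√(-2))) : Matrix (Fin 2) (Fin 2) (ℤ√(-2))).trace) :
    (∏ v ∈ above T₁.F p, (1 - X ^ fdeg v)) * (∏ v ∈ above T₄.F p, (1 - X ^ fdeg v)) ^ 2 =
      (∏ v ∈ above T₂.F p, (1 - X ^ fdeg v)) * (∏ v ∈ above T₃.F p, (1 - X ^ fdeg v)) ^ 2 *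
        (1 - PowerSeries.C (ι t) * X + PowerSeries.C ((chiNegThree p : ℤ) : ℂ) * X ^ 2) *
        (1 - PowerSeries.C ((starRingEnd ℂ) (ι t)) * X +
          PowerSeries.C ((chiNegThree p : ℤ) : ℂ) * X ^ 2) := by
  have hd : ((ρ σ : GL (Fin 2) (ZMod 3)) : Matrix (Fin 2) (Fin 2) (ZMod 3)).det = (p : ZMod 3) := by
    rw [← modThree_frobenius hp hp3 hA hσ, ← hdet]
    rfl
  have key := formal_identity (above T₁.F p) (above T₄.F p) (above T₂.F p) (above T₃.F p)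
    fdeg fdeg fdeg fdeg (fun v _ => fdeg_pos v) (fun v _ => fdeg_pos v) (fun v _ => fdeg_pos v)
    (fun v _ => fdeg_pos v) (frobM ι Ψ (ρ σ)) ((frobM ι Ψ (ρ σ)).map (starRingEnd ℂ)) (by
      intro k _
      rw [sum_fdeg_eq_pH hs T₁ hp g₁ hA hσ, sum_fdeg_eq_pH hs T₂ hp g₂ hA hσ,
        sum_fdeg_eq_pH hs T₃ hp g₃ hA hσ, sum_fdeg_eq_pH hs T₄ hp g₄ hA hσ, conj_pow_trace,
        frobM_pow_trace, ← tq2_eq (rep_neg_one Ψ hΨ ι), ← pH_identity]
      push_cast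
      ring)
  have hd' : ((frobM ι Ψ (ρ σ)).map (starRingEnd ℂ)).det = ((chiNegThree p : ℤ) : ℂ) := by
    have h1 : ((frobM ι Ψ (ρ σ)).map (starRingEnd ℂ)).det =
        (starRingEnd ℂ) (frobM ι Ψ (ρ σ)).det := by
      rw [RingHom.map_det]
      rfl
    rw [h1, frobM_det hΨ ι hd, map_intCast]
  have ht' : ((frobM ι Ψ (ρ σ)).map (starRingEnd ℂ)).trace = (starRingEnd ℂ) (ι t) := by
    have := conj_pow_trace (frobM ι Ψ (ρ σ)) 1
    rw [pow_one, pow_one] at this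
    rw [this, frobM_trace, ht]
  rw [key, frobM_det hΨ ι hd, hd', ht', frobM_trace, ← ht]
  ring

include hs hdet hΨ in
/-- **The zeta quotient of the four fields.** -/
theorem zeta_identity (T₁ : FixField ρ C2) (T₂ : FixField ρ V4) (T₃ : FixField ρ S3)
    (T₄ : FixField ρ B3) {N : ℕ} (hN : N ≠ 0) (h3 : 3 ∣ N)
    (g₁ : ∀ p : ℕ, p.Prime → ¬ p ∣ N → LT.Tower.Fr.Good T₁.F p)
    (g₂ : ∀ p : ℕ, p.Prime → ¬ p ∣ N → LT.Tower.Fr.Good T₂.F p)
    (g₃ : ∀ p : ℕ, p.Prime → ¬ p ∣ N → LT.Tower.Fr.Good T₃.F p)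
    (g₄ : ∀ p : ℕ, p.Prime → ¬ p ∣ N → LT.Tower.Fr.Good T₄.F p)
    (ι : ℤ√(-2) →+* ℂ) {b : ℕ → ℤ√(-2)}
    (hb : FormalHecke.IsEigensystem
      (fun ℓ => if ℓ ∣ N then 0 else ((chiNegThree ℓ : ℤ) : ℤ√(-2))) b)
    (hdep : ∀ p : ℕ, p.Prime → p ∣ N → b p = 0)
    (htr : ∀ p : ℕ, p.Prime → ¬ p ∣ N →
      ∀ A : ValuationSubring (AlgebraicClosure ℚ), A.LiesOverPrime p →
        ∀ σ : Γℚ, A.IsFrobeniusAt σ p →
          b p = ((Ψ (ρ σ) : GL (Fin 2) (ℤ√(-2))) : Matrix (Fin 2) (Fin 2) (ℤ√(-2))).trace) :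
    zcA T₁.F * badE T₁.F N * (zcA T₄.F * badE T₄.F N) * (zcA T₄.F * badE T₄.F N) =
      zcA T₂.F * badE T₂.F N * (zcA T₃.F * badE T₃.F N) * (zcA T₃.F * badE T₃.F N) *
        (bA (fun n => ι (b n)) * bA (fun n => (starRingEnd ℂ) (ι (b n)))) := by
  obtain ⟨φ, hφ⟩ : ∃ φ : ℤ√(-2) →+* ℂ, ∀ x, φ x = (starRingEnd ℂ) (ι x) :=
    ⟨(starRingEnd ℂ).comp ι, fun _ => rfl⟩
  have hf : (fun n => (starRingEnd ℂ) (ι (b n))) = fun n => φ (b n) := funext fun n => (hφ _).symm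
  rw [hf]
  refine main_of (localStmt T₁.F) (localStmt T₂.F) (localStmt T₃.F) (localStmt T₄.F) hN
    (isMultiplicative_bA hb ι) (isMultiplicative_bA hb φ) ?_ ?_
  · intro p hp hpN
    exact ⟨Sp_bA_eq_one hb ι hp (hdep p hp hpN) (if_pos hpN),
      Sp_bA_eq_one hb φ hp (hdep p hp hpN) (if_pos hpN)⟩
  · intro p hp hpN
    obtain ⟨A, hA, σ, hσ⟩ := Frob.exists_frobenius p hp
    have hp3 : p ≠ 3 := fun h => hpN (h ▸ h3)
    have h1 := Sp_bA hb ι hp
    have h2 := Sp_bA hb φ hp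
    rw [if_neg hpN, map_intCast] at h1 h2
    refine good_of (localStmt T₁.F) (localStmt T₂.F) (localStmt T₃.F) (localStmt T₄.F) hp h1 h2 ?_
    rw [hφ]
    exact good_identity hs hdet hΨ T₁ T₂ T₃ T₄ hp hp3 (g₁ p hp hpN) (g₂ p hp hpN) (g₃ p hp hpN)
      (g₄ p hp hpN) hA hσ ι (htr p hp hpN A hA σ hσ)

end

/-! ### The form used by the comparison of the functional equations -/

/-- the list of the norms of the places dividing `N` -/
def normList (F : Type*) [Field F] [NumberField F] (N : ℕ) : List ℕ :=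
  (above F N).toList.map fun v => Ideal.absNorm v.asIdeal

theorem toArithmeticFunction_efl (l : List ℕ) :
    toArithmeticFunction (efl l) = (l.map efA).prod := by
  induction l with
  | nil =>
    rw [efl_nil, List.map_nil, List.prod_nil]
    ext n
    change (if n = 0 then 0 else (if n = 1 then 1 else 0)) = (1 : ArithmeticFunction ℂ) n
    rw [ArithmeticFunction.one_apply]
    split_ifs with h1 h2
    · omega
    · rfl
    · rfl
    · rfl
  | cons ν l ih =>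
    rw [efl_cons, List.map_cons, List.prod_cons, ← ih, LSeries.convolution,
      ArithmeticFunction.toArithmeticFunction_eq_self]
    rfl

theorem badE_eq (F : Type*) [Field F] [NumberField F] (N : ℕ) :
    badE F N = toArithmeticFunction (efl (normList F N)) := by
  rw [toArithmeticFunction_efl, normList, List.map_map, badE, ← Finset.prod_map_toList]
  rfl

theorem toAF_convolution (a a' : ℕ → ℂ) : toArithmeticFunction (a ⍟ a') =
    toArithmeticFunction a * toArithmeticFunction a' := by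
  rw [LSeries.convolution, ArithmeticFunction.toArithmeticFunction_eq_self]

theorem eq_of_toAF {a a' : ℕ → ℂ} (h1 : toArithmeticFunction a = toArithmeticFunction a')
    (h2 : a 0 = 0) (h3 : a' 0 = 0) (n : ℕ) : a n = a' n := by
  rcases eq_or_ne n 0 with rfl | hn
  · rw [h2, h3]
  · have := congrArg (fun a : ArithmeticFunction ℂ => a n) h1
    change (if n = 0 then 0 else a n) = (if n = 0 then 0 else a' n) at this
    rwa [if_neg hn, if_neg hn] at this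

theorem assoc_form {M : Type*} [CommMonoid M] {x y z w u : M}
    (key : x * y * y = z * w * w * u) : x * (y * y) = z * (w * w) * u := by
  rw [← mul_assoc, ← mul_assoc]
  exact key

theorem conv_form (z₁ e₁ z₂ e₂ z₃ e₃ z₄ e₄ b b' : ℕ → ℂ)
    (key : toArithmeticFunction z₁ * toArithmeticFunction e₁ *
        (toArithmeticFunction z₄ * toArithmeticFunction e₄) *
        (toArithmeticFunction z₄ * toArithmeticFunction e₄) =
      toArithmeticFunction z₂ * toArithmeticFunction e₂ *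
        (toArithmeticFunction z₃ * toArithmeticFunction e₃) *
        (toArithmeticFunction z₃ * toArithmeticFunction e₃) *
        (toArithmeticFunction b * toArithmeticFunction b')) (n : ℕ) :
    ((z₁ ⍟ e₁) ⍟ ((z₄ ⍟ e₄) ⍟ (z₄ ⍟ e₄))) n =
      (((z₂ ⍟ e₂) ⍟ ((z₃ ⍟ e₃) ⍟ (z₃ ⍟ e₃))) ⍟ (b ⍟ b')) n := by
  refine eq_of_toAF ?_ (LSeries.convolution_map_zero _ _) (LSeries.convolution_map_zero _ _) n
  have e₁ : toArithmeticFunction ((z₁ ⍟ e₁) ⍟ ((z₄ ⍟ e₄) ⍟ (z₄ ⍟ e₄))) =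
      (toArithmeticFunction z₁ * toArithmeticFunction e₁) *
        ((toArithmeticFunction z₄ * toArithmeticFunction e₄) *
          (toArithmeticFunction z₄ * toArithmeticFunction e₄)) := by
    simp only [toAF_convolution]
  have e₂ : toArithmeticFunction (((z₂ ⍟ e₂) ⍟ ((z₃ ⍟ e₃) ⍟ (z₃ ⍟ e₃))) ⍟ (b ⍟ b')) =
      (toArithmeticFunction z₂ * toArithmeticFunction e₂) *
        ((toArithmeticFunction z₃ * toArithmeticFunction e₃) *
          (toArithmeticFunction z₃ * toArithmeticFunction e₃)) *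
        (toArithmeticFunction b * toArithmeticFunction b') := by
    simp only [toAF_convolution]
  rw [e₁, e₂]
  exact assoc_form key

section

variable {ρ : Γℚ →* GL (Fin 2) (ZMod 3)} (hs : Function.Surjective ρ)
  (hdet : ∀ σ : Γℚ, Matrix.GeneralLinearGroup.det (ρ σ) = modThreeCyclotomicChar σ)
  {Ψ : GL (Fin 2) (ZMod 3) →* GL (Fin 2) (ℤ√(-2))}
  (hΨ : ∀ g, Matrix.GeneralLinearGroup.map red (Ψ g) = g)

include hs hdet hΨ in
/-- **The zeta quotient of the four fields**, for functions on `ℕ`. -/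
theorem hid (T₁ : FixField ρ C2) (T₂ : FixField ρ V4) (T₃ : FixField ρ S3)
    (T₄ : FixField ρ B3) {N : ℕ} [NeZero N] {ι : ℤ√(-2) →+* ℂ} {b : ℕ → ℤ√(-2)}
    {f : CuspForm (CongruenceSubgroup.Gamma1 N) 1} (h : Start ρ Ψ N ι b f)
    (g₁ : ∀ p : ℕ, p.Prime → ¬ p ∣ N → LT.Tower.Fr.Good T₁.F p)
    (g₂ : ∀ p : ℕ, p.Prime → ¬ p ∣ N → LT.Tower.Fr.Good T₂.F p)
    (g₃ : ∀ p : ℕ, p.Prime → ¬ p ∣ N → LT.Tower.Fr.Good T₃.F p)
    (g₄ : ∀ p : ℕ, p.Prime → ¬ p ∣ N → LT.Tower.Fr.Good T₄.F p) (n : ℕ) :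
    (((fun n => (Nat.card {I : Ideal (𝓞 T₁.F) // Ideal.absNorm I = n} : ℂ)) ⍟
        efl (normList T₁.F N)) ⍟
      (((fun n => (Nat.card {I : Ideal (𝓞 T₄.F) // Ideal.absNorm I = n} : ℂ)) ⍟
        efl (normList T₄.F N)) ⍟
      ((fun n => (Nat.card {I : Ideal (𝓞 T₄.F) // Ideal.absNorm I = n} : ℂ)) ⍟
        efl (normList T₄.F N)))) n =
    ((((fun n => (Nat.card {I : Ideal (𝓞 T₂.F) // Ideal.absNorm I = n} : ℂ)) ⍟
        efl (normList T₂.F N)) ⍟
      (((fun n => (Nat.card {I : Ideal (𝓞 T₃.F) // Ideal.absNorm I = n} : ℂ)) ⍟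
        efl (normList T₃.F N)) ⍟
      ((fun n => (Nat.card {I : Ideal (𝓞 T₃.F) // Ideal.absNorm I = n} : ℂ)) ⍟
        efl (normList T₃.F N)))) ⍟
      ((fun n => ι (b n)) ⍟ fun n => (starRingEnd ℂ) (ι (b n)))) n := by
  have key := zeta_identity hs hdet hΨ T₁ T₂ T₃ T₄ (NeZero.ne N) h.three g₁ g₂ g₃ g₄ ι h.eig
    (fun p hp hpN => h.dep p (fun hc => hp.one_lt.ne' (Nat.dvd_one.mp
      (hc ▸ Nat.dvd_gcd dvd_rfl hpN))))
    h.trace
  rw [badE_eq, badE_eq, badE_eq, badE_eq] at key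
  exact conv_form _ _ _ _ _ _ _ _ _ _ key n

end

end Fermat.Agent.Classic.Zeta

end
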