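import Fermat.Agent.Classic.Level.Ord
import Fermat.Agent.Classic.Level.Four
import Fermat.Agent.Classic.Level.Z5Final
import Fermat.Agent.Classic.Level.GoodUnr
import Fermat.Agent.Classic.Level.Disc.Count3

/-!
# The four fields: assembly (plan Z)
-/

set_option autoImplicit false

noncomputable section

open NumberField NumberField.InfinitePlace IsDedekindDomain Complex WeierstrassCurve
open Fermat.Agent.Frob Fermat.Agent.LT.Tower Fermat.Agent.Classic.Disc
open scoped LSeries.notation ComplexConjugate MatrixGroups

namespace Fermat.Agent.Classic.Level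

local notation "G3" => Matrix.GeneralLinearGroup (Fin 2) (ZMod 3)

theorem good_fixField {ρ : GQ →* G3} (hρ : Continuous ρ) {H : Subgroup G3} (T : FixField ρ H)
    {p : ℕ} (hp : p.Prime) (h : UnrAt ρ p) : Fr.Good T.F p :=
  Emb.good_of_unrAt hρ hp h T.i fun σ hσ => (T.fix σ).mpr (by rw [hσ]; exact one_mem H)

theorem factorization_badL {F : Type*} [Field F] [NumberField F] {N m : ℕ}
    (h : padicValNat 3 (∏ v ∈ above F N, Ideal.absNorm v.asIdeal) = m) :
    (badL F N).prod.factorization 3 = m := by
  rw [Nat.factorization_def _ Nat.prime_three, prod_badL, h]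

/-- **The field side of the comparison**, from the functional equation of the Dedekind zeta
functions. -/
theorem fourStmt_of (hZ : ZetaFEStmt) : FourStmt := by
  intro ρ hρ hs hdet Ψ hΨ
  refine ⟨1, one_ne_zero, fun N hN ι b f hf _ => ?_⟩
  obtain ⟨T24⟩ := exists_fixField hρ C2
  obtain ⟨T12⟩ := exists_fixField hρ V4
  obtain ⟨T8⟩ := exists_fixField hρ S3
  obtain ⟨T4⟩ := exists_fixField hρ B3
  have hsq : ρ complexConjugation * ρ complexConjugation = 1 := by
    rw [← map_mul, complexConjugation_mul_self, map_one]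
  have hd := det_complexConjugation hdet
  obtain ⟨p24, p12, p8, p4⟩ := pH_refl hd (trace_of_sq hd hsq)
  obtain ⟨r24, t24⟩ := signature_two hs T24 p24
  obtain ⟨r12, t12⟩ := signature_two hs T12 p12
  obtain ⟨r8, t8⟩ := signature_two hs T8 p8
  obtain ⟨r4, t4⟩ := signature_two hs T4 p4
  rw [index_C2] at t24
  rw [index_V4] at t12
  rw [index_S3] at t8
  rw [index_B3] at t4
  exact ⟨{
    z24 := zcF T24.F
    z12 := zcF T12.F
    z8 := zcF T8.F
    z4 := zcF T4.F
    d24 := (discr T24.F).natAbs
    d12 := (discr T12.F).natAbs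
    d8 := (discr T8.F).natAbs
    d4 := (discr T4.F).natAbs
    r24 := nrRealPlaces T24.F
    r12 := nrRealPlaces T12.F
    r8 := nrRealPlaces T8.F
    r4 := nrRealPlaces T4.F
    t24 := nrComplexPlaces T24.F
    t12 := nrComplexPlaces T12.F
    t8 := nrComplexPlaces T8.F
    t4 := nrComplexPlaces T4.F
    l24 := badL T24.F N
    l12 := badL T12.F N
    l8 := badL T8.F N
    l4 := badL T4.F N
    z24_one := zcF_one
    z12_one := zcF_one
    z8_one := zcF_one
    z4_one := zcF_one
    d24_ne := natAbs_discr_ne_zero _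
    d12_ne := natAbs_discr_ne_zero _
    d8_ne := natAbs_discr_ne_zero _
    d4_ne := natAbs_discr_ne_zero _
    two_le24 := fun _ => two_le_of_mem_badL
    two_le12 := fun _ => two_le_of_mem_badL
    two_le8 := fun _ => two_le_of_mem_badL
    two_le4 := fun _ => two_le_of_mem_badL
    fe24 := hZ T24.F
    fe12 := hZ T12.F
    fe8 := hZ T8.F
    fe4 := hZ T4.F
    hr := by rw [r24, r12, r8, r4]
    ht := by omega
    hid := fun n _ => Zeta.hid hs hdet hΨ T24 T12 T8 T4 hf
      (fun p hp hpN => good_fixField hρ T24 hp (hf.unr p hp hpN))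
      (fun p hp hpN => good_fixField hρ T12 hp (hf.unr p hp hpN))
      (fun p hp hpN => good_fixField hρ T8 hp (hf.unr p hp hpN))
      (fun p hp hpN => good_fixField hρ T4 hp (hf.unr p hp hpN)) n
    tame := fun q hq hqN ht => by
      have ht' : TameAt ρ q := ht
      have hN0 := NeZero.ne N
      rw [factorization_eq_index hρ hs T24 hq ht' hN0 hqN,
        factorization_eq_index hρ hs T12 hq ht' hN0 hqN,
        factorization_eq_index hρ hs T8 hq ht' hN0 hqN,
        factorization_eq_index hρ hs T4 hq ht' hN0 hqN, index_C2, index_V4, index_S3, index_B3]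
      exact ⟨rfl, rfl, rfl, rfl⟩
    three := fun h h3 => by
      obtain ⟨h1, h2, h4, h5⟩ := padicValNat_three hdet hs h (NeZero.ne N) h3 T24 T12 T8 T4
      rw [factorization_badL h1, factorization_badL h2, factorization_badL h4,
        factorization_badL h5] }⟩

end Fermat.Agent.Classic.Level

end
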