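import Fermat.Agent.LT.End.Eigen
import Fermat.Agent.Classic.Chi3

/-!
# The operator `U_q` lowers the level, and removal of Euler factors at constant level

Let `f` be a cusp form of weight one on `Γ₁(N)` with nebentypus `χ₋₃`. If `q ^ 2 ∣ N`, then `U_q f`
is of level `N / q`, so that `f - V_q U_q f` is of level `N`: the Euler factor at `q` can be removed
without raising the level.
-/

set_option autoImplicit false

noncomputable section

open CongruenceSubgroup Matrix.SpecialLinearGroup UpperHalfPlane Function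
open scoped MatrixGroups ModularForm Manifold

namespace Fermat.Agent.Classic.UqLow

open Fermat.Agent.X1 Fermat.Agent.HeckePar ModularFormClass Fermat.Agent.LT.End

/-- `f` has nebentypus `χ₋₃` on `Γ₀(N)`. -/
def Law (N : ℕ) (f : ℍ → ℂ) : Prop :=
  ∀ g ∈ Gamma0 N, f ∣[(1 : ℤ)] g = ((chi3 (g 1 1) : ℤ) : ℂ) • f

variable {N M q : ℕ}

/-- The matrix identity behind `U_q`. -/
theorem exists_hecke_mul (hq : q ≠ 0) (hqM : q ∣ M) (hN : N = q * M) (g : SL(2, ℤ))
    (hg : g ∈ Gamma0 M) (j j' : ℕ)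
    (hj : (q : ℤ) ∣ (j' : ℤ) - (g 0 1 * g 1 1 + g 1 1 * g 1 1 * j)) :
    ∃ g' ∈ Gamma0 N, (M : ℤ) ∣ (g' : SL(2, ℤ)) 1 1 - g 1 1 ∧
      ModularForm.heckeMatrix q j * mapGL ℝ g = mapGL ℝ g' * ModularForm.heckeMatrix q j' := by
  have hc : (M : ℤ) ∣ g 1 0 := (ZMod.intCast_zmod_eq_zero_iff_dvd _ _).mp (Gamma0_mem.mp hg)
  have hqc : (q : ℤ) ∣ g 1 0 := (by exact_mod_cast hqM : (q : ℤ) ∣ (M : ℤ)).trans hc
  have hdet := det_SL g
  obtain ⟨k, hk⟩ := hj
  obtain ⟨m, hm⟩ := hqc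
  -- the upper right entry
  obtain ⟨B, hB⟩ : (q : ℤ) ∣ g 0 1 + j * g 1 1 - (g 0 0 + j * g 1 0) * j' := by
    refine ⟨-(m * g 0 1 * g 0 1) - m * j * g 0 1 * g 1 1 - g 0 0 * k - j * m * j', ?_⟩
    have h1 : (j' : ℤ) = g 0 1 * g 1 1 + g 1 1 * g 1 1 * j + q * k := by linear_combination hk
    rw [hm] at hdet
    have h2 : (g 0 0 + j * g 1 0) * (j' : ℤ) =
        g 0 0 * (g 0 1 * g 1 1 + g 1 1 * g 1 1 * j + q * k) + j * (q * m) * j' := by
      rw [hm]
      conv_lhs => rw [add_mul]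
      rw [← h1]
    rw [h2]
    linear_combination (-(g 0 1) - g 1 1 * j) * hdet
  let g' : SL(2, ℤ) := ⟨!![g 0 0 + j * g 1 0, B; q * g 1 0, g 1 1 - g 1 0 * j'], by
    rw [Matrix.det_fin_two_of]
    linear_combination hdet + g 1 0 * hB⟩
  have e00 : g' 0 0 = g 0 0 + j * g 1 0 := rfl
  have e01 : g' 0 1 = B := rfl
  have e10 : g' 1 0 = q * g 1 0 := rfl
  have e11 : g' 1 1 = g 1 1 - g 1 0 * j' := rfl
  refine ⟨g', ?_, ?_, ?_⟩
  · rw [Gamma0_mem, e10, ZMod.intCast_zmod_eq_zero_iff_dvd, hN]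
    push_cast
    exact mul_dvd_mul_left _ hc
  · rw [e11, sub_sub_cancel_left]
    exact (hc.mul_right _).neg_right
  · rw [← Units.val_inj, Units.val_mul, Units.val_mul, val_mapGL, val_mapGL,
      ModularForm.val_heckeMatrix hq, ModularForm.val_heckeMatrix hq]
    have hB' : (g 0 1 : ℝ) + j * g 1 1 - (g 0 0 + j * g 1 0) * j' = q * B := by exact_mod_cast hB
    ext a b
    fin_cases a <;> fin_cases b
    · simp [Matrix.mul_apply, Fin.sum_univ_two, e00]
    · simp [Matrix.mul_apply, Fin.sum_univ_two, e00, e01]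
      linear_combination hB'
    · simp [Matrix.mul_apply, Fin.sum_univ_two, e10]
    · simp [Matrix.mul_apply, Fin.sum_univ_two, e10, e11]
      ring

/-- `U_q` lowers the level. -/
theorem law_heckeU (hq : q.Prime) (hqM : q ∣ M) (h3 : 3 ∣ M) (hN : N = q * M) {f : ℍ → ℂ}
    (hf : Law N f) : Law M (ModularForm.heckeU 1 q f) := by
  have : Fact q.Prime := ⟨hq⟩
  intro g hg
  have hc : (M : ℤ) ∣ g 1 0 := (ZMod.intCast_zmod_eq_zero_iff_dvd _ _).mp (Gamma0_mem.mp hg)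
  have hqc : (q : ℤ) ∣ g 1 0 := (by exact_mod_cast hqM : (q : ℤ) ∣ (M : ℤ)).trans hc
  have hd : IsUnit ((g 1 1 : ℤ) : ZMod q) := by
    have h1 := det_SL g
    have h2 := congrArg (fun z : ℤ => (z : ZMod q)) h1
    push_cast at h2
    rw [(ZMod.intCast_zmod_eq_zero_iff_dvd _ _).mpr hqc, mul_zero, sub_zero] at h2
    exact IsUnit.of_mul_eq_one_right _ h2
  -- the permutation
  let e : ℕ → ℕ := fun j => ((g 0 1 * g 1 1 + g 1 1 * g 1 1 * j : ℤ) : ZMod q).val
  have he : ∀ j, (q : ℤ) ∣ (e j : ℤ) - (g 0 1 * g 1 1 + g 1 1 * g 1 1 * j) := by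
    intro j
    rw [← ZMod.intCast_zmod_eq_zero_iff_dvd, Int.cast_sub, Int.cast_natCast, ZMod.natCast_zmod_val,
      sub_self]
  have hmaps : ∀ j ∈ Finset.range q, e j ∈ Finset.range q := fun j _ =>
    Finset.mem_range.mpr (ZMod.val_lt _)
  have hinj : Set.InjOn e (Finset.range q : Set ℕ) := by
    intro i hi j hj hij
    rw [Finset.coe_range, Set.mem_Iio] at hi hj
    have h1 : ((g 0 1 * g 1 1 + g 1 1 * g 1 1 * i : ℤ) : ZMod q) =
      ((g 0 1 * g 1 1 + g 1 1 * g 1 1 * j : ℤ) : ZMod q) := ZMod.val_injective q hij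
    push_cast at h1
    have h2 := (hd.mul hd).mul_left_cancel (add_left_cancel h1)
    have h3 := congrArg ZMod.val h2
    rwa [ZMod.val_natCast_of_lt hi, ZMod.val_natCast_of_lt hj] at h3
  have hterm : ∀ j, (f ∣[(1 : ℤ)] ModularForm.heckeMatrix q j) ∣[(1 : ℤ)] g =
      ((chi3 (g 1 1) : ℤ) : ℂ) • (f ∣[(1 : ℤ)] ModularForm.heckeMatrix q (e j)) := by
    intro j
    obtain ⟨g', hg', h11, hmat⟩ := exists_hecke_mul hq.ne_zero hqM hN g hg j (e j) (he j)
    have h4 : chi3 (g' 1 1) = chi3 (g 1 1) :=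
      chi3_congr ((by exact_mod_cast h3 : (3 : ℤ) ∣ (M : ℤ)).trans h11)
    show (f ∣[(1 : ℤ)] ModularForm.heckeMatrix q j) ∣[(1 : ℤ)] mapGL ℝ g = _
    rw [← SlashAction.slash_mul, hmat, SlashAction.slash_mul]
    have h5 : f ∣[(1 : ℤ)] mapGL ℝ g' = ((chi3 (g 1 1) : ℤ) : ℂ) • f := by
      rw [← h4]
      exact hf g' hg'
    rw [h5, ModularForm.smul_slash, ModularForm.σ_heckeMatrix, ContinuousAlgEquiv.refl_apply]
  rw [ModularForm.heckeU_def, SlashAction.sum_slash, Finset.sum_congr rfl fun j _ => hterm j,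
    ← Finset.smul_sum]
  congr 1
  exact Finset.sum_nbij e hmaps hinj
    (Finset.surjOn_of_injOn_of_card_le e hmaps hinj le_rfl) (fun _ _ => rfl)

/-- `f ∣ diag(q, 1)` has the nebentypus of `f`. -/
theorem law_diag (hq : q ≠ 0) (hN : N = q * M) {f : ℍ → ℂ} (hf : Law M f) :
    Law N (f ∣[(1 : ℤ)] ModularForm.heckeDiagMatrix q) := by
  intro g hg
  obtain ⟨c, hc⟩ : (N : ℤ) ∣ g 1 0 :=
    (ZMod.intCast_zmod_eq_zero_iff_dvd _ _).mp (Gamma0_mem.mp hg)
  have hd := det_SL g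
  have hNz : (N : ℤ) = q * M := by rw [hN]; push_cast; rfl
  rw [hNz] at hc
  let g' : SL(2, ℤ) := ⟨!![g 0 0, q * g 0 1; M * c, g 1 1], by
    rw [Matrix.det_fin_two_of]
    rw [hc] at hd
    linear_combination hd⟩
  have hg' : g' ∈ Gamma0 M := by
    rw [Gamma0_mem]
    show ((M * c : ℤ) : ZMod M) = 0
    push_cast
    rw [ZMod.natCast_self, zero_mul]
  have hmat := diag_mul q hq g g' rfl rfl (by
    show g 1 0 = q * (M * c)
    rw [hc]; ring) rfl
  have h1 := hf g' hg'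
  show (f ∣[(1 : ℤ)] ModularForm.heckeDiagMatrix q) ∣[(1 : ℤ)] mapGL ℝ g = _
  rw [← SlashAction.slash_mul, hmat, SlashAction.slash_mul]
  have h2 : f ∣[(1 : ℤ)] mapGL ℝ g' = ((chi3 (g 1 1) : ℤ) : ℂ) • f := h1
  rw [h2, ModularForm.smul_slash, ModularForm.σ_heckeDiagMatrix, ContinuousAlgEquiv.refl_apply]

/-- The form `U_q f` of level `N / q`. -/
theorem exists_lower [NeZero M] (hq : q.Prime) (hqM : q ∣ M) (h3 : 3 ∣ M) (hN : N = q * M)
    (f : CuspForm (Gamma1 N) 1) (hf : Law N f) :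
    ∃ g : CuspForm (Gamma1 M) 1, Law M g ∧ ∀ n, qCoeff g n = qCoeff f (q * n) := by
  have : Fact q.Prime := ⟨hq⟩
  have : NeZero N := ⟨by rw [hN]; exact mul_ne_zero hq.ne_zero (NeZero.ne M)⟩
  have hqN : q ∣ N := by rw [hN]; exact dvd_mul_right q M
  have hcoe : ⇑(tCusp N (Gamma1 N) 1 q f) = ModularForm.heckeU 1 q f := by
    rw [coe_tCusp, slashSum_hecke_of_dvd 1 q hqN]
  have hlaw : Law M (ModularForm.heckeU 1 q f) := law_heckeU hq hqM h3 hN hf
  let g : CuspForm (Gamma1 M) 1 :=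
    { toFun := ModularForm.heckeU 1 q f
      slash_action_eq' := by
        rintro γ ⟨g, hg, rfl⟩
        have h1 := hlaw g (Gamma1_in_Gamma0 M hg)
        have h2 : chi3 (g 1 1) = 1 := by
          have h4 : (M : ℤ) ∣ g 1 1 - 1 := by
            rw [← ZMod.intCast_zmod_eq_zero_iff_dvd]
            push_cast
            rw [(Gamma1_mem M g).mp hg |>.2.1, sub_self]
          rw [chi3_congr (d' := 1) ((by exact_mod_cast h3 : (3 : ℤ) ∣ (M : ℤ)).trans h4), chi3_one]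
        rw [h2, Int.cast_one, one_smul] at h1
        exact h1
      holo' := by
        show MDiff (ModularForm.heckeU 1 q f)
        rw [← hcoe]
        exact CuspFormClass.holo (tCusp N (Gamma1 N) 1 q f)
      zero_at_cusps' := fun {c} hc => by
        show c.IsZeroAt (ModularForm.heckeU 1 q f) 1
        rw [← hcoe]
        refine (tCusp N (Gamma1 N) 1 q f).zero_at_cusps' ?_
        rw [Subgroup.IsArithmetic.isCusp_iff_isCusp_SL2Z] at hc ⊢
        exact hc }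
  refine ⟨g, hlaw, fun n => ?_⟩
  have h1 := qCoeff_tCusp_of_dvd (Gamma1 N) 1 q hqN f n
  rw [hcoe] at h1
  rw [mul_comm q n]
  exact h1

/-- Removing the Euler factor at `q` at constant level, when `q ^ 2 ∣ N`. -/
theorem exists_deplete_at [NeZero N] (hq : q.Prime) (h3 : 3 ∣ N) (hq2 : q ^ 2 ∣ N)
    (f : CuspForm (Gamma1 N) 1) (hf : Law N f) :
    ∃ g : CuspForm (Gamma1 N) 1, Law N g ∧ ∀ n, qCoeff g n = if q ∣ n then 0 else qCoeff f n := by
  obtain ⟨M, hM⟩ : q ∣ N := (dvd_pow_self q two_ne_zero).trans hq2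
  have hqM : q ∣ M := by
    have h1 : q * q ∣ q * M := by rw [← pow_two, ← hM]; exact hq2
    exact Nat.dvd_of_mul_dvd_mul_left hq.pos h1
  have h3M : 3 ∣ M := by
    rw [hM] at h3
    rcases (Nat.prime_three.dvd_mul).mp h3 with h | h
    · rwa [(Nat.prime_dvd_prime_iff_eq Nat.prime_three hq).mp h]
    · exact h
  have hM0 : NeZero M := ⟨fun h => NeZero.ne N (by rw [hM, h, mul_zero])⟩
  obtain ⟨f₀, hlaw, hf₀⟩ := exists_lower hq hqM h3M hM f hf
  have hl2 : Law N (V1 hq.ne_zero hM f₀) := law_diag hq.ne_zero hM hlaw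
  refine ⟨f + (-1 : ℂ) • V1 hq.ne_zero hM f₀, ?_, fun n => ?_⟩
  · intro g hg
    have h1 := hf g hg
    have h2 := hl2 g hg
    have h4 : ⇑(f + (-1 : ℂ) • V1 hq.ne_zero hM f₀) =
        ⇑f + (-1 : ℂ) • ⇑(V1 hq.ne_zero hM f₀) := rfl
    rw [h4, SlashAction.add_slash, ModularForm.SL_smul_slash, h1, h2, smul_add, smul_comm]
  · rw [qCoeff_cusp_add N (Gamma1 N) 1, qCoeff_cusp_smul N (Gamma1 N) 1, qCoeff_V1, hf₀]
    split_ifs with h
    · rw [Nat.mul_div_cancel' h, sub_self, zpow_zero, one_mul, neg_one_mul, add_neg_cancel]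
    · rw [mul_zero, add_zero]

/-- Removing the Euler factors at a finite set of primes with `q ^ 2 ∣ N`, at constant level. -/
theorem exists_deplete_all [NeZero N] (h3 : 3 ∣ N) (S : Finset ℕ)
    (hS : ∀ r ∈ S, r.Prime ∧ r ^ 2 ∣ N) :
    ∀ f : CuspForm (Gamma1 N) 1, Law N f →
      ∃ g : CuspForm (Gamma1 N) 1, Law N g ∧
        ∀ n, qCoeff g n = if ∃ r ∈ S, r ∣ n then 0 else qCoeff f n := by
  classical
  induction S using Finset.induction_on with
  | empty =>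
    intro f hf
    exact ⟨f, hf, by simp⟩
  | insert r S hr ih =>
    intro f hf
    obtain ⟨hrp, hr2⟩ := hS r (Finset.mem_insert_self _ _)
    obtain ⟨f', hl, hf'⟩ := exists_deplete_at hrp h3 hr2 f hf
    obtain ⟨g, hg, hgc⟩ := ih (fun s hs => hS s (Finset.mem_insert_of_mem hs)) f' hl
    refine ⟨g, hg, fun n => ?_⟩
    rw [hgc n, hf' n]
    by_cases h4 : ∃ s ∈ S, s ∣ n
    · rw [if_pos h4, if_pos]
      obtain ⟨s, hs, hsn⟩ := h4
      exact ⟨s, Finset.mem_insert_of_mem hs, hsn⟩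
    · rw [if_neg h4]
      by_cases h5 : r ∣ n
      · rw [if_pos h5, if_pos ⟨r, Finset.mem_insert_self _ _, h5⟩]
      · rw [if_neg h5, if_neg]
        rintro ⟨s, hs, hsn⟩
        rcases Finset.mem_insert.mp hs with rfl | hs
        · exact h5 hsn
        · exact h4 ⟨s, hs, hsn⟩

end Fermat.Agent.Classic.UqLow

end
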