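import Fermat.Agent.Classic.Level.OrdOf
import Fermat.Agent.Classic.Level.FourOf
import Fermat.Agent.Classic.Level.Z3.Final
import Fermat.Agent.Classic.Zeta.Final

/-!
# `StepZ`: the form of weight one is of a level with exponent two at the tame primes
-/

set_option autoImplicit false

namespace Fermat.Agent.Classic.Level

/-- The functional equation of the Dedekind zeta functions, in the form of block Z4. -/
theorem zetaFEStmt : ZetaFEStmt := fun F _ _ => Zeta.zetaFE F

/-- The four fields. -/
theorem fourStmt : FourStmt := fourStmt_of zetaFEStmt

/-- The comparison of the functional equations. -/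
theorem ordStmt : OrdStmt := ordStmt_of Z3.frickeFE fourStmt

/-- **StepZ.** -/
theorem stepZ : StepZ := stepZ_of Fri.fricke Z3.lowerStmt ordStmt

end Fermat.Agent.Classic.Level
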