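import Fermat.Agent.Classic.Level.Four
import Fermat.Agent.Classic.Level.FourOf
import Fermat.Agent.Classic.Level.Z3.Final
import Fermat.Agent.Classic.Zeta.SepQ
import Fermat.Agent.Classic.Zeta.Final

/-!
# The form of exact level at `3` (inertia of order two at `3`)

`f` is of level `N`, `v₃(N) = 2`, `h = f ∣ W_N`. If `U₃ h = 0`, then the coefficients of `f` and of
`h` are supported on the numbers prime to `3`, and the comparison of the functional equations gives
`∑ f_v (F₂₄) + 2 ∑ f_v (F₄) = ∑ f_v (F₁₂) + 2 ∑ f_v (F₈)` for the places above `3`; but the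
difference is `2`. Hence `g = U₃ h ≠ 0`, of level `N / 3`.
-/

set_option autoImplicit false

open scoped LSeries.notation ComplexConjugate MatrixGroups ModularForm
open CongruenceSubgroup WeierstrassCurve ModularFormClass EisensteinWeightOne UpperHalfPlane

local notation "Γℚ" => (AlgebraicClosure ℚ ≃ₐ[ℚ] AlgebraicClosure ℚ)

noncomputable section

namespace Fermat.Agent.Classic.Level

open Zeta

/-- The separation of the `q`-part for the data of the four fields. -/
theorem Four.fsum_eq {q : ℕ} (hq : q.Prime) {N : ℕ} (hN : N ≠ 0)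
    {ρ : Γℚ →* GL (Fin 2) (ZMod 3)} {β c : ℕ → ℂ} (T : Four ρ N β) (hbc : FE β c N 0 1)
    (hbq : ∀ n, n ≠ 0 → β n ≠ 0 → n.factorization q = 0) {μ : ℕ}
    (hcq : ∀ n, n ≠ 0 → c n ≠ 0 → n.factorization q = μ) :
    T.l24.prod.factorization q + 2 * T.l4.prod.factorization q =
      T.l12.prod.factorization q + 2 * T.l8.prod.factorization q :=
  Zeta.fsum_eq hq hN hbc T.fe24 T.fe12 T.fe8 T.fe4 T.z24_one T.z12_one T.z8_one T.z4_one
    T.d24_ne T.d12_ne T.d8_ne T.d4_ne T.two_le24 T.two_le12 T.two_le8 T.two_le4 T.hid T.hr T.ht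
    hbq hcq

theorem stepZ3_of (hF : FourStmt) : StepZ3 := by
  intro ρ hρ hs hdet Ψ hΨ
  obtain ⟨D, hD, H⟩ := hF ρ hρ hs hdet Ψ hΨ
  refine ⟨D, hD, fun N hN ι b f hf hDN _ hd => ?_⟩
  obtain ⟨T⟩ := H N hN ι b f hf hDN
  obtain ⟨h, hP⟩ := Z3.pack_of' hρ hdet hΨ hf.sq hf.eig hf.dep hf.coeff hf.trace
  have h9 : 3 ^ 2 ∣ N := hf.sq 3 Nat.prime_three hf.three
  have hN3 : N = 3 * (N / 3) := (Nat.mul_div_cancel' hf.three).symm
  have h3 : 3 ∣ N / 3 := by
    have h1 : 3 * 3 ∣ 3 * (N / 3) := by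
      rw [← hN3, ← pow_two]
      exact h9
    exact Nat.dvd_of_mul_dvd_mul_left (by norm_num) h1
  have hN0 : NeZero (N / 3) := ⟨fun h0 => NeZero.ne N (by rw [hN3, h0, mul_zero])⟩
  have : Fact (Nat.Prime 3) := ⟨Nat.prime_three⟩
  obtain ⟨g, hg, hgc, hgT⟩ := hP.exists_uq' (q := 3) h9 h3
  refine ⟨N / 3, hN0, g, (starRingEnd ℂ).comp ι, hN3, ?_, hg, fun p hp hpN n => ?_⟩
  · rintro rfl
    have hc : ∀ n, n ≠ 0 → qCoeff ⇑h n ≠ 0 → n.factorization 3 = 0 := by
      intro n _ hn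
      refine Nat.factorization_eq_zero_of_not_dvd ?_
      rintro ⟨m, rfl⟩
      refine hn ?_
      rw [← hgc m]
      have h0 := X1.qCoeff_cusp_smul (N / 3) (Gamma1 (N / 3)) 1 (0 : ℂ) (0 : CuspForm _ 1) m
      rwa [zero_smul, zero_mul] at h0
    have hb : ∀ n, n ≠ 0 → ι (b n) ≠ 0 → n.factorization 3 = 0 := by
      intro n _ hn
      refine Nat.factorization_eq_zero_of_not_dvd fun h3n => hn ?_
      rw [hf.dep n fun hcop => Nat.not_coprime_of_dvd_of_dvd (by norm_num) h3n hf.three hcop,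
        map_zero]
    have hfe : FE (fun n => ι (b n)) (qCoeff ⇑h) N 0 1 := by
      have h1 := hP.fe
      have h2 : qCoeff ⇑f = fun n => ι (b n) := funext hf.coeff
      rwa [h2] at h1
    have h1 := T.fsum_eq Nat.prime_three (NeZero.ne N) hfe hb hc
    have h2 := T.three hd hf.three
    omega
  · exact hgT p hp (fun h => hpN (h.trans ⟨3, by rw [mul_comm]; exact hN3⟩)) n

/-- **Z at 3.** -/
theorem stepZ3 : StepZ3 := stepZ3_of (fourStmt_of fun F _ _ => zetaFE F)

end Fermat.Agent.Classic.Level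

end
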