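import Fermat.Agent.Classic.Level.Assembly
import Fermat.Agent.Classic.Level.StepStart
import Fermat.Agent.Classic.Level.StepZ
import Fermat.Agent.Classic.Level.StepZ3
import Fermat.Agent.Classic.Level.P4
import Fermat.Agent.Classic.Level.StepP3
import Fermat.Agent.Classic.Level.StepD3
import Fermat.Agent.Classic.Level.Disc.StepDq

/-!
# Fermat's Last Theorem along the classical route

Langlands-Tunnell (`S47`) at `3`, control of the level by the functional equations of the Dedekind
zeta functions of four subfields of the field of the `3`-torsion (`levelThree`), modularity lifting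
at `3`, the switch from `5` to `3`, modularity lifting at `5`, level lowering, irreducibility.

This gives second proofs of the statements `S01`, `S03`, `S04`, `S06`, `S45`, `S60` (and, in
`Classic/Level/Second.lean`, of `S46`, `S50`); the import closure contains nothing of the
`2`-adic modularity theorem on which the first proofs rest.
-/

set_option autoImplicit false

open WeierstrassCurve WeierstrassCurve.Affine WeierstrassCurve.Affine.Point
open CuspForm ModularFormClass UpperHalfPlane

namespace Fermat.Agent.Classic

/-- **Control of the level** at `3`: a semistable curve with irreducible mod `3` representation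
which is residually modular at `3` is so of a level prime to `9` and cube-free away from `3`. -/
theorem levelThree : LevelThree :=
  Level.levelThree_of Level.stepStart Level.stepZ Level.stepZ3 Level.stepP4 Level.stepP3
    Level.stepD3 Level.stepDq

/-- Every semistable elliptic curve over `ℚ` is modular, of exact conductor level. -/
theorem exact_of_semistable {W : WeierstrassCurve ℤ} (hΔ : W.Δ ≠ 0) (hW : W.IsSemistableModel) :
    Mlc1IsModularModelOfExactConductorLevel W :=
  exact_of_levelThree levelThree hΔ hW

/-- **Every semistable elliptic curve over `ℚ` is modular** (the statement `S60`). -/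
theorem isModular_of_semistable (W : WeierstrassCurve ℤ) (hΔ : W.Δ ≠ 0)
    (hW : W.IsSemistableModel) : (W.map (Int.castRingHom ℚ)).IsModular :=
  isModular_of_levelThree levelThree hΔ hW

/-- The Frey curve is modular of its conductor (the statement `S06`). -/
theorem frey_modularRepOfLevel (P : FreyPackage) :
    ∃ N : ℕ, P.IsConductorLevel N ∧ P.ModularRepOfLevel N :=
  Top.s06_of (exact_of_semistable (Frey.freyCurveInt_Δ_ne_zero P)
    (Frey.freyCurveInt_isSemistableModel P))

/-- The Frey curve is modular (the statement `S04`). -/
theorem frey_isModular (P : FreyPackage) : P.freyCurve.IsModular :=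
  Top.s04_of (exact_of_semistable (Frey.freyCurveInt_Δ_ne_zero P)
    (Frey.freyCurveInt_isSemistableModel P))

/-- Level lowering to `Γ₀(2)` for the Frey curve (the statement `S45`). -/
theorem frey_level_two (P : FreyPackage) (_hmod : P.freyCurve.IsModular)
    (hirr : GaloisRepIsIrreducible (K := AlgebraicClosure ℚ) ℚ P.freyCurve P.p) :
    ∃ f : CuspForm (CongruenceSubgroup.Gamma0 2) 2, f ≠ 0 :=
  Top.s45_of S05.result S43.result S44.result P (frey_modularRepOfLevel P) hirr

/-- There is no Frey package (the statement `S03`). -/
theorem freyPackage_false (P : FreyPackage) : False := by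
  obtain ⟨f, hf⟩ := frey_level_two P (frey_isModular P) (S09.result P)
  exact hf (S07.result f)

/-- **Fermat's Last Theorem** (the statement `S01`). -/
theorem fermat_last_theorem (n : ℕ) (hn : 3 ≤ n) (a b c : ℕ) (ha : 0 < a) (hb : 0 < b)
    (hc : 0 < c) : a ^ n + b ^ n ≠ c ^ n :=
  Top.s01_of S02.result freyPackage_false n hn a b c ha hb hc

end Fermat.Agent.Classic
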