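import Fermat.Agent.FlatP.GoodLocal
import Fermat.Agent.ECFrob.DetCyc

/-!
# Two-dimensional representations over `F₃` and their twist by `ω` at a place above `3`

`M : GQ →* M₂(F₃)` with cyclotomic determinant `ω`, `A` a place over `3`, `I` the inertia group.
`V0 M A` is the span of the `M σ x - x`, `σ ∈ I`.

* `ss_trace` : if `M` is flat and `V0 M A = ⊤` then `tr M(σ) = t + t³`, `det M(σ) = t⁴` in the residue
  field, `t = σ(π) / π`, `π⁸ = 3`, for `σ ∈ I`.
* `trace_of_ne_top` : if `V0 M A` is a line then `tr M(σ) = 1 + det M(σ)`, for `σ ∈ I`.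
* `eq_one_of_fixed` : if a non-zero vector is fixed by `I`, then `I` acts through `ω`.
* `not_flat_tw`, `not_quot_tw` : the twist `ω ⊗ M` is neither flat nor has a quotient line with trivial
  action of `I`, if `I` fixes no non-zero vector of `M`.
-/

set_option autoImplicit false

noncomputable section

namespace Fermat.Agent.Classic.Inert3

open Fermat.Agent.FlatP Fermat.Agent.FlatGS Fermat.Agent.MazurMult FermatAgent.ECVal IsLocalRing
  Matrix
open Fermat.Agent.S53norm (M2)

/-! ### Linear algebra over `F₃` -/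

section Lin

variable {k : Type} [Field k]

/-- `det (X - 1) = 1 - tr X + det X`. -/
theorem det_sub_one (X : M2 k) : (X - 1).det = 1 - X.trace + X.det := by
  rw [Matrix.det_fin_two, Matrix.det_fin_two, Matrix.trace_fin_two]
  simp only [Matrix.sub_apply, Matrix.one_apply_eq, Matrix.one_apply_ne (zero_ne_one' (Fin 2)),
    Matrix.one_apply_ne (one_ne_zero (α := Fin 2))]
  ring

/-- an eigenvector -/
theorem quad_of_eigen {X : M2 k} {v : Fin 2 → k} {a : k} (hv : v ≠ 0) (h : X *ᵥ v = a • v) :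
    a * a - a * X.trace + X.det = 0 := by
  have h1 : (X - a • (1 : M2 k)).det = 0 := by
    by_contra hdet
    apply hv
    have h2 : (X - a • (1 : M2 k)) *ᵥ v = 0 := by
      rw [sub_mulVec, h, smul_mulVec, one_mulVec, sub_self]
    have h3 : IsUnit (X - a • (1 : M2 k)).det := isUnit_iff_ne_zero.mpr hdet
    rw [← one_mulVec v, ← nonsing_inv_mul (X - a • (1 : M2 k)) h3, ← mulVec_mulVec, h2,
      mulVec_zero]
  rw [Matrix.det_fin_two] at h1 ⊢
  rw [Matrix.trace_fin_two]
  simp only [Matrix.sub_apply, Matrix.smul_apply, Matrix.one_apply_eq, smul_eq_mul,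
    Matrix.one_apply_ne (zero_ne_one' (Fin 2)), Matrix.one_apply_ne (one_ne_zero (α := Fin 2)),
    mul_one, mul_zero, sub_zero] at h1
  linear_combination h1

/-- a non-zero fixed vector -/
theorem trace_of_fixed {X : M2 k} {v : Fin 2 → k} (hv : v ≠ 0) (h : X *ᵥ v = v) :
    X.trace = 1 + X.det := by
  have h1 : (X - 1).det = 0 := by
    by_contra hdet
    apply hv
    have h2 : (X - 1) *ᵥ v = 0 := by rw [sub_mulVec, h, one_mulVec, sub_self]
    have h3 : IsUnit (X - 1).det := isUnit_iff_ne_zero.mpr hdet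
    rw [← one_mulVec v, ← nonsing_inv_mul (X - 1) h3, ← mulVec_mulVec, h2, mulVec_zero]
  rw [det_sub_one] at h1
  linear_combination -h1

/-- `X - 1` has its image in a line -/
theorem trace_of_image_line {X : M2 k} {v : Fin 2 → k}
    (h : ∀ x, X *ᵥ x - x ∈ Submodule.span k {v}) : X.trace = 1 + X.det := by
  have h1 : (X - 1).det = 0 := by
    by_contra hdet
    have h3 : IsUnit (X - 1).det := isUnit_iff_ne_zero.mpr hdet
    have h4 : ∀ y, y ∈ Submodule.span k {v} := by
      intro y
      have h5 := h ((X - 1)⁻¹ *ᵥ y)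
      have h6 : X *ᵥ ((X - 1)⁻¹ *ᵥ y) - (X - 1)⁻¹ *ᵥ y = (X - 1) *ᵥ ((X - 1)⁻¹ *ᵥ y) := by
        rw [sub_mulVec, one_mulVec]
      rwa [h6, mulVec_mulVec, mul_nonsing_inv _ h3, one_mulVec] at h5
    by_cases hv : v = 0
    · have h5 := h4 ![1, 0]
      rw [hv, Submodule.span_zero_singleton, Submodule.mem_bot] at h5
      have := congrFun h5 0
      simp at this
    · obtain ⟨w, hli⟩ := exists_li hv
      exact not_mem_span_of_li hli (h4 w)
  rw [det_sub_one] at h1
  linear_combination -h1

/-- the functional with kernel the line of `v` -/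
def perp (v : Fin 2 → k) : (Fin 2 → k) →ₗ[k] k where
  toFun x := v 1 * x 0 - v 0 * x 1
  map_add' x y := by simp only [Pi.add_apply]; ring
  map_smul' c x := by simp only [Pi.smul_apply, smul_eq_mul, RingHom.id_apply]; ring

theorem perp_apply (v x : Fin 2 → k) : perp v x = v 1 * x 0 - v 0 * x 1 := rfl

theorem perp_ne_zero {v : Fin 2 → k} (hv : v ≠ 0) : perp v ≠ 0 := by
  intro h
  apply hv
  funext i
  fin_cases i
  · have h1 := LinearMap.congr_fun h ![0, 1]
    rw [perp_apply] at h1
    simpa using h1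
  · have h1 := LinearMap.congr_fun h ![1, 0]
    rw [perp_apply] at h1
    simpa using h1

theorem perp_eq_zero {v x : Fin 2 → k} (h : x ∈ Submodule.span k {v}) : perp v x = 0 := by
  obtain ⟨c, rfl⟩ := Submodule.mem_span_singleton.mp h
  rw [perp_apply]
  simp only [Pi.smul_apply, smul_eq_mul]
  ring

theorem functional_eq (f : (Fin 2 → k) →ₗ[k] k) (x : Fin 2 → k) :
    f x = f ![1, 0] * x 0 + f ![0, 1] * x 1 := by
  have h1 : x = x 0 • ![1, 0] + x 1 • ![0, 1] := by
    funext i
    fin_cases i <;> simp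
  conv_lhs => rw [h1]
  rw [map_add, map_smul, map_smul, smul_eq_mul, smul_eq_mul]
  ring

/-- The vector orthogonal to a functional. -/
theorem fixed_of_functional {X : M2 k} {ω : k} (hω : ω ≠ 0) (hdet : X.det = ω)
    {f : (Fin 2 → k) →ₗ[k] k} (hf : ∀ x, f (X *ᵥ x) = ω * f x) :
    X *ᵥ ![f ![0, 1], -f ![1, 0]] = ![f ![0, 1], -f ![1, 0]] := by
  have hfx := functional_eq f
  set a := f ![1, 0]
  set b := f ![0, 1]
  have e0 := hf ![1, 0]
  have e1 := hf ![0, 1]
  rw [hfx (X *ᵥ ![1, 0])] at e0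
  rw [hfx (X *ᵥ ![0, 1])] at e1
  simp only [mulVec, dotProduct, Fin.sum_univ_two, Matrix.cons_val_zero, Matrix.cons_val_one,
    mul_one, mul_zero, add_zero, zero_add] at e0 e1
  change a * X 0 0 + b * X 1 0 = ω * a at e0
  change a * X 0 1 + b * X 1 1 = ω * b at e1
  rw [Matrix.det_fin_two] at hdet
  funext i
  apply mul_left_cancel₀ hω
  fin_cases i
  · simp only [mulVec, dotProduct, Fin.sum_univ_two, Matrix.cons_val_zero, Matrix.cons_val_one,
      Fin.zero_eta]
    linear_combination (b : k) * hdet + X 0 1 * e0 - X 0 0 * e1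
  · simp only [mulVec, dotProduct, Fin.sum_univ_two, Matrix.cons_val_zero, Matrix.cons_val_one,
      Fin.mk_one]
    linear_combination (-a : k) * hdet + X 1 1 * e0 - X 1 0 * e1

end Lin

/-! ### Descent of a fixed vector to the prime field -/

section Descent

variable {p : ℕ} [hpF : Fact p.Prime] {k : Type} [Field k] [Algebra (ZMod p) k]

/-- Matrices over `F_p` with a common fixed vector over `k` have one over `F_p`. -/
theorem exists_fixed_descent {ι : Type*} (X : ι → M2 (ZMod p)) {y : Fin 2 → k} (hy : y ≠ 0)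
    (h : ∀ i, (X i).map (algebraMap (ZMod p) k) *ᵥ y = y) :
    ∃ z : Fin 2 → ZMod p, z ≠ 0 ∧ ∀ i, X i *ᵥ z = z := by
  obtain ⟨j, hj⟩ : ∃ j, y j ≠ 0 := by
    by_contra hcon
    push Not at hcon
    exact hy (funext hcon)
  obtain ⟨l, hl⟩ : ∃ l : Module.Dual (ZMod p) k, l (y j) ≠ 0 := by
    by_contra hcon
    push Not at hcon
    exact hj ((Module.forall_dual_apply_eq_zero_iff (ZMod p) (y j)).mp hcon)
  refine ⟨fun i => l (y i), fun h0 => hl (congrFun h0 j), fun i => funext fun a => ?_⟩
  have h1 := congrArg l (congrFun (h i) a)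
  rw [← h1]
  simp only [mulVec, dotProduct, Fin.sum_univ_two, Matrix.map_apply, map_add]
  rw [← Algebra.smul_def, ← Algebra.smul_def, map_smul, map_smul, smul_eq_mul, smul_eq_mul]

end Descent

/-! ### Representations -/

section Rep

variable {p : ℕ} [hpF : Fact p.Prime] {A : ValuationSubring Om} {r : GQ →* M2 (ZMod p)}

/-- The characters of a connected flat representation. -/
theorem ss_trace (hp2 : p ≠ 2) (hA : A.LiesOverPrime p)
    (hflat : IsFlatModule p (fun σ (v : Fin 2 → ZMod p) => r σ *ᵥ v)) (hdet : TW.CycDet p r)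
    (htop : V0 r A = ⊤) {π : Om} (hπ : π ^ (p ^ 2 - 1) = (p : Om)) (j : ZMod p →+* ResidueField A)
    {σ : GQ} (hσ : σ ∈ A.inertiaSubgroupIn ℚ) :
    j (r σ).trace = ts A σ π + ts A σ π ^ p ∧ j (r σ).det = ts A σ π * ts A σ π ^ p := by
  classical
  obtain ⟨k, i1, i2, hfd, hsp⟩ := exists_split_field p
  have hfin : Finite k := Module.finite_of_finite (ZMod p)
  have hp := hpF.out
  have hchar : CharP k p := charP_of_injective_algebraMap (algebraMap (ZMod p) k).injective p
  obtain ⟨-, B, hB⟩ := (isFlatModule_extRep (k := k) hflat).exists_model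
  have hdetk : TW.CycDet p (extRep k r) := by
    intro σ a ha
    have h1 := hdet σ a ha
    have h2 : (extRep k r σ).det = algebraMap (ZMod p) k (r σ).det :=
      ((algebraMap (ZMod p) k).map_det (r σ)).symm
    rw [h2, h1, map_natCast]
  have hlev : TW.IsFiniteLevel (extRep k r) := by
    obtain ⟨L, hL, hLσ⟩ := hB.exists_level
    refine ⟨L, hL, fun σ hσ => ?_⟩
    apply Matrix.ext_of_mulVec_single
    intro i
    rw [one_mulVec]
    exact hLσ σ hσ _
  have hsplit : ∀ σ, ∃ α β : k, (extRep k r σ).charpoly =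
      (Polynomial.X - Polynomial.C α) * (Polynomial.X - Polynomial.C β) := by
    intro σ
    have h1 : (extRep k r σ).charpoly = (r σ).charpoly.map (algebraMap (ZMod p) k) :=
      Matrix.charpoly_map _ _
    refine exists_eq_of_splits _ ?_
    rw [h1]
    exact hsp _
  have htopk : ∀ x, x ∈ V0 (extRep k r) A := by
    intro x
    have h0 := incl_mem_V0 (k := k) (w := ![1, 0]) (A := A) (r := r)
      (by rw [htop]; exact Submodule.mem_top)
    have h1 := incl_mem_V0 (k := k) (w := ![0, 1]) (A := A) (r := r)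
      (by rw [htop]; exact Submodule.mem_top)
    have h2 : x = x 0 • (fun i => algebraMap (ZMod p) k ((![1, 0] : Fin 2 → ZMod p) i)) +
        x 1 • (fun i => algebraMap (ZMod p) k ((![0, 1] : Fin 2 → ZMod p) i)) := by
      funext i
      fin_cases i <;> simp
    rw [h2]
    exact Submodule.add_mem _ (Submodule.smul_mem _ _ h0) (Submodule.smul_mem _ _ h1)
  obtain ⟨ι, ψ, v₁, v₂, hli, hg⟩ := connected_case hB hp hp2 hA hdetk hlev
    (fun x => (mem_conn_iff_mem_V0 hB hp hp2 hA nsmul_eq_zero_of_char x).mpr (htopk x)) hπ hsplit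
  obtain ⟨h1, h2, h3⟩ := hg σ hσ
  have hj : j = ι.comp (algebraMap (ZMod p) k) := Subsingleton.elim _ _
  have hd : (extRep k r σ).det = ψ σ * ψ σ ^ p :=
    det_of_triangular hli h2 (a := 0) (by rw [h3, zero_smul, zero_add])
  have hv₁ : v₁ ≠ 0 := by
    intro h0
    exact one_ne_zero (eq_zero_of_coord hli (a := 1) (b := 0) (by rw [h0]; simp)).1
  have ht : (extRep k r σ).trace = ψ σ + ψ σ ^ p := by
    have h4 := quad_of_eigen hv₁ h2
    have h5 : (extRep k r σ).det ≠ 0 := by
      have h6 : (extRep k r σ).det * (extRep k r σ⁻¹).det = 1 := by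
        rw [← det_mul, ← map_mul, mul_inv_cancel, map_one, det_one]
      exact left_ne_zero_of_mul_eq_one h6
    have h6 : ψ σ ≠ 0 := by
      intro h0
      rw [h0, zero_mul] at hd
      exact h5 hd
    rw [hd] at h4
    apply mul_left_cancel₀ h6
    linear_combination -h4
  constructor
  · have h4 : (extRep k r σ).trace = algebraMap (ZMod p) k (r σ).trace := by
      rw [Matrix.trace_fin_two, Matrix.trace_fin_two, map_add, extRep_apply, extRep_apply]
    rw [hj, RingHom.comp_apply, ← h4, ht, map_add, map_pow, ← h1]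
  · have h4 : (extRep k r σ).det = algebraMap (ZMod p) k (r σ).det :=
      ((algebraMap (ZMod p) k).map_det (r σ)).symm
    rw [hj, RingHom.comp_apply, ← h4, hd, map_mul, map_pow, ← h1]

/-- `V0` is a line or everything. -/
theorem V0_cases (hp2 : p ≠ 2) (hA : A.LiesOverPrime p) (hdet : TW.CycDet p r) :
    (∃ v : Fin 2 → ZMod p, v ≠ 0 ∧ V0 r A = Submodule.span (ZMod p) {v}) ∨ V0 r A = ⊤ := by
  classical
  have hp := hpF.out
  have hbot : V0 r A ≠ ⊥ := by
    intro hbot
    obtain ⟨σ, hσ, hσd⟩ := exists_det_neg_one hp hA hdet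
    have h1 : r σ = 1 := by
      apply Matrix.ext_of_mulVec_single
      intro i
      have h2 := sub_mem_V0 (r := r) hσ (Pi.single i 1)
      rw [hbot, Submodule.mem_bot, sub_eq_zero] at h2
      rw [h2, one_mulVec]
    rw [h1, det_one] at hσd
    exact neg_one_ne_one hp2 hσd.symm
  obtain ⟨v, hv, hv0⟩ := (Submodule.ne_bot_iff _).mp hbot
  by_cases htop : V0 r A = ⊤
  · exact Or.inr htop
  · left
    refine ⟨v, hv0, le_antisymm ?_ ?_⟩
    · intro w hw
      by_contra hcon
      apply htop
      have hli : LinearIndependent (ZMod p) ![v, w] := by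
        rw [LinearIndependent.pair_iff' hv0]
        intro a ha
        exact hcon (Submodule.mem_span_singleton.mpr ⟨a, ha⟩)
      rw [eq_top_iff]
      intro u _
      obtain ⟨x, y, hxy⟩ := exists_coord hli u
      rw [hxy]
      exact Submodule.add_mem _ (Submodule.smul_mem _ _ hv) (Submodule.smul_mem _ _ hw)
    · rw [Submodule.span_singleton_le_iff_mem]
      exact hv

theorem det_eq_cycMod (hdet : TW.CycDet p r) (σ : GQ) : (r σ).det = ECFrob.cycMod p σ := by
  have : NeZero p := ⟨hpF.out.ne_zero⟩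
  rw [hdet σ (ECFrob.cycMod p σ).val fun μ hμ => ECFrob.cycMod_spec p σ hμ,
    ZMod.natCast_zmod_val]

theorem cycMod_ne_zero (σ : GQ) : ECFrob.cycMod p σ ≠ 0 := by
  have h1 : ECFrob.cycMod p σ * ECFrob.cycMod p σ⁻¹ = 1 := by
    rw [← map_mul, mul_inv_cancel, map_one]
  exact left_ne_zero_of_mul_eq_one h1

end Rep

/-! ### The prime `3` -/

section Three

variable {A : ValuationSubring Om} {r : GQ →* M2 (ZMod 3)}

theorem cycMod_sq (σ : GQ) : ECFrob.cycMod 3 σ * ECFrob.cycMod 3 σ = 1 := by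
  have h := cycMod_ne_zero (p := 3) σ
  generalize ECFrob.cycMod 3 σ = c at h ⊢
  revert c
  decide

/-- The twist by the cyclotomic character. -/
def tw (r : GQ →* M2 (ZMod 3)) : GQ →* M2 (ZMod 3) where
  toFun σ := ECFrob.cycMod 3 σ • r σ
  map_one' := by rw [map_one, map_one, one_smul]
  map_mul' σ τ := by rw [map_mul, map_mul, smul_mul_smul_comm]

theorem tw_apply (σ : GQ) : tw r σ = ECFrob.cycMod 3 σ • r σ := rfl

theorem det_tw (σ : GQ) : (tw r σ).det = (r σ).det := by
  rw [tw_apply, Matrix.det_smul, Fintype.card_fin, pow_two, cycMod_sq, one_mul]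

theorem cycDet_tw (hdet : TW.CycDet 3 r) : TW.CycDet 3 (tw r) := by
  intro σ a ha
  rw [det_tw]
  exact hdet σ a ha

theorem exists_pi : ∃ π : Om, π ^ (3 ^ 2 - 1) = ((3 : ℕ) : Om) :=
  IsAlgClosed.exists_pow_nat_eq _ (by norm_num)

/-- The trace of a connected flat representation does not vanish where the determinant is `-1`. -/
theorem ss_false (hA : A.LiesOverPrime 3) {t : ResidueField A} (h1 : t + t ^ 3 = 0)
    (h2 : t * t ^ 3 = -1) : False := by
  have hc := charP_residueField Nat.prime_three hA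
  have h3 : (3 : ResidueField A) = 0 := by
    have := CharP.cast_eq_zero (ResidueField A) 3
    exact_mod_cast this
  have h4 : t ^ 3 = -t := by linear_combination h1
  rw [h4] at h2 h1
  have h5 : t * t = 1 := by linear_combination -h2
  have h6 : t ^ 3 = t := by
    calc t ^ 3 = t * t * t := by ring
      _ = t := by rw [h5, one_mul]
  rw [h6] at h4
  have h7 : (2 : ResidueField A) * t = 0 := by linear_combination h4
  have h8 : t = 0 := by linear_combination t * h3 - h7
  rw [h8, mul_zero] at h5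
  exact zero_ne_one h5

/-- The hypothesis on the local shape: the connected part is a line, or the representation is flat. -/
def LineOrFlat (r : GQ →* M2 (ZMod 3)) (A : ValuationSubring Om) : Prop :=
  V0 r A ≠ ⊤ ∨ IsFlatModule 3 (fun σ (v : Fin 2 → ZMod 3) => r σ *ᵥ v)

/-- In the line case the trace is `1 + det` on inertia. -/
theorem trace_of_ne_top (hA : A.LiesOverPrime 3) (hdet : TW.CycDet 3 r) (h : V0 r A ≠ ⊤) {σ : GQ}
    (hσ : σ ∈ A.inertiaSubgroupIn ℚ) : (r σ).trace = 1 + (r σ).det := by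
  rcases V0_cases (by decide) hA hdet with ⟨v, -, hv⟩ | h1
  · exact trace_of_image_line fun x => hv ▸ sub_mem_V0 hσ x
  · exact absurd h1 h

/-- the image of `F₃` in the residue field -/
theorem exists_toRes (hA : A.LiesOverPrime 3) : Nonempty (ZMod 3 →+* ResidueField A) := by
  have hc := charP_residueField Nat.prime_three hA
  exact ⟨ZMod.castHom (dvd_refl 3) (ResidueField A)⟩

/-- **A fixed vector forces inertia to act through the cyclotomic character.** -/
theorem eq_one_of_fixed (hA : A.LiesOverPrime 3) (hdet : TW.CycDet 3 r) (hr : LineOrFlat r A)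
    {y : Fin 2 → ZMod 3} (hy : y ≠ 0) (hfix : ∀ σ ∈ A.inertiaSubgroupIn ℚ, r σ *ᵥ y = y) {σ : GQ}
    (hσ : σ ∈ A.inertiaSubgroupIn ℚ) (h1 : ECFrob.cycMod 3 σ = 1) : r σ = 1 := by
  obtain ⟨g, hg, hgd⟩ := exists_det_neg_one Nat.prime_three hA hdet
  -- the line case
  by_cases htop : V0 r A = ⊤
  · exfalso
    have hflat : IsFlatModule 3 (fun σ (v : Fin 2 → ZMod 3) => r σ *ᵥ v) :=
      hr.resolve_left fun h => h htop
    obtain ⟨π, hπ⟩ := exists_pi
    obtain ⟨j⟩ := exists_toRes hA
    obtain ⟨e1, e2⟩ := ss_trace (by decide) hA hflat hdet htop hπ j hg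
    rw [trace_of_fixed hy (hfix g hg), hgd, add_neg_cancel, map_zero] at e1
    rw [hgd, map_neg, map_one] at e2
    exact ss_false hA e1.symm e2.symm
  obtain ⟨v, hv0, hv⟩ := (V0_cases (by decide) hA hdet).resolve_right htop
  have hvm : v ∈ V0 r A := by rw [hv]; exact Submodule.mem_span_singleton_self v
  have hli : LinearIndependent (ZMod 3) ![v, y] := by
    rw [LinearIndependent.pair_iff' hv0]
    intro a ha
    have h2 := mulVec_line hv0 hv hg (Submodule.smul_mem _ a hvm)
    rw [ha, hfix g hg, hgd, neg_one_smul] at h2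
    apply hy
    have h3 : (2 : ZMod 3) • y = 0 := by
      rw [two_smul]
      nth_rewrite 2 [h2]
      exact add_neg_cancel y
    exact (smul_eq_zero.mp h3).resolve_left (by decide)
  apply Matrix.ext_of_mulVec_single
  intro i
  obtain ⟨a, b, hab⟩ := exists_coord hli (Pi.single i 1)
  rw [hab, mulVec_add, mulVec_smul, mulVec_smul, hfix σ hσ, mulVec_line hv0 hv hσ hvm,
    det_eq_cycMod hdet, h1, one_smul, one_mulVec]

/-- **The twist has no quotient line with trivial action of inertia.** `k` any field over `F₃`. -/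
theorem not_quot_tw {k : Type} [Field k] [Algebra (ZMod 3) k]
    (hdet : TW.CycDet 3 r)
    (hno : ∀ y : Fin 2 → ZMod 3, (∀ σ ∈ A.inertiaSubgroupIn ℚ, r σ *ᵥ y = y) → y = 0)
    {f : (Fin 2 → k) →ₗ[k] k} (hf : f ≠ 0) :
    ¬ ∀ σ ∈ A.inertiaSubgroupIn ℚ, ∀ x, f ((tw r σ).map (algebraMap (ZMod 3) k) *ᵥ x) = f x := by
  intro h
  have key : ∀ σ : A.inertiaSubgroupIn ℚ,
      (r σ.1).map (algebraMap (ZMod 3) k) *ᵥ ![f ![0, 1], -f ![1, 0]] =
        ![f ![0, 1], -f ![1, 0]] := by
    intro σ
    have hc0 : algebraMap (ZMod 3) k (ECFrob.cycMod 3 σ.1) ≠ 0 := by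
      rw [Ne, map_eq_zero]
      exact cycMod_ne_zero _
    have hc2 : algebraMap (ZMod 3) k (ECFrob.cycMod 3 σ.1) *
        algebraMap (ZMod 3) k (ECFrob.cycMod 3 σ.1) = 1 := by
      rw [← map_mul, cycMod_sq, map_one]
    refine fixed_of_functional hc0 ?_ fun x => ?_
    · rw [← det_eq_cycMod hdet]
      exact ((algebraMap (ZMod 3) k).map_det (r σ.1)).symm
    · have h1 := h σ.1 σ.2 x
      have h2 : (tw r σ.1).map (algebraMap (ZMod 3) k) =
          algebraMap (ZMod 3) k (ECFrob.cycMod 3 σ.1) • (r σ.1).map (algebraMap (ZMod 3) k) := by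
        ext i j
        rw [tw_apply, Matrix.map_apply, Matrix.smul_apply, Matrix.smul_apply, Matrix.map_apply,
          smul_eq_mul, smul_eq_mul, map_mul]
      rw [h2, smul_mulVec, map_smul, smul_eq_mul] at h1
      rw [← h1, ← mul_assoc, hc2, one_mul]
  have hne : (![f ![0, 1], -f ![1, 0]] : Fin 2 → k) ≠ 0 := by
    intro h0
    apply hf
    have e0 : f ![0, 1] = 0 := by simpa using congrFun h0 0
    have e1 : f ![1, 0] = 0 := by simpa using congrFun h0 1
    refine LinearMap.ext fun x => ?_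
    rw [functional_eq f x, e0, e1, zero_mul, zero_mul, add_zero, LinearMap.zero_apply]
  obtain ⟨z, hz0, hz⟩ := exists_fixed_descent (fun σ : A.inertiaSubgroupIn ℚ => r σ.1) hne key
  exact hz0 (hno z fun σ hσ => hz ⟨σ, hσ⟩)

/-- **The twist is not flat.** -/
theorem not_flat_tw (hA : A.LiesOverPrime 3) (hdet : TW.CycDet 3 r) (hr : LineOrFlat r A)
    (hno : ∀ y : Fin 2 → ZMod 3, (∀ σ ∈ A.inertiaSubgroupIn ℚ, r σ *ᵥ y = y) → y = 0) :
    ¬ IsFlatModule 3 (fun σ (v : Fin 2 → ZMod 3) => tw r σ *ᵥ v) := by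
  intro hflat
  rcases V0_cases (by decide) hA (cycDet_tw hdet) with ⟨v, hv0, hv⟩ | htop
  · refine not_quot_tw (k := ZMod 3) (A := A) hdet hno (perp_ne_zero hv0) fun σ hσ x => ?_
    have h1 : (tw r σ).map (algebraMap (ZMod 3) (ZMod 3)) = tw r σ := by
      ext i j
      rfl
    rw [h1, ← sub_eq_zero, ← map_sub]
    exact perp_eq_zero (hv ▸ sub_mem_V0 hσ x)
  · obtain ⟨π, hπ⟩ := exists_pi
    obtain ⟨j⟩ := exists_toRes hA
    obtain ⟨g, hg, hgd⟩ := exists_det_neg_one Nat.prime_three hA hdet
    obtain ⟨e1, e2⟩ := ss_trace (by decide) hA hflat (cycDet_tw hdet) htop hπ j hg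
    have hω : ECFrob.cycMod 3 g = -1 := by rw [← det_eq_cycMod hdet, hgd]
    rw [det_tw, hgd, map_neg, map_one] at e2
    rw [tw_apply, hω, neg_one_smul, Matrix.trace_neg, map_neg] at e1
    refine ss_false hA (t := ts A g π) ?_ e2.symm
    by_cases htop' : V0 r A = ⊤
    · have hflat' := hr.resolve_left fun h => h htop'
      obtain ⟨e3, -⟩ := ss_trace (by decide) hA hflat' hdet htop' hπ j hg
      have hc := charP_residueField Nat.prime_three hA
      have h3 : (3 : ResidueField A) = 0 := by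
        have := CharP.cast_eq_zero (ResidueField A) 3
        exact_mod_cast this
      rw [e3] at e1
      linear_combination (ts A g π + ts A g π ^ 3) * h3 + e1
    · rw [trace_of_ne_top hA hdet htop' hg, hgd, add_neg_cancel, map_zero, neg_zero] at e1
      exact e1.symm

end Three

end Fermat.Agent.Classic.Inert3
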