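import Fermat.Agent.Classic.Chi3
import Fermat.Prelude.Def_FLTPrelim_Modularity
import Mathlib

/-!
# Lowering the level of a weight one form whose Fricke transform is supported on multiples of `D`

`h` of level `N = D N₁` and nebentypus `χ₋₃`, with Fourier coefficients supported on the multiples
of `D` (all primes of `D` dividing `N₁`): `h(z) = h₁(D z)` with `h₁` of level `N₁`, and
`f = c h ∣ W_N = c' h₁ ∣ W_{N₁}` is of level `N₁`.  (Q5 of plan Z)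
-/

set_option autoImplicit false

noncomputable section

open CongruenceSubgroup UpperHalfPlane ModularFormClass
open scoped MatrixGroups ModularForm

namespace Fermat.Agent.Classic.Lvl1

open Fermat.Agent.Classic

/-- the real matrix of an integral one -/
abbrev glR (g : SL(2, ℤ)) : GL (Fin 2) ℝ := (g : GL (Fin 2) ℝ)

theorem val_glR (g : SL(2, ℤ)) :
    (glR g : Matrix (Fin 2) (Fin 2) ℝ) = !![(g 0 0 : ℝ), (g 0 1 : ℝ); (g 1 0 : ℝ), (g 1 1 : ℝ)] := by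
  ext i j
  fin_cases i <;> fin_cases j <;> simp [glR]

/-- the matrix `diag(1, D)`. -/
def eMat (D : ℕ) [NeZero D] : GL (Fin 2) ℝ :=
  Matrix.GeneralLinearGroup.mkOfDetNeZero !![1, 0; 0, (D : ℝ)]
    (by simpa [Matrix.det_fin_two] using NeZero.ne D)

theorem val_eMat (D : ℕ) [NeZero D] :
    (eMat D : Matrix (Fin 2) (Fin 2) ℝ) = !![1, 0; 0, (D : ℝ)] := rfl

variable {N N₁ D : ℕ}

/-- `χ₋₃` of the lower right entry -/
abbrev chC (g : SL(2, ℤ)) : ℂ := ((chi3 (g 1 1) : ℤ) : ℂ)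

/-- an integral matrix of determinant one -/
def mkSL (a b c d : ℤ) (h : a * d - b * c = 1) : SL(2, ℤ) :=
  ⟨!![a, b; c, d], by rw [Matrix.det_fin_two_of, h]⟩

section mk

variable (a b c d : ℤ) (h : a * d - b * c = 1)

@[simp] theorem mkSL_00 : (mkSL a b c d h) 0 0 = a := rfl
@[simp] theorem mkSL_01 : (mkSL a b c d h) 0 1 = b := rfl
@[simp] theorem mkSL_10 : (mkSL a b c d h) 1 0 = c := rfl
@[simp] theorem mkSL_11 : (mkSL a b c d h) 1 1 = d := rfl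

end mk

theorem det_eq (g : SL(2, ℤ)) : g 0 0 * g 1 1 - g 0 1 * g 1 0 = 1 := by
  have hdet := g.det_coe
  rw [Matrix.det_fin_two] at hdet
  exact hdet

theorem mem_Gamma0_iff {g : SL(2, ℤ)} : g ∈ Gamma0 N ↔ (N : ℤ) ∣ g 1 0 := by
  rw [Gamma0_mem, ZMod.intCast_zmod_eq_zero_iff_dvd]

/-- conjugation by `diag(1, D)` -/
theorem exists_conj [NeZero D] (hN : N = D * N₁) {g : SL(2, ℤ)} (hg : g ∈ Gamma0 N₁)
    (hb : (D : ℤ) ∣ g 0 1) : ∃ g' : SL(2, ℤ), g' ∈ Gamma0 N ∧ g' 1 1 = g 1 1 ∧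
      eMat D * glR g = glR g' * eMat D := by
  obtain ⟨b, hb⟩ := hb
  have hdet := det_eq g
  have h1 : g 0 0 * g 1 1 - b * ((D : ℤ) * g 1 0) = 1 := by
    rw [hb] at hdet
    linear_combination hdet
  refine ⟨mkSL _ _ _ _ h1, ?_, rfl, ?_⟩
  · rw [mem_Gamma0_iff] at hg ⊢
    rw [mkSL_10, hN]
    push_cast
    exact mul_dvd_mul_left _ hg
  · rw [← Units.val_inj, Units.val_mul, Units.val_mul, val_glR, val_glR, val_eMat, mkSL_00,
      mkSL_01, mkSL_10, mkSL_11, hb]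
    ext i j
    fin_cases i <;> fin_cases j <;> simp <;> ring

theorem mul_T_01 (g : SL(2, ℤ)) (j : ℤ) :
    (g * ModularGroup.T ^ j) 0 1 = g 0 0 * j + g 0 1 := by
  rw [Matrix.SpecialLinearGroup.coe_mul, ModularGroup.coe_T_zpow, Matrix.mul_apply, Fin.sum_univ_two]
  simp

theorem mul_T_10 (g : SL(2, ℤ)) (j : ℤ) : (g * ModularGroup.T ^ j) 1 0 = g 1 0 := by
  rw [Matrix.SpecialLinearGroup.coe_mul, ModularGroup.coe_T_zpow, Matrix.mul_apply, Fin.sum_univ_two]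
  simp

theorem mul_T_11 (g : SL(2, ℤ)) (j : ℤ) :
    (g * ModularGroup.T ^ j) 1 1 = g 1 0 * j + g 1 1 := by
  rw [Matrix.SpecialLinearGroup.coe_mul, ModularGroup.coe_T_zpow, Matrix.mul_apply, Fin.sum_univ_two]
  simp

/-- a power of `T` makes the upper right entry divisible by `D`. -/
theorem exists_mul_T (hD : ∀ q : ℕ, q.Prime → q ∣ D → q ∣ N₁) {g : SL(2, ℤ)}
    (hg : g ∈ Gamma0 N₁) : ∃ j : ℤ, (D : ℤ) ∣ (g * ModularGroup.T ^ j) 0 1 := by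
  have hdet := det_eq g
  have hc : (N₁ : ℤ) ∣ g 1 0 := mem_Gamma0_iff.mp hg
  have hcop : IsCoprime (g 0 0 : ℤ) (D : ℤ) := by
    rw [Int.isCoprime_iff_gcd_eq_one]
    by_contra hne
    obtain ⟨q, hq, hqd⟩ := Nat.exists_prime_and_dvd hne
    have h1 : (q : ℤ) ∣ g 0 0 := (Int.natCast_dvd_natCast.mpr hqd).trans (Int.gcd_dvd_left _ _)
    have h2 : (q : ℤ) ∣ D := (Int.natCast_dvd_natCast.mpr hqd).trans (Int.gcd_dvd_right _ _)
    have h3 : (q : ℤ) ∣ g 1 0 := (Int.natCast_dvd_natCast.mpr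
      (hD q hq (Int.natCast_dvd_natCast.mp h2))).trans hc
    have h4 : (q : ℤ) ∣ 1 := by
      rw [← hdet]
      exact dvd_sub (h1.mul_right _) (h3.mul_left _)
    exact hq.one_lt.ne' (by exact_mod_cast Int.eq_one_of_dvd_one (by positivity) h4)
  obtain ⟨u, v, huv⟩ := hcop
  generalize hx : g 0 1 = x at *
  generalize hy : g 0 0 = y at *
  refine ⟨-(u * x), ?_⟩
  rw [mul_T_01, hx, hy]
  exact ⟨x * v, by linear_combination -x * huv⟩

theorem mem_Gamma0_mul_T {g : SL(2, ℤ)} (hg : g ∈ Gamma0 N₁) (j : ℤ) :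
    g * ModularGroup.T ^ j ∈ Gamma0 N₁ := by
  rw [mem_Gamma0_iff] at hg ⊢
  rw [mul_T_10]
  exact hg

theorem chC_mul_T (h3 : 3 ∣ N₁) {g : SL(2, ℤ)} (hg : g ∈ Gamma0 N₁) (j : ℤ) :
    chC (g * ModularGroup.T ^ j) = chC g := by
  have h6 := three_dvd_of_mem_Gamma0 h3 hg
  have h7 : chi3 ((g * ModularGroup.T ^ j) 1 1) = chi3 (g 1 1) := by
    refine chi3_congr ?_
    rw [mul_T_11]
    obtain ⟨t, ht⟩ := h6
    exact ⟨t * j, by rw [ht]; ring⟩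
  show ((chi3 ((g * ModularGroup.T ^ j) 1 1) : ℤ) : ℂ) = _
  rw [h7]

/-- invariance under the powers of `T` -/
theorem slash_T_zpow {u : ℍ → ℂ} {k : ℤ} (h : u ∣[k] ModularGroup.T = u) (j : ℤ) :
    u ∣[k] (ModularGroup.T ^ j) = u := by
  have hn : ∀ n : ℕ, u ∣[k] (ModularGroup.T ^ n) = u := by
    intro n
    induction n with
    | zero => rw [pow_zero, SlashAction.slash_one]
    | succ n ih => rw [pow_succ, SlashAction.slash_mul, ih, h]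
  obtain ⟨n, rfl | rfl⟩ := j.eq_nat_or_neg
  · rw [zpow_natCast]
    exact hn n
  · rw [zpow_neg, zpow_natCast]
    conv_lhs => rw [← hn n]
    rw [← SlashAction.slash_mul, mul_inv_cancel, SlashAction.slash_one]

/-- **Step one**: `h ∣ diag(1, D)` has level `N₁`. -/
theorem slash_e [NeZero D] (hN : N = D * N₁) (h3 : 3 ∣ N₁)
    (hD : ∀ q : ℕ, q.Prime → q ∣ D → q ∣ N₁) {h : ℍ → ℂ}
    (hh : ∀ g ∈ Gamma0 N, h ∣[(1 : ℤ)] g = chC g • h)
    (hT : (h ∣[(1 : ℤ)] eMat D) ∣[(1 : ℤ)] ModularGroup.T = h ∣[(1 : ℤ)] eMat D) {g : SL(2, ℤ)}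
    (hg : g ∈ Gamma0 N₁) : (h ∣[(1 : ℤ)] eMat D) ∣[(1 : ℤ)] g = chC g • (h ∣[(1 : ℤ)] eMat D) := by
  have key : ∀ g : SL(2, ℤ), g ∈ Gamma0 N₁ → (D : ℤ) ∣ g 0 1 →
      (h ∣[(1 : ℤ)] eMat D) ∣[(1 : ℤ)] g = chC g • (h ∣[(1 : ℤ)] eMat D) := by
    intro g hg hb
    obtain ⟨g', hg', h11, he⟩ := exists_conj hN hg hb
    rw [ModularForm.SL_slash, ← SlashAction.slash_mul]
    have h2 : h ∣[(1 : ℤ)] (eMat D * glR g) = h ∣[(1 : ℤ)] (glR g' * eMat D) := by rw [he]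
    refine h2.trans ?_
    rw [SlashAction.slash_mul]
    have h4 : h ∣[(1 : ℤ)] glR g' = chC g' • h := hh g' hg'
    have h1 : chC g' = chC g := by
      show ((chi3 (g' 1 1) : ℤ) : ℂ) = _
      rw [h11]
    rw [h4, h1, ModularForm.smul_slash]
    congr 1
    have : (eMat D).det.val > 0 := by
      show (Matrix.det (eMat D : Matrix (Fin 2) (Fin 2) ℝ)) > 0
      rw [val_eMat, Matrix.det_fin_two_of]
      have := NeZero.ne D
      simp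
      omega
    rw [σ, if_pos this]
    rfl
  obtain ⟨j, hj⟩ := exists_mul_T hD hg
  have h1 := key _ (mem_Gamma0_mul_T hg j) hj
  rw [chC_mul_T h3 hg] at h1
  have h2 : g = g * ModularGroup.T ^ j * ModularGroup.T ^ (-j) := by
    rw [mul_assoc, ← zpow_add, add_neg_cancel, zpow_zero, mul_one]
  have h5 : (h ∣[(1 : ℤ)] eMat D) ∣[(1 : ℤ)] (g * ModularGroup.T ^ j * ModularGroup.T ^ (-j)) =
      chC g • (h ∣[(1 : ℤ)] eMat D) := by
    rw [SlashAction.slash_mul, h1, ModularForm.SL_smul_slash, slash_T_zpow hT]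
  rw [← h2] at h5
  exact h5

/-- the Fricke matrix -/
def wMat (N : ℕ) [NeZero N] : GL (Fin 2) ℝ :=
  Matrix.GeneralLinearGroup.mkOfDetNeZero !![0, -1; (N : ℝ), 0]
    (by simpa [Matrix.det_fin_two] using NeZero.ne N)

theorem val_wMat (N : ℕ) [NeZero N] :
    (wMat N : Matrix (Fin 2) (Fin 2) ℝ) = !![0, -1; (N : ℝ), 0] := rfl

/-- `W_N = diag(1, D) W_{N₁}`. -/
theorem eMat_mul_wMat [NeZero N] [NeZero N₁] [NeZero D] (hN : N = D * N₁) {W : GL (Fin 2) ℝ}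
    (hW : (W : Matrix (Fin 2) (Fin 2) ℝ) = !![0, -1; (N : ℝ), 0]) : eMat D * wMat N₁ = W := by
  rw [← Units.val_inj, Units.val_mul, val_eMat, val_wMat, hW, hN]
  ext i j
  fin_cases i <;> fin_cases j <;> simp

/-- `W_{N₁}` normalises `Γ₀(N₁)`. -/
theorem exists_conj_w [NeZero N₁] {g : SL(2, ℤ)} (hg : g ∈ Gamma0 N₁) :
    ∃ g' : SL(2, ℤ), g' ∈ Gamma0 N₁ ∧ g' 1 1 = g 0 0 ∧ wMat N₁ * glR g = glR g' * wMat N₁ := by
  have hdet := det_eq g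
  obtain ⟨c, hc⟩ := mem_Gamma0_iff.mp hg
  have h1 : g 1 1 * g 0 0 - (-c) * (-((N₁ : ℤ) * g 0 1)) = 1 := by
    rw [hc] at hdet
    linear_combination hdet
  refine ⟨mkSL _ _ _ _ h1, ?_, rfl, ?_⟩
  · rw [mem_Gamma0_iff, mkSL_10]
    exact (dvd_mul_right _ _).neg_right
  · rw [← Units.val_inj, Units.val_mul, Units.val_mul, val_glR, val_glR, val_wMat, mkSL_00,
      mkSL_01, mkSL_10, mkSL_11, hc]
    ext i j
    fin_cases i <;> fin_cases j <;> simp <;> ring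

theorem chi3_00 (h3 : 3 ∣ N₁) {g : SL(2, ℤ)} (hg : g ∈ Gamma0 N₁) :
    chi3 (g 0 0) = chi3 (g 1 1) := by
  have hdet := det_eq g
  obtain ⟨t, ht⟩ := three_dvd_of_mem_Gamma0 h3 hg
  generalize g 0 0 = a at *
  generalize g 1 1 = d at *
  generalize g 0 1 = b at *
  rw [ht] at hdet
  have h1 : (3 : ℤ) ∣ a * d - 1 := ⟨b * t, by linear_combination hdet⟩
  unfold chi3
  have ha : a % 3 = 0 ∨ a % 3 = 1 ∨ a % 3 = 2 := by omega
  have hd : d % 3 = 0 ∨ d % 3 = 1 ∨ d % 3 = 2 := by omega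
  have h2 : (a * d) % 3 = 1 := by omega
  rw [Int.mul_emod] at h2
  rcases ha with h | h | h <;> rcases hd with h' | h' | h' <;> rw [h, h'] at h2 <;>
    simp [h, h'] at h2 ⊢

/-- **Step two**: `(h ∣ diag(1, D)) ∣ W_{N₁}` has level `N₁`. -/
theorem slash_w [NeZero N₁] (h3 : 3 ∣ N₁) {u : ℍ → ℂ}
    (hu : ∀ g ∈ Gamma0 N₁, u ∣[(1 : ℤ)] g = chC g • u) {g : SL(2, ℤ)} (hg : g ∈ Gamma0 N₁) :
    (u ∣[(1 : ℤ)] wMat N₁) ∣[(1 : ℤ)] g = chC g • (u ∣[(1 : ℤ)] wMat N₁) := by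
  obtain ⟨g', hg', h11, he⟩ := exists_conj_w hg
  rw [ModularForm.SL_slash, ← SlashAction.slash_mul]
  have h2 : u ∣[(1 : ℤ)] (wMat N₁ * glR g) = u ∣[(1 : ℤ)] (glR g' * wMat N₁) := by rw [he]
  refine h2.trans ?_
  rw [SlashAction.slash_mul]
  have h4 : u ∣[(1 : ℤ)] glR g' = chC g' • u := hu g' hg'
  have h1 : chC g' = chC g := by
    show ((chi3 (g' 1 1) : ℤ) : ℂ) = _
    rw [h11, chi3_00 h3 hg]
  rw [h4, h1, ModularForm.smul_slash]
  congr 1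
  have : (wMat N₁).det.val > 0 := by
    show (Matrix.det (wMat N₁ : Matrix (Fin 2) (Fin 2) ℝ)) > 0
    rw [val_wMat, Matrix.det_fin_two_of]
    have := NeZero.ne N₁
    simp
    omega
  rw [σ, if_pos this]
  rfl

/-- `(h ∣ diag(1, D))(τ) = D⁻¹ h(τ / D)`. -/
theorem slash_eMat_apply [NeZero D] (h : ℍ → ℂ) (τ : ℍ) :
    ∃ τ' : ℍ, (τ' : ℂ) = τ / D ∧ (h ∣[(1 : ℤ)] eMat D) τ = (D : ℂ)⁻¹ * h τ' := by
  have hdet : (eMat D).det.val > 0 := by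
    show (Matrix.det (eMat D : Matrix (Fin 2) (Fin 2) ℝ)) > 0
    rw [val_eMat, Matrix.det_fin_two_of]
    have := NeZero.ne D
    simp
    omega
  refine ⟨eMat D • τ, ?_, ?_⟩
  · rw [UpperHalfPlane.coe_smul_of_det_pos hdet]
    simp [num, denom, val_eMat]
  · rw [ModularForm.slash_apply, σ, if_pos hdet]
    simp [denom, val_eMat, mul_comm]

/-- `h` has period `1 / D` if its coefficients are supported on the multiples of `D`. -/
theorem eq_of_support [NeZero N] [NeZero D] (h : CuspForm (Gamma1 N) 1)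
    (hs : ∀ n, qCoeff h n ≠ 0 → D ∣ n) {τ₁ τ₂ : ℍ} (h12 : (τ₂ : ℂ) = τ₁ + (D : ℂ)⁻¹) :
    h τ₂ = h τ₁ := by
  have hsum := fun τ : ℍ => ModularForm.hasSum_qExpansion (f := h) one_pos
    (by simp) τ
  have hfun : (fun m : ℕ => (qExpansion 1 h).coeff m * Function.Periodic.qParam 1 τ₂ ^ m) =
      fun m : ℕ => (qExpansion 1 h).coeff m * Function.Periodic.qParam 1 τ₁ ^ m := by
    funext m
    by_cases hm : (qExpansion 1 h).coeff m = 0
    · rw [hm, zero_mul, zero_mul]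
    · obtain ⟨t, rfl⟩ := hs m hm
      have hD : (D : ℂ) ≠ 0 := Nat.cast_ne_zero.mpr (NeZero.ne D)
      congr 1
      rw [Function.Periodic.qParam, Function.Periodic.qParam, ← Complex.exp_nat_mul,
        ← Complex.exp_nat_mul, h12]
      refine Complex.exp_eq_exp_iff_exists_int.mpr ⟨t, ?_⟩
      push_cast
      field_simp
  have h1 := hsum τ₂
  rw [hfun] at h1
  exact h1.unique (hsum τ₁)

/-- `h ∣ diag(1, D)` is periodic if the coefficients of `h` are supported on the multiples of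
`D`. -/
theorem slash_e_T [NeZero N] [NeZero D] (h : CuspForm (Gamma1 N) 1)
    (hs : ∀ n, qCoeff h n ≠ 0 → D ∣ n) :
    (⇑h ∣[(1 : ℤ)] eMat D) ∣[(1 : ℤ)] ModularGroup.T = ⇑h ∣[(1 : ℤ)] eMat D := by
  funext τ
  rw [ModularForm.SL_slash_apply]
  obtain ⟨τ₁, h1, h1'⟩ := slash_eMat_apply (D := D) h τ
  obtain ⟨τ₂, h2, h2'⟩ := slash_eMat_apply (D := D) h (ModularGroup.T • τ)
  rw [h1', h2']
  have h3 : (τ₂ : ℂ) = τ₁ + (D : ℂ)⁻¹ := by
    rw [h2, h1, UpperHalfPlane.modular_T_smul, UpperHalfPlane.coe_vadd]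
    push_cast
    ring
  rw [eq_of_support h hs h3]
  simp [denom, ModularGroup.coe_T]

theorem det_W_pos [NeZero N] {W : GL (Fin 2) ℝ}
    (hWm : (W : Matrix (Fin 2) (Fin 2) ℝ) = !![0, -1; (N : ℝ), 0]) : W.det.val > 0 := by
  show (Matrix.det (W : Matrix (Fin 2) (Fin 2) ℝ)) > 0
  rw [hWm, Matrix.det_fin_two_of]
  have := NeZero.ne N
  simp
  omega

/-- `f ∣ W_N ∣ W_N = - N⁻¹ f`. -/
theorem slash_W_W [NeZero N] {W : GL (Fin 2) ℝ}
    (hWm : (W : Matrix (Fin 2) (Fin 2) ℝ) = !![0, -1; (N : ℝ), 0]) (f : ℍ → ℂ) :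
    (f ∣[(1 : ℤ)] W) ∣[(1 : ℤ)] W = (-(N : ℂ)⁻¹) • f := by
  have hN : (N : ℝ) ≠ 0 := Nat.cast_ne_zero.mpr (NeZero.ne N)
  rw [← SlashAction.slash_mul]
  have hval : ((W * W : GL (Fin 2) ℝ) : Matrix (Fin 2) (Fin 2) ℝ) = !![-(N : ℝ), 0; 0, -(N : ℝ)] := by
    rw [Units.val_mul, hWm]
    ext i j
    fin_cases i <;> fin_cases j <;> simp
  have hpos : (W * W).det.val > 0 := by
    rw [map_mul, Units.val_mul]
    exact mul_pos (det_W_pos hWm) (det_W_pos hWm)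
  funext τ
  rw [ModularForm.slash_apply, σ, if_pos hpos]
  have h1 : (W * W) • τ = τ := by
    apply UpperHalfPlane.ext
    rw [UpperHalfPlane.coe_smul_of_det_pos hpos]
    simp only [num, denom, hval]
    have hNc : (N : ℂ) ≠ 0 := Nat.cast_ne_zero.mpr (NeZero.ne N)
    simp
    field_simp
  rw [h1]
  simp [denom, hval, mul_comm]

/-- **(Q5)** `f = c h ∣ W_N` with `h` of level `N = D N₁` supported on the multiples of `D` is a
cusp form of level `N₁`. -/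
theorem exists_lower [NeZero N] [NeZero N₁] (hN : N = D * N₁) (h3 : 3 ∣ N₁)
    (hD : ∀ q : ℕ, q.Prime → q ∣ D → q ∣ N₁) (f h : CuspForm (Gamma1 N) 1)
    (hh : ∀ g ∈ Gamma0 N, ⇑h ∣[(1 : ℤ)] g = ((chi3 (g 1 1) : ℤ) : ℂ) • ⇑h)
    (hs : ∀ n, qCoeff h n ≠ 0 → D ∣ n) {c : ℂ} {W : GL (Fin 2) ℝ}
    (hWm : (W : Matrix (Fin 2) (Fin 2) ℝ) = !![0, -1; (N : ℝ), 0])
    (hW : ⇑f = c • (⇑h ∣[(1 : ℤ)] W)) :
    ∃ f' : CuspForm (Gamma1 N₁) 1, ⇑f' = ⇑f ∧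
      ∀ g ∈ Gamma0 N₁, ⇑f' ∣[(1 : ℤ)] g = ((chi3 (g 1 1) : ℤ) : ℂ) • ⇑f' := by
  have : NeZero D := ⟨by
    rintro rfl
    exact NeZero.ne N (by rw [hN, zero_mul])⟩
  have hT := slash_e_T h hs
  have h1 := fun (g : SL(2, ℤ)) (hg : g ∈ Gamma0 N₁) => slash_e hN h3 hD hh hT hg
  have h2 := fun (g : SL(2, ℤ)) (hg : g ∈ Gamma0 N₁) => slash_w h3 h1 hg
  have h3' : (⇑h ∣[(1 : ℤ)] eMat D) ∣[(1 : ℤ)] wMat N₁ = ⇑h ∣[(1 : ℤ)] W := by
    rw [← SlashAction.slash_mul, eMat_mul_wMat hN hWm]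
  rw [h3'] at h2
  have h4 : ∀ g ∈ Gamma0 N₁, ⇑f ∣[(1 : ℤ)] g = chC g • ⇑f := by
    intro g hg
    rw [hW, ModularForm.SL_smul_slash, h2 g hg, smul_comm]
  refine ⟨{ toFun := ⇑f, slash_action_eq' := ?_, holo' := CuspFormClass.holo f,
            zero_at_cusps' := ?_ }, rfl, h4⟩
  · rintro _ ⟨g, hg, rfl⟩
    have h5 : ⇑f ∣[(1 : ℤ)] g = ⇑f := by
      rw [h4 g (Gamma1_in_Gamma0 N₁ hg)]
      have h6 := (Gamma1_mem N₁ g).mp hg
      have h7 : (N₁ : ℤ) ∣ g 1 1 - 1 := by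
        rw [← ZMod.intCast_zmod_eq_zero_iff_dvd]
        push_cast
        rw [h6.2.1, sub_self]
      have h8 : chi3 (g 1 1) = 1 := by
        rw [chi3_congr ((by exact_mod_cast h3 : (3 : ℤ) ∣ (N₁ : ℤ)).trans h7), chi3_one]
      show ((chi3 (g 1 1) : ℤ) : ℂ) • ⇑f = _
      rw [h8, Int.cast_one, one_smul]
    exact h5
  · intro c hc
    refine CuspFormClass.zero_at_cusps f ?_
    rw [Subgroup.IsArithmetic.isCusp_iff_isCusp_SL2Z] at hc ⊢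
    exact hc

/-- the coefficients do not change -/
theorem exists_lower_coeff [NeZero N] [NeZero N₁] (hN : N = D * N₁) (h3 : 3 ∣ N₁)
    (hD : ∀ q : ℕ, q.Prime → q ∣ D → q ∣ N₁) (f h : CuspForm (Gamma1 N) 1)
    (hh : ∀ g ∈ Gamma0 N, ⇑h ∣[(1 : ℤ)] g = ((chi3 (g 1 1) : ℤ) : ℂ) • ⇑h)
    (hs : ∀ n, qCoeff h n ≠ 0 → D ∣ n) {c : ℂ} {W : GL (Fin 2) ℝ}
    (hWm : (W : Matrix (Fin 2) (Fin 2) ℝ) = !![0, -1; (N : ℝ), 0])
    (hW : ⇑f = c • (⇑h ∣[(1 : ℤ)] W)) :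
    ∃ f' : CuspForm (Gamma1 N₁) 1, (∀ n, qCoeff f' n = qCoeff f n) ∧
      ∀ g ∈ Gamma0 N₁, ⇑f' ∣[(1 : ℤ)] g = ((chi3 (g 1 1) : ℤ) : ℂ) • ⇑f' := by
  obtain ⟨f', h1, h2⟩ := exists_lower hN h3 hD f h hh hs hWm hW
  exact ⟨f', fun n => by rw [h1], h2⟩

end Fermat.Agent.Classic.Lvl1
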