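import Fermat.Agent.Classic.Zeta.Order
import Fermat.Agent.Classic.Level.Disc.Sum
import Fermat.Agent.Classic.Level.Disc.RealFix
import Fermat.Agent.Classic.Level.Perm
import Fermat.Agent.Frob.DensityAnalytic

/-!
# The order of `f ∣ W_N` at a tame prime (plan Z, block Z4)

`ρ : Gal(ℚ̄/ℚ) → GL₂(𝔽₃)` continuous and surjective with cyclotomic determinant, `q` a prime at which
`ρ` is tame. If `b ↔ c` satisfy a functional equation of conductor `N` with gamma factor `Γ_ℂ` and
`b`, `conj b` and the four zeta functions satisfy the identity of block Z5, then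
`q ^ (v_q(N) - 2)` divides every element of the support of `c`.
-/

set_option autoImplicit false

noncomputable section

open NumberField NumberField.InfinitePlace IsDedekindDomain Complex
open Fermat.Agent.Frob Fermat.Agent.LT.Tower Fermat.Agent.Classic.Disc
open scoped LSeries.notation ComplexConjugate

namespace Fermat.Agent.Classic.Level

local notation "Qbar" => AlgebraicClosure ℚ
local notation "G3" => Matrix.GeneralLinearGroup (Fin 2) (ZMod 3)

/-- the coefficients of the Dedekind zeta function -/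
def zcF (F : Type*) [Field F] [NumberField F] : ℕ → ℂ := fun n =>
  (Nat.card {I : Ideal (𝓞 F) // Ideal.absNorm I = n} : ℂ)

/-- the norms of the places dividing `N` -/
def badL (F : Type*) [Field F] [NumberField F] (N : ℕ) : List ℕ :=
  (above F N).toList.map fun v => Ideal.absNorm v.asIdeal

/-- the functional equation of the Dedekind zeta functions (block Z1) -/
def ZetaFEStmt : Prop :=
  ∀ (F : Type) [Field F] [NumberField F],
    Zeta.FE (zcF F) (zcF F) (discr F).natAbs (nrRealPlaces F) (nrComplexPlaces F)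

section Field

variable {F : Type*} [Field F] [NumberField F]

theorem zcF_one : zcF F 1 = 1 := by
  have h : zcF F 1 = ((FrobDensity.idealCount F 1 : ℕ) : ℂ) := rfl
  rw [h, FrobDensity.idealCount_one, Nat.cast_one]

theorem two_le_of_mem_badL {N ν : ℕ} (h : ν ∈ badL F N) : 2 ≤ ν := by
  obtain ⟨v, -, rfl⟩ := List.mem_map.mp h
  have h0 : Ideal.absNorm v.asIdeal ≠ 0 := fun h => v.ne_bot (Ideal.absNorm_eq_zero_iff.mp h)
  have h1 : Ideal.absNorm v.asIdeal ≠ 1 := fun h => v.isPrime.ne_top (Ideal.absNorm_eq_one_iff.mp h)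
  omega

theorem prod_badL (N : ℕ) : (badL F N).prod = ∏ v ∈ above F N, Ideal.absNorm v.asIdeal := by
  rw [badL, Finset.prod_map_toList]

end Field

section Fix

variable {ρ : GQ →* G3}

theorem factorization_eq_index {H : Subgroup G3} (hρ : Continuous ρ)
    (hs : Function.Surjective ρ) (T : FixField ρ H) {q N : ℕ} (hq : q.Prime) (ht : TameAt ρ q)
    (hN : N ≠ 0) (hqN : q ∣ N) :
    ((discr T.F).natAbs * (badL T.F N).prod).factorization q = H.index := by
  rw [Nat.factorization_mul (natAbs_discr_ne_zero _) (by rw [prod_badL]; exact prod_absNorm_ne_zero _),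
    Finsupp.add_apply, Nat.factorization_def _ hq, Nat.factorization_def _ hq, prod_badL,
    ht.disc_add_norm hρ hs T hq hN hqN]

/-- complex conjugation has determinant `-1` -/
theorem det_complexConjugation (hdet : ∀ σ : GQ, Matrix.GeneralLinearGroup.det (ρ σ) =
      WeierstrassCurve.modThreeCyclotomicChar σ) : (ρ complexConjugation).1.det = -1 := by
  have hne : NeZero ((3 : ℕ) : Qbar) := ⟨by norm_num⟩
  obtain ⟨ω, hω⟩ : ∃ ω : Qbar, IsPrimitiveRoot ω 3 :=
    HasEnoughRootsOfUnity.exists_primitiveRoot Qbar 3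
  have h1 : (ρ complexConjugation).1.det ≠ 1 := by
    intro h
    have h2 : complexConjugation ω = ω := (fix_omega_iff hdet hω complexConjugation).mpr h
    have h3 := complexEmbedding_complexConjugation ω
    rw [h2] at h3
    have h4 : IsPrimitiveRoot (complexEmbedding ω) 3 :=
      hω.map_of_injective (complexEmbedding : Qbar →ₐ[ℚ] ℂ).toRingHom.injective
    obtain ⟨x, hx⟩ := Complex.conj_eq_iff_real.mp h3.symm
    rw [hx] at h4
    have h5 : x ^ 3 = 1 ^ 3 := by
      have h6 := h4.pow_eq_one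
      rw [one_pow]
      exact_mod_cast h6
    have h7 : x = 1 := (Odd.strictMono_pow (by decide : Odd 3)).injective h5
    refine h4.ne_one (by norm_num) ?_
    rw [h7, Complex.ofReal_one]
  have h2 : (ρ complexConjugation).1.det ≠ 0 := by
    intro h
    have h3 := (Matrix.isUnit_iff_isUnit_det _).mp (ρ complexConjugation).isUnit
    rw [h] at h3
    exact not_isUnit_zero h3
  have key : ∀ x : ZMod 3, x ≠ 1 → x ≠ 0 → x = -1 := by decide
  exact key _ h1 h2

/-- the signature of the fixed field -/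
theorem signature_two {H : Subgroup G3} (hs : Function.Surjective ρ) (T : FixField ρ H)
    (h : pH H (ρ complexConjugation) = 2) :
    nrRealPlaces T.F = 2 ∧ 2 + 2 * nrComplexPlaces T.F = H.index := by
  refine ⟨by rw [nrRealPlaces_fixField T hs, h], ?_⟩
  have h1 := pH_add_nrComplexPlaces T hs
  rwa [h] at h1

/-- **The order of the dual at a tame prime.** -/
theorem pow_dvd_of_tame (hρ : Continuous ρ) (hs : Function.Surjective ρ)
    (hdet : ∀ σ : GQ, Matrix.GeneralLinearGroup.det (ρ σ) =
      WeierstrassCurve.modThreeCyclotomicChar σ) (hZ : ZetaFEStmt)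
    (T24 : FixField ρ C2) (T12 : FixField ρ V4) (T8 : FixField ρ S3) (T4 : FixField ρ B3)
    {N : ℕ} (hN : N ≠ 0) {b c : ℕ → ℂ} (hbc : Zeta.FE b c N 0 1)
    (hid : ∀ n, n ≠ 0 → ((zcF T24.F ⍟ Zeta.efl (badL T24.F N)) ⍟
        ((zcF T4.F ⍟ Zeta.efl (badL T4.F N)) ⍟ (zcF T4.F ⍟ Zeta.efl (badL T4.F N)))) n =
      (((zcF T12.F ⍟ Zeta.efl (badL T12.F N)) ⍟
        ((zcF T8.F ⍟ Zeta.efl (badL T8.F N)) ⍟ (zcF T8.F ⍟ Zeta.efl (badL T8.F N)))) ⍟
          (b ⍟ fun n => conj (b n))) n)
    {q : ℕ} (hq : q.Prime) (hqN : q ∣ N) (ht : TameAt ρ q) {n : ℕ} (hn : n ≠ 0)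
    (hcn : c n ≠ 0) : q ^ (padicValNat q N - 2) ∣ n := by
  have hsq : ρ complexConjugation * ρ complexConjugation = 1 := by
    rw [← map_mul, complexConjugation_mul_self, map_one]
  have hd := det_complexConjugation hdet
  obtain ⟨p24, p12, p8, p4⟩ := pH_refl hd (trace_of_sq hd hsq)
  obtain ⟨r24, t24⟩ := signature_two hs T24 p24
  obtain ⟨r12, t12⟩ := signature_two hs T12 p12
  obtain ⟨r8, t8⟩ := signature_two hs T8 p8
  obtain ⟨r4, t4⟩ := signature_two hs T4 p4
  rw [index_C2] at t24
  rw [index_V4] at t12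
  rw [index_S3] at t8
  rw [index_B3] at t4
  rw [← Nat.factorization_def N hq]
  refine Zeta.pow_dvd_of_ne_zero hq hN hbc (hZ T24.F) (hZ T12.F) (hZ T8.F) (hZ T4.F)
    zcF_one zcF_one zcF_one zcF_one (natAbs_discr_ne_zero _) (natAbs_discr_ne_zero _)
    (natAbs_discr_ne_zero _) (natAbs_discr_ne_zero _) (fun ν => two_le_of_mem_badL)
    (fun ν => two_le_of_mem_badL) (fun ν => two_le_of_mem_badL) (fun ν => two_le_of_mem_badL)
    hid ?_ ?_ ?_ ?_ ?_ ?_ hn hcn
  · rw [r24, r12, r8, r4]
  · omega
  · rw [factorization_eq_index hρ hs T24 hq ht hN hqN, index_C2]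
  · rw [factorization_eq_index hρ hs T12 hq ht hN hqN, index_V4]
  · rw [factorization_eq_index hρ hs T8 hq ht hN hqN, index_S3]
  · rw [factorization_eq_index hρ hs T4 hq ht hN hqN, index_B3]

end Fix

end Fermat.Agent.Classic.Level

end
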