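import Fermat.Agent.Classic.Level.Bridge
import Fermat.Agent.Classic.Level.Four
import Fermat.Agent.Classic.Zeta.Order

/-!
# The exponent of a tame prime: from the four fields to `OrdStmt` and `StepZ`
-/

set_option autoImplicit false

open CongruenceSubgroup ModularFormClass

noncomputable section

namespace Fermat.Agent.Classic.Level

/-- **The comparison of the functional equations.** -/
theorem ordStmt_of (hFE : Z3.FrickeFEStmt) (hF : FourStmt) : OrdStmt := by
  intro ρ hρ hs hdet Ψ hΨ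
  obtain ⟨D, hD, h4⟩ := hF ρ hρ hs hdet Ψ hΨ
  refine ⟨D, hD, fun N _ ι b f hst hDp h hh q hq hqN ht m hm hc => ?_⟩
  obtain ⟨T⟩ := h4 N inferInstance ι b f hst hDp
  have hfe : Zeta.FE (fun n => ι (b n)) (qCoeff ⇑h) N 0 1 :=
    (hFE N f h hh).congr (fun n _ => hst.coeff n) (fun _ _ => rfl)
  obtain ⟨v24, v12, v8, v4⟩ := T.tame q hq hqN ht
  rw [← Nat.factorization_def N hq]
  exact Zeta.pow_dvd_of_ne_zero hq (NeZero.ne N) hfe T.fe24 T.fe12 T.fe8 T.fe4 T.z24_one T.z12_one
    T.z8_one T.z4_one T.d24_ne T.d12_ne T.d8_ne T.d4_ne T.two_le24 T.two_le12 T.two_le8 T.two_le4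
    T.hid T.hr T.ht v24 v12 v8 v4 hm hc

/-- **`StepZ`** from the four fields and the Fricke involution. -/
theorem stepZ_of_four (hFr : Z3.FrickeStmt) (hFE : Z3.FrickeFEStmt) (hLow : Z3.LowerStmt)
    (hF : FourStmt) : StepZ :=
  stepZ_of hFr hLow (ordStmt_of hFE hF)

end Fermat.Agent.Classic.Level

end
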