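import Fermat.Agent.Ribet.Forms
import Fermat.Agent.Oldforms.Basic
import Fermat.Agent.Classic.Level.NoInvDef

/-!
# Residual modularity modulo 3 and homomorphisms of `Γ₀(N)` to `𝔽₃`

`exists_hom`: residual modularity gives an eigenvector in `Hom(Γ₀(N), 𝔽₃)`.
`form_of_hom`: the converse.
-/

set_option autoImplicit false

noncomputable section

open CongruenceSubgroup
open scoped MatrixGroups

namespace Fermat.Agent.Classic.Level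

open Fermat.Agent.HeckePar Fermat.Agent.S41aux

/-- the element `(1 0; N 1)` of `Γ₀(N)` -/
def lowN (N : ℕ) : Gamma0 N :=
  ⟨⟨!![1, 0; (N : ℤ), 1], by simp [Matrix.det_fin_two]⟩, by
    rw [Gamma0_mem]; simp⟩

/-- the primes used -/
def Gd (W : WeierstrassCurve ℤ) (N ℓ : ℕ) : Prop :=
  ℓ.Prime ∧ W.IsGoodPrimeFor ℓ ∧ ¬ ℓ ∣ N ∧ ℓ ≠ 3

theorem killsPar_low {N : ℕ} {A : Type*} [AddCommGroup A] {φ : Additive (Gamma0 N) →+ A}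
    (h : KillsPar φ) : φ (Additive.ofMul (lowN N)) = 0 := by
  refine h (lowN N) ![0, 1] ?_ 1 ?_
  · intro h0
    have := congrFun h0 1
    simp at this
  · rw [one_smul]
    ext i
    fin_cases i <;> simp [gQ, lowN, Matrix.mulVec, dotProduct, Fin.sum_univ_two]

instance fact3 : Fact (Nat.Prime 3) := ⟨Nat.prime_three⟩

/-- non-Eisenstein primes, in the form in which they are used -/
theorem exists_nonEis {W : WeierstrassCurve ℤ} (hΔ : W.Δ ≠ 0) (hirr : W.ModRepIsIrreducible 3)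
    (m : ℕ) (hm : 0 < m) : ∃ ℓ : ℕ, ℓ.Prime ∧ W.IsGoodPrimeFor ℓ ∧ ℓ ≠ 3 ∧ (m : ℤ) ∣ ℓ - 1 ∧
      ¬ (3 : ℤ) ∣ W.apOfModel ℓ - (ℓ + 1) := by
  have hell : (W.map (Int.castRingHom ℚ)).IsElliptic := by
    rw [WeierstrassCurve.isElliptic_iff, WeierstrassCurve.map_Δ, isUnit_iff_ne_zero]
    simpa using hΔ
  have hW : W.IsIntegralModelOf (W.map (Int.castRingHom ℚ)) := ⟨1, one_smul _ _⟩
  obtain ⟨ℓ, h1, h2, h3, h4, h5⟩ := S41neh.ne1 (p := 3) hW (by norm_num) hirr m hm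
  exact ⟨ℓ, h1, h2, h3, h4, by exact_mod_cast h5⟩

/-- **From residual modularity to homomorphisms.** -/
theorem exists_hom {W : WeierstrassCurve ℤ} (hΔ : W.Δ ≠ 0) (hirr : W.ModRepIsIrreducible 3)
    {N : ℕ} [NeZero N] (h : W.IsResiduallyModularOfLevel 3 N) :
    ∃ φ : Additive (Gamma0 N) →+ ZMod 3, φ ≠ 0 ∧ KillsPar φ ∧
      ∀ (ℓ : ℕ) [Fact ℓ.Prime], Gd W N ℓ → ∀ g,
        (heckeSys N ℓ).addTransfer φ g = ((W.apOfModel ℓ : ℤ) : ZMod 3) * φ g := by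
  obtain ⟨f, 𝔪, hf, h𝔪, hp𝔪, hcong⟩ := h
  obtain ⟨ξ, ⟨x, hx⟩, hξ⟩ := exists_mod_eigenvector hf Nat.prime_three 𝔪 h𝔪.ne_top hp𝔪
    (Gd W N) W.apOfModel (fun ℓ hℓ hG => hcong ℓ hℓ hG.2.1 hG.2.2.1 hG.2.2.2)
  set φ : Additive (Gamma0 N) →+ ZMod 3 := (Int.castAddHom (ZMod 3)).comp ξ with hφ
  have hφa : ∀ g, φ g = ((ξ g : ℤ) : ZMod 3) := fun _ => rfl
  have hT : ∀ (ℓ : ℕ) [Fact ℓ.Prime], Gd W N ℓ → ∀ g,
      (heckeSys N ℓ).addTransfer φ g = ((W.apOfModel ℓ : ℤ) : ZMod 3) * φ g := by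
    intro ℓ hℓ hG g
    rw [hφ, CosetSys.addTransfer_comp]
    show (((heckeSys N ℓ).addTransfer ξ g : ℤ) : ZMod 3) = _ * ((ξ g : ℤ) : ZMod 3)
    have h3 := (ZMod.intCast_zmod_eq_zero_iff_dvd _ 3).mpr (hξ ℓ hG g)
    push_cast at h3
    exact sub_eq_zero.mp h3
  refine ⟨φ, fun h0 => hx ?_, ?_, hT⟩
  · rw [← ZMod.intCast_zmod_eq_zero_iff_dvd]
    exact DFunLike.congr_fun h0 x
  · obtain ⟨ℓ, hℓ, hgood, hℓ3, hd, hne⟩ := exists_nonEis hΔ hirr (N * 3)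
      (Nat.mul_pos (NeZero.pos N) (by norm_num))
    haveI : Fact ℓ.Prime := ⟨hℓ⟩
    have hdN : (N : ℤ) ∣ ℓ - 1 := (Int.natCast_dvd_natCast.mpr (dvd_mul_right N 3)).trans hd
    have hd3 : ((3 : ℕ) : ℤ) ∣ ℓ - 1 := (Int.natCast_dvd_natCast.mpr (dvd_mul_left 3 N)).trans hd
    have hℓN : ¬ ℓ ∣ N := by
      intro h
      have h1 : (ℓ : ℤ) ∣ ℓ - 1 := (Int.natCast_dvd_natCast.mpr h).trans hdN
      have h2 : (ℓ : ℤ) ∣ 1 := by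
        have := dvd_sub (dvd_refl (ℓ : ℤ)) h1
        simpa using this
      exact (Nat.prime_iff_prime_int.mp hℓ).not_dvd_one h2
    refine killsPar_of_eigen (p := 3) Nat.prime_three (by norm_num) hℓN hdN hd3
      (a := ((W.apOfModel ℓ : ℤ) : ZMod 3)) ?_ (hT ℓ ⟨hℓ, hgood, hℓN, hℓ3⟩)
    intro h2
    apply hne
    have h4 : (((W.apOfModel ℓ - (ℓ + 1) : ℤ)) : ZMod 3) = 0 := by
      have h5 : ((ℓ - 1 : ℤ) : ZMod 3) = 0 := (ZMod.intCast_zmod_eq_zero_iff_dvd _ 3).mpr hd3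
      push_cast at h5 ⊢
      rw [h2]
      linear_combination -h5
    exact (ZMod.intCast_zmod_eq_zero_iff_dvd _ 3).mp h4

/-- **From homomorphisms to forms.** -/
theorem form_of_hom {M : ℕ} [NeZero M] (hr : ∃ r : ℕ, r.Prime ∧ r ∣ M ∧ r % 3 = 2)
    (G : ℕ → Prop) (hG : ∀ ℓ, G ℓ → ¬ ℓ ∣ M) (a : ℕ → ℤ)
    (hne : ∀ m : ℕ, 0 < m → ∃ ℓ : ℕ, ℓ.Prime ∧ G ℓ ∧ (m : ℤ) ∣ ℓ - 1 ∧
      ¬ (3 : ℤ) ∣ a ℓ - (ℓ + 1))
    {ψ : Additive (Gamma0 M) →+ ZMod 3} (hψ : ψ ≠ 0)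
    (hT : ∀ (ℓ : ℕ) [Fact ℓ.Prime], G ℓ → ∀ g,
      (heckeSys M ℓ).addTransfer ψ g = ((a ℓ : ℤ) : ZMod 3) * ψ g)
    (𝔪 : Ideal (integralClosure ℤ ℂ)) (h𝔪 : 𝔪.IsMaximal) (h3 : (3 : integralClosure ℤ ℂ) ∈ 𝔪) :
    ∃ g : CuspForm (Gamma0 M) 2, g.IsNormalizedEigenform ∧
      ∀ ℓ : ℕ, ℓ.Prime → G ℓ → ∃ b : integralClosure ℤ ℂ,
        (b : ℂ) = ModularFormClass.qCoeff g ℓ ∧
        b - ((a ℓ : ℤ) : integralClosure ℤ ℂ) ∈ 𝔪 := by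
  obtain ⟨y, hy⟩ := Ribet.exists_int_lift (p := 3) (N := M) (by norm_num)
    (Ribet.three_padic (Or.inr hr)) ψ
  obtain ⟨x₀, hx₀⟩ : ∃ x, ψ x ≠ 0 := by
    by_contra hcon
    push Not at hcon
    exact hψ (AddMonoidHom.ext hcon)
  refine Ribet.exists_form_of_vector (M := M) Nat.prime_three 𝔪 h𝔪 h3 G hG a ?_ y
    ⟨x₀, fun hd => hx₀ ?_⟩ (fun ℓ hℓ hS g => ?_)
  · intro m hm
    obtain ⟨ℓ, h1, h2, h4, h5⟩ := hne m hm
    exact ⟨ℓ, h1, h2, h4, by exact_mod_cast h5⟩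
  · rw [← ZMod.intCast_zmod_eq_zero_iff_dvd, hy] at hd
    exact hd
  · rw [← ZMod.intCast_zmod_eq_zero_iff_dvd]
    push_cast
    have h1 := DFunLike.congr_fun ((heckeSys M ℓ).addTransfer_comp (Int.castAddHom (ZMod 3)) y) g
    have h2 : (Int.castAddHom (ZMod 3)).comp y = ψ := AddMonoidHom.ext hy
    rw [h2, hT ℓ hS] at h1
    have h4 : (((heckeSys M ℓ).addTransfer y g : ℤ) : ZMod 3) =
        ((a ℓ : ℤ) : ZMod 3) * ψ g := h1.symm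
    rw [h4, hy, sub_self]

/-- there is a maximal ideal above 3 -/
theorem exists_maximal_three : ∃ 𝔪 : Ideal (integralClosure ℤ ℂ), 𝔪.IsMaximal ∧
    (3 : integralClosure ℤ ℂ) ∈ 𝔪 := by
  obtain ⟨𝔪, h1, h2⟩ := FLTPrelim.exists_maximalIdeal_natCast_prime_mem Nat.prime_three
  exact ⟨𝔪, h1, by exact_mod_cast h2⟩

/-- Raising the level. -/
theorem resMod_raise {W : WeierstrassCurve ℤ} {p M N : ℕ} (hN : 0 < N) (hMN : M ∣ N)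
    (h : W.IsResiduallyModularOfLevel p M) : W.IsResiduallyModularOfLevel p N := by
  haveI : NeZero N := ⟨hN.ne'⟩
  obtain ⟨f, 𝔪, hf, hmax, hp, hcong⟩ := h
  obtain ⟨g, hg, hgf⟩ := Fermat.Agent.Oldforms.exists_eigenform_raise hMN f hf
  refine ⟨g, 𝔪, hg, hmax, hp, fun ℓ hℓ hgood hℓN hℓp => ?_⟩
  obtain ⟨a, ha, ha2⟩ := hcong ℓ hℓ hgood (fun h => hℓN (h.trans hMN)) hℓp
  exact ⟨a, by rw [ha, hgf ℓ hℓ (fun h => absurd h hℓN)], ha2⟩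

end Fermat.Agent.Classic.Level
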