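import Fermat.Agent.Classic.Level.P4Int

/-!
# Weight one eigenforms with coefficients in `ℤ[√-2]`
-/

set_option autoImplicit false

open CongruenceSubgroup UpperHalfPlane EisensteinWeightOne ModularFormClass FLT.ExplicitLift
open scoped MatrixGroups ModularForm

namespace Fermat.Agent.Classic.Level.P4

variable {N : ℕ} [NeZero N]

theorem iota_apply (ι : ℤ√(-2) →+* ℂ) (z : ℤ√(-2)) :
    ι z = (z.re : ℂ) + (z.im : ℂ) * ι Zsqrtd.sqrtd := by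
  have h : z = (z.re : ℤ√(-2)) + (z.im : ℤ√(-2)) * Zsqrtd.sqrtd := by
    ext <;> simp
  conv_lhs => rw [h]
  rw [map_add, map_mul, map_intCast, map_intCast]

theorem iota_sqrtd_mul (ι : ℤ√(-2) →+* ℂ) : ι Zsqrtd.sqrtd * ι Zsqrtd.sqrtd = -2 := by
  rw [← map_mul]
  have h : (Zsqrtd.sqrtd * Zsqrtd.sqrtd : ℤ√(-2)) = ((-2 : ℤ) : ℤ√(-2)) := by
    ext <;> simp
  rw [h, map_intCast]
  norm_num

theorem lin_int (lam : ℂ →ₗ[ℚ] ℚ) (x : ℤ) (z : ℂ) : lam ((x : ℂ) * z) = x * lam z := by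
  have h : (x : ℂ) * z = x • z := by rw [zsmul_eq_mul]
  rw [h, map_zsmul, zsmul_eq_mul]

/-- **The form over `ℤ[√-2]`.** -/
theorem exists_form (ι : ℤ√(-2) →+* ℂ) {g : CuspForm (Gamma1 N) 1} (hg : g ≠ 0) {B : ℕ}
    {β : ℕ → ℤ√(-2)} (h : HeckeChi B (fun ℓ => ι (β ℓ)) fun n => qCoeff g n) :
    ∃ (g' : CuspForm (Gamma1 N) 1) (c : ℕ → ℤ√(-2)), (∀ n, qCoeff g' n = ι (c n)) ∧
      (∃ n, c n ≠ 0) ∧ HeckeChi B (fun ℓ => ι (β ℓ)) fun n => ι (c n) := by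
  obtain ⟨n₀, hn₀⟩ := Fermat.Agent.LT.End.exists_qCoeff_ne_zero hg
  obtain ⟨lam, hlam⟩ : ∃ lam : ℂ →ₗ[ℚ] ℚ, lam (qCoeff g n₀) ≠ 0 := by
    by_contra hcon
    push Not at hcon
    exact hn₀ ((Module.forall_dual_apply_eq_zero_iff ℚ _).mp hcon)
  obtain ⟨f₁, D₁, m₁, hD₁, h1, h1'⟩ := exists_int_form lam g 1
  obtain ⟨f₂, D₂, m₂, hD₂, h2, h2'⟩ := exists_int_form lam g (ι Zsqrtd.sqrtd)
  have hD₁' : (D₁ : ℚ) ≠ 0 := Nat.cast_ne_zero.mpr hD₁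
  have hD₂' : (D₂ : ℚ) ≠ 0 := Nat.cast_ne_zero.mpr hD₂
  refine ⟨(D₁ : ℂ) • f₂ + ((D₂ : ℂ) * ι Zsqrtd.sqrtd) • f₁, fun n => ⟨D₁ * m₂ n, D₂ * m₁ n⟩,
    fun n => ?_, ⟨n₀, fun h0 => ?_⟩, fun ℓ hℓ hℓB n => ?_⟩
  · have h3 : ι (⟨D₁ * m₂ n, D₂ * m₁ n⟩ : ℤ√(-2)) = ((D₁ * m₂ n : ℤ) : ℂ) +
        ((D₂ * m₁ n : ℤ) : ℂ) * ι Zsqrtd.sqrtd := iota_apply ι _
    beta_reduce
    rw [DS.qCoeff_add, DS.qCoeff_smul, DS.qCoeff_smul, h1, h2, h3]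
    push_cast
    ring
  · have h3 := congrArg Zsqrtd.im h0
    simp only [Zsqrtd.im_zero] at h3
    have h4 : ((D₂ : ℚ)) * m₁ n₀ = 0 := by exact_mod_cast h3
    rw [h1', one_mul] at h4
    exact (mul_ne_zero hD₂' (mul_ne_zero hD₁' hlam)) h4
  · have hr := h ℓ hℓ hℓB n
    beta_reduce at hr
    set χ : ℤ := chiNegThree ℓ with hχ
    rw [iota_apply ι (β ℓ)] at hr
    set s := ι Zsqrtd.sqrtd with hs
    have hss : s * s = -2 := iota_sqrtd_mul ι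
    have key : ∀ (A B C : ℂ) (a₁ b₁ c₁ a₂ b₂ c₂ : ℤ), ((a₁ : ℤ) : ℚ) = D₁ * lam (1 * A) →
        ((b₁ : ℤ) : ℚ) = D₁ * lam (1 * B) → ((c₁ : ℤ) : ℚ) = D₁ * lam (1 * C) →
        ((a₂ : ℤ) : ℚ) = D₂ * lam (s * A) → ((b₂ : ℤ) : ℚ) = D₂ * lam (s * B) →
        ((c₂ : ℤ) : ℚ) = D₂ * lam (s * C) →
        A + (χ : ℂ) * B = ((β ℓ).re + (β ℓ).im * s) * C →
        (⟨D₁ * a₂, D₂ * a₁⟩ : ℤ√(-2)) + (χ : ℤ√(-2)) * ⟨D₁ * b₂, D₂ * b₁⟩ =
          β ℓ * ⟨D₁ * c₂, D₂ * c₁⟩ := by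
      intro A B C a₁ b₁ c₁ a₂ b₂ c₂ ha₁ hb₁ hc₁ ha₂ hb₂ hc₂ hr
      rw [one_mul] at ha₁ hb₁ hc₁
      have e1 : lam A + χ * lam B = (β ℓ).re * lam C + (β ℓ).im * lam (s * C) := by
        have h3 := congrArg lam hr
        rw [map_add, lin_int, add_mul, map_add, lin_int, mul_assoc, lin_int] at h3
        exact h3
      have e2 : lam (s * A) + χ * lam (s * B) =
          (β ℓ).re * lam (s * C) + (β ℓ).im * (-2 * lam C) := by
        have h3 : lam (s * (A + (χ : ℂ) * B)) = lam (s * (((β ℓ).re + (β ℓ).im * s) * C)) := by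
          rw [hr]
        have h4 : s * (A + (χ : ℂ) * B) = s * A + (χ : ℂ) * (s * B) := by ring
        have h5 : s * (((β ℓ).re + (β ℓ).im * s) * C) =
            ((β ℓ).re : ℂ) * (s * C) + ((β ℓ).im : ℂ) * (((-2 : ℤ) : ℂ) * C) := by
          push_cast
          linear_combination ((β ℓ).im : ℂ) * C * hss
        rw [h4, h5, map_add, lin_int, map_add, lin_int, lin_int, lin_int] at h3
        push_cast at h3
        exact h3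
      apply Zsqrtd.ext
      · have h6 : ((D₁ * a₂ + χ * (D₁ * b₂) : ℤ) : ℚ) =
            (((β ℓ).re * (D₁ * c₂) + (-2) * (β ℓ).im * (D₂ * c₁) : ℤ) : ℚ) := by
          push_cast
          rw [ha₂, hb₂, hc₂, hc₁]
          linear_combination (D₁ : ℚ) * D₂ * e2
        have h7 := (Int.cast_inj (α := ℚ)).mp h6
        simp only [Zsqrtd.re_add, Zsqrtd.re_mul, Zsqrtd.re_intCast, Zsqrtd.im_intCast]
        linarith
      · have h6 : ((D₂ * a₁ + χ * (D₂ * b₁) : ℤ) : ℚ) =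
            (((β ℓ).re * (D₂ * c₁) + (β ℓ).im * (D₁ * c₂) : ℤ) : ℚ) := by
          push_cast
          rw [ha₁, hb₁, hc₂, hc₁]
          linear_combination (D₁ : ℚ) * D₂ * e1
        have h7 := (Int.cast_inj (α := ℚ)).mp h6
        simp only [Zsqrtd.im_add, Zsqrtd.im_mul, Zsqrtd.re_intCast, Zsqrtd.im_intCast]
        linarith
    by_cases hd : ℓ ∣ n
    · simp only [if_pos hd] at hr ⊢
      have h3 := congrArg ι (key _ _ _ _ _ _ _ _ _ (h1' (ℓ * n)) (h1' (n / ℓ)) (h1' n)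
        (h2' (ℓ * n)) (h2' (n / ℓ)) (h2' n) hr)
      rw [map_add, map_mul, map_mul, map_intCast] at h3
      exact h3
    · simp only [if_neg hd] at hr ⊢
      have h3 := congrArg ι (key _ _ _ _ 0 _ _ 0 _ (h1' (ℓ * n)) (by simp) (h1' n)
        (h2' (ℓ * n)) (by simp) (h2' n) hr)
      rw [map_add, map_mul, map_mul, map_intCast] at h3
      rw [← h3]
      congr 1
      have h4 : (⟨(D₁ : ℤ) * 0, (D₂ : ℤ) * 0⟩ : ℤ√(-2)) = 0 := by ext <;> simp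
      rw [h4, map_zero]

end Fermat.Agent.Classic.Level.P4
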