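import Fermat.Agent.Classic.ProdTheta
import Fermat.Agent.Classic.Lattice
import Fermat.Agent.Classic.Neb
import Fermat.Agent.DS.IntGamma
import Fermat.Agent.LT.End.Galois
import Fermat.Agent.LT.End.Eigen

/-!
# Weight one: from an eigenform to an eigenform with coefficients in `ℤ[√-2]`, not all divisible by `1 + √-2`

`S₁(Γ₁(N))` is spanned by forms with integral coefficients.  If `g ≠ 0` is an eigenform of the `T_ℓ`, `ℓ > B`,
with the nebentypus values `χ₋₃(ℓ)` and eigenvalues in `ι(ℤ[√-2])`, then there is one with coefficients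
`ι (c n)`, `c n ∈ ℤ[√-2]`, with the same eigenvalues: apply a `ℚ(√-2)`-linear form `ℂ → ℚ(√-2)` to the
coefficients.  Dividing by a power of `1 + √-2` one gets `red (c n) ≠ 0` for some `n`.
-/

set_option autoImplicit false

open CongruenceSubgroup UpperHalfPlane EisensteinWeightOne ModularFormClass FLT.ExplicitLift
open scoped MatrixGroups ModularForm

namespace Fermat.Agent.Classic.Level.P4

open Fermat.Agent.X1 Fermat.Agent.HeckePar

variable {N : ℕ} [NeZero N]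

/-- The Hecke relations with the character `χ₋₃` and the eigenvalues `t ℓ`, `ℓ > B`. -/
def HeckeChi (B : ℕ) (t : ℕ → ℂ) (a : ℕ → ℂ) : Prop :=
  ∀ ℓ : ℕ, ℓ.Prime → B < ℓ → ∀ n : ℕ,
    a (ℓ * n) + ((chiNegThree ℓ : ℤ) : ℂ) * (if ℓ ∣ n then a (n / ℓ) else 0) = t ℓ * a n

/-! ### The nebentypus -/

theorem not_dvd_of_lt {B : ℕ} (hB : N ≤ B) {p : ℕ} (hp : B < p) : ¬ p ∣ N := fun h => by
  have := Nat.le_of_dvd (Nat.pos_of_ne_zero (NeZero.ne N)) h
  omega

theorem dCusp_eq_chi {B : ℕ} (hB : N ≤ B) {f : CuspForm (Gamma1 N) 1} {t : ℕ → ℂ}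
    (h : HeckeChi B t fun n => qCoeff f n) {p : ℕ} (hp : p.Prime)
    (hpB : B < p) : dCusp N (Gamma1 N) 1 (pUnit N p) f = ((chiNegThree p : ℤ) : ℂ) • f := by
  have : Fact p.Prime := ⟨hp⟩
  refine dCusp_pUnit_eq (Gamma1 N) p (not_dvd_of_lt hB hpB) f _ (t p) fun n => ?_
  rw [sub_self, zpow_zero, mul_one]
  exact h p hp hpB n

/-- **The nebentypus is `χ₋₃`.** -/
theorem neb_of_heckeChi {B : ℕ} (hB : N ≤ B) (h3 : 3 ∣ N) {f : CuspForm (Gamma1 N) 1}
    {t : ℕ → ℂ} (h : HeckeChi B t fun n => qCoeff f n) :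
    ∀ g ∈ Gamma0 N, ⇑f ∣[(1 : ℤ)] g = ((chi3 (g 1 1) : ℤ) : ℂ) • ⇑f := by
  intro g hg
  have hdet : ((g 0 0 : ℤ) : ZMod N) * ((g 1 1 : ℤ) : ZMod N) = 1 := gamma0_00_mul_11 hg
  obtain ⟨u, hu⟩ : ∃ u : (ZMod N)ˣ, (u : ZMod N) = ((g 1 1 : ℤ) : ZMod N) :=
    ⟨Units.mkOfMulEqOne _ _ (by rw [mul_comm]; exact hdet), rfl⟩
  obtain ⟨p, hpB, hp, hpu⟩ := Nat.forall_exists_prime_gt_and_eq_mod u.isUnit B
  have hc : p.Coprime N := by
    rw [← ZMod.isUnit_iff_coprime, hpu]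
    exact u.isUnit
  have h1 := dCusp_eq_chi hB h hp hpB
  have h2 : pUnit N p = u := Units.ext (by rw [coe_pUnit hc, hpu])
  rw [h2] at h1
  have h4 : chi3 (g 1 1) = chiNegThree p := by
    rw [← chi3_natCast]
    refine chi3_congr ?_
    have h5 : ((g 1 1 - (p : ℤ) : ℤ) : ZMod N) = 0 := by
      push_cast
      rw [hpu, hu, sub_self]
    rw [ZMod.intCast_zmod_eq_zero_iff_dvd] at h5
    exact (by exact_mod_cast h3 : (3 : ℤ) ∣ (N : ℤ)).trans h5
  rw [slash_eq_dia (inv_gamma1 (Gamma1 N) 1 f) g hg u hu.symm, ← coe_dCusp, h1, h4]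
  rfl

/-! ### Rational structure -/

/-- A `ℚ`-linear form applied to the coefficients of a form gives, up to a denominator, the coefficients of a
form with integral coefficients. -/
theorem exists_int_form (lam : ℂ →ₗ[ℚ] ℚ) (f : CuspForm (Gamma1 N) 1) (c : ℂ) :
    ∃ (f' : CuspForm (Gamma1 N) 1) (D : ℕ) (m : ℕ → ℤ), D ≠ 0 ∧
      (∀ n, qCoeff f' n = (m n : ℂ)) ∧ ∀ n, ((m n : ℤ) : ℚ) = D * lam (c * qCoeff f n) := by
  have hf : f ∈ Submodule.span ℂ {f : CuspForm (Gamma1 N) 1 |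
    ∀ n, ∃ m : ℤ, ModularFormClass.qCoeff f n = (m : ℂ)} := by
    rw [DS.intSpan N]; exact Submodule.mem_top
  induction hf using Submodule.span_induction generalizing c with
  | mem g hg =>
    choose m hm using hg
    refine ⟨((lam c).num : ℂ) • g, (lam c).den, fun n => (lam c).num * m n, (lam c).den_nz,
      fun n => ?_, fun n => ?_⟩
    · rw [DS.qCoeff_smul, hm n]
      push_cast
      rfl
    · have h1 : lam (c * qCoeff g n) = m n * lam c := by
        rw [hm n]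
        have : c * (m n : ℂ) = (m n : ℚ) • c := by
          rw [Algebra.smul_def]
          simp [mul_comm]
        rw [this, map_smul, smul_eq_mul]
      rw [h1]
      push_cast
      rw [mul_left_comm, Rat.den_mul_eq_num]
      ring
  | zero =>
    exact ⟨0, 1, fun _ => 0, one_ne_zero, fun n => by rw [DS.qCoeff_zero, Int.cast_zero],
      fun n => by rw [DS.qCoeff_zero, mul_zero, map_zero]; simp⟩
  | add f g _ _ hf hg =>
    obtain ⟨f₁, D₁, m₁, h1, h2, h3⟩ := hf c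
    obtain ⟨f₂, D₂, m₂, h1', h2', h3'⟩ := hg c
    refine ⟨(D₂ : ℂ) • f₁ + (D₁ : ℂ) • f₂, D₁ * D₂, fun n => D₂ * m₁ n + D₁ * m₂ n,
      mul_ne_zero h1 h1', fun n => ?_, fun n => ?_⟩
    · rw [DS.qCoeff_add, DS.qCoeff_smul, DS.qCoeff_smul, h2, h2']
      push_cast
      rfl
    · rw [DS.qCoeff_add, mul_add, map_add]
      push_cast
      rw [h3, h3']
      ring
  | smul c' f _ hf =>
    obtain ⟨f₁, D₁, m₁, h1, h2, h3⟩ := hf (c * c')
    refine ⟨f₁, D₁, m₁, h1, h2, fun n => ?_⟩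
    rw [DS.qCoeff_smul, h3, mul_assoc]

end Fermat.Agent.Classic.Level.P4
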