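import Fermat.Agent.Classic.Level.P4Form

/-!
# Primitive coefficients, and the form of weight two with integral coefficients
-/

set_option autoImplicit false

open CongruenceSubgroup UpperHalfPlane EisensteinWeightOne ModularFormClass FLT.ExplicitLift
open scoped MatrixGroups ModularForm

namespace Fermat.Agent.Classic.Level.P4

variable {N : ℕ} [NeZero N]

/-! ### Division by `1 + √-2` -/

theorem exists_mul_of_red {z : ℤ√(-2)} (h : red z = 0) : ∃ w : ℤ√(-2), z = ⟨1, 1⟩ * w := by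
  rw [red_apply, ZMod.intCast_zmod_eq_zero_iff_dvd] at h
  obtain ⟨k, hk⟩ := h
  refine ⟨⟨z.im + k, -k⟩, ?_⟩
  have hk' : z.re - z.im = 3 * k := by exact_mod_cast hk
  apply Zsqrtd.ext
  · simp only [Zsqrtd.re_mul]
    linarith
  · simp only [Zsqrtd.im_mul]
    linarith

theorem norm_mul_pi (w : ℤ√(-2)) : ((⟨1, 1⟩ : ℤ√(-2)) * w).norm = 3 * w.norm := by
  rw [Zsqrtd.norm_mul]
  congr 1

theorem norm_ne_zero {z : ℤ√(-2)} (h : z ≠ 0) : z.norm ≠ 0 := fun h0 =>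
  h ((Zsqrtd.norm_eq_zero_iff (by norm_num) z).mp h0)

theorem exists_primitive_aux (n₀ : ℕ) (m : ℕ) : ∀ c : ℕ → ℤ√(-2), (c n₀).norm.natAbs = m →
    c n₀ ≠ 0 → ∃ (t : ℤ√(-2)) (c' : ℕ → ℤ√(-2)), t ≠ 0 ∧ (∀ n, c n = t * c' n) ∧
      ∃ n, red (c' n) ≠ 0 := by
  induction m using Nat.strongRecOn with
  | ind m ih =>
    intro c hm h0
    by_cases h : ∃ n, red (c n) ≠ 0
    · exact ⟨1, c, one_ne_zero, fun n => (one_mul _).symm, h⟩
    · push Not at h
      choose w hw using fun n => exists_mul_of_red (h n)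
      have hw0 : w n₀ ≠ 0 := by
        intro h1
        apply h0
        rw [hw n₀, h1, mul_zero]
      have hlt : (w n₀).norm.natAbs < m := by
        rw [← hm, hw n₀, norm_mul_pi, Int.natAbs_mul]
        have := Int.natAbs_pos.mpr (norm_ne_zero hw0)
        show _ < 3 * _
        omega
      obtain ⟨t, c', ht, h1, h2⟩ := ih _ hlt w rfl hw0
      refine ⟨⟨1, 1⟩ * t, c', ?_, fun n => ?_, h2⟩
      · intro h3
        have h4 := norm_mul_pi t
        rw [h3, Zsqrtd.norm_zero] at h4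
        exact norm_ne_zero ht (by linarith)
      · rw [hw n, h1 n, mul_assoc]

/-- A non-zero sequence in `ℤ[√-2]` is a constant times a sequence which is not zero under `red`. -/
theorem exists_primitive {c : ℕ → ℤ√(-2)} (h : ∃ n, c n ≠ 0) :
    ∃ (t : ℤ√(-2)) (c' : ℕ → ℤ√(-2)), t ≠ 0 ∧ (∀ n, c n = t * c' n) ∧ ∃ n, red (c' n) ≠ 0 := by
  obtain ⟨n₀, h0⟩ := h
  exact exists_primitive_aux n₀ _ c rfl h0

theorem iota_ne_zero (ι : ℤ√(-2) →+* ℂ) {z : ℤ√(-2)} (h : z ≠ 0) : ι z ≠ 0 := fun h0 =>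
  h (Fermat.Agent.LT.End.embedding_injective ι (by rw [h0, map_zero]))

/-- **The primitive form.** -/
theorem exists_primitive_form (ι : ℤ√(-2) →+* ℂ) {g : CuspForm (Gamma1 N) 1} (hg : g ≠ 0)
    {B : ℕ} {β : ℕ → ℤ√(-2)} (h : HeckeChi B (fun ℓ => ι (β ℓ)) fun n => qCoeff g n) :
    ∃ (g' : CuspForm (Gamma1 N) 1) (c : ℕ → ℤ√(-2)), (∀ n, qCoeff g' n = ι (c n)) ∧
      (∃ n, red (c n) ≠ 0) ∧ HeckeChi B (fun ℓ => ι (β ℓ)) fun n => ι (c n) := by
  obtain ⟨g₁, c₁, h1, h2, h3⟩ := exists_form ι hg h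
  obtain ⟨t, c, ht, h4, h5⟩ := exists_primitive h2
  have ht' := iota_ne_zero ι ht
  refine ⟨(ι t)⁻¹ • g₁, c, fun n => ?_, h5, fun ℓ hℓ hℓB n => ?_⟩
  · rw [DS.qCoeff_smul, h1, h4, map_mul, inv_mul_cancel_left₀ ht']
  · have h6 := h3 ℓ hℓ hℓB n
    beta_reduce at h6 ⊢
    refine mul_left_cancel₀ ht' ?_
    rw [h4, h4 n, map_mul, map_mul] at h6
    by_cases hd : ℓ ∣ n
    · rw [if_pos hd] at h6 ⊢
      rw [h4 (n / ℓ), map_mul] at h6
      linear_combination h6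
    · rw [if_neg hd] at h6 ⊢
      linear_combination h6

/-! ### Weight two -/

theorem chi_cast (n : ℕ) : ((chiNegThree n : ℤ) : ZMod 3) = (n : ZMod 3) := by
  have h : (n : ZMod 3) = ((n % 3 : ℕ) : ZMod 3) := by rw [ZMod.natCast_mod]
  rw [h, chiNegThree]
  have h3 : n % 3 < 3 := Nat.mod_lt _ (by norm_num)
  generalize n % 3 = r at h3
  interval_cases r <;> decide

/-- **The form of weight two with integral coefficients, modulo three.** -/
theorem exists_int_two (ι : ℤ√(-2) →+* ℂ) (hN : 3 ∣ N) {g : CuspForm (Gamma1 N) 1}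
    (hg : g ≠ 0) {B : ℕ} (hB : N ≤ B) {β : ℕ → ℤ√(-2)}
    (h : HeckeChi B (fun ℓ => ι (β ℓ)) fun n => qCoeff g n) :
    ∃ (G : CuspForm (Gamma0 N) 2) (C : ℕ → ℤ), (∀ n, qCoeff G n = (C n : ℂ)) ∧
      (∃ n, ((C n : ℤ) : ZMod 3) ≠ 0) ∧
      ∀ ℓ : ℕ, ℓ.Prime → B < ℓ → ∀ n : ℕ, ((C (ℓ * n) : ℤ) : ZMod 3) +
        (ℓ : ZMod 3) * (if ℓ ∣ n then ((C (n / ℓ) : ℤ) : ZMod 3) else 0) =
          red (β ℓ) * ((C n : ℤ) : ZMod 3) := by
  obtain ⟨g', c, h1, ⟨n₁, h2⟩, h3⟩ := exists_primitive_form ι hg h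
  have h3' : HeckeChi B (fun ℓ => ι (β ℓ)) fun n => qCoeff g' n := by
    have : (fun n => qCoeff g' n) = fun n => ι (c n) := funext h1
    rw [this]
    exact h3
  have hneb := neb_of_heckeChi hB hN h3'
  obtain ⟨G₁, C₁, h4, h5⟩ := exists_prod_thA hN hneb h1
  obtain ⟨G, C, h6, h7⟩ := exists_int_of_zsqrtd G₁ ι C₁ h4
  have h8 : ∀ n, ((C n : ℤ) : ZMod 3) = red (c n) := fun n => (h7 n).trans (h5 n)
  refine ⟨G, C, h6, ⟨n₁, by rw [h8]; exact h2⟩, fun ℓ hℓ hℓB n => ?_⟩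
  have h9 : c (ℓ * n) + ((chiNegThree ℓ : ℤ) : ℤ√(-2)) * (if ℓ ∣ n then c (n / ℓ) else 0) =
      β ℓ * c n := by
    apply Fermat.Agent.LT.End.embedding_injective ι
    have h10 := h3 ℓ hℓ hℓB n
    beta_reduce at h10
    rw [map_add, map_mul, map_mul, map_intCast, ← h10]
    congr 2
    split_ifs
    · rfl
    · exact map_zero ι
  have h11 := congrArg red h9
  rw [map_add, map_mul, map_mul, map_intCast, chi_cast] at h11
  rw [h8, h8 n, ← h11]
  congr 2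
  split_ifs
  · exact h8 _
  · exact (map_zero red).symm

end Fermat.Agent.Classic.Level.P4
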