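import Fermat.Agent.Classic.Level.Assembly
import Fermat.Agent.Classic.Level.StepStart
import Fermat.Agent.Classic.Level.StepZ
import Fermat.Agent.Classic.Level.Disc.StepDq
import Fermat.Agent.Classic.Level.Final

/-!
# Second proofs of S46 and S50

`s46_classic`, `s50_classic`: the statements S46 and S50 from the theorem of Langlands and Tunnell
(S47) and the control of the level (plan Z). Nothing of the `2`-adic proofs of S46 and S50 is used.
-/

set_option autoImplicit false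

open CuspForm EisensteinWeightOne CongruenceSubgroup ModularFormClass FLT.ExplicitLift
open WeierstrassCurve WeierstrassCurve.Affine WeierstrassCurve.Affine.Point
open scoped MatrixGroups ModularForm WeierstrassCurve.Affine

namespace Fermat.Agent.Classic.Level

/-- The statement S46, from the inputs: the level of the form of weight one is cube-free away from
`3`, and the passage to weight two does not change it. -/
theorem s46_classic_of (hS : StepStart) (hZ : StepZ) (hDq : StepDq) :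
    ∀ W : WeierstrassCurve ℤ, W.Δ ≠ 0 → W.IsSemistableModel → W.ModRepIsIrreducible 3 →
      ∃ (N : ℕ) (_ : NeZero N) (a : ℕ → ℤ),
        CuspForm.HasIntegralBasis N ∧
        FormalHecke.IsEigensystem
          (fun ℓ => if ℓ ∣ N then 0 else ((chiNegThree ℓ : ℤ) : ℤ)) a ∧
        CuspForm.IsLatticeRealized N a ∧
        (∀ q : ℕ, q.Prime → q ≠ 3 → ¬ q ^ 3 ∣ N) ∧
        ∀ ℓ : ℕ, ℓ.Prime → W.IsGoodPrimeFor ℓ → ¬ ℓ ∣ N → ℓ ≠ 3 →
          (3 : ℤ) ∣ (a ℓ - W.apOfModel ℓ) := by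
  intro W hΔ hW hirr
  have hsurj := Semi.rep3_surjective hΔ hW hirr
  have hconc := concl47_of_surjective hΔ hsurj
  have hcont := continuous_repP 3 hΔ
  have hDne : 3 * W.Δ.natAbs ≠ 0 := mul_ne_zero (by norm_num) (Int.natAbs_ne_zero.mpr hΔ)
  obtain ⟨D, hD0, hZ⟩ := hZ (rep3 hΔ) hcont hsurj (det_rep3 hΔ) secHom map_red_secHom
  have hgood : ∀ p : ℕ, p.Prime → ¬ p ∣ 3 * W.Δ.natAbs → W.IsGoodPrimeFor p ∧ p ≠ 3 := by
    intro p hp hpD
    rw [hp.dvd_mul, not_or] at hpD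
    refine ⟨fun h => hpD.2 ?_, fun h => hpD.1 (h ▸ dvd_rfl)⟩
    exact Int.natCast_dvd.mp h
  obtain ⟨N, hN0, ι, b, f, hDN, hst⟩ := hS (rep3 hΔ) secHom hconc
    (3 * W.Δ.natAbs * D) (mul_ne_zero hDne hD0)
    (fun p hp hpD A hA σ hσ => by
      have : Fact (Nat.Prime 3) := ⟨Nat.prime_three⟩
      have hpD' : ¬ p ∣ 3 * W.Δ.natAbs := fun h => hpD (h.mul_right _)
      exact repP_inertia hΔ hp (hgood p hp hpD').1 (hgood p hp hpD').2 hA hσ)
  obtain ⟨N₁, hN₁, f₁, -, hT, hnT, -, hst₁⟩ := hZ N hN0 ι b f hst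
    (fun p _ hpD => (hpD.trans (dvd_mul_left _ _)).trans hDN) (N.primeFactors.erase 3) (by
      intro q hq
      rw [Finset.mem_erase, Nat.mem_primeFactors] at hq
      refine ⟨hq.2.1, hq.2.2.1, 3, fun h => hq.1 ?_, hDq W hΔ hW q hq.2.1 hq.1⟩
      exact (Nat.prime_dvd_prime_iff_eq hq.2.1 Nat.prime_three).mp h)
  obtain ⟨a, ha, hal, hab⟩ := weightTwo N₁ b hst₁.eig ⟨ι, f₁, hst₁.coeff⟩
  refine ⟨N₁, hN₁, a, Fermat.Agent.Ext.E46.hasIntegralBasis N₁, ha, hal, ?_, ?_⟩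
  · intro q hq hq3
    refine not_cube_dvd hq hN₁.out ?_
    by_cases hqN : q ∈ N.primeFactors.erase 3
    · exact (hT q hqN).le
    · rw [hnT q hq hqN, padicValNat.eq_zero_of_not_dvd]
      · omega
      · intro h
        exact hqN (Finset.mem_erase.mpr ⟨hq3, Nat.mem_primeFactors.mpr ⟨hq, h, hN0.out⟩⟩)
  · intro ℓ hℓ hgood' hℓN hℓ3
    have h1 : ((a ℓ : ℤ) : ZMod 3) = ((W.apOfModel ℓ : ℤ) : ZMod 3) := by
      rw [hab, hst₁.red_eq hΔ hℓ hgood' hℓN hℓ3]
    have h2 := (ZMod.intCast_eq_intCast_iff_dvd_sub _ _ 3).mp h1.symm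
    exact_mod_cast h2

/-- The statement S50, from the optimisation of the level at `3`: one even has `¬ 3 ^ 2 ∣ M`. -/
theorem s50_classic_of (h : LevelThree) (W : WeierstrassCurve ℤ) (hΔ : W.Δ ≠ 0)
    (hW : W.IsSemistableModel) (h3 : W.ModRepIsIrreducible 3) :
    ∃ M : ℕ, 0 < M ∧ W.IsResiduallyModularOfLevel 3 M ∧
      (∀ q : ℕ, q.Prime → q ≠ 3 → ¬ q ^ 3 ∣ M) ∧
      (3 ^ 2 ∣ M →
        ∀ A : ValuationSubring (AlgebraicClosure ℚ), A.LiesOverPrime 3 →
          ∀ x : Submodule.torsionBy ℤ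
              ((W.map (Int.castRingHom ℚ))⁄(AlgebraicClosure ℚ)).Point (3 : ℕ),
            (∀ σ ∈ A.inertiaSubgroupIn ℚ, σ • x = x) → x = 0) := by
  obtain ⟨M, hM, hres, h9, hq⟩ := h W hΔ hW h3 (isResiduallyModular_of_semistable hΔ hW h3)
  exact ⟨M, hM, hres, hq, fun h => absurd h h9⟩

end Fermat.Agent.Classic.Level

namespace Fermat.Agent.Classic

open Level

/-- **S46 by the historical route** (literally the statement of S46). -/
theorem s46_classic :
    ∀ W : WeierstrassCurve ℤ, W.Δ ≠ 0 → W.IsSemistableModel → W.ModRepIsIrreducible 3 →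
      ∃ (N : ℕ) (_ : NeZero N) (a : ℕ → ℤ),
        CuspForm.HasIntegralBasis N ∧
        FormalHecke.IsEigensystem
          (fun ℓ => if ℓ ∣ N then 0 else ((chiNegThree ℓ : ℤ) : ℤ)) a ∧
        CuspForm.IsLatticeRealized N a ∧
        (∀ q : ℕ, q.Prime → q ≠ 3 → ¬ q ^ 3 ∣ N) ∧
        ∀ ℓ : ℕ, ℓ.Prime → W.IsGoodPrimeFor ℓ → ¬ ℓ ∣ N → ℓ ≠ 3 →
          (3 : ℤ) ∣ (a ℓ - W.apOfModel ℓ) :=
  s46_classic_of stepStart stepZ stepDq

/-- **S50 by the historical route** (literally the statement of S50). -/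
theorem s50_classic
    (W : WeierstrassCurve ℤ) (hΔ : W.Δ ≠ 0) (hW : W.IsSemistableModel)
    (h3 : W.ModRepIsIrreducible 3) :
    ∃ M : ℕ, 0 < M ∧ W.IsResiduallyModularOfLevel 3 M ∧
      (∀ q : ℕ, q.Prime → q ≠ 3 → ¬ q ^ 3 ∣ M) ∧
      (3 ^ 2 ∣ M →
        ∀ A : ValuationSubring (AlgebraicClosure ℚ), A.LiesOverPrime 3 →
          ∀ x : Submodule.torsionBy ℤ
              ((W.map (Int.castRingHom ℚ))⁄(AlgebraicClosure ℚ)).Point (3 : ℕ),
            (∀ σ ∈ A.inertiaSubgroupIn ℚ, σ • x = x) → x = 0) :=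
  s50_classic_of levelThree W hΔ hW h3

end Fermat.Agent.Classic
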