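import Fermat.Agent.Classic.Level.Step3Abs
import Fermat.Agent.HeckePar.Commute

/-!
# The descent step `3 M → M` (`3 ∣ M`) for homomorphisms `Γ₀(3 M) → F`, `F` of characteristic three
-/

set_option autoImplicit false

noncomputable section

open CongruenceSubgroup Matrix.SpecialLinearGroup
open scoped MatrixGroups

namespace Fermat.Agent.Classic.Level.Step3

open Fermat.Agent.HeckePar

/-! ### the character -/

section Kappa

variable {M : ℕ}

theorem dvd_lower (g : Gamma0 M) : (M : ℤ) ∣ (g : SL(2, ℤ)) 1 0 :=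
  (ZMod.intCast_zmod_eq_zero_iff_dvd _ _).mp (Gamma0_mem.mp g.2)

/-- `g = (a b; M c d)`: the integer `c` -/
def lowC (g : Gamma0 M) : ℤ := (dvd_lower g).choose

theorem lowC_spec (g : Gamma0 M) : (g : SL(2, ℤ)) 1 0 = M * lowC g := (dvd_lower g).choose_spec

theorem lowC_eq (hM : M ≠ 0) (g : Gamma0 M) {c : ℤ} (h : (g : SL(2, ℤ)) 1 0 = M * c) :
    lowC g = c := by
  have hM' : (M : ℤ) ≠ 0 := by exact_mod_cast hM
  exact mul_left_cancel₀ hM' ((lowC_spec g).symm.trans h)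

variable (h3 : 3 ∣ M)

include h3 in
theorem cast_lower (g : Gamma0 M) : (((g : SL(2, ℤ)) 1 0 : ℤ) : ZMod 3) = 0 := by
  rw [ZMod.intCast_zmod_eq_zero_iff_dvd]
  exact (Int.natCast_dvd_natCast.mpr h3).trans (dvd_lower g)

include h3 in
theorem mul_diag (g : Gamma0 M) :
    (((g : SL(2, ℤ)) 0 0 : ℤ) : ZMod 3) * (((g : SL(2, ℤ)) 1 1 : ℤ) : ZMod 3) = 1 := by
  have h := congrArg (Int.cast : ℤ → ZMod 3) (det_SL (g : SL(2, ℤ)))
  push_cast at h
  rw [cast_lower h3, mul_zero, sub_zero] at h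
  exact h

theorem zmod3_sq {a b : ZMod 3} (h : a * b = 1) : a * a = 1 := by
  revert h
  revert a b
  decide

include h3 in
theorem sq_diag (g : Gamma0 M) :
    (((g : SL(2, ℤ)) 0 0 : ℤ) : ZMod 3) * (((g : SL(2, ℤ)) 0 0 : ℤ) : ZMod 3) = 1 :=
  zmod3_sq (mul_diag h3 g)

/-- the character `(a b; M c d) ↦ c a` of `Γ₀(M)` with values in `ℤ/3`, for `3 ∣ M` -/
def kap (h3 : 3 ∣ M) (hM : M ≠ 0) : Gamma0 M →* Multiplicative (ZMod 3) where
  toFun g := Multiplicative.ofAdd (((lowC g : ℤ) : ZMod 3) * (((g : SL(2, ℤ)) 0 0 : ℤ) : ZMod 3))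
  map_one' := by
    have : lowC (1 : Gamma0 M) = 0 := lowC_eq hM _ (by simp)
    rw [this]
    simp
  map_mul' g h := by
    have e1 : ((g * h : Gamma0 M) : SL(2, ℤ)) 1 0 =
        M * (lowC g * (h : SL(2, ℤ)) 0 0 + (g : SL(2, ℤ)) 1 1 * lowC h) := by
      rw [Subgroup.coe_mul, Matrix.SpecialLinearGroup.coe_mul, Matrix.mul_apply,
        Fin.sum_univ_two, lowC_spec g, lowC_spec h]
      ring
    have e2 : ((g * h : Gamma0 M) : SL(2, ℤ)) 0 0 = (g : SL(2, ℤ)) 0 0 * (h : SL(2, ℤ)) 0 0 +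
        (g : SL(2, ℤ)) 0 1 * (h : SL(2, ℤ)) 1 0 := by
      rw [Subgroup.coe_mul, Matrix.SpecialLinearGroup.coe_mul, Matrix.mul_apply,
        Fin.sum_univ_two]
    rw [lowC_eq hM _ e1, e2, ← ofAdd_add]
    push_cast
    rw [cast_lower h3 h, mul_zero, add_zero]
    congr 1
    have h1 := sq_diag h3 h
    have h2 := mul_diag h3 g
    linear_combination ((lowC g : ZMod 3) * (((g : SL(2, ℤ)) 0 0 : ℤ) : ZMod 3)) * h1 +
      ((lowC h : ZMod 3) * (((h : SL(2, ℤ)) 0 0 : ℤ) : ZMod 3)) * h2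

theorem toAdd_kap (hM : M ≠ 0) (g : Gamma0 M) : (kap h3 hM g).toAdd =
    ((lowC g : ℤ) : ZMod 3) * (((g : SL(2, ℤ)) 0 0 : ℤ) : ZMod 3) := rfl

theorem mem_ker_kap (hM : M ≠ 0) (g : Gamma0 M) :
    g ∈ (kap h3 hM).ker ↔ (g : SL(2, ℤ)) ∈ Gamma0 (3 * M) := by
  rw [MonoidHom.mem_ker, Gamma0_mem, ZMod.intCast_zmod_eq_zero_iff_dvd, lowC_spec g]
  have h1 : (kap h3 hM) g = 1 ↔ ((lowC g : ℤ) : ZMod 3) = 0 := by
    rw [← toAdd_eq_zero, toAdd_kap]
    refine ⟨fun h => ?_, fun h => by rw [h, zero_mul]⟩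
    have h2 := sq_diag h3 g
    linear_combination (((g : SL(2, ℤ)) 0 0 : ℤ) : ZMod 3) * h - ((lowC g : ℤ) : ZMod 3) * h2
  rw [h1, ZMod.intCast_zmod_eq_zero_iff_dvd]
  have hM' : (M : ℤ) ≠ 0 := by exact_mod_cast hM
  push_cast
  rw [mul_comm (3 : ℤ), mul_dvd_mul_iff_left hM']

/-- `(1 0; m 1)` -/
def lowSL (m : ℤ) : SL(2, ℤ) := ⟨!![1, 0; m, 1], by rw [Matrix.det_fin_two_of]; ring⟩

theorem coe_lowSL (m : ℤ) : (lowSL m : Matrix (Fin 2) (Fin 2) ℤ) = !![1, 0; m, 1] := rfl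

theorem lowSL_mul (m n : ℤ) : lowSL m * lowSL n = lowSL (m + n) := by
  apply Subtype.ext
  rw [Matrix.SpecialLinearGroup.coe_mul, coe_lowSL, coe_lowSL, coe_lowSL]
  ext i j
  fin_cases i <;> fin_cases j <;> simp [Matrix.mul_apply, Fin.sum_univ_two]

theorem lowSL_pow (m : ℤ) (n : ℕ) : lowSL m ^ n = lowSL (n * m) := by
  induction n with
  | zero =>
    rw [pow_zero]
    apply Subtype.ext
    rw [coe_lowSL, Matrix.SpecialLinearGroup.coe_one]
    ext i j
    fin_cases i <;> fin_cases j <;> simp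
  | succ n ih =>
    rw [pow_succ, ih, lowSL_mul]
    congr 1
    push_cast
    ring

/-- `(1 0; M 1)` in `Γ₀(M)` -/
def low (M : ℕ) : Gamma0 M := ⟨lowSL M, by
  rw [Gamma0_mem, coe_lowSL]
  simp⟩

theorem coe_low (M : ℕ) : (low M : SL(2, ℤ)) = lowSL M := rfl

theorem coe_low_pow (M n : ℕ) : ((low M ^ n : Gamma0 M) : SL(2, ℤ)) = lowSL (n * M) := by
  rw [SubmonoidClass.coe_pow, coe_low, lowSL_pow]

theorem kap_low (hM : M ≠ 0) : kap h3 hM (low M) = Multiplicative.ofAdd 1 := by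
  have h1 : lowC (low M) = 1 := lowC_eq hM _ (by
    rw [mul_one]
    rfl)
  apply Multiplicative.toAdd.injective
  rw [toAdd_kap, h1, coe_low, coe_lowSL]
  simp

end Kappa

/-! ### the Hecke cosets and the character -/

section Hecke

variable {M : ℕ} (h3 : 3 ∣ M) {p : ℕ} [hp : Fact p.Prime]

/-- `κ (coc g x) = p κ(g)` -/
theorem kap_coc (hM : M ≠ 0) (hpM : ¬ p ∣ M) (g : Gamma0 M) (x : HIdx M p) :
    (kap h3 hM ((heckeSys M p).coc g x)).toAdd = (p : ZMod 3) * (kap h3 hM g).toAdd := by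
  have hp3 : (p : ZMod 3) * (p : ZMod 3) = 1 := by
    have h1 : (p : ZMod 3) ≠ 0 := by
      rw [Ne, ZMod.natCast_eq_zero_iff]
      intro h
      exact hpM (((Nat.prime_dvd_prime_iff_eq Nat.prime_three hp.out).mp h) ▸ h3)
    revert h1
    generalize (p : ZMod 3) = a
    revert a
    decide
  have hM' : (M : ℤ) ≠ 0 := by exact_mod_cast hM
  have hp0 : (p : ℤ) ≠ 0 := by exact_mod_cast hp.out.ne_zero
  have hspec := heckeSys_spec M p g x
  set C := (heckeSys M p).coc g x with hC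
  set y := (heckeSys M p).act g x with hy
  have h00 := congrFun (congrFun hspec 0) 0
  have h10 := congrFun (congrFun hspec 1) 0
  rw [Matrix.mul_apply, Matrix.mul_apply, Fin.sum_univ_two, Fin.sum_univ_two] at h00 h10
  rw [lowC_spec g, lowC_spec C] at h10
  rw [lowC_spec g] at h00
  rw [toAdd_kap, toAdd_kap]
  obtain ⟨x, hx⟩ := x
  obtain ⟨y, hy'⟩ := y
  have h3M : ((M : ℤ) : ZMod 3) = 0 := by
    rw [Int.cast_natCast, ZMod.natCast_eq_zero_iff]
    exact h3
  have hcast : ∀ t : ℤ, ((t * (M * lowC g) : ℤ) : ZMod 3) = 0 := fun t => by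
    rw [Int.cast_mul, Int.cast_mul, h3M, zero_mul, mul_zero]
  cases x with
  | none =>
    cases y with
    | none =>
      simp only [intRep_none, Matrix.of_apply, Matrix.cons_val', Matrix.cons_val_zero,
        Matrix.cons_val_one, Matrix.cons_val_fin_one, zero_mul, add_zero, mul_zero, zero_add,
        one_mul] at h00 h10
      have a : (g : SL(2, ℤ)) 0 0 = (C : SL(2, ℤ)) 0 0 :=
        mul_right_cancel₀ hp0 (by linear_combination h00)
      have b : lowC g = lowC C * p := mul_left_cancel₀ hM' (by linear_combination h10)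
      rw [← a, b]
      push_cast
      linear_combination (-((lowC C : ℤ) : ZMod 3) * (((g : SL(2, ℤ)) 0 0 : ℤ) : ZMod 3)) * hp3
    | some k =>
      simp only [intRep_none, intRep_some, Matrix.of_apply, Matrix.cons_val', Matrix.cons_val_zero,
        Matrix.cons_val_one, Matrix.cons_val_fin_one, zero_mul, add_zero, mul_zero, zero_add,
        one_mul, mul_one] at h00 h10
      have b : lowC g = lowC C := mul_left_cancel₀ hM' (by linear_combination h10)
      rw [← h00, b]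
      push_cast
      ring
  | some j =>
    cases y with
    | none =>
      simp only [intRep_none, intRep_some, Matrix.of_apply, Matrix.cons_val', Matrix.cons_val_zero,
        Matrix.cons_val_one, Matrix.cons_val_fin_one, zero_mul, add_zero, mul_zero, zero_add,
        one_mul] at h00 h10
      have b : lowC C = lowC g :=
        mul_left_cancel₀ hM' (mul_right_cancel₀ hp0 (by linear_combination -h10))
      have a := congrArg (Int.cast : ℤ → ZMod 3) h00
      rw [Int.cast_add, hcast, add_zero] at a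
      rw [a, b]
      push_cast
      linear_combination (-((lowC g : ℤ) : ZMod 3) * (((C : SL(2, ℤ)) 0 0 : ℤ) : ZMod 3)) * hp3
    | some k =>
      simp only [intRep_some, Matrix.of_apply, Matrix.cons_val', Matrix.cons_val_zero,
        Matrix.cons_val_one, Matrix.cons_val_fin_one, zero_mul, add_zero, mul_zero, zero_add,
        one_mul, mul_one] at h00 h10
      have b : lowC C = p * lowC g := mul_left_cancel₀ hM' (by linear_combination -h10)
      have a := congrArg (Int.cast : ℤ → ZMod 3) h00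
      rw [Int.cast_add, hcast, add_zero] at a
      rw [← a, b]
      push_cast
      ring

/-! ### the Hecke operator at `(1 0; M 1)` -/

/-- the cocycle along a power -/
theorem apply_coc_pow {Γ G : Type*} [Group Γ] [Group G] {ι : Γ →* G} {X : Type*}
    (S : CosetSys ι X) {A : Type*} [AddCommGroup A] (η : Additive Γ →+ A) (g : Γ) (n : ℕ) (x : X) :
    η (Additive.ofMul (S.coc (g ^ n) x)) =
      ∑ i ∈ Finset.range n, η (Additive.ofMul (S.coc g (S.act (g ^ i) x))) := by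
  induction n with
  | zero => simp
  | succ n ih =>
    rw [pow_succ, S.coc_mul, ofMul_mul, map_add, ih, Finset.sum_range_succ]

/-- `x₀ = (1 0; 0 p)` -/
def x0 (M p : ℕ) : HIdx M p := ⟨some 0, fun _ => by simp⟩

/-- `x_∞ = (p 0; 0 1)` -/
def xinf (hpM : ¬ p ∣ M) : HIdx M p := ⟨none, fun h => absurd h hpM⟩

theorem coc_low_x0 : (heckeSys M p).act (low M) (x0 M p) = x0 M p ∧
    (heckeSys M p).coc (low M) (x0 M p) = low M ^ p := by
  refine (heckeSys M p).ext_coc ?_
  rw [heckeSys_rep, hrep_mul_iota_eq_iff hp.out.ne_zero, coe_low_pow, coe_low, coe_lowSL,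
    coe_lowSL]
  simp only [x0, intRep_some, ZMod.val_zero]
  ext i j
  fin_cases i <;> fin_cases j <;> simp [Matrix.mul_apply, Fin.sum_univ_two]

theorem coc_low_xinf (hpM : ¬ p ∣ M) : (heckeSys M p).act (low M ^ p) (xinf hpM) = xinf hpM ∧
    (heckeSys M p).coc (low M ^ p) (xinf hpM) = low M := by
  refine (heckeSys M p).ext_coc ?_
  rw [heckeSys_rep, hrep_mul_iota_eq_iff hp.out.ne_zero, coe_low_pow, coe_low, coe_lowSL,
    coe_lowSL]
  simp only [xinf, intRep_none]
  ext i j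
  fin_cases i <;> fin_cases j <;> simp [Matrix.mul_apply, Fin.sum_univ_two, mul_comm]

theorem dvd_of_act_xinf (hpM : ¬ p ∣ M) {n : ℕ}
    (h : (heckeSys M p).act (low M ^ n) (xinf hpM) = xinf hpM) : p ∣ n := by
  have hspec := heckeSys_spec M p (low M ^ n) (xinf hpM)
  rw [h, coe_low_pow, coe_lowSL] at hspec
  have h10 := congrFun (congrFun hspec 1) 0
  rw [Matrix.mul_apply, Matrix.mul_apply, Fin.sum_univ_two, Fin.sum_univ_two] at h10
  simp only [xinf, intRep_none, Matrix.of_apply, Matrix.cons_val', Matrix.cons_val_zero,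
    Matrix.cons_val_one, Matrix.cons_val_fin_one, zero_mul, mul_zero, zero_add, one_mul,
    add_zero] at h10
  have h1 : (p : ℤ) ∣ ((n * M : ℕ) : ℤ) := by
    push_cast
    rw [h10]
    exact Dvd.intro_left _ rfl
  have h2 : p ∣ n * M := by exact_mod_cast h1
  exact (hp.out.dvd_mul.mp h2).resolve_right hpM

theorem card_hidx (hpM : ¬ p ∣ M) : Fintype.card (HIdx M p) = p + 1 := by
  classical
  rw [Fintype.card_congr (hidxEquivOfNotDvd hpM), Fintype.card_option, ZMod.card]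

/-- **The value at the cusp `0`.** -/
theorem addTransfer_low (hpM : ¬ p ∣ M) {A : Type*} [AddCommGroup A]
    (η : Additive (Gamma0 M) →+ A) :
    (heckeSys M p).addTransfer η (Additive.ofMul (low M)) =
      (p + 1) • η (Additive.ofMul (low M)) := by
  classical
  have hinj : Set.InjOn (fun i : ℕ => (heckeSys M p).act (low M ^ i) (xinf hpM))
      (Finset.range p : Set ℕ) := by
    intro i hi j hj hij
    rw [Finset.mem_coe, Finset.mem_range] at hi hj
    simp only at hij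
    wlog hle : i ≤ j generalizing i j
    · exact (this hj hi hij.symm (by omega)).symm
    have h1 : (heckeSys M p).act (low M ^ (j - i)) (xinf hpM) = xinf hpM := by
      have h2 : low M ^ j = low M ^ (j - i) * low M ^ i := by rw [← pow_add]; congr 1; omega
      rw [h2, (heckeSys M p).act_mul] at hij
      exact ((heckeSys M p).perm (low M ^ i)).injective hij.symm
    have h3 := dvd_of_act_xinf hpM h1
    have h4 := Nat.eq_zero_of_dvd_of_lt h3 (by omega)
    omega
  have hx0 : ∀ i : ℕ, (heckeSys M p).act (low M ^ i) (x0 M p) = x0 M p := by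
    intro i
    induction i with
    | zero => simp
    | succ i ih => rw [pow_succ, (heckeSys M p).act_mul, ih, coc_low_x0.1]
  have himg : (Finset.range p).image (fun i : ℕ => (heckeSys M p).act (low M ^ i) (xinf hpM)) =
      Finset.univ.erase (x0 M p) := by
    refine Finset.eq_of_subset_of_card_le ?_ ?_
    · intro y hy
      obtain ⟨i, -, rfl⟩ := Finset.mem_image.mp hy
      refine Finset.mem_erase.mpr ⟨fun h => ?_, Finset.mem_univ _⟩
      have h1 := ((heckeSys M p).perm (low M ^ i)).injective (h.trans (hx0 i).symm)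
      have h2 := congrArg Subtype.val h1
      simp [xinf, x0] at h2
    · rw [Finset.card_erase_of_mem (Finset.mem_univ _), Finset.card_univ, card_hidx hpM,
        Finset.card_image_of_injOn hinj, Finset.card_range]
      simp
  rw [CosetSys.addTransfer_apply, toMul_ofMul, ← Finset.add_sum_erase _ _ (Finset.mem_univ (x0 M p)),
    ← himg, Finset.sum_image hinj, ← apply_coc_pow, (coc_low_xinf hpM).2, coc_low_x0.2, ofMul_pow,
    map_nsmul, add_smul, one_smul]

end Hecke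

/-! ### the step -/

section Step

theorem gamma0_le {M N : ℕ} (h : M ∣ N) : Gamma0 N ≤ Gamma0 M := by
  intro g hg
  rw [Gamma0_mem, ZMod.intCast_zmod_eq_zero_iff_dvd] at hg ⊢
  exact (Int.natCast_dvd_natCast.mpr h).trans hg

/-- `ker κ = Γ₀(3 M)` -/
def kerEquiv {M : ℕ} (h3 : 3 ∣ M) (hM : M ≠ 0) : (kap h3 hM).ker ≃* Gamma0 (3 * M) where
  toFun g := ⟨(g : Gamma0 M), (mem_ker_kap h3 hM g).mp g.2⟩
  invFun g := ⟨⟨g, gamma0_le (Dvd.intro_left 3 rfl) g.2⟩, (mem_ker_kap h3 hM _).mpr g.2⟩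
  left_inv _ := rfl
  right_inv _ := rfl
  map_mul' _ _ := rfl

/-- the sign of `p` modulo three -/
def sgn3 (F : Type*) [Field F] (p : ℕ) : F := if (p : ZMod 3) = 1 then 1 else -1

theorem sgn3_mul_self (F : Type*) [Field F] (p : ℕ) : sgn3 F p * sgn3 F p = 1 := by
  unfold sgn3
  split_ifs <;> ring

variable {M : ℕ} {F : Type*} [Field F] [CharP F 3]

/-- **The step `3 M → M`**, for an arbitrary set `G` of primes. -/
theorem step (h3 : 3 ∣ M) (hM : M ≠ 0) (G : ℕ → Prop) {φ : Additive (Gamma0 (3 * M)) →+ F}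
    (hφ : φ ≠ 0) (h0 : φ (Additive.ofMul (low (3 * M))) = 0) {μ : ℕ → F}
    (hμ : ∀ (p : ℕ) [Fact p.Prime], G p → ¬ p ∣ 3 * M →
      (heckeSys (3 * M) p).addTransfer φ = μ p • φ) :
    ∃ i : ℕ, i ≤ 1 ∧ ∃ ψ : Additive (Gamma0 M) →+ F, ψ ≠ 0 ∧ ψ (Additive.ofMul (low M)) = 0 ∧
      ∀ (p : ℕ) [Fact p.Prime], G p → ¬ p ∣ 3 * M →
        (heckeSys M p).addTransfer ψ = (sgn3 F p ^ i * μ p) • ψ := by
  let Λ : Type := {p : Nat.Primes // G p ∧ ¬ (p : ℕ) ∣ 3 * M}
  let X : Λ → Type := fun l => HIdx M (l.1 : ℕ)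
  have hfact : ∀ l : Λ, Fact ((l.1 : ℕ)).Prime := fun l => ⟨l.1.2⟩
  have hpM : ∀ l : Λ, ¬ (l.1 : ℕ) ∣ M := fun l h => l.2.2 (Dvd.dvd.mul_left h 3)
  let _ : ∀ l : Λ, Fintype (X l) := fun l => inferInstanceAs (Fintype (HIdx M (l.1 : ℕ)))
  let S : ∀ l : Λ, CosetSys (iota M) (X l) := fun l => heckeSys M (l.1 : ℕ)
  have hκ : ∀ (l : Λ) (g : Gamma0 M) (x : X l), (kap h3 hM ((S l).coc g x)).toAdd =
      ((l.1 : ℕ) : ZMod 3) * (kap h3 hM g).toAdd := fun l g x => kap_coc h3 hM (hpM l) g x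
  set e := kerEquiv h3 hM with he
  obtain ⟨i, hi, ψ, hψ0, hψc, hψ⟩ := step_abs (F := F) S (c := low M) (kap_low h3 hM)
    (n := fun l => ((l.1 : ℕ) : ZMod 3)) (fun l => by
      have h1 : ((l.1 : ℕ) : ZMod 3) ≠ 0 := by
        rw [Ne, ZMod.natCast_eq_zero_iff]
        intro h
        exact hpM l (((Nat.prime_dvd_prime_iff_eq Nat.prime_three l.1.2).mp h) ▸ h3)
      revert h1
      generalize ((l.1 : ℕ) : ZMod 3) = a
      revert a
      decide) hκ
    (fun l η hη => by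
      have := addTransfer_low (hpM l) η
      rw [hη, smul_zero] at this
      exact this)
    (φ := φ.comp (MonoidHom.toAdditive e.toMonoidHom))
    (by
      intro h
      apply hφ
      refine AddMonoidHom.ext fun g => ?_
      obtain ⟨g, rfl⟩ := Additive.ofMul.surjective g
      have h1 := DFunLike.congr_fun h (Additive.ofMul (e.symm g))
      have h2 : φ (Additive.ofMul (e (e.symm g))) = 0 := h1
      rwa [MulEquiv.apply_symm_apply] at h2)
    (by
      have h1 : e ⟨low M ^ 3, pow_three_mem (low M)⟩ = low (3 * M) := by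
        apply Subtype.ext
        change ((low M ^ 3 : Gamma0 M) : SL(2, ℤ)) = lowSL ((3 * M : ℕ) : ℤ)
        rw [coe_low_pow]
        congr 1
      change φ (Additive.ofMul (e ⟨low M ^ 3, pow_three_mem (low M)⟩)) = 0
      rw [h1, h0])
    (μ := fun l => μ (l.1 : ℕ))
    (fun l => by
      have hf : ∀ y : HIdx M (l.1 : ℕ), (heckeSys (3 * M) (l.1 : ℕ)).rep
          (((hidxEquivOfNotDvd (hpM l)).trans (hidxEquivOfNotDvd l.2.2).symm) y) =
          (restrict (S l) (kap h3 hM).ker (coc_mem_ker S hκ l)).rep y := fun y => rfl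
      have h1 := addTransfer_comp_hom (heckeSys (3 * M) (l.1 : ℕ))
        (restrict (S l) (kap h3 hM).ker (coc_mem_ker S hκ l)) e.toMonoidHom (fun g => rfl)
        ((hidxEquivOfNotDvd (hpM l)).trans (hidxEquivOfNotDvd l.2.2).symm) hf φ
      rw [h1, hμ (l.1 : ℕ) l.2.1 l.2.2]
      rfl)
  refine ⟨i, hi, ψ, hψ0, hψc, fun p _ hG hp => ?_⟩
  exact hψ ⟨⟨p, Fact.out⟩, hG, hp⟩

/-- **The descent `3^(a+1) M' → 3 M'`** for homomorphisms to a field of characteristic three. -/
theorem descent {M' : ℕ} (hM' : M' ≠ 0) (G : ℕ → Prop) (a : ℕ) :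
    ∀ (N : ℕ), N = 3 ^ (a + 1) * M' → ∀ (μ : ℕ → F) (φ : Additive (Gamma0 N) →+ F), φ ≠ 0 →
      φ (Additive.ofMul (low N)) = 0 →
      (∀ (p : ℕ) [Fact p.Prime], G p → ¬ p ∣ 3 * M' →
        (heckeSys N p).addTransfer φ = μ p • φ) →
      ∃ i : ℕ, i ≤ 1 ∧ ∃ ψ : Additive (Gamma0 (3 * M')) →+ F, ψ ≠ 0 ∧
        ψ (Additive.ofMul (low (3 * M'))) = 0 ∧
        ∀ (p : ℕ) [Fact p.Prime], G p → ¬ p ∣ 3 * M' →
          (heckeSys (3 * M') p).addTransfer ψ = (sgn3 F p ^ i * μ p) • ψ := by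
  induction a with
  | zero =>
    intro N hN μ φ hφ h0 hT
    obtain rfl : N = 3 * M' := by rw [hN, zero_add, pow_one]
    refine ⟨0, Nat.zero_le _, φ, hφ, h0, fun p _ hG hp => ?_⟩
    rw [hT p hG hp, pow_zero, one_mul]
  | succ a ih =>
    intro N hN μ φ hφ h0 hT
    obtain rfl : N = 3 * (3 ^ (a + 1) * M') := by rw [hN]; ring
    have hdvd : ∀ p : ℕ, p.Prime → ¬ p ∣ 3 * M' → ¬ p ∣ 3 * (3 ^ (a + 1) * M') := by
      intro p hp h1 h2
      rcases hp.dvd_mul.mp h2 with h3 | h3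
      · exact h1 (Dvd.dvd.mul_right h3 _)
      rcases hp.dvd_mul.mp h3 with h4 | h4
      · exact h1 (Dvd.dvd.mul_right (hp.dvd_of_dvd_pow h4) _)
      · exact h1 (Dvd.dvd.mul_left h4 _)
    obtain ⟨i, -, ψ, hψ0, hψc, hψT⟩ := step (M := 3 ^ (a + 1) * M')
      (Dvd.dvd.mul_right (dvd_pow_self 3 (Nat.succ_ne_zero a)) _)
      (mul_ne_zero (pow_ne_zero _ (by norm_num)) hM') (fun p => G p ∧ ¬ p ∣ 3 * M') hφ h0
      (fun p _ hG _ => hT p hG.1 hG.2)
    obtain ⟨j, -, χ, hχ0, hχc, hχT⟩ := ih _ rfl (fun p => sgn3 F p ^ i * μ p) ψ hψ0 hψc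
      (fun p hpr hG hp => hψT p ⟨hG, hp⟩ (hdvd p hpr.out hp))
    refine ⟨(i + j) % 2, by omega, χ, hχ0, hχc, fun p _ hG hp => ?_⟩
    rw [hχT p hG hp]
    congr 1
    have h1 : sgn3 F p ^ (i + j) = sgn3 F p ^ ((i + j) % 2) := by
      conv_lhs => rw [← Nat.div_add_mod (i + j) 2]
      rw [pow_add, pow_mul, pow_two, sgn3_mul_self, one_pow, one_mul]
    rw [← h1, pow_add]
    ring

end Step

end Fermat.Agent.Classic.Level.Step3
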