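import Fermat.Agent.HeckePar.Abstract
import Mathlib

/-!
# Descent of homomorphisms along a normal subgroup of index three, Hecke equivariantly (abstract)

`κ : Γ → ℤ/3`, `K = ker κ`, `c ∈ Γ` with `κ c = 1`, `F` a field of characteristic three. `c` acts on
`Hom(K, F)` by conjugation (`conj c`), unipotently. If the coset system `S` satisfies
`κ (coc g x) = n κ(g)` then the Hecke operator `T` of `S` on `Hom(K, F)` satisfies
`conj a ∘ T = T ∘ conj b` whenever `κ b = n κ(a)`. (helper10, after helper12's idea)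
-/

set_option autoImplicit false

namespace Fermat.Agent.Classic.Level.Step3

open Fermat.Agent.HeckePar

/-! ### coset systems and subgroups -/

section Restrict

variable {Γ G : Type*} [Group Γ] [Group G] {ι : Γ →* G} {X : Type*} (S : CosetSys ι X)
  (K : Subgroup Γ) (hK : ∀ g ∈ K, ∀ x, S.coc g x ∈ K)

/-- A coset system restricted to a subgroup which is stable under the cocycle. -/
def restrict : CosetSys (ι.comp K.subtype) X where
  rep := S.rep
  act g x := S.act g x
  coc g x := ⟨S.coc g x, hK g g.2 x⟩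
  spec g x := S.spec g x
  inj x y g h := S.inj x y g h
  ι_inj := S.ι_inj.comp K.subtype_injective

variable [Fintype X] {A : Type*} [AddCommGroup A]

/-- restriction of homomorphisms -/
def resHom (K : Subgroup Γ) : (Additive Γ →+ A) →+ (Additive K →+ A) where
  toFun φ := φ.comp (MonoidHom.toAdditive K.subtype)
  map_zero' := rfl
  map_add' _ _ := rfl

theorem resHom_apply (K : Subgroup Γ) (φ : Additive Γ →+ A) (g : K) :
    resHom K φ (Additive.ofMul g) = φ (Additive.ofMul (g : Γ)) := rfl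

theorem resHom_addTransfer (φ : Additive Γ →+ A) :
    (restrict S K hK).addTransfer (resHom K φ) = resHom K (S.addTransfer φ) := rfl

/-- Coset systems of two groups with the same representatives. -/
theorem addTransfer_comp_hom {Γ' : Type*} [Group Γ'] {ι' : Γ' →* G} {Y : Type*} [Fintype Y]
    (S' : CosetSys ι' Y) (e : Γ' →* Γ) (he : ∀ g, ι (e g) = ι' g) (f : Y ≃ X)
    (hf : ∀ y, S.rep (f y) = S'.rep y) (φ : Additive Γ →+ A) :
    S'.addTransfer (φ.comp (MonoidHom.toAdditive e)) =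
      (S.addTransfer φ).comp (MonoidHom.toAdditive e) := by
  refine AddMonoidHom.ext fun g => ?_
  have h : ∀ y, S.coc (e (Additive.toMul g)) (f y) = e (S'.coc (Additive.toMul g) y) := fun y => by
    refine (S.ext_coc (y := f (S'.act (Additive.toMul g) y)) ?_).2
    rw [hf, hf, he, he, S'.spec]
  rw [CosetSys.addTransfer_apply, AddMonoidHom.comp_apply, CosetSys.addTransfer_apply,
    ← Equiv.sum_comp f]
  refine Finset.sum_congr rfl fun y _ => ?_
  have h1 := h y
  change φ (Additive.ofMul (e (S'.coc (Additive.toMul g) y))) =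
    φ (Additive.ofMul (S.coc (e (Additive.toMul g)) (f y)))
  rw [h1]

end Restrict

/-! ### conjugation -/

section Conj

variable {Γ : Type*} [Group Γ] {K : Subgroup Γ} [K.Normal] {A : Type*} [AddCommGroup A]

/-- `(conj a φ)(k) = φ (a k a⁻¹)` -/
def conj (a : Γ) : (Additive K →+ A) →+ (Additive K →+ A) where
  toFun φ := φ.comp (MonoidHom.toAdditive (MulAut.conjNormal a : MulAut K).toMonoidHom)
  map_zero' := rfl
  map_add' _ _ := rfl

theorem conj_apply (a : Γ) (φ : Additive K →+ A) (k : K) :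
    conj a φ (Additive.ofMul k) = φ (Additive.ofMul (MulAut.conjNormal a k)) := rfl

theorem conj_conj (a b : Γ) (φ : Additive K →+ A) : conj a (conj b φ) = conj (b * a) φ := by
  refine AddMonoidHom.ext fun k => ?_
  obtain ⟨k, rfl⟩ := Additive.ofMul.surjective k
  rw [conj_apply, conj_apply, conj_apply, map_mul, MulAut.mul_apply]

theorem conj_one (φ : Additive K →+ A) : conj 1 φ = φ := by
  refine AddMonoidHom.ext fun k => ?_
  obtain ⟨k, rfl⟩ := Additive.ofMul.surjective k
  rw [conj_apply, map_one, MulAut.one_apply]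

theorem conj_of_mem {a : Γ} (ha : a ∈ K) (φ : Additive K →+ A) : conj a φ = φ := by
  refine AddMonoidHom.ext fun k => ?_
  obtain ⟨k, rfl⟩ := Additive.ofMul.surjective k
  have h : (MulAut.conjNormal a k : K) = ⟨a, ha⟩ * k * ⟨a, ha⟩⁻¹ := by
    ext
    simp
  rw [conj_apply, h, ofMul_mul, ofMul_mul, ofMul_inv, map_add, map_add, map_neg]
  abel

/-- `conj a` depends only on `a` modulo `K`. -/
theorem conj_congr {a b : Γ} (h : b * a⁻¹ ∈ K) (φ : Additive K →+ A) : conj b φ = conj a φ := by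
  have h1 : b = b * a⁻¹ * a := by rw [inv_mul_cancel_right]
  rw [h1, ← conj_conj, conj_of_mem h]

end Conj

section Comm

variable {Γ G : Type*} [Group Γ] [Group G] {ι : Γ →* G} {X : Type*} [Fintype X]
  (S : CosetSys ι X) {K : Subgroup Γ} [K.Normal] (hK : ∀ g ∈ K, ∀ x, S.coc g x ∈ K)
  {A : Type*} [AddCommGroup A]

/-- **Conjugation and Hecke operators**: `conj a (T φ) = T (conj b φ)` if all `coc a x` are in
`b K`. -/
theorem conj_addTransfer {a b : Γ} (hab : ∀ x, b⁻¹ * S.coc a x ∈ K) (φ : Additive K →+ A) :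
    conj a ((restrict S K hK).addTransfer φ) = (restrict S K hK).addTransfer (conj b φ) := by
  refine AddMonoidHom.ext fun k => ?_
  obtain ⟨k, rfl⟩ := Additive.ofMul.surjective k
  rw [conj_apply, CosetSys.addTransfer_apply, CosetSys.addTransfer_apply]
  simp only [toMul_ofMul]
  set k' : K := MulAut.conjNormal a k with hk'
  have hk'a : (k' : Γ) * a = a * k := by
    rw [hk']
    simp
  set h : X → K := fun x => ⟨b⁻¹ * S.coc a x, hab x⟩ with hh
  -- `coc k' x = b h_x coc(k, x a) h_y⁻¹ b⁻¹`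
  have key : ∀ x, (restrict S K hK).coc k' x =
      MulAut.conjNormal b (h x * (restrict S K hK).coc k (S.act a x) *
        (h (S.act (k' : Γ) x))⁻¹) := fun x => by
    have h1 : S.coc (k' : Γ) x * S.coc a (S.act (k' : Γ) x) =
        S.coc a x * S.coc (k : Γ) (S.act a x) := by
      rw [← S.coc_mul, ← S.coc_mul, hk'a]
    apply Subtype.ext
    rw [MulAut.conjNormal_apply]
    change S.coc (k' : Γ) x = b * ((b⁻¹ * S.coc a x) * S.coc (k : Γ) (S.act a x) *
      (b⁻¹ * S.coc a (S.act (k' : Γ) x))⁻¹) * b⁻¹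
    rw [← eq_mul_inv_iff_mul_eq] at h1
    rw [h1]
    group
  have hval : ∀ x, φ (Additive.ofMul ((restrict S K hK).coc k' x)) =
      conj b φ (Additive.ofMul (h x)) + conj b φ (Additive.ofMul ((restrict S K hK).coc k (S.act a x)))
        - conj b φ (Additive.ofMul (h (S.act (k' : Γ) x))) := fun x => by
    rw [key x, ← conj_apply, ofMul_mul, ofMul_mul, ofMul_inv, map_add, map_add, map_neg,
      sub_eq_add_neg]
  simp only [hval, Finset.sum_sub_distrib, Finset.sum_add_distrib]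
  have e1 : ∑ x, conj b φ (Additive.ofMul (h (S.act (k' : Γ) x))) =
      ∑ x, conj b φ (Additive.ofMul (h x)) :=
    Equiv.sum_comp (S.perm (k' : Γ)) fun x => conj b φ (Additive.ofMul (h x))
  have e2 : ∑ x, conj b φ (Additive.ofMul ((restrict S K hK).coc k (S.act a x))) =
      ∑ x, conj b φ (Additive.ofMul ((restrict S K hK).coc k x)) :=
    Equiv.sum_comp (S.perm a) fun x => conj b φ (Additive.ofMul ((restrict S K hK).coc k x))
  rw [e1, e2]
  abel

end Comm

/-! ### extension from the kernel of a character to `ℤ/3` -/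

section Extend

variable {Γ : Type*} [Group Γ] {κ : Γ →* Multiplicative (ZMod 3)} {A : Type*} [AddCommGroup A]

theorem mem_ker_zpow {c : Γ} (hc : κ c = Multiplicative.ofAdd 1) {m : ℤ} (hm : c ^ m ∈ κ.ker) :
    (3 : ℤ) ∣ m := by
  rw [MonoidHom.mem_ker, map_zpow, hc, ← ofAdd_zsmul, ← ofAdd_zero] at hm
  have h := Multiplicative.ofAdd.injective hm
  rw [zsmul_one] at h
  exact (ZMod.intCast_zmod_eq_zero_iff_dvd m 3).mp h

theorem pow_three_mem (c : Γ) : c ^ 3 ∈ κ.ker := by
  rw [MonoidHom.mem_ker, map_pow]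
  have : ∀ z : Multiplicative (ZMod 3), z ^ 3 = 1 := by decide
  exact this _

/-- **Extension.** A homomorphism of `K = ker κ` which is invariant under conjugation by `c` and
kills `c ^ 3` extends to `Γ` with the value `0` at `c`. -/
theorem exists_extend {c : Γ} (hc : κ c = Multiplicative.ofAdd 1) (φ : Additive κ.ker →+ A)
    (hinv : conj c φ = φ) (h3 : φ (Additive.ofMul ⟨c ^ 3, pow_three_mem c⟩) = 0) :
    ∃ ψ : Additive Γ →+ A, resHom κ.ker ψ = φ ∧ ψ (Additive.ofMul c) = 0 := by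
  classical
  have hinvz : ∀ m : ℤ, conj (c ^ m) φ = φ := by
    intro m
    have hinv' : conj c⁻¹ φ = φ := by
      conv_lhs => rw [← hinv]
      rw [conj_conj, mul_inv_cancel, conj_one]
    induction m using Int.induction_on with
    | zero => rw [zpow_zero, conj_one]
    | succ n ih => rw [zpow_add_one, ← conj_conj, ih, hinv]
    | pred n ih => rw [zpow_sub_one, ← conj_conj, ih, hinv']
  -- independence of the exponent
  have hz : ∀ t : ℤ, ∀ h : (c ^ 3) ^ t ∈ κ.ker, φ (Additive.ofMul ⟨(c ^ 3) ^ t, h⟩) = 0 := by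
    intro t h
    have : (⟨(c ^ 3) ^ t, h⟩ : κ.ker) = ⟨c ^ 3, pow_three_mem c⟩ ^ t := rfl
    rw [this, ofMul_zpow, map_zsmul, h3, smul_zero]
  have hind : ∀ (g : Γ) (m m' : ℤ) (h : c ^ (-m) * g ∈ κ.ker) (h' : c ^ (-m') * g ∈ κ.ker),
      φ (Additive.ofMul ⟨c ^ (-m) * g, h⟩) = φ (Additive.ofMul ⟨c ^ (-m') * g, h'⟩) := by
    intro g m m' h h'
    have h1 : c ^ (m - m') ∈ κ.ker := by
      have := κ.ker.mul_mem h' (κ.ker.inv_mem h)
      rwa [mul_inv_rev, mul_assoc, mul_inv_cancel_left, ← zpow_neg, neg_neg, ← zpow_add,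
        neg_add_eq_sub] at this
    obtain ⟨t, ht⟩ := mem_ker_zpow hc h1
    have h2 : (c ^ 3) ^ t ∈ κ.ker := κ.ker.zpow_mem (pow_three_mem c) t
    have h4 : (⟨c ^ (-m') * g, h'⟩ : κ.ker) = ⟨(c ^ 3) ^ t, h2⟩ * ⟨c ^ (-m) * g, h⟩ := by
      apply Subtype.ext
      change c ^ (-m') * g = (c ^ 3) ^ t * (c ^ (-m) * g)
      rw [← mul_assoc, ← zpow_natCast, ← zpow_mul, ← zpow_add]
      congr 2
      push_cast
      linarith
    rw [h4, ofMul_mul, map_add, hz, zero_add]
  have hmem : ∀ g : Γ, c ^ (-(((κ g).toAdd.val : ℕ) : ℤ)) * g ∈ κ.ker := by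
    intro g
    rw [MonoidHom.mem_ker, map_mul, map_zpow, hc, ← ofAdd_zsmul]
    apply Multiplicative.toAdd.injective
    rw [toAdd_mul, toAdd_ofAdd, toAdd_one, zsmul_one]
    push_cast
    rw [ZMod.natCast_zmod_val]
    ring
  set e : Γ → ℤ := fun g => (((κ g).toAdd.val : ℕ) : ℤ) with he
  have hmem' : ∀ g : Γ, c ^ (-(e g)) * g ∈ κ.ker := hmem
  let ψ : Additive Γ →+ A := AddMonoidHom.mk' (fun g => φ (Additive.ofMul
    ⟨c ^ (-(e (Additive.toMul g))) * Additive.toMul g, hmem' _⟩)) (by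
      intro g h
      obtain ⟨g, rfl⟩ := Additive.ofMul.surjective g
      obtain ⟨h, rfl⟩ := Additive.ofMul.surjective h
      simp only [toMul_add, toMul_ofMul]
      have h1 : c ^ (-(e g + e h)) * (g * h) ∈ κ.ker := by
        have h2 := hmem' g
        have h3 := hmem' h
        rw [MonoidHom.mem_ker, map_mul] at h2 h3 ⊢
        rw [neg_add, zpow_add, map_mul, map_mul]
        calc κ (c ^ (-e g)) * κ (c ^ (-e h)) * (κ g * κ h)
            = (κ (c ^ (-e g)) * κ g) * (κ (c ^ (-e h)) * κ h) := mul_mul_mul_comm _ _ _ _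
          _ = 1 := by rw [h2, h3, one_mul]
      rw [hind (g * h) (e (g * h)) (e g + e h) (hmem' _) h1]
      have h4 : (⟨c ^ (-(e g + e h)) * (g * h), h1⟩ : κ.ker) =
          MulAut.conjNormal (c ^ (-(e h))) ⟨c ^ (-(e g)) * g, hmem' g⟩ *
            ⟨c ^ (-(e h)) * h, hmem' h⟩ := by
        apply Subtype.ext
        rw [Subgroup.coe_mul, MulAut.conjNormal_apply]
        change c ^ (-(e g + e h)) * (g * h) =
          c ^ (-(e h)) * (c ^ (-(e g)) * g) * (c ^ (-(e h)))⁻¹ * (c ^ (-(e h)) * h)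
        rw [neg_add_rev, zpow_add]
        group
      rw [h4, ofMul_mul, map_add, ← conj_apply, hinvz])
  have hψ : ∀ (g : Γ) (m : ℤ) (h : c ^ (-m) * g ∈ κ.ker),
      ψ (Additive.ofMul g) = φ (Additive.ofMul ⟨c ^ (-m) * g, h⟩) := fun g m h =>
    hind g (e g) m (hmem' g) h
  refine ⟨ψ, ?_, ?_⟩
  · refine AddMonoidHom.ext fun k => ?_
    obtain ⟨k, rfl⟩ := Additive.ofMul.surjective k
    have hk : c ^ (-(0 : ℤ)) * (k : Γ) ∈ κ.ker := by
      rw [neg_zero, zpow_zero, one_mul]
      exact k.2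
    rw [resHom_apply, hψ (k : Γ) 0 hk]
    congr 2
    apply Subtype.ext
    change c ^ (-(0 : ℤ)) * (k : Γ) = k
    rw [neg_zero, zpow_zero, one_mul]
  · have hk : c ^ (-(1 : ℤ)) * c ∈ κ.ker := by
      rw [zpow_neg_one, inv_mul_cancel]
      exact κ.ker.one_mem
    rw [hψ c 1 hk]
    have : (⟨c ^ (-(1 : ℤ)) * c, hk⟩ : κ.ker) = 1 := by
      apply Subtype.ext
      change c ^ (-(1 : ℤ)) * c = 1
      rw [zpow_neg_one, inv_mul_cancel]
    rw [this, ofMul_one, map_zero]

/-- A homomorphism of `Γ` which vanishes on `K` and at `c` is zero. -/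
theorem eq_zero_of_res {c : Γ} (hc : κ c = Multiplicative.ofAdd 1) {η : Additive Γ →+ A}
    (h : resHom κ.ker η = 0) (h0 : η (Additive.ofMul c) = 0) : η = 0 := by
  refine AddMonoidHom.ext fun g => ?_
  obtain ⟨g, rfl⟩ := Additive.ofMul.surjective g
  have hmem : c ^ (-(((κ g).toAdd.val : ℕ) : ℤ)) * g ∈ κ.ker := by
    rw [MonoidHom.mem_ker, map_mul, map_zpow, hc, ← ofAdd_zsmul]
    apply Multiplicative.toAdd.injective
    rw [toAdd_mul, toAdd_ofAdd, toAdd_one, zsmul_one]
    push_cast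
    rw [ZMod.natCast_zmod_val]
    ring
  have h1 := DFunLike.congr_fun h (Additive.ofMul ⟨_, hmem⟩)
  rw [resHom_apply, AddMonoidHom.zero_apply, ofMul_mul, map_add, ofMul_zpow, map_zsmul, h0,
    smul_zero, zero_add] at h1
  exact h1

end Extend

/-! ### the unipotent operator -/

section Unip

variable {V : Type*} [AddCommGroup V] {F : Type*} [Field F] [CharP F 3] [Module F V]

theorem three_smul_eq_zero (v : V) : (3 : F) • v = 0 := by
  have h : (3 : F) = 0 := by exact_mod_cast CharP.cast_eq_zero F 3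
  rw [h, zero_smul]

theorem three_nsmul_eq_zero (F : Type*) [Field F] [CharP F 3] [Module F V] (v : V) :
    v + v + v = 0 := by
  have h := three_smul_eq_zero (F := F) v
  rw [show (3 : F) = 1 + 1 + 1 by norm_num, add_smul, add_smul, one_smul] at h
  exact h

/-- `δ³ = 1` in characteristic three: `N = δ - 1` is nilpotent, and the last non-zero `N^i φ` is a
`δ`-invariant eigenvector, up to the sign of the relation between `δ` and `T`. -/
theorem exists_invariant {Λ : Type*} (δ : V →+ V) (hδ : ∀ v, δ (δ (δ v)) = v)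
    (T : Λ → V →+ V)
    (hδs : ∀ (a : F) v, δ (a • v) = a • δ v) (s : Λ → Prop) [DecidablePred s]
    (h1 : ∀ l, s l → ∀ v, δ (T l v) = T l (δ v))
    (h2 : ∀ l, ¬ s l → ∀ v, δ (T l v) = T l (δ (δ v))) {φ : V} (hφ : φ ≠ 0) {μ : Λ → F}
    (hμ : ∀ l, T l φ = μ l • φ) (P : V → Prop) (hP : P φ) (hPδ : ∀ v, P v → P (δ v - v)) :
    ∃ i : ℕ, i ≤ 1 ∧ ∃ ψ : V, ψ ≠ 0 ∧ P ψ ∧ δ ψ = ψ ∧
      ∀ l, T l ψ = ((if s l then 1 else -1) ^ i * μ l) • ψ := by
  have h3 := three_nsmul_eq_zero (V := V) F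
  -- `δ T = T δ²` gives `T δ = δ² T`
  have h2' : ∀ l, ¬ s l → ∀ v, T l (δ v) = δ (δ (T l v)) := fun l hl v => by
    rw [h2 l hl, h2 l hl, hδ]
  set N : V → V := fun v => δ v - v with hN
  have hNN : ∀ v, N (N v) = δ (δ v) + δ v + v := fun v => by
    have := h3 (δ v)
    simp only [hN, map_sub]
    rw [show δ (δ v) - δ v - (δ v - v) = δ (δ v) + δ v + v - (δ v + δ v + δ v) by abel, this,
      sub_zero]
  have hNNN : ∀ v, N (N (N v)) = 0 := fun v => by
    rw [hNN]
    simp only [hN, map_sub, hδ]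
    abel
  have hT1 : ∀ l, s l → ∀ v, T l (N v) = N (T l v) := fun l hl v => by
    simp only [hN, map_sub, h1 l hl]
  have hTN : ∀ l v, ¬ s l → T l (N v) = N (N (T l v)) - N (T l v) := fun l v hl => by
    have := h3 (T l v)
    rw [hNN]
    simp only [hN, map_sub, h2' l hl]
    rw [show δ (δ (T l v)) + δ (T l v) + T l v - (δ (T l v) - T l v) =
      δ (δ (T l v)) - T l v + (T l v + T l v + T l v) by abel, this, add_zero]
  have hNs : ∀ (a : F) v, N (a • v) = a • N v := fun a v => by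
    simp only [hN, hδs, smul_sub]
  by_cases hn1 : N φ = 0
  · exact ⟨0, by norm_num, φ, hφ, hP, sub_eq_zero.mp hn1, fun l => by rw [pow_zero, one_mul, hμ]⟩
  by_cases hn2 : N (N φ) = 0
  · refine ⟨1, le_rfl, N φ, hn1, hPδ _ hP, sub_eq_zero.mp hn2, fun l => ?_⟩
    rw [pow_one]
    by_cases hl : s l
    · rw [hT1 l hl, hμ, hNs, if_pos hl, one_mul]
    · rw [hTN l φ hl, hμ, hNs, hNs, hn2, smul_zero, zero_sub, if_neg hl, neg_mul, one_mul,
        neg_smul]
  · refine ⟨0, by norm_num, N (N φ), hn2, hPδ _ (hPδ _ hP), sub_eq_zero.mp (hNNN φ), fun l => ?_⟩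
    rw [pow_zero, one_mul]
    by_cases hl : s l
    · rw [hT1 l hl, hT1 l hl, hμ, hNs, hNs]
    · have hNsub : ∀ v w, N (v - w) = N v - N w := fun v w => by
        simp only [hN, map_sub]
        abel
      have hNneg : ∀ v, N (-v) = -N v := fun v => by
        simp only [hN, map_neg]
        abel
      have a1 : N (μ l • φ) = μ l • N φ := hNs _ _
      have a2 : N (N (μ l • φ)) = μ l • N (N φ) := by rw [a1, hNs]
      have e1 : T l (N φ) = μ l • (N (N φ) - N φ) := by
        rw [hTN l φ hl, hμ, a2, a1]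
        exact (smul_sub (μ l) (N (N φ)) (N φ)).symm
      have e2 : N (T l (N φ)) = μ l • (-(N (N φ))) := by
        rw [e1, hNs, hNsub, hNNN, zero_sub]
      rw [hTN l (N φ) hl, e2, hNs, hNneg, hNNN, neg_zero, smul_zero, zero_sub, smul_neg, neg_neg]

end Unip

/-! ### the abstract theorem -/

section Main

variable {Γ G : Type*} [Group Γ] [Group G] {ι : Γ →* G} {κ : Γ →* Multiplicative (ZMod 3)}
  {F : Type*} [Field F] [CharP F 3] {Λ : Type*} {X : Λ → Type*} [∀ l, Fintype (X l)]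

omit [CharP F 3] in
theorem restrict_addTransfer_smul {X : Type*} [Fintype X] (S : CosetSys ι X) (a : F)
    (φ : Additive Γ →+ F) : S.addTransfer (a • φ) = a • S.addTransfer φ := by
  refine AddMonoidHom.ext fun g => ?_
  rw [CosetSys.addTransfer_apply]
  change ∑ x, a * φ (Additive.ofMul (S.coc (Additive.toMul g) x)) =
    a * S.addTransfer φ g
  rw [← Finset.mul_sum, CosetSys.addTransfer_apply]

omit [∀ l, Fintype (X l)] in
theorem coc_mem_ker (S : ∀ l, CosetSys ι (X l)) {n : Λ → ZMod 3}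
    (hκ : ∀ l g x, (κ ((S l).coc g x)).toAdd = n l * (κ g).toAdd) (l : Λ) :
    ∀ g ∈ κ.ker, ∀ x, (S l).coc g x ∈ κ.ker := fun g hg x => by
  rw [MonoidHom.mem_ker] at hg ⊢
  apply Multiplicative.toAdd.injective
  rw [hκ, hg, toAdd_one, mul_zero]

/-- **The abstract step.** -/
theorem step_abs (S : ∀ l, CosetSys ι (X l)) {c : Γ} (hc : κ c = Multiplicative.ofAdd 1)
    {n : Λ → ZMod 3} (hn : ∀ l, n l = 1 ∨ n l = 2)
    (hκ : ∀ l g x, (κ ((S l).coc g x)).toAdd = n l * (κ g).toAdd)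
    (hTc : ∀ (l : Λ) (η : Additive Γ →+ F), η (Additive.ofMul c) = 0 →
      (S l).addTransfer η (Additive.ofMul c) = 0)
    {φ : Additive κ.ker →+ F} (hφ : φ ≠ 0)
    (h0 : φ (Additive.ofMul ⟨c ^ 3, pow_three_mem c⟩) = 0) {μ : Λ → F}
    (hμ : ∀ l, (restrict (S l) κ.ker (coc_mem_ker S hκ l)).addTransfer φ = μ l • φ) :
    ∃ i : ℕ, i ≤ 1 ∧ ∃ ψ : Additive Γ →+ F, ψ ≠ 0 ∧ ψ (Additive.ofMul c) = 0 ∧
      ∀ l, (S l).addTransfer ψ = ((if n l = 1 then 1 else -1) ^ i * μ l) • ψ := by
  classical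
  have hab : ∀ l (a b : Γ), (κ b).toAdd = n l * (κ a).toAdd → ∀ x,
      b⁻¹ * (S l).coc a x ∈ κ.ker := fun l a b h x => by
    rw [MonoidHom.mem_ker, map_mul, map_inv]
    apply Multiplicative.toAdd.injective
    rw [toAdd_mul, toAdd_inv, hκ, h, toAdd_one, neg_add_cancel]
  obtain ⟨i, hi, ψ, hψ0, hψP, hψδ, hψ⟩ := exists_invariant (F := F) (V := Additive κ.ker →+ F)
    (conj c) (fun v => by
      rw [conj_conj, conj_conj]
      exact conj_of_mem (by
        have := pow_three_mem (κ := κ) c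
        rwa [pow_succ, pow_two, mul_assoc] at this) v)
    (fun l => (restrict (S l) κ.ker (coc_mem_ker S hκ l)).addTransfer)
    (fun a v => rfl) (fun l => n l = 1)
    (fun l hl v => conj_addTransfer (S l) (coc_mem_ker S hκ l)
      (hab l c c (by rw [hl, one_mul])) v)
    (fun l hl v => by
      rw [conj_conj]
      refine conj_addTransfer (S l) (coc_mem_ker S hκ l) (hab l c (c * c) ?_) v
      have h2 : n l = 2 := (hn l).resolve_left hl
      rw [map_mul, toAdd_mul, h2, two_mul])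
    hφ hμ (fun v => v (Additive.ofMul ⟨c ^ 3, pow_three_mem c⟩) = 0) h0 (fun v hv => by
      have h1 : (MulAut.conjNormal c ⟨c ^ 3, pow_three_mem c⟩ : κ.ker) =
          ⟨c ^ 3, pow_three_mem c⟩ := by
        apply Subtype.ext
        rw [MulAut.conjNormal_apply]
        group
      rw [AddMonoidHom.sub_apply, conj_apply, h1, sub_self])
  obtain ⟨Ψ, hΨ, hΨc⟩ := exists_extend hc ψ hψδ hψP
  refine ⟨i, hi, Ψ, ?_, hΨc, fun l => ?_⟩
  · rintro rfl
    exact hψ0 (hΨ.symm.trans (map_zero _))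
  · rw [← sub_eq_zero]
    refine eq_zero_of_res hc ?_ ?_
    · rw [map_sub, ← resHom_addTransfer (S l) κ.ker (coc_mem_ker S hκ l), hΨ, hψ l]
      refine sub_eq_zero.mpr ?_
      rw [← hΨ]
      rfl
    · rw [AddMonoidHom.sub_apply, hTc l Ψ hΨc]
      change 0 - _ * Ψ (Additive.ofMul c) = 0
      rw [hΨc, mul_zero, sub_zero]

end Main

end Fermat.Agent.Classic.Level.Step3
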